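/-
S14 [ClHom] : shared definitions (Galois action on ideals, equivariant homomorphisms).
-/
import Mathlib
import Fermat.Prelude.Def_ClassGroup_GaloisAction

set_option autoImplicit false

namespace Fermat.Agent.S14

open NumberField
open scoped nonZeroDivisors

variable {K : Type*} [Field K] [NumberField K]

/-- The action of `σ ∈ Gal(K/ℚ)` on the nonzero ideals of `𝓞 K`. -/
noncomputable abbrev sigI (σ : K ≃ₐ[ℚ] K) (J : (Ideal (𝓞 K))⁰) : (Ideal (𝓞 K))⁰ :=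
  Ideal.mapNonZero (RingOfIntegers.mapRingEquiv (σ : K ≃+* K)) J

/-- `f : Cl(K) → 𝔽_p` is in the `ω²`-eigenspace: `f (σ_b y) = b² f y`. -/
def Equivariant {p : ℕ} {ζ : K} (_hζ : IsPrimitiveRoot ζ p)
    (f : ClassGroup (𝓞 K) →* Multiplicative (ZMod p)) : Prop :=
  ∀ (σ : K ≃ₐ[ℚ] K) (b : ℕ), σ ζ = ζ ^ b → ∀ J : (Ideal (𝓞 K))⁰,
    f (ClassGroup.mk0 (sigI σ J)) = f (ClassGroup.mk0 J) ^ (b ^ 2)

end Fermat.Agent.S14
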