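import Mathlib

/-!
# S14: the cyclotomic unit `eta` (shared definitions)

`K = ℚ(ζ_p)`, `u_a = 1 + ζ + ⋯ + ζ^(a-1)`, `c_a ≡ a⁻² mod p`, `eta = ∏ u_a ^ c_a`.
-/

set_option autoImplicit false
set_option linter.unusedSectionVars false

open NumberField Finset

namespace Fermat.Agent.S14

variable {p : ℕ} [Fact p.Prime]

/-- `c_a ∈ {1, …, p-1}` with `c_a ≡ a⁻² mod p`. -/
def cexp (a : (ZMod p)ˣ) : ℕ := ((a⁻¹ ^ 2 : (ZMod p)ˣ) : ZMod p).val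

lemma cexp_cast (a : (ZMod p)ˣ) : ((cexp a : ℕ) : ZMod p) = ((a⁻¹ ^ 2 : (ZMod p)ˣ) : ZMod p) := by
  unfold cexp
  exact ZMod.natCast_zmod_val _

lemma val_coprime (a : (ZMod p)ˣ) : ((a : ZMod p).val).Coprime p :=
  ZMod.val_coe_unit_coprime a

/-- `∑ a⁻² = 0` in `𝔽_p` for `p ≥ 5`. -/
lemma sum_units_inv_sq (hp5 : 5 ≤ p) :
    ∑ a : (ZMod p)ˣ, ((a⁻¹ ^ 2 : (ZMod p)ˣ) : ZMod p) = 0 := by
  have h := FiniteField.sum_pow_units (ZMod p) 2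
  rw [ZMod.card, if_neg] at h
  · rw [← h]
    refine Fintype.sum_equiv (Equiv.inv _) _ _ (fun a => ?_)
    rw [Equiv.inv_apply, Units.val_pow_eq_pow_val]
  · intro hd
    have := Nat.le_of_dvd (by norm_num) hd
    omega

/-- `∑ a⁻¹ = 0` in `𝔽_p` for `p ≥ 3`. -/
lemma sum_units_inv (hp3 : 3 ≤ p) :
    ∑ a : (ZMod p)ˣ, ((a⁻¹ : (ZMod p)ˣ) : ZMod p) = 0 := by
  have h := FiniteField.sum_pow_units (ZMod p) 1
  rw [ZMod.card, if_neg] at h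
  · rw [← h]
    refine Fintype.sum_equiv (Equiv.inv _) _ _ (fun a => ?_)
    rw [Equiv.inv_apply, pow_one]
  · intro hd
    have := Nat.le_of_dvd (by norm_num) hd
    omega

lemma dvd_sum_cexp (hp5 : 5 ≤ p) : p ∣ ∑ a : (ZMod p)ˣ, cexp a := by
  rw [← ZMod.natCast_eq_zero_iff, Nat.cast_sum]
  simp_rw [cexp_cast]
  exact sum_units_inv_sq hp5

variable {K : Type*} [Field K] [NumberField K] [IsCyclotomicExtension {p} ℚ K]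
variable {ζ : K} (hζ : IsPrimitiveRoot ζ p)

/-- The cyclotomic unit `u_a = 1 + ζ + ⋯ + ζ^(a-1) = (ζ^a - 1)/(ζ - 1)`. -/
noncomputable def cycU (a : (ZMod p)ˣ) : (𝓞 K)ˣ :=
  (hζ.toInteger_isPrimitiveRoot.geom_sum_isUnit (Fact.out : p.Prime).two_le (val_coprime a)).unit

lemma cycU_val (a : (ZMod p)ˣ) :
    ((cycU hζ a : (𝓞 K)ˣ) : 𝓞 K) = ∑ i ∈ range (a : ZMod p).val, hζ.toInteger ^ i := rfl

lemma sub_one_mul_cycU (a : (ZMod p)ˣ) :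
    (hζ.toInteger - 1) * ((cycU hζ a : (𝓞 K)ˣ) : 𝓞 K) = hζ.toInteger ^ (a : ZMod p).val - 1 := by
  rw [cycU_val, mul_geom_sum]

/-- The cyclotomic unit `eta = ∏ u_a ^ c_a` (in the `ω²`-eigenspace modulo `p`-th powers). -/
noncomputable def eta : (𝓞 K)ˣ := ∏ a : (ZMod p)ˣ, cycU hζ a ^ cexp a

lemma eta_val : ((eta hζ : (𝓞 K)ˣ) : 𝓞 K) =
    ∏ a : (ZMod p)ˣ, ((cycU hζ a : (𝓞 K)ˣ) : 𝓞 K) ^ cexp a := by
  simp [eta, Units.coe_prod]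

lemma prod_pow_sub_one :
    ∏ a : (ZMod p)ˣ, (hζ.toInteger ^ (a : ZMod p).val - 1) ^ cexp a =
      (hζ.toInteger - 1) ^ (∑ a : (ZMod p)ˣ, cexp a) * ((eta hζ : (𝓞 K)ˣ) : 𝓞 K) := by
  rw [eta_val, ← Finset.prod_pow_eq_pow_sum, ← Finset.prod_mul_distrib]
  refine Finset.prod_congr rfl (fun a _ => ?_)
  rw [← sub_one_mul_cycU, mul_pow]

end Fermat.Agent.S14
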