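import Mathlib

/-!
# S14: the truncated ring `F[T]/(T^3)` as explicit triples, and its truncated logarithm
-/

set_option autoImplicit false

namespace Fermat.Agent.S14

/-- `F[T]/(T^3)` as triples `c0 + c1 T + c2 T^2`. -/
@[ext] structure T3 (F : Type) where
  c0 : F
  c1 : F
  c2 : F

namespace T3

section ring
variable {F : Type} [CommRing F]

instance : Zero (T3 F) := ⟨⟨0, 0, 0⟩⟩
instance : One (T3 F) := ⟨⟨1, 0, 0⟩⟩
instance : Add (T3 F) := ⟨fun a b => ⟨a.c0 + b.c0, a.c1 + b.c1, a.c2 + b.c2⟩⟩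
instance : Neg (T3 F) := ⟨fun a => ⟨-a.c0, -a.c1, -a.c2⟩⟩
instance : Mul (T3 F) := ⟨fun a b =>
  ⟨a.c0 * b.c0, a.c0 * b.c1 + a.c1 * b.c0, a.c0 * b.c2 + a.c1 * b.c1 + a.c2 * b.c0⟩⟩

@[simp] lemma zero_c0 : (0 : T3 F).c0 = 0 := rfl
@[simp] lemma zero_c1 : (0 : T3 F).c1 = 0 := rfl
@[simp] lemma zero_c2 : (0 : T3 F).c2 = 0 := rfl
@[simp] lemma one_c0 : (1 : T3 F).c0 = 1 := rfl
@[simp] lemma one_c1 : (1 : T3 F).c1 = 0 := rfl
@[simp] lemma one_c2 : (1 : T3 F).c2 = 0 := rfl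
@[simp] lemma add_c0 (a b : T3 F) : (a + b).c0 = a.c0 + b.c0 := rfl
@[simp] lemma add_c1 (a b : T3 F) : (a + b).c1 = a.c1 + b.c1 := rfl
@[simp] lemma add_c2 (a b : T3 F) : (a + b).c2 = a.c2 + b.c2 := rfl
@[simp] lemma neg_c0 (a : T3 F) : (-a).c0 = -a.c0 := rfl
@[simp] lemma neg_c1 (a : T3 F) : (-a).c1 = -a.c1 := rfl
@[simp] lemma neg_c2 (a : T3 F) : (-a).c2 = -a.c2 := rfl
@[simp] lemma mul_c0 (a b : T3 F) : (a * b).c0 = a.c0 * b.c0 := rfl
@[simp] lemma mul_c1 (a b : T3 F) : (a * b).c1 = a.c0 * b.c1 + a.c1 * b.c0 := rfl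
@[simp] lemma mul_c2 (a b : T3 F) :
    (a * b).c2 = a.c0 * b.c2 + a.c1 * b.c1 + a.c2 * b.c0 := rfl

instance : CommRing (T3 F) :=
  CommRing.ofMinimalAxioms
    (fun a b c => by ext <;> simp [add_assoc])
    (fun a => by ext <;> simp)
    (fun a => by ext <;> simp)
    (fun a b c => by ext <;> simp <;> ring)
    (fun a b => by ext <;> simp <;> ring)
    (fun a => by ext <;> simp)
    (fun a b c => by ext <;> simp <;> ring)

@[simp] lemma sub_c0 (a b : T3 F) : (a - b).c0 = a.c0 - b.c0 := by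
  rw [sub_eq_add_neg, add_c0, neg_c0, sub_eq_add_neg]
@[simp] lemma sub_c1 (a b : T3 F) : (a - b).c1 = a.c1 - b.c1 := by
  rw [sub_eq_add_neg, add_c1, neg_c1, sub_eq_add_neg]
@[simp] lemma sub_c2 (a b : T3 F) : (a - b).c2 = a.c2 - b.c2 := by
  rw [sub_eq_add_neg, add_c2, neg_c2, sub_eq_add_neg]

/-- constants -/
def iota : F →+* T3 F where
  toFun a := ⟨a, 0, 0⟩
  map_one' := rfl
  map_mul' a b := by ext <;> simp
  map_zero' := rfl
  map_add' a b := by ext <;> simp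

/-- constant term -/
def c0Hom : T3 F →+* F where
  toFun a := a.c0
  map_one' := rfl
  map_mul' _ _ := rfl
  map_zero' := rfl
  map_add' _ _ := rfl

@[simp] lemma c0Hom_apply (a : T3 F) : c0Hom a = a.c0 := rfl

lemma pow_c0 (a : T3 F) (n : ℕ) : (a ^ n).c0 = a.c0 ^ n := map_pow c0Hom a n

/-- the variable `T` -/
def tt : T3 F := ⟨0, 1, 0⟩

/-- `1 + T` -/
def ww : T3 F := ⟨1, 1, 0⟩

lemma ww_sub_one : (ww : T3 F) - 1 = tt := by ext <;> simp [ww, tt]

lemma tt_pow_three : (tt : T3 F) ^ 3 = 0 := by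
  rw [pow_succ, pow_two]; ext <;> simp [tt]

lemma tt_pow_of_three_le {n : ℕ} (hn : 3 ≤ n) : (tt : T3 F) ^ n = 0 := by
  obtain ⟨m, rfl⟩ := Nat.exists_eq_add_of_le hn
  rw [pow_add, tt_pow_three, zero_mul]

end ring

section field
variable {F : Type} [Field F]

lemma ww_pow (h2 : (2 : F) ≠ 0) (i : ℕ) :
    (ww : T3 F) ^ i = ⟨1, i, (i : F) * (i - 1) / 2⟩ := by
  induction i with
  | zero => ext <;> simp
  | succ n ih =>
    rw [pow_succ, ih]
    ext
    · simp [ww]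
    · simp [ww, add_comm]
    · simp only [ww, mul_c2, mul_zero, mul_one, zero_add, Nat.cast_add, Nat.cast_one]
      field_simp
      ring

lemma geom_ww (h2 : (2 : F) ≠ 0) (h3 : (3 : F) ≠ 0) (a : ℕ) :
    ∑ i ∈ Finset.range a, (ww : T3 F) ^ i =
      ⟨a, (a : F) * (a - 1) / 2, (a : F) * (a - 1) * (a - 2) / 6⟩ := by
  have h6 : (6 : F) ≠ 0 := by
    have : (6 : F) = 2 * 3 := by norm_num
    rw [this]; exact mul_ne_zero h2 h3
  induction a with
  | zero => ext <;> simp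
  | succ n ih =>
    rw [Finset.sum_range_succ, ih, ww_pow h2]
    ext
    · simp
    · simp only [add_c1, Nat.cast_add, Nat.cast_one]
      field_simp
      ring
    · simp only [add_c2, Nat.cast_add, Nat.cast_one]
      field_simp
      ring

/-- truncated logarithm (without the constant term). -/
def Lg (x : T3 F) : F × F := (x.c1 / x.c0, x.c2 / x.c0 - (x.c1 / x.c0) ^ 2 / 2)

lemma Lg_mul (h2 : (2 : F) ≠ 0) {x y : T3 F} (hx : x.c0 ≠ 0) (hy : y.c0 ≠ 0) :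
    Lg (x * y) = Lg x + Lg y := by
  ext
  · simp only [Lg, mul_c0, mul_c1, Prod.fst_add]
    field_simp
    ring
  · simp only [Lg, mul_c0, mul_c1, mul_c2, Prod.snd_add]
    field_simp
    ring

lemma Lg_one : Lg (1 : T3 F) = 0 := by
  ext <;> simp [Lg]

lemma Lg_pow (h2 : (2 : F) ≠ 0) {x : T3 F} (hx : x.c0 ≠ 0) (n : ℕ) :
    Lg (x ^ n) = n • Lg x := by
  induction n with
  | zero => simp [Lg_one]
  | succ n ih =>
    rw [pow_succ, Lg_mul h2 (by rw [pow_c0]; exact pow_ne_zero _ hx) hx, ih, succ_nsmul]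

lemma prod_c0 {ι : Type*} (s : Finset ι) (f : ι → T3 F) :
    (∏ i ∈ s, f i).c0 = ∏ i ∈ s, (f i).c0 := map_prod c0Hom f s

lemma Lg_prod (h2 : (2 : F) ≠ 0) {ι : Type*} (s : Finset ι) (f : ι → T3 F)
    (hf : ∀ i ∈ s, (f i).c0 ≠ 0) : Lg (∏ i ∈ s, f i) = ∑ i ∈ s, Lg (f i) := by
  classical
  induction s using Finset.induction_on with
  | empty => simp [Lg_one]
  | insert a s ha ih =>
    rw [Finset.prod_insert ha, Finset.sum_insert ha,
      Lg_mul h2 (hf a (Finset.mem_insert_self a s)), ih (fun i hi => hf i (Finset.mem_insert_of_mem hi))]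
    rw [prod_c0]
    exact Finset.prod_ne_zero_iff.mpr (fun i hi => hf i (Finset.mem_insert_of_mem hi))

end field

end T3

end Fermat.Agent.S14
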