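import Mathlib
import Fermat.Agent.S14.EtaDefs
import Fermat.Agent.S14.EtaT3

/-!
# S14: `[Eta2]`: `eta` is not locally a `p`-th power at `𝔭 = (ζ - 1)` (modulo `𝔭^3`)
-/

set_option autoImplicit false
set_option linter.unusedSectionVars false

open NumberField Finset Polynomial

namespace Fermat.Agent.S14

variable {p : ℕ} [hpf : Fact p.Prime]

lemma two_ne_zero_zmod (hp5 : 5 ≤ p) : (2 : ZMod p) ≠ 0 := by
  intro h
  have h' : ((2 : ℕ) : ZMod p) = 0 := by exact_mod_cast h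
  rw [ZMod.natCast_eq_zero_iff] at h'
  have := Nat.le_of_dvd (by norm_num) h'
  omega

lemma three_ne_zero_zmod (hp5 : 5 ≤ p) : (3 : ZMod p) ≠ 0 := by
  intro h
  have h' : ((3 : ℕ) : ZMod p) = 0 := by exact_mod_cast h
  rw [ZMod.natCast_eq_zero_iff] at h'
  have := Nat.le_of_dvd (by norm_num) h'
  omega

variable {K : Type*} [Field K] [NumberField K] [IsCyclotomicExtension {p} ℚ K]
variable {ζ : K} (hζ : IsPrimitiveRoot ζ p)

lemma aeval_ww_minpoly (hp5 : 5 ≤ p) :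
    aeval (T3.ww : T3 (ZMod p)) (minpoly ℤ hζ.integralPowerBasis.gen) = 0 := by
  have h1 : minpoly ℤ hζ.integralPowerBasis.gen = cyclotomic p ℤ := by
    rw [IsPrimitiveRoot.integralPowerBasis_gen, cyclotomic_eq_minpoly hζ hpf.out.pos]
    exact (NumberField.RingOfIntegers.minpoly_coe hζ.toInteger).symm
  rw [h1]
  have h := cyclotomic_mul_prime_pow_eq (ZMod p) (p := p) (m := 1)
    (by simpa using hpf.out.one_lt.ne') (k := 1) one_pos
  simp only [pow_one, mul_one, Nat.sub_self, pow_zero, cyclotomic_one] at h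
  have h2 : aeval (T3.ww : T3 (ZMod p)) (cyclotomic p ℤ) =
      eval₂ (T3.iota : ZMod p →+* T3 (ZMod p)) T3.ww (cyclotomic p (ZMod p)) := by
    rw [← map_cyclotomic_int p (ZMod p), eval₂_map, aeval_def]
    congr 1
    exact RingHom.ext_int _ _
  rw [h2, h, eval₂_pow, eval₂_sub, eval₂_X, eval₂_one, T3.ww_sub_one]
  exact T3.tt_pow_of_three_le (by omega)

/-- `ev : 𝓞 K → 𝔽_p[T]/(T^3)`, `ζ ↦ 1 + T`. -/
noncomputable def ev (hp5 : 5 ≤ p) : 𝓞 K →+* T3 (ZMod p) :=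
  (hζ.integralPowerBasis.lift _ (aeval_ww_minpoly hζ hp5)).toRingHom

lemma ev_zeta (hp5 : 5 ≤ p) : ev hζ hp5 hζ.toInteger = T3.ww := by
  have := hζ.integralPowerBasis.lift_gen _ (aeval_ww_minpoly hζ hp5)
  rw [IsPrimitiveRoot.integralPowerBasis_gen] at this
  exact this

lemma ev_pi (hp5 : 5 ≤ p) : ev hζ hp5 (hζ.toInteger - 1) = T3.tt := by
  rw [map_sub, map_one, ev_zeta, T3.ww_sub_one]

lemma ev_eq_of_dvd (hp5 : 5 ≤ p) {x y : 𝓞 K} (h : (hζ.toInteger - 1) ^ 3 ∣ x - y) :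
    ev hζ hp5 x = ev hζ hp5 y := by
  obtain ⟨c, hc⟩ := h
  have : ev hζ hp5 (x - y) = 0 := by
    rw [hc, map_mul, map_pow, ev_pi, T3.tt_pow_three, zero_mul]
  rwa [map_sub, sub_eq_zero] at this

lemma ev_c0_ne_zero (hp5 : 5 ≤ p) {x : 𝓞 K} (hx : ¬ (hζ.toInteger - 1) ∣ x) :
    (ev hζ hp5 x).c0 ≠ 0 := by
  intro h0
  apply hx
  set φ : 𝓞 K →+* ZMod p := T3.c0Hom.comp (ev hζ hp5) with hφ
  have hprime : Prime (hζ.toInteger - 1) := hζ.zeta_sub_one_prime'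
  have hmax : (Ideal.span {hζ.toInteger - 1}).IsMaximal := by
    have hP : (Ideal.span {hζ.toInteger - 1}).IsPrime :=
      (Ideal.span_singleton_prime hprime.ne_zero).mpr hprime
    exact hP.isMaximal (by simpa using hprime.ne_zero)
  have hle : Ideal.span {hζ.toInteger - 1} ≤ RingHom.ker φ := by
    rw [Ideal.span_singleton_le_iff_mem, RingHom.mem_ker, hφ, RingHom.comp_apply, ev_pi]
    rfl
  have hne : RingHom.ker φ ≠ ⊤ := RingHom.ker_ne_top φ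
  have heq := hmax.eq_of_le hne hle
  have : x ∈ RingHom.ker φ := by
    rw [RingHom.mem_ker, hφ, RingHom.comp_apply]; exact h0
  rw [← heq, Ideal.mem_span_singleton] at this
  exact this

lemma ev_cycU (hp5 : 5 ≤ p) (a : (ZMod p)ˣ) :
    ev hζ hp5 ((cycU hζ a : (𝓞 K)ˣ) : 𝓞 K) =
      ⟨(a : ZMod p), (a : ZMod p) * (a - 1) / 2, (a : ZMod p) * (a - 1) * (a - 2) / 6⟩ := by
  rw [cycU_val, map_sum]
  simp_rw [map_pow, ev_zeta]
  rw [T3.geom_ww (two_ne_zero_zmod hp5) (three_ne_zero_zmod hp5), ZMod.natCast_zmod_val]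

lemma Lg_ev_cycU (hp5 : 5 ≤ p) (a : (ZMod p)ˣ) :
    T3.Lg (ev hζ hp5 ((cycU hζ a : (𝓞 K)ˣ) : 𝓞 K)) =
      (((a : ZMod p) - 1) / 2, ((a : ZMod p) - 1) * (a - 5) / 24) := by
  have h2 := two_ne_zero_zmod hp5
  have h3 := three_ne_zero_zmod hp5
  have ha : (a : ZMod p) ≠ 0 := a.ne_zero
  have h6 : (6 : ZMod p) ≠ 0 := by
    have : (6 : ZMod p) = 2 * 3 := by norm_num
    rw [this]; exact mul_ne_zero h2 h3
  have h24 : (24 : ZMod p) ≠ 0 := by
    have : (24 : ZMod p) = 2 * 2 * 2 * 3 := by norm_num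
    rw [this]; exact mul_ne_zero (mul_ne_zero (mul_ne_zero h2 h2) h2) h3
  rw [ev_cycU]
  ext
  · simp only [T3.Lg]
    field_simp
  · simp only [T3.Lg]
    field_simp
    ring

lemma Lg_ev_eta (hp5 : 5 ≤ p) :
    T3.Lg (ev hζ hp5 ((eta hζ : (𝓞 K)ˣ) : 𝓞 K)) = (0, -1 / 24) := by
  have h2 := two_ne_zero_zmod hp5
  have h3 := three_ne_zero_zmod hp5
  have h24 : (24 : ZMod p) ≠ 0 := by
    have : (24 : ZMod p) = 2 * 2 * 2 * 3 := by norm_num
    rw [this]; exact mul_ne_zero (mul_ne_zero (mul_ne_zero h2 h2) h2) h3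
  have hc0 : ∀ a : (ZMod p)ˣ, (ev hζ hp5 ((cycU hζ a : (𝓞 K)ˣ) : 𝓞 K)).c0 ≠ 0 := by
    intro a; rw [ev_cycU]; exact a.ne_zero
  rw [eta_val, map_prod, T3.Lg_prod h2]
  swap
  · intro a _
    rw [map_pow, T3.pow_c0]
    exact pow_ne_zero _ (hc0 a)
  simp_rw [map_pow]
  have hterm : ∀ a : (ZMod p)ˣ,
      T3.Lg (ev hζ hp5 ((cycU hζ a : (𝓞 K)ˣ) : 𝓞 K) ^ cexp a) =
      ((((a⁻¹ : (ZMod p)ˣ) : ZMod p) - ((a⁻¹ ^ 2 : (ZMod p)ˣ) : ZMod p)) / 2,
        (1 - 6 * ((a⁻¹ : (ZMod p)ˣ) : ZMod p) + 5 * ((a⁻¹ ^ 2 : (ZMod p)ˣ) : ZMod p)) / 24) := by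
    intro a
    have ha : (a : ZMod p) ≠ 0 := a.ne_zero
    rw [T3.Lg_pow h2 (hc0 a), Lg_ev_cycU, Prod.smul_mk, nsmul_eq_mul, nsmul_eq_mul, cexp_cast]
    ext
    · simp only [Units.val_pow_eq_pow_val, Units.val_inv_eq_inv_val]
      field_simp
    · simp only [Units.val_pow_eq_pow_val, Units.val_inv_eq_inv_val]
      field_simp
      ring
  simp_rw [hterm]
  have hs1 := sum_units_inv (p := p) (by omega)
  have hs2 := sum_units_inv_sq (p := p) hp5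
  have hcard : ((Fintype.card (ZMod p)ˣ : ℕ) : ZMod p) = -1 := by
    rw [ZMod.card_units_eq_totient, Nat.totient_prime hpf.out,
      Nat.cast_sub hpf.out.one_le]
    simp
  ext
  · rw [Prod.fst_sum]
    simp only
    rw [← Finset.sum_div, Finset.sum_sub_distrib, hs1, hs2]
    simp
  · rw [Prod.snd_sum]
    simp only
    rw [← Finset.sum_div, Finset.sum_add_distrib, Finset.sum_sub_distrib, ← Finset.mul_sum,
      ← Finset.mul_sum, hs1, hs2]
    simp only [Finset.sum_const, Finset.card_univ, nsmul_eq_mul, hcard, mul_zero, sub_zero,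
      add_zero, mul_one]

/-- cancellation of powers of a prime. -/
lemma eq_of_prime_pow_mul_eq {R : Type*} [CommRing R] [IsDomain R] {π a b : R} (hπ : Prime π)
    (ha : ¬ π ∣ a) (hb : ¬ π ∣ b) {i j : ℕ} (h : π ^ i * a = π ^ j * b) : a = b := by
  rcases le_total i j with hij | hij
  · obtain ⟨m, rfl⟩ := Nat.exists_eq_add_of_le hij
    rw [pow_add, mul_assoc] at h
    have h' := mul_left_cancel₀ (pow_ne_zero i hπ.ne_zero) h
    rcases Nat.eq_zero_or_pos m with rfl | hm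
    · simpa using h'
    · exact absurd (h' ▸ Dvd.dvd.mul_right (dvd_pow_self π hm.ne') b) ha
  · obtain ⟨m, rfl⟩ := Nat.exists_eq_add_of_le hij
    rw [pow_add, mul_assoc] at h
    have h' := mul_left_cancel₀ (pow_ne_zero j hπ.ne_zero) h
    rcases Nat.eq_zero_or_pos m with rfl | hm
    · simpa using h'
    · exact absurd (h'.symm ▸ Dvd.dvd.mul_right (dvd_pow_self π hm.ne') a) hb

/-- **[Eta2] + final contradiction.**  `eta ^ k` is `(p-th power) * (element ≡ 1 mod 𝔭^3)` only if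
`p ∣ k`. -/
theorem eta_local (hp5 : 5 ≤ p) (k : ℕ) (z : K) (x y : 𝓞 K)
    (hy : ¬ (hζ.toInteger - 1) ∣ y) (hxy : (hζ.toInteger - 1) ^ 3 ∣ x - y)
    (h : (((eta hζ : (𝓞 K)ˣ) : 𝓞 K) : K) ^ k * (y : K) = z ^ p * (x : K)) : p ∣ k := by
  have h2 := two_ne_zero_zmod hp5
  have h3 := three_ne_zero_zmod hp5
  have h24 : (24 : ZMod p) ≠ 0 := by
    have : (24 : ZMod p) = 2 * 2 * 2 * 3 := by norm_num
    rw [this]; exact mul_ne_zero (mul_ne_zero (mul_ne_zero h2 h2) h2) h3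
  set π : 𝓞 K := hζ.toInteger - 1 with hπdef
  have hπ : Prime π := hζ.zeta_sub_one_prime'
  have hx : ¬ π ∣ x := by
    intro hd
    apply hy
    have h1 : π ∣ x - y := Dvd.dvd.trans (dvd_pow_self π (by norm_num)) hxy
    have := dvd_sub hd h1
    simpa using this
  have hy0 : y ≠ 0 := fun h0 => hy (h0 ▸ dvd_zero _)
  have hx0 : x ≠ 0 := fun h0 => hx (h0 ▸ dvd_zero _)
  obtain ⟨n, d, hd, rfl⟩ := IsFractionRing.div_surjective (A := 𝓞 K) z
  have hd0 : d ≠ 0 := nonZeroDivisors.ne_zero hd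
  have hdK : (algebraMap (𝓞 K) K d) ≠ 0 := by
    simpa using hd0
  -- the equation in `𝓞 K`
  have hO : ((eta hζ : (𝓞 K)ˣ) : 𝓞 K) ^ k * y * d ^ p = n ^ p * x := by
    apply FaithfulSMul.algebraMap_injective (𝓞 K) K
    simp only [map_mul, map_pow]
    have h' : (algebraMap (𝓞 K) K ((eta hζ : (𝓞 K)ˣ) : 𝓞 K)) ^ k * algebraMap (𝓞 K) K y =
        (algebraMap (𝓞 K) K n / algebraMap (𝓞 K) K d) ^ p * algebraMap (𝓞 K) K x := h
    rw [h', div_pow]
    field_simp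
  have hn0 : n ≠ 0 := by
    rintro rfl
    rw [zero_pow hpf.out.ne_zero, zero_mul] at hO
    have : ((eta hζ : (𝓞 K)ˣ) : 𝓞 K) ^ k ≠ 0 := pow_ne_zero _ (Units.ne_zero _)
    exact mul_ne_zero (mul_ne_zero this hy0) (pow_ne_zero _ hd0) hO
  obtain ⟨i, n', hn', rfl⟩ := WfDvdMonoid.max_power_factor hn0 hπ.irreducible
  obtain ⟨j, d', hd', rfl⟩ := WfDvdMonoid.max_power_factor hd0 hπ.irreducible
  have hη : ¬ π ∣ ((eta hζ : (𝓞 K)ˣ) : 𝓞 K) ^ k := by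
    intro hdv
    exact hπ.not_isUnit (isUnit_of_dvd_unit hdv ((Units.isUnit _).pow k))
  have hA : ¬ π ∣ ((eta hζ : (𝓞 K)ˣ) : 𝓞 K) ^ k * y * d' ^ p := by
    intro hdv
    rcases hπ.dvd_or_dvd hdv with h1 | h1
    · rcases hπ.dvd_or_dvd h1 with h1 | h1
      · exact hη h1
      · exact hy h1
    · exact hd' (hπ.dvd_of_dvd_pow h1)
  have hB : ¬ π ∣ n' ^ p * x := by
    intro hdv
    rcases hπ.dvd_or_dvd hdv with h1 | h1
    · exact hn' (hπ.dvd_of_dvd_pow h1)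
    · exact hx h1
  have hO' : ((eta hζ : (𝓞 K)ˣ) : 𝓞 K) ^ k * y * d' ^ p = n' ^ p * x := by
    refine eq_of_prime_pow_mul_eq hπ hA hB (i := j * p) (j := i * p) ?_
    rw [pow_mul, pow_mul]
    calc (π ^ j) ^ p * (((eta hζ : (𝓞 K)ˣ) : 𝓞 K) ^ k * y * d' ^ p)
        = ((eta hζ : (𝓞 K)ˣ) : 𝓞 K) ^ k * y * (π ^ j * d') ^ p := by ring
      _ = (π ^ i * n') ^ p * x := hO
      _ = (π ^ i) ^ p * (n' ^ p * x) := by ring
  -- apply `Lg ∘ ev`
  have hη1 : ¬ π ∣ ((eta hζ : (𝓞 K)ˣ) : 𝓞 K) := by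
    intro hdv
    exact hπ.not_isUnit (isUnit_of_dvd_unit hdv (Units.isUnit _))
  have e_η := ev_c0_ne_zero hζ hp5 hη1
  have e_y := ev_c0_ne_zero hζ hp5 hy
  have e_x := ev_c0_ne_zero hζ hp5 hx
  have e_d := ev_c0_ne_zero hζ hp5 hd'
  have e_n := ev_c0_ne_zero hζ hp5 hn'
  have hL := congrArg (fun t => T3.Lg (ev hζ hp5 t)) hO'
  simp only [map_mul, map_pow] at hL
  rw [T3.Lg_mul h2 (by rw [T3.mul_c0, T3.pow_c0]; exact mul_ne_zero (pow_ne_zero _ e_η) e_y)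
      (by rw [T3.pow_c0]; exact pow_ne_zero _ e_d),
    T3.Lg_mul h2 (by rw [T3.pow_c0]; exact pow_ne_zero _ e_η) e_y,
    T3.Lg_mul h2 (by rw [T3.pow_c0]; exact pow_ne_zero _ e_n) e_x,
    T3.Lg_pow h2 e_η, T3.Lg_pow h2 e_d, T3.Lg_pow h2 e_n, ev_eq_of_dvd hζ hp5 hxy,
    Lg_ev_eta] at hL
  have hp0 : ∀ w : ZMod p × ZMod p, p • w = 0 := by
    intro w
    ext <;> simp
  rw [hp0, hp0, add_zero, zero_add] at hL
  have hk : k • ((0 : ZMod p), (-1 / 24 : ZMod p)) = 0 := by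
    exact add_eq_right.mp hL
  have hk2 := congrArg Prod.snd hk
  simp only [Prod.smul_snd, nsmul_eq_mul, Prod.snd_zero] at hk2
  rw [← ZMod.natCast_eq_zero_iff]
  rcases mul_eq_zero.mp hk2 with h0 | h0
  · exact h0
  · exfalso
    rw [div_eq_zero_iff] at h0
    rcases h0 with h0 | h0
    · exact (neg_ne_zero.mpr one_ne_zero) h0
    · exact h24 h0

/-- `eta` is not a `p`-th power in `K`. -/
theorem eta_not_pow (hp5 : 5 ≤ p) : ¬ ∃ z : K, z ^ p = (((eta hζ : (𝓞 K)ˣ) : 𝓞 K) : K) := by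
  rintro ⟨z, hz⟩
  have hπ : Prime (hζ.toInteger - 1) := hζ.zeta_sub_one_prime'
  have := eta_local hζ hp5 1 z 1 1 (fun h => hπ.not_isUnit (isUnit_of_dvd_one h)) (by simp)
    (by simp [hz])
  exact hpf.out.one_lt.ne' (Nat.dvd_one.mp this)

end Fermat.Agent.S14
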