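import Mathlib
import Fermat.Agent.S14.EtaDefs

/-!
# S14: `[Eta1]`: `eta` lies in the `ω²`-eigenspace modulo `p`-th powers
-/

set_option autoImplicit false
set_option linter.unusedSectionVars false

open NumberField Finset

namespace Fermat.Agent.S14

variable {p : ℕ} [hpf : Fact p.Prime]
variable {K : Type*} [Field K] [NumberField K] [IsCyclotomicExtension {p} ℚ K]
variable {ζ : K} (hζ : IsPrimitiveRoot ζ p)

/-- `u_a` as an element of `K`. -/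
noncomputable def cycUK (a : (ZMod p)ˣ) : K := (((cycU hζ a : (𝓞 K)ˣ) : 𝓞 K) : K)

lemma sub_one_mul_cycUK (a : (ZMod p)ˣ) :
    (ζ - 1) * cycUK hζ a = ζ ^ (a : ZMod p).val - 1 := by
  have h := congrArg (fun t : 𝓞 K => (t : K)) (sub_one_mul_cycU hζ a)
  simp only [map_mul, map_sub, map_pow, map_one] at h
  exact h

lemma cycUK_ne_zero (a : (ZMod p)ˣ) : cycUK hζ a ≠ 0 := by
  unfold cycUK
  simp

include hζ in
lemma zeta_pow_mod (n : ℕ) : ζ ^ (n % p) = ζ ^ n := by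
  conv_rhs => rw [← Nat.div_add_mod n p, pow_add, pow_mul, hζ.pow_eq_one, one_pow, one_mul]

lemma etaK_eq : (((eta hζ : (𝓞 K)ˣ) : 𝓞 K) : K) = ∏ a : (ZMod p)ˣ, cycUK hζ a ^ cexp a := by
  rw [eta_val]
  simp [cycUK]

lemma cexp_mul_eq (b : (ZMod p)ˣ) (a : (ZMod p)ˣ) (n : ℕ) (hn : (n : ZMod p) = b) :
    cexp a = (n ^ 2 * cexp (b * a)) % p := by
  have h1 : ((n ^ 2 * cexp (b * a) : ℕ) : ZMod p) = ((a⁻¹ ^ 2 : (ZMod p)ˣ) : ZMod p) := by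
    rw [Nat.cast_mul, Nat.cast_pow, hn, cexp_cast]
    rw [← Units.val_pow_eq_pow_val, ← Units.val_mul]
    congr 1
    rw [mul_inv, mul_pow, ← mul_assoc, ← mul_pow, mul_inv_cancel, one_pow, one_mul]
  rw [← ZMod.val_natCast, h1]
  rfl

/-- **[Eta1]** -/
theorem eta_eigen (hp5 : 5 ≤ p) (σ : K ≃ₐ[ℚ] K) (b : ℕ) (hb : σ ζ = ζ ^ b) :
    ∃ v : (𝓞 K)ˣ, σ (((eta hζ : (𝓞 K)ˣ) : 𝓞 K) : K) =
      (((eta hζ : (𝓞 K)ˣ) : 𝓞 K) : K) ^ (b ^ 2) * (((v : (𝓞 K)ˣ) : 𝓞 K) : K) ^ p := by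
  have hcop : b.Coprime p := by
    have h1 : IsPrimitiveRoot (σ ζ) p := hζ.map_of_injective σ.injective
    rw [hb] at h1
    exact (hζ.pow_iff_coprime hpf.out.pos b).mp h1
  set b' : (ZMod p)ˣ := ZMod.unitOfCoprime b hcop with hb'
  have hb'c : ((b : ℕ) : ZMod p) = b' := (ZMod.coe_unitOfCoprime b hcop).symm
  have hζ1 : ζ - 1 ≠ 0 := sub_ne_zero.mpr (hζ.ne_one hpf.out.one_lt)
  have hb'pow : ζ ^ (b' : ZMod p).val = ζ ^ b := by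
    rw [← hb'c, ZMod.val_natCast, zeta_pow_mod hζ]
  -- Step A
  have hA : ∀ a : (ZMod p)ˣ, cycUK hζ b' * σ (cycUK hζ a) = cycUK hζ (b' * a) := by
    intro a
    apply mul_left_cancel₀ hζ1
    rw [← mul_assoc, sub_one_mul_cycUK, sub_one_mul_cycUK, hb'pow]
    have h1 : σ ((ζ - 1) * cycUK hζ a) = σ (ζ ^ (a : ZMod p).val - 1) := by
      rw [sub_one_mul_cycUK]
    rw [map_mul, map_sub, map_sub, map_pow, map_one, hb] at h1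
    rw [h1]
    congr 1
    rw [Units.val_mul, ZMod.val_mul, zeta_pow_mod hζ, pow_mul ζ, hb'pow]
  obtain ⟨s, hs⟩ := dvd_sum_cexp (p := p) hp5
  -- Step B
  have hB : cycUK hζ b' ^ (p * s) * σ (((eta hζ : (𝓞 K)ˣ) : 𝓞 K) : K) =
      ∏ a : (ZMod p)ˣ, cycUK hζ (b' * a) ^ cexp a := by
    rw [etaK_eq, map_prod, ← hs, ← Finset.prod_pow_eq_pow_sum, ← Finset.prod_mul_distrib]
    refine Finset.prod_congr rfl (fun a _ => ?_)
    rw [map_pow, ← mul_pow, hA]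
  -- Step C
  have hC : (∏ a : (ZMod p)ˣ, cycUK hζ (b' * a) ^ cexp a) *
      (∏ a : (ZMod p)ˣ, cycUK hζ (b' * a) ^ ((b ^ 2 * cexp (b' * a)) / p)) ^ p =
      (((eta hζ : (𝓞 K)ˣ) : 𝓞 K) : K) ^ (b ^ 2) := by
    rw [etaK_eq, ← Finset.prod_pow, ← Finset.prod_pow, ← Finset.prod_mul_distrib]
    rw [← Equiv.prod_comp (Equiv.mulLeft b') (fun a => (cycUK hζ a ^ cexp a) ^ (b ^ 2))]
    refine Finset.prod_congr rfl (fun a _ => ?_)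
    rw [Equiv.coe_mulLeft, ← pow_mul, ← pow_add, ← pow_mul]
    congr 1
    rw [cexp_mul_eq b' a b hb'c, mul_comm _ p, Nat.mod_add_div, mul_comm]
  set w : (𝓞 K)ˣ := cycU hζ b' ^ s * ∏ a : (ZMod p)ˣ, cycU hζ (b' * a) ^ ((b ^ 2 * cexp (b' * a)) / p)
    with hw
  have hwK : (((w : (𝓞 K)ˣ) : 𝓞 K) : K) =
      cycUK hζ b' ^ s * ∏ a : (ZMod p)ˣ, cycUK hζ (b' * a) ^ ((b ^ 2 * cexp (b' * a)) / p) := by
    rw [hw]
    simp [cycUK, Units.coe_prod]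
  refine ⟨w⁻¹, ?_⟩
  have hwinv : (((w⁻¹ : (𝓞 K)ˣ) : 𝓞 K) : K) = ((((w : (𝓞 K)ˣ) : 𝓞 K) : K))⁻¹ := by
    have h1 : (((w⁻¹ : (𝓞 K)ˣ) : 𝓞 K) : K) * (((w : (𝓞 K)ˣ) : 𝓞 K) : K) = 1 := by
      rw [← map_mul (algebraMap (𝓞 K) K), ← Units.val_mul, inv_mul_cancel]
      simp
    exact eq_inv_of_mul_eq_one_left h1
  have hw0 : (((w : (𝓞 K)ˣ) : 𝓞 K) : K) ≠ 0 := by simp
  rw [hwinv, inv_pow, ← hC, ← hB, hwK]
  have h1 : cycUK hζ b' ≠ 0 := cycUK_ne_zero hζ b'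
  have h2 : (∏ a : (ZMod p)ˣ, cycUK hζ (b' * a) ^ ((b ^ 2 * cexp (b' * a)) / p)) ≠ 0 :=
    Finset.prod_ne_zero_iff.mpr (fun a _ => pow_ne_zero _ (cycUK_ne_zero hζ _))
  rw [mul_pow, ← pow_mul, mul_comm s p]
  field_simp

end Fermat.Agent.S14
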