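/-
S14 [Cl] + [Arith]: assembly of the arithmetic part (auxiliary lemmas).
-/
import Fermat.Agent.S14.ClDefs
import Fermat.Agent.S14.Eta
import Fermat.Agent.S14.EtaEigen

set_option autoImplicit false
set_option linter.unusedSectionVars false

namespace Fermat.Agent.S14

open NumberField
open scoped nonZeroDivisors

namespace ArithAux

variable {K : Type*} [Field K] [NumberField K]

/-- `p`-th powers of ideals are injective. -/
lemma ideal_pow_inj {n : ℕ} (hn : n ≠ 0) {A B : Ideal (𝓞 K)} (h : A ^ n = B ^ n) : A = B := by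
  have h1 : A ∣ B := (UniqueFactorizationMonoid.pow_dvd_pow_iff_dvd hn).mp (h ▸ dvd_rfl)
  have h2 : B ∣ A := (UniqueFactorizationMonoid.pow_dvd_pow_iff_dvd hn).mp (h ▸ dvd_rfl)
  exact dvd_antisymm h1 h2

/-- An element of `K` whose `n`-th power is a unit of `𝓞 K` is a unit of `𝓞 K`. -/
lemma exists_unit_of_pow_eq {n : ℕ} (hn : n ≠ 0) (w : K) (u : (𝓞 K)ˣ)
    (h : w ^ n = ((u : 𝓞 K) : K)) : ∃ v : (𝓞 K)ˣ, ((v : 𝓞 K) : K) = w := by
  have hw : IsIntegral ℤ w := by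
    refine IsIntegral.of_pow (Nat.pos_of_ne_zero hn) ?_
    rw [h]
    exact (u : 𝓞 K).2
  have hw' : IsIntegral ℤ w⁻¹ := by
    refine IsIntegral.of_pow (Nat.pos_of_ne_zero hn) ?_
    rw [inv_pow, h]
    have : (((u : 𝓞 K) : K))⁻¹ = (((u⁻¹ : (𝓞 K)ˣ) : 𝓞 K) : K) := by
      have h1 : (((u⁻¹ : (𝓞 K)ˣ) : 𝓞 K) : K) * ((u : 𝓞 K) : K) = 1 := by
        rw [← map_mul]; simp
      exact (eq_inv_of_mul_eq_one_left h1).symm
    rw [this]
    exact ((u⁻¹ : (𝓞 K)ˣ) : 𝓞 K).2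
  have hw0 : w ≠ 0 := by
    rintro rfl
    rw [zero_pow hn] at h
    have : ((u : 𝓞 K) : K) ≠ 0 := by simp
    exact this h.symm
  refine ⟨⟨⟨w, hw⟩, ⟨w⁻¹, hw'⟩, ?_, ?_⟩, rfl⟩
  · apply RingOfIntegers.ext
    change w * w⁻¹ = 1
    exact mul_inv_cancel₀ hw0
  · apply RingOfIntegers.ext
    change w⁻¹ * w = 1
    exact inv_mul_cancel₀ hw0

end ArithAux

end Fermat.Agent.S14
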