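/-
S14 [Cl]: the ideal class attached to `α`.
-/
import Fermat.Agent.S14.ArithAux

set_option autoImplicit false
set_option linter.unusedSectionVars false

namespace Fermat.Agent.S14

open NumberField
open scoped nonZeroDivisors

namespace ArithAux

variable {p : ℕ} [Fact p.Prime]
variable {K : Type*} [Field K] [NumberField K]
variable {ζ : K}

lemma coe_mapRingEquiv (σ : K ≃ₐ[ℚ] K) (x : 𝓞 K) :
    ((RingOfIntegers.mapRingEquiv (σ : K ≃+* K) x : 𝓞 K) : K) = σ (x : K) := rfl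

/-- the class of `I` is killed by `p`. -/
lemma mk0_pow_eq_one (α : 𝓞 K) (I : (Ideal (𝓞 K))⁰)
    (hI : Ideal.span {α} = (I : Ideal (𝓞 K)) ^ p) : ClassGroup.mk0 I ^ p = 1 := by
  rw [← map_pow, ClassGroup.mk0_eq_one_iff]
  refine ⟨⟨α, ?_⟩⟩
  rw [Ideal.submodule_span_eq, hI]
  rfl

/-- the class of `I` is an `ω²`-eigenvector. -/
lemma mk0_sigI (α : 𝓞 K) (hα0 : α ≠ 0) (I : (Ideal (𝓞 K))⁰)
    (hI : Ideal.span {α} = (I : Ideal (𝓞 K)) ^ p)
    (σ : K ≃ₐ[ℚ] K) (m : ℕ) (γ : K) (hγ : σ (α : K) = (α : K) ^ m * γ ^ p) :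
    ClassGroup.mk0 (sigI σ I) = ClassGroup.mk0 I ^ m := by
  have hp0 : p ≠ 0 := (Fact.out : p.Prime).ne_zero
  set e := RingOfIntegers.mapRingEquiv (σ : K ≃+* K) with he
  obtain ⟨n, d, hd, hnd⟩ := IsFractionRing.div_surjective (A := 𝓞 K) γ
  have hd0 : d ≠ 0 := nonZeroDivisors.ne_zero hd
  have hdK : (algebraMap (𝓞 K) K d) ≠ 0 := by simpa using hd0
  have heq : e α * d ^ p = α ^ m * n ^ p := by
    apply RingOfIntegers.ext
    have h1 : algebraMap (𝓞 K) K (e α) = σ (α : K) := rfl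
    have h2 : algebraMap (𝓞 K) K α = (α : K) := rfl
    simp only [map_mul, map_pow]
    rw [h1, hγ, ← hnd, div_pow, h2]
    field_simp
  have heα : e α ≠ 0 := by
    intro h
    exact hα0 (e.injective (by rw [h, map_zero]))
  have hn0 : n ≠ 0 := by
    rintro rfl
    rw [zero_pow hp0, mul_zero] at heq
    exact (mul_ne_zero heα (pow_ne_zero _ hd0)) heq
  rw [← map_pow, ClassGroup.mk0_eq_mk0_iff]
  refine ⟨d, n, hd0, hn0, ?_⟩
  apply ideal_pow_inj hp0
  have h1 : ((sigI σ I : (Ideal (𝓞 K))⁰) : Ideal (𝓞 K)) ^ p = Ideal.span {e α} := by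
    rw [Ideal.coe_mapNonZero, ← Ideal.map_pow, ← hI, Ideal.map_span, Set.image_singleton]
    rfl
  have h2 : (((I ^ m : (Ideal (𝓞 K))⁰)) : Ideal (𝓞 K)) ^ p = Ideal.span {α ^ m} := by
    rw [SubmonoidClass.coe_pow, ← pow_mul, mul_comm, pow_mul, ← hI, Ideal.span_singleton_pow]
  rw [mul_pow, mul_pow, h1, h2, Ideal.span_singleton_pow, Ideal.span_singleton_pow,
    Ideal.span_singleton_mul_span_singleton, Ideal.span_singleton_mul_span_singleton,
    mul_comm, heq, mul_comm]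

end ArithAux

end Fermat.Agent.S14
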