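/-
S14 [Bdd] : shared definitions for the boundedness of differences of partial zeta functions.
-/
import Mathlib

set_option autoImplicit false

namespace Fermat.Agent.S14

open NumberField NumberField.mixedEmbedding NumberField.Units
open scoped nonZeroDivisors

noncomputable section

/-- The tent function `max 0 (1 - |t|)`. -/
def tent (t : ℝ) : ℝ := max 0 (1 - |t|)

variable (M : Type*) [Field M] [NumberField M]

open scoped Classical in
/-- The `i`-th coordinate of `logMap x` in the real basis given by the unit lattice. -/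
def lcoord (x : mixedSpace M) (i : Fin (rank M)) : ℝ :=
  ((basisUnitLattice M).ofZLatticeBasis ℝ (unitLattice M)).repr (logMap x) i

/-- The smooth cut-off: a partition of unity along the orbits of the units. -/
def phi (x : mixedSpace M) : ℝ := ∏ i, tent (lcoord M x i)

/-- `g_s(x) = phi(x) * N(x)^(-s)`  (it vanishes when `N(x) = 0`, for `s ≠ 0`). -/
def gs (s : ℝ) (x : mixedSpace M) : ℝ := phi M x * (mixedEmbedding.norm x) ^ (-s)

/-- `g_s` on algebraic integers. -/
def gsInt (s : ℝ) (x : 𝓞 M) : ℝ := gs M s (mixedEmbedding M (x : M))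

/-- The partial zeta function of an ideal class. -/
def partialZeta (C : ClassGroup (𝓞 M)) (s : ℝ) : ℝ :=
  ∑' I : {I : (Ideal (𝓞 M))⁰ // ClassGroup.mk0 I = C}, (Ideal.absNorm (I.1 : Ideal (𝓞 M)) : ℝ) ^ (-s)

/-- The full zeta sum over nonzero ideals. -/
def zetaSum (s : ℝ) : ℝ :=
  ∑' I : (Ideal (𝓞 M))⁰, (Ideal.absNorm (I : Ideal (𝓞 M)) : ℝ) ^ (-s)

/-- (B3), the key estimate, as a proposition (to be proved in `BddKey.lean`). -/
def KeyEstimate : Prop :=
  ∀ (J : Ideal (𝓞 M)) (c : 𝓞 M), ∃ B : ℝ, ∀ s ∈ Set.Icc (1 : ℝ) 2,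
    Summable (fun v : J ↦ |gsInt M s ((v : 𝓞 M) + c) - gsInt M s (v : 𝓞 M)|) ∧
      ∑' v : J, |gsInt M s ((v : 𝓞 M) + c) - gsInt M s (v : 𝓞 M)| ≤ B

/-- [Z], the upper bound for the zeta sum, as a proposition. -/
def ZetaBound : Prop :=
  ∃ CZ : ℝ, ∀ s ∈ Set.Ioc (1 : ℝ) 2,
    Summable (fun I : (Ideal (𝓞 M))⁰ ↦ (Ideal.absNorm (I : Ideal (𝓞 M)) : ℝ) ^ (-s)) ∧
      zetaSum M s ≤ CZ / (s - 1)

end

end Fermat.Agent.S14
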