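/-
S14 [Bdd] (B3) : the key estimate.  For an ideal `J` and `c ∈ 𝓞 M` the sum over `v ∈ J` of
`|g_s(v + c) - g_s(v)|` converges, uniformly bounded for `s ∈ [1, 2]`.
-/
import Fermat.Agent.S14.BddDefs

set_option autoImplicit false
set_option linter.unusedSectionVars false

namespace Fermat.Agent.S14.BddKey

open NumberField NumberField.mixedEmbedding NumberField.Units NumberField.InfinitePlace
open NumberField.Units.dirichletUnitTheorem
open Fermat.Agent.S14

/-! ### elementary lemmas -/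

lemma tent_nonneg (t : ℝ) : 0 ≤ tent t := le_max_left _ _

lemma tent_le_one (t : ℝ) : tent t ≤ 1 := by
  unfold tent
  exact max_le zero_le_one (by linarith [abs_nonneg t])

lemma tent_sub_le (a b : ℝ) : |tent a - tent b| ≤ |a - b| := by
  unfold tent
  have h1 := abs_max_sub_max_le_abs (1 - |a|) (1 - |b|) 0
  rw [max_comm _ (0:ℝ), max_comm _ (0:ℝ)] at h1
  have h2 : |(1 - |a|) - (1 - |b|)| ≤ |a - b| := by
    have : (1 - |a|) - (1 - |b|) = |b| - |a| := by ring
    rw [this, abs_sub_comm a b]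
    exact abs_abs_sub_abs_le_abs_sub b a
  exact h1.trans h2

lemma abs_lt_one_of_tent_ne_zero {t : ℝ} (h : tent t ≠ 0) : |t| < 1 := by
  by_contra hc
  push Not at hc
  apply h
  unfold tent
  exact max_eq_left (by linarith)

lemma abs_prod_sub_prod_le {ι : Type*} (S : Finset ι) (a b : ι → ℝ)
    (ha : ∀ i, 0 ≤ a i ∧ a i ≤ 1) (hb : ∀ i, 0 ≤ b i ∧ b i ≤ 1) :
    |∏ i ∈ S, a i - ∏ i ∈ S, b i| ≤ ∑ i ∈ S, |a i - b i| := by
  classical
  induction S using Finset.induction_on with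
  | empty => simp
  | insert j S hj ih =>
    rw [Finset.prod_insert hj, Finset.prod_insert hj, Finset.sum_insert hj]
    have hA : 0 ≤ ∏ i ∈ S, a i ∧ ∏ i ∈ S, a i ≤ 1 :=
      ⟨Finset.prod_nonneg fun i _ ↦ (ha i).1, Finset.prod_le_one (fun i _ ↦ (ha i).1) fun i _ ↦ (ha i).2⟩
    have e : a j * ∏ i ∈ S, a i - b j * ∏ i ∈ S, b i =
        (a j - b j) * ∏ i ∈ S, a i + b j * (∏ i ∈ S, a i - ∏ i ∈ S, b i) := by ring
    rw [e]
    refine (abs_add_le _ _).trans ?_
    rw [abs_mul, abs_mul, abs_of_nonneg hA.1, abs_of_nonneg (hb j).1]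
    have h1 : |a j - b j| * ∏ i ∈ S, a i ≤ |a j - b j| := by
      nlinarith [abs_nonneg (a j - b j), hA.1, hA.2]
    have h2 : b j * |∏ i ∈ S, a i - ∏ i ∈ S, b i| ≤ |∏ i ∈ S, a i - ∏ i ∈ S, b i| := by
      nlinarith [abs_nonneg (∏ i ∈ S, a i - ∏ i ∈ S, b i), (hb j).1, (hb j).2]
    linarith

lemma abs_exp_neg_sub_le {a b E : ℝ} (ha : Real.exp (-a) ≤ E) (hb : Real.exp (-b) ≤ E) :
    |Real.exp (-a) - Real.exp (-b)| ≤ |a - b| * E := by
  wlog hab : a ≤ b generalizing a b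
  · have := this hb ha (le_of_not_ge hab)
    rwa [abs_sub_comm, abs_sub_comm b a] at this
  have h1 : Real.exp (-b) ≤ Real.exp (-a) := Real.exp_le_exp.mpr (by linarith)
  rw [abs_of_nonneg (by linarith), abs_sub_comm, abs_of_nonneg (by linarith)]
  have h2 : Real.exp (-b) = Real.exp (-a) * Real.exp (-(b - a)) := by
    rw [← Real.exp_add]; congr 1; ring
  have h3 := Real.add_one_le_exp (-(b - a))
  have h4 : 0 < Real.exp (-a) := Real.exp_pos _
  have h5 : Real.exp (-a) - Real.exp (-b) ≤ (b - a) * Real.exp (-a) := by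
    rw [h2]; nlinarith
  refine h5.trans ?_
  exact mul_le_mul_of_nonneg_left ha (by linarith)

lemma abs_log_sub_log_le {a b ρ γ : ℝ} (hρ : 0 < ρ) (ha : ρ ≤ a) (hb : ρ ≤ b)
    (hab : |a - b| ≤ γ) : |Real.log a - Real.log b| ≤ γ / ρ := by
  wlog h : b ≤ a generalizing a b
  · have := this hb ha (by rwa [abs_sub_comm]) (le_of_not_ge h)
    rwa [abs_sub_comm] at this
  have hb0 : 0 < b := lt_of_lt_of_le hρ hb
  have ha0 : 0 < a := lt_of_lt_of_le hρ ha
  have h1 : Real.log b ≤ Real.log a := Real.log_le_log hb0 h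
  rw [abs_of_nonneg (by linarith)]
  rw [abs_of_nonneg (by linarith)] at hab
  rw [← Real.log_div ha0.ne' hb0.ne']
  have h2 := Real.log_le_sub_one_of_pos (div_pos ha0 hb0)
  have h3 : a / b - 1 = (a - b) / b := by field_simp
  rw [h3] at h2
  refine h2.trans ?_
  have hγ : 0 ≤ γ := le_trans (by linarith) hab
  calc (a - b) / b ≤ γ / b := by gcongr
    _ ≤ γ / ρ := by gcongr

variable (M : Type*) [Field M] [NumberField M]

open scoped Classical

/-- The real basis of the log space given by the fundamental units. -/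
noncomputable def LB : Module.Basis (Fin (rank M)) ℝ (logSpace M) :=
  (basisUnitLattice M).ofZLatticeBasis ℝ (unitLattice M)

lemma lcoord_eq (x : mixedSpace M) (i : Fin (rank M)) :
    lcoord M x i = (LB M).repr (logMap x) i := rfl

lemma phi_nonneg (x : mixedSpace M) : 0 ≤ phi M x :=
  Finset.prod_nonneg fun _ _ ↦ tent_nonneg _

lemma phi_le_one (x : mixedSpace M) : phi M x ≤ 1 :=
  Finset.prod_le_one (fun _ _ ↦ tent_nonneg _) fun _ _ ↦ tent_le_one _

lemma exists_phi_lipschitz : ∃ C : ℝ, 0 ≤ C ∧ ∀ x x' : mixedSpace M,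
    |phi M x - phi M x'| ≤ C * ‖logMap x - logMap x'‖ := by
  refine ⟨∑ i, ‖((LB M).coord i).toContinuousLinearMap‖,
    Finset.sum_nonneg fun _ _ ↦ norm_nonneg _, fun x x' ↦ ?_⟩
  unfold phi
  refine (abs_prod_sub_prod_le _ _ _ (fun i ↦ ⟨tent_nonneg _, tent_le_one _⟩)
    (fun i ↦ ⟨tent_nonneg _, tent_le_one _⟩)).trans ?_
  rw [Finset.sum_mul]
  refine Finset.sum_le_sum fun i _ ↦ ?_
  refine (tent_sub_le _ _).trans ?_
  have h := ((LB M).coord i).toContinuousLinearMap.le_opNorm (logMap x - logMap x')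
  have e : ((LB M).coord i).toContinuousLinearMap (logMap x - logMap x') =
      lcoord M x i - lcoord M x' i := by
    rw [lcoord_eq, lcoord_eq]
    simp [Module.Basis.coord_apply]
  rw [e, Real.norm_eq_abs] at h
  exact h

lemma exists_norm_logMap_le : ∃ R : ℝ, 0 ≤ R ∧ ∀ x : mixedSpace M,
    phi M x ≠ 0 → ‖logMap x‖ ≤ R := by
  refine ⟨∑ i, ‖LB M i‖, Finset.sum_nonneg fun _ _ ↦ norm_nonneg _, fun x hx ↦ ?_⟩
  have h1 : ∀ i, |lcoord M x i| < 1 := fun i ↦
    abs_lt_one_of_tent_ne_zero (Finset.prod_ne_zero_iff.mp hx i (Finset.mem_univ i))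
  have h2 := (LB M).sum_repr (logMap x)
  rw [← h2]
  refine (norm_sum_le _ _).trans ?_
  refine Finset.sum_le_sum fun i _ ↦ ?_
  rw [_root_.norm_smul, Real.norm_eq_abs, ← lcoord_eq]
  have := (h1 i).le
  nlinarith [norm_nonneg (LB M i)]

variable {M}

lemma mult_le_two (w : InfinitePlace M) : (mult w : ℝ) ≤ 2 := by
  rw [mult]; split_ifs <;> norm_num

lemma sum_mult_real : ∑ w : InfinitePlace M, (mult w : ℝ) = (Module.finrank ℚ M : ℝ) := by
  rw [← sum_mult_eq]; push_cast; rfl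

lemma finrank_pos_real : (0 : ℝ) < (Module.finrank ℚ M : ℝ) := by
  exact_mod_cast (Module.finrank_pos : 0 < Module.finrank ℚ M)

lemma log_norm_eq {x : mixedSpace M} (hx : mixedEmbedding.norm x ≠ 0) :
    Real.log (mixedEmbedding.norm x) =
      ∑ w : InfinitePlace M, (mult w : ℝ) * Real.log (normAtPlace w x) := by
  rw [mixedEmbedding.norm_apply, Real.log_prod]
  · exact Finset.sum_congr rfl fun w _ ↦ Real.log_pow _ _
  · intro w _
    exact pow_ne_zero _ (mixedEmbedding.norm_ne_zero_iff.mp hx w)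

lemma abs_dev_le {x : mixedSpace M} (hx : mixedEmbedding.norm x ≠ 0) {R : ℝ}
    (hR : ‖logMap x‖ ≤ R) (w : InfinitePlace M) :
    |Real.log (normAtPlace w x) -
      Real.log (mixedEmbedding.norm x) * (Module.finrank ℚ M : ℝ)⁻¹| ≤
      (Fintype.card (InfinitePlace M) : ℝ) * R := by
  have hR0 : 0 ≤ R := (norm_nonneg _).trans hR
  set d : InfinitePlace M → ℝ := fun w ↦ Real.log (normAtPlace w x) -
      Real.log (mixedEmbedding.norm x) * (Module.finrank ℚ M : ℝ)⁻¹ with hd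
  have hsum : ∑ w, (mult w : ℝ) * d w = 0 := by
    simp only [hd, mul_sub, Finset.sum_sub_distrib]
    rw [← log_norm_eq hx, ← Finset.sum_mul, sum_mult_real]
    have := (finrank_pos_real (M := M)).ne'
    field_simp
    ring
  have h1 : ∀ w : InfinitePlace M, w ≠ w₀ → |(mult w : ℝ) * d w| ≤ R := by
    intro w hw
    have := norm_le_pi_norm (logMap x) ⟨w, hw⟩
    rw [logMap_apply, Real.norm_eq_abs] at this
    exact this.trans hR
  have hcard : (1 : ℝ) ≤ (Fintype.card (InfinitePlace M) : ℝ) := by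
    exact_mod_cast Fintype.card_pos
  have h2 : ∀ w : InfinitePlace M, |(mult w : ℝ) * d w| ≤
      (Fintype.card (InfinitePlace M) : ℝ) * R := by
    intro w
    by_cases hw : w = w₀
    · subst hw
      have e : (mult (w₀ : InfinitePlace M) : ℝ) * d w₀ =
          - ∑ w ∈ Finset.univ.erase (w₀ : InfinitePlace M), (mult w : ℝ) * d w := by
        rw [← Finset.add_sum_erase _ _ (Finset.mem_univ (w₀ : InfinitePlace M))] at hsum
        linarith
      rw [e, abs_neg]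
      refine (Finset.abs_sum_le_sum_abs _ _).trans ?_
      refine (Finset.sum_le_sum fun w hw ↦ h1 w (Finset.ne_of_mem_erase hw)).trans ?_
      rw [Finset.sum_const, nsmul_eq_mul]
      refine mul_le_mul_of_nonneg_right ?_ hR0
      exact_mod_cast Finset.card_le_univ _
    · exact (h1 w hw).trans (by nlinarith)
  refine le_trans ?_ (h2 w)
  rw [abs_mul, abs_of_nonneg (by positivity : (0:ℝ) ≤ (mult w : ℝ))]
  have := one_le_mult (w := w)
  nlinarith [abs_nonneg (d w)]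

lemma normAtPlace_le_norm (w : InfinitePlace M) (x : mixedSpace M) : normAtPlace w x ≤ ‖x‖ := by
  rw [norm_eq_sup'_normAtPlace]
  exact Finset.le_sup' (fun w ↦ normAtPlace w x) (Finset.mem_univ w)

lemma exists_normAtPlace_eq_norm (x : mixedSpace M) : ∃ w, ‖x‖ = normAtPlace w x := by
  rw [norm_eq_sup'_normAtPlace]
  obtain ⟨w, -, hw⟩ := Finset.exists_mem_eq_sup' Finset.univ_nonempty (fun w ↦ normAtPlace w x)
  exact ⟨w, hw⟩

variable (M)

lemma exists_cone : ∃ K : ℝ, 1 ≤ K ∧ ∀ x : mixedSpace M, phi M x ≠ 0 →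
    mixedEmbedding.norm x ≠ 0 → ∀ w, ‖x‖ ≤ K * normAtPlace w x := by
  obtain ⟨R, hR0, hR⟩ := exists_norm_logMap_le M
  refine ⟨Real.exp (2 * ((Fintype.card (InfinitePlace M) : ℝ) * R)),
    Real.one_le_exp (by positivity), fun x hφ hx w ↦ ?_⟩
  obtain ⟨w', hw'⟩ := exists_normAtPlace_eq_norm x
  rw [hw']
  have hpos : ∀ w, 0 < normAtPlace w x := fun w ↦
    lt_of_le_of_ne (normAtPlace_nonneg _ _) (mixedEmbedding.norm_ne_zero_iff.mp hx w).symm
  have h1 := abs_le.mp (abs_dev_le hx (hR x hφ) w)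
  have h2 := abs_le.mp (abs_dev_le hx (hR x hφ) w')
  have h3 : Real.log (normAtPlace w' x) ≤
      2 * ((Fintype.card (InfinitePlace M) : ℝ) * R) + Real.log (normAtPlace w x) := by
    linarith [h1.1, h2.2]
  have h4 := Real.exp_le_exp.mpr h3
  rwa [Real.exp_add, Real.exp_log (hpos w'), Real.exp_log (hpos w)] at h4

variable {M}

/-- hypotheses of the local estimate -/
structure Close (x x' : mixedSpace M) (ρ γ : ℝ) : Prop where
  hρ : 1 ≤ ρ
  hx : ∀ w, ρ ≤ normAtPlace w x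
  hx' : ∀ w, ρ ≤ normAtPlace w x'
  hγ : ∀ w, |normAtPlace w x - normAtPlace w x'| ≤ γ

lemma pow_le_norm {x : mixedSpace M} {ρ : ℝ} (hρ : 0 ≤ ρ) (hx : ∀ w, ρ ≤ normAtPlace w x) :
    ρ ^ Module.finrank ℚ M ≤ mixedEmbedding.norm x := by
  rw [mixedEmbedding.norm_apply, ← sum_mult_eq, ← Finset.prod_pow_eq_pow_sum]
  exact Finset.prod_le_prod (fun w _ ↦ pow_nonneg hρ _) fun w _ ↦ pow_le_pow_left₀ hρ (hx w) _

lemma Close.norm_ne_zero {x x' : mixedSpace M} {ρ γ : ℝ} (h : Close x x' ρ γ) :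
    mixedEmbedding.norm x ≠ 0 ∧ mixedEmbedding.norm x' ≠ 0 := by
  have hρ : 0 < ρ := lt_of_lt_of_le one_pos h.hρ
  constructor
  · exact (lt_of_lt_of_le (pow_pos hρ _) (pow_le_norm hρ.le h.hx)).ne'
  · exact (lt_of_lt_of_le (pow_pos hρ _) (pow_le_norm hρ.le h.hx')).ne'

lemma Close.abs_log_norm_sub_le {x x' : mixedSpace M} {ρ γ : ℝ} (h : Close x x' ρ γ) :
    |Real.log (mixedEmbedding.norm x) - Real.log (mixedEmbedding.norm x')| ≤
      (Module.finrank ℚ M : ℝ) * (γ / ρ) := by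
  have hρ : 0 < ρ := lt_of_lt_of_le one_pos h.hρ
  rw [log_norm_eq h.norm_ne_zero.1, log_norm_eq h.norm_ne_zero.2, ← Finset.sum_sub_distrib,
    ← sum_mult_real, Finset.sum_mul]
  refine (Finset.abs_sum_le_sum_abs _ _).trans (Finset.sum_le_sum fun w _ ↦ ?_)
  rw [← mul_sub, abs_mul, abs_of_nonneg (by positivity : (0:ℝ) ≤ (mult w : ℝ))]
  exact mul_le_mul_of_nonneg_left (abs_log_sub_log_le hρ (h.hx w) (h.hx' w) (h.hγ w))
    (by positivity)

lemma Close.norm_logMap_sub_le {x x' : mixedSpace M} {ρ γ : ℝ} (h : Close x x' ρ γ) :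
    ‖logMap x - logMap x'‖ ≤ 4 * (γ / ρ) := by
  have hρ : 0 < ρ := lt_of_lt_of_le one_pos h.hρ
  have hγ : 0 ≤ γ := (abs_nonneg _).trans (h.hγ w₀)
  have hq : 0 ≤ γ / ρ := div_nonneg hγ hρ.le
  rw [pi_norm_le_iff_of_nonneg (by positivity)]
  intro w
  rw [Pi.sub_apply, logMap_apply, logMap_apply, ← mul_sub, Real.norm_eq_abs, abs_mul,
    abs_of_nonneg (by positivity : (0:ℝ) ≤ (mult w.1 : ℝ))]
  have h1 := abs_log_sub_log_le hρ (h.hx w.1) (h.hx' w.1) (h.hγ w.1)
  have h2 := h.abs_log_norm_sub_le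
  have hn := finrank_pos_real (M := M)
  have h3 : |(Real.log (mixedEmbedding.norm x) - Real.log (mixedEmbedding.norm x')) *
      (Module.finrank ℚ M : ℝ)⁻¹| ≤ γ / ρ := by
    rw [abs_mul, abs_of_pos (inv_pos.mpr hn), ← div_eq_mul_inv, div_le_iff₀ hn]
    linarith
  have h4 : |Real.log (normAtPlace w.1 x) -
      Real.log (mixedEmbedding.norm x) * (Module.finrank ℚ M : ℝ)⁻¹ -
      (Real.log (normAtPlace w.1 x') -
      Real.log (mixedEmbedding.norm x') * (Module.finrank ℚ M : ℝ)⁻¹)| ≤ 2 * (γ / ρ) := by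
    have e : Real.log (normAtPlace w.1 x) -
      Real.log (mixedEmbedding.norm x) * (Module.finrank ℚ M : ℝ)⁻¹ -
      (Real.log (normAtPlace w.1 x') -
      Real.log (mixedEmbedding.norm x') * (Module.finrank ℚ M : ℝ)⁻¹) =
      (Real.log (normAtPlace w.1 x) - Real.log (normAtPlace w.1 x')) -
      (Real.log (mixedEmbedding.norm x) - Real.log (mixedEmbedding.norm x')) *
      (Module.finrank ℚ M : ℝ)⁻¹ := by ring
    rw [e]
    refine (abs_sub _ _).trans ?_
    linarith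
  have h5 := mult_le_two w.1
  have h6 := abs_nonneg (Real.log (normAtPlace w.1 x) -
      Real.log (mixedEmbedding.norm x) * (Module.finrank ℚ M : ℝ)⁻¹ -
      (Real.log (normAtPlace w.1 x') -
      Real.log (mixedEmbedding.norm x') * (Module.finrank ℚ M : ℝ)⁻¹))
  nlinarith

lemma rpow_neg_le {N ρ s : ℝ} {n : ℕ} (hρ : 1 ≤ ρ) (hN : ρ ^ n ≤ N) (hs : 1 ≤ s) :
    N ^ (-s) ≤ (ρ ^ n)⁻¹ := by
  have h1 : 1 ≤ ρ ^ n := one_le_pow₀ hρ
  have hN1 : 1 ≤ N := h1.trans hN
  have hN0 : 0 < N := lt_of_lt_of_le one_pos hN1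
  rw [Real.rpow_neg hN0.le]
  apply inv_anti₀ (by positivity)
  calc ρ ^ n ≤ N := hN
    _ = N ^ (1:ℝ) := (Real.rpow_one N).symm
    _ ≤ N ^ s := Real.rpow_le_rpow_of_exponent_le hN1 hs

lemma Close.abs_rpow_sub_le {x x' : mixedSpace M} {ρ γ : ℝ} (h : Close x x' ρ γ) {s : ℝ}
    (hs : s ∈ Set.Icc (1:ℝ) 2) :
    |mixedEmbedding.norm x ^ (-s) - mixedEmbedding.norm x' ^ (-s)| ≤
      2 * ((Module.finrank ℚ M : ℝ) * (γ / ρ)) * (ρ ^ Module.finrank ℚ M)⁻¹ := by
  have hρ : 0 < ρ := lt_of_lt_of_le one_pos h.hρ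
  have hN : 0 < mixedEmbedding.norm x :=
    lt_of_le_of_ne (mixedEmbedding.norm_nonneg _) h.norm_ne_zero.1.symm
  have hN' : 0 < mixedEmbedding.norm x' :=
    lt_of_le_of_ne (mixedEmbedding.norm_nonneg _) h.norm_ne_zero.2.symm
  have b1 := rpow_neg_le h.hρ (pow_le_norm hρ.le h.hx) hs.1
  have b2 := rpow_neg_le h.hρ (pow_le_norm hρ.le h.hx') hs.1
  have e1 : mixedEmbedding.norm x ^ (-s) = Real.exp (-(Real.log (mixedEmbedding.norm x) * s)) := by
    rw [Real.rpow_def_of_pos hN]; congr 1; ring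
  have e2 : mixedEmbedding.norm x' ^ (-s) =
      Real.exp (-(Real.log (mixedEmbedding.norm x') * s)) := by
    rw [Real.rpow_def_of_pos hN']; congr 1; ring
  rw [e1] at b1 ⊢
  rw [e2] at b2 ⊢
  refine (abs_exp_neg_sub_le b1 b2).trans ?_
  refine mul_le_mul_of_nonneg_right ?_ (by positivity)
  rw [← sub_mul, abs_mul, abs_of_nonneg (by linarith [hs.1] : 0 ≤ s), mul_comm]
  have h2 := h.abs_log_norm_sub_le
  have := abs_nonneg (Real.log (mixedEmbedding.norm x) - Real.log (mixedEmbedding.norm x'))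
  nlinarith [hs.1, hs.2]

lemma Close.abs_gs_sub_le {x x' : mixedSpace M} {ρ γ : ℝ} (h : Close x x' ρ γ) {s : ℝ}
    (hs : s ∈ Set.Icc (1:ℝ) 2) {C : ℝ} (hC : 0 ≤ C)
    (hφ : |phi M x - phi M x'| ≤ C * ‖logMap x - logMap x'‖) :
    |gs M s x - gs M s x'| ≤
      (4 * C + 2 * (Module.finrank ℚ M : ℝ)) * γ * ρ⁻¹ ^ (Module.finrank ℚ M + 1) := by
  have hρ : 0 < ρ := lt_of_lt_of_le one_pos h.hρ
  have hγ : 0 ≤ γ := (abs_nonneg _).trans (h.hγ w₀)
  have b1 := rpow_neg_le h.hρ (pow_le_norm hρ.le h.hx) hs.1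
  have b0 : 0 ≤ mixedEmbedding.norm x ^ (-s) := Real.rpow_nonneg (mixedEmbedding.norm_nonneg _) _
  have h1 := h.abs_rpow_sub_le hs
  have h2 := hφ.trans (mul_le_mul_of_nonneg_left h.norm_logMap_sub_le hC)
  unfold gs
  have e : phi M x * mixedEmbedding.norm x ^ (-s) - phi M x' * mixedEmbedding.norm x' ^ (-s) =
      (phi M x - phi M x') * mixedEmbedding.norm x ^ (-s) +
      phi M x' * (mixedEmbedding.norm x ^ (-s) - mixedEmbedding.norm x' ^ (-s)) := by ring
  rw [e]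
  refine (abs_add_le _ _).trans ?_
  rw [abs_mul, abs_mul, abs_of_nonneg b0, abs_of_nonneg (phi_nonneg M x')]
  have t1 : |phi M x - phi M x'| * mixedEmbedding.norm x ^ (-s) ≤
      (C * (4 * (γ / ρ))) * (ρ ^ Module.finrank ℚ M)⁻¹ :=
    mul_le_mul h2 b1 b0 (by positivity)
  have t2 : phi M x' * |mixedEmbedding.norm x ^ (-s) - mixedEmbedding.norm x' ^ (-s)| ≤
      1 * (2 * ((Module.finrank ℚ M : ℝ) * (γ / ρ)) * (ρ ^ Module.finrank ℚ M)⁻¹) :=
    mul_le_mul (phi_le_one M x') h1 (abs_nonneg _) zero_le_one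
  have e2 : (4 * C + 2 * (Module.finrank ℚ M : ℝ)) * γ * ρ⁻¹ ^ (Module.finrank ℚ M + 1) =
      (C * (4 * (γ / ρ))) * (ρ ^ Module.finrank ℚ M)⁻¹ +
      1 * (2 * ((Module.finrank ℚ M : ℝ) * (γ / ρ)) * (ρ ^ Module.finrank ℚ M)⁻¹) := by
    rw [pow_succ, inv_pow]
    field_simp
  rw [e2]
  exact add_le_add t1 t2

lemma abs_normAtPlace_sub_le (w : InfinitePlace M) (x y : mixedSpace M) :
    |normAtPlace w (x + y) - normAtPlace w x| ≤ ‖y‖ := by
  have h1 := normAtPlace_add_le w x y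
  have h2 := normAtPlace_add_le w (x + y) (-y)
  rw [normAtPlace_neg, add_neg_cancel_right] at h2
  have h3 := normAtPlace_le_norm w y
  rw [abs_le]
  constructor <;> linarith

lemma gs_ne_zero {s : ℝ} (hs : s ≠ 0) {x : mixedSpace M} (h : gs M s x ≠ 0) :
    phi M x ≠ 0 ∧ mixedEmbedding.norm x ≠ 0 := by
  unfold gs at h
  refine ⟨left_ne_zero_of_mul h, fun h0 ↦ ?_⟩
  rw [h0, Real.zero_rpow (neg_ne_zero.mpr hs), mul_zero] at h
  exact h rfl

/-- the far-away estimate -/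
lemma far_estimate {K C : ℝ} (hK : 1 ≤ K) (hC : 0 ≤ C)
    (hcone : ∀ x : mixedSpace M, phi M x ≠ 0 →
      mixedEmbedding.norm x ≠ 0 → ∀ w, ‖x‖ ≤ K * normAtPlace w x)
    (hlip : ∀ x x' : mixedSpace M, |phi M x - phi M x'| ≤ C * ‖logMap x - logMap x'‖)
    {s : ℝ} (hs : s ∈ Set.Icc (1:ℝ) 2) (x y : mixedSpace M)
    (hx : 4 * K * (‖y‖ + 1) ≤ ‖x‖) :
    |gs M s (x + y) - gs M s x| ≤
      (4 * C + 2 * (Module.finrank ℚ M : ℝ)) * ‖y‖ * (2 * K) ^ (Module.finrank ℚ M + 1) *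
        ‖x‖⁻¹ ^ (Module.finrank ℚ M + 1) := by
  have hs0 : s ≠ 0 := by have := hs.1; positivity
  have hK0 : 0 < K := lt_of_lt_of_le one_pos hK
  have hy : 0 ≤ ‖y‖ := norm_nonneg y
  have hx0 : 0 < ‖x‖ := lt_of_lt_of_le (by positivity) hx
  by_cases h0 : gs M s (x + y) = 0 ∧ gs M s x = 0
  · rw [h0.1, h0.2, sub_zero, abs_zero]
    positivity
  have hclose : Close (x + y) x (‖x‖ / (2 * K)) ‖y‖ := by
    have hρ : 1 ≤ ‖x‖ / (2 * K) := by
      rw [le_div_iff₀ (by positivity)]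
      nlinarith
    have hKy : K * ‖y‖ ≤ ‖x‖ / 4 := by nlinarith
    have hdiff := fun w ↦ abs_le.mp (abs_normAtPlace_sub_le w x y)
    have key : ∀ w, ‖x‖ / (2 * K) ≤ normAtPlace w (x + y) ∧ ‖x‖ / (2 * K) ≤ normAtPlace w x := by
      intro w
      rw [div_le_iff₀ (by positivity), div_le_iff₀ (by positivity)]
      by_cases h1 : gs M s x = 0
      · have h2 : gs M s (x + y) ≠ 0 := fun h ↦ h0 ⟨h, h1⟩
        obtain ⟨hp, hn⟩ := gs_ne_zero hs0 h2
        have h3 := hcone _ hp hn w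
        have h4 : ‖x‖ - ‖y‖ ≤ ‖x + y‖ := by
          have := norm_sub_norm_le x (-y)
          rwa [norm_neg, sub_neg_eq_add] at this
        have h5 := (hdiff w).2
        constructor
        · nlinarith
        · nlinarith
      · obtain ⟨hp, hn⟩ := gs_ne_zero hs0 h1
        have h3 := hcone _ hp hn w
        have h5 := (hdiff w).1
        constructor
        · nlinarith
        · nlinarith
    exact ⟨hρ, fun w ↦ (key w).1, fun w ↦ (key w).2, fun w ↦ abs_normAtPlace_sub_le w x y⟩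
  have := hclose.abs_gs_sub_le hs hC (hlip _ _)
  refine this.trans (le_of_eq ?_)
  rw [inv_div, div_eq_mul_inv, mul_pow]
  ring

lemma one_le_norm_int {v : 𝓞 M} (hv : v ≠ 0) :
    1 ≤ mixedEmbedding.norm (mixedEmbedding M (v : M)) := by
  rw [norm_eq_norm, ← Algebra.coe_norm_int]
  have h : Algebra.norm ℤ v ≠ 0 := Algebra.norm_ne_zero_iff.mpr hv
  have h1 : (1 : ℤ) ≤ |Algebra.norm ℤ v| := Int.one_le_abs h
  have h2 : ((1 : ℤ) : ℝ) ≤ ((|Algebra.norm ℤ v| : ℤ) : ℝ) := by exact_mod_cast h1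
  push_cast at h2 ⊢
  exact h2

lemma gsInt_mem {s : ℝ} (hs : 0 < s) (v : 𝓞 M) : 0 ≤ gsInt M s v ∧ gsInt M s v ≤ 1 := by
  unfold gsInt gs
  have h0 : 0 ≤ mixedEmbedding.norm (mixedEmbedding M (v : M)) ^ (-s) :=
    Real.rpow_nonneg (mixedEmbedding.norm_nonneg _) _
  refine ⟨mul_nonneg (phi_nonneg M _) h0, ?_⟩
  have h1 : mixedEmbedding.norm (mixedEmbedding M (v : M)) ^ (-s) ≤ 1 := by
    by_cases hv : v = 0
    · subst hv
      simp [Real.zero_rpow (neg_ne_zero.mpr hs.ne')]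
    · exact Real.rpow_le_one_of_one_le_of_nonpos (one_le_norm_int hv) (by linarith)
  calc _ ≤ (1:ℝ) * 1 := mul_le_mul (phi_le_one M _) h1 h0 zero_le_one
    _ = 1 := one_mul 1

lemma mem_integerLattice (v : 𝓞 M) :
    mixedEmbedding M (v : M) ∈ mixedEmbedding.integerLattice M :=
  LinearMap.mem_range.mpr ⟨v, rfl⟩

lemma finrank_integerLattice :
    Module.finrank ℤ (mixedEmbedding.integerLattice M) = Module.finrank ℚ M := by
  rw [ZLattice.rank ℝ, mixedEmbedding.finrank]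

lemma summable_lattice : Summable fun z : mixedEmbedding.integerLattice M ↦
    ‖(z : mixedSpace M)‖⁻¹ ^ (Module.finrank ℚ M + 1) := 
  ZLattice.summable_norm_pow_inv (mixedEmbedding.integerLattice M)
    (Module.finrank ℚ M + 1) (by
      rw [finrank_integerLattice]
      exact Nat.lt_succ_self _)

/-- The embedding of an ideal into the integer lattice. -/
noncomputable def toLat (J : Ideal (𝓞 M)) (v : J) : mixedEmbedding.integerLattice M :=
  ⟨mixedEmbedding M ((v : 𝓞 M) : M), mem_integerLattice _⟩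

lemma toLat_coe (J : Ideal (𝓞 M)) (v : J) :
    ((toLat J v : mixedEmbedding.integerLattice M) : mixedSpace M) =
      mixedEmbedding M ((v : 𝓞 M) : M) := rfl

lemma toLat_injective (J : Ideal (𝓞 M)) : Function.Injective (toLat J) := by
  intro a b hab
  have h1 : mixedEmbedding M ((a : 𝓞 M) : M) = mixedEmbedding M ((b : 𝓞 M) : M) := by
    rw [← toLat_coe, ← toLat_coe, hab]
  have h2 := mixedEmbedding_injective M h1
  exact Subtype.ext (RingOfIntegers.ext h2)

lemma summable_majorant (J : Ideal (𝓞 M)) :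
    Summable (fun v : J ↦ ‖mixedEmbedding M ((v : 𝓞 M) : M)‖⁻¹ ^ (Module.finrank ℚ M + 1)) := by
  have h := (summable_lattice (M := M)).comp_injective (toLat_injective J)
  have e : ((fun z : mixedEmbedding.integerLattice M ↦
    ‖(z : mixedSpace M)‖⁻¹ ^ (Module.finrank ℚ M + 1)) ∘ toLat J) =
    (fun v : J ↦ ‖mixedEmbedding M ((v : 𝓞 M) : M)‖⁻¹ ^ (Module.finrank ℚ M + 1)) := by
    funext v
    simp only [Function.comp_apply, toLat_coe]
  rwa [e] at h

end Fermat.Agent.S14.BddKey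

namespace Fermat.Agent.S14

open NumberField NumberField.mixedEmbedding BddKey

theorem keyEstimate (M : Type*) [Field M] [NumberField M] : KeyEstimate M := by
  classical
  intro J c
  obtain ⟨C, hC, hlip⟩ := exists_phi_lipschitz M
  obtain ⟨K, hK, hcone⟩ := exists_cone M
  set n := Module.finrank ℚ M with hn
  set y : mixedSpace M := mixedEmbedding M (c : M) with hy
  set M₀ : ℝ := 4 * K * (‖y‖ + 1) with hM₀
  set C' : ℝ := (4 * C + 2 * (n : ℝ)) * ‖y‖ * (2 * K) ^ (n + 1) + M₀ ^ (n + 1) with hC'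
  have hK0 : 0 < K := lt_of_lt_of_le one_pos hK
  have hM₀pos : 0 < M₀ := by positivity
  set b : J → ℝ := fun v ↦ C' * ‖mixedEmbedding M ((v : 𝓞 M) : M)‖⁻¹ ^ (n + 1) +
    (if v = 0 then 1 else 0) with hb
  have hbs : Summable b :=
    ((summable_majorant J).mul_left C').add (hasSum_ite_eq (0 : J) (1 : ℝ)).summable
  have hle : ∀ s ∈ Set.Icc (1:ℝ) 2, ∀ v : J,
      |gsInt M s ((v : 𝓞 M) + c) - gsInt M s (v : 𝓞 M)| ≤ b v := by
    intro s hs v
    have hs0 : 0 < s := lt_of_lt_of_le one_pos hs.1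
    have hsmall : |gsInt M s ((v : 𝓞 M) + c) - gsInt M s (v : 𝓞 M)| ≤ 1 := by
      have h1 := gsInt_mem hs0 ((v : 𝓞 M) + c)
      have h2 := gsInt_mem hs0 (v : 𝓞 M)
      rw [abs_le]; constructor <;> linarith [h1.1, h1.2, h2.1, h2.2]
    have hA : 0 ≤ (4 * C + 2 * (n : ℝ)) * ‖y‖ * (2 * K) ^ (n + 1) := by positivity
    have hB : 0 ≤ M₀ ^ (n + 1) := by positivity
    have hP : 0 ≤ ‖mixedEmbedding M ((v : 𝓞 M) : M)‖⁻¹ ^ (n + 1) := by positivity
    by_cases hv : v = 0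
    · simp only [hb, hv, if_true]
      subst hv
      refine hsmall.trans ?_
      have : 0 ≤ C' * ‖mixedEmbedding M (((0 : J) : 𝓞 M) : M)‖⁻¹ ^ (n + 1) := by positivity
      linarith
    · simp only [hb, hv, if_false, add_zero]
      have hx0 : 0 < ‖mixedEmbedding M ((v : 𝓞 M) : M)‖ := by
        rw [norm_pos_iff]
        intro h
        apply hv
        have h2 : ((v : 𝓞 M) : M) = 0 := by
          apply mixedEmbedding_injective M
          rw [h, map_zero]
        exact Subtype.ext (RingOfIntegers.ext h2)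
      by_cases hfar : M₀ ≤ ‖mixedEmbedding M ((v : 𝓞 M) : M)‖
      · have := far_estimate hK hC hcone hlip hs (mixedEmbedding M ((v : 𝓞 M) : M)) y hfar
        have e : gsInt M s ((v : 𝓞 M) + c) = gs M s (mixedEmbedding M ((v : 𝓞 M) : M) + y) := by
          unfold gsInt
          rw [hy, ← map_add]
          rfl
        rw [e]
        refine this.trans ?_
        rw [hC', add_mul]
        nlinarith
      · push Not at hfar
        refine hsmall.trans ?_
        have h1 : 1 ≤ M₀ ^ (n + 1) * ‖mixedEmbedding M ((v : 𝓞 M) : M)‖⁻¹ ^ (n + 1) := by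
          rw [← mul_pow]
          apply one_le_pow₀
          rw [← div_eq_mul_inv, le_div_iff₀ hx0]
          linarith
        rw [hC', add_mul]
        nlinarith
  refine ⟨∑' v, b v, fun s hs ↦ ?_⟩
  have hsum : Summable (fun v : J ↦ |gsInt M s ((v : 𝓞 M) + c) - gsInt M s (v : 𝓞 M)|) :=
    Summable.of_nonneg_of_le (fun _ ↦ abs_nonneg _) (hle s hs) hbs
  exact ⟨hsum, hsum.tsum_le_tsum (hle s hs) hbs⟩

end Fermat.Agent.S14
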