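/-
S14 [ClHom], abstract part: from an eigen-element of order `p` to an eigen-homomorphism to `𝔽_p`.
-/
import Mathlib
import Fermat.Prelude.Def_ClassGroup_ModP

set_option autoImplicit false
set_option linter.unusedSectionVars false

namespace Fermat.Agent.S14

open JacobiSumStickelberger

noncomputable section

variable {C : Type*} [CommGroup C] {p : ℕ} [Fact p.Prime]

/-- Homomorphisms to `𝔽_p` separate `C / C^p`. -/
theorem exists_pow_eq_of_forall_hom (z : C)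
    (h : ∀ f : C →* Multiplicative (ZMod p), f z = 1) : ∃ w : C, w ^ p = z := by
  by_contra hcon
  have hv : ModP.proj p (Additive C) (Additive.ofMul z) ≠ 0 := by
    intro h0
    obtain ⟨y, hy⟩ := (ModP.proj_eq_zero_iff p (Additive C)).mp h0
    exact hcon ⟨y.toMul, hy⟩
  have h2 := (Module.forall_dual_apply_eq_zero_iff (ZMod p)
    (ModP.proj p (Additive C) (Additive.ofMul z))).not.mpr hv
  rw [not_forall] at h2
  obtain ⟨φ, hφ⟩ := h2
  let f : C →* Multiplicative (ZMod p) :=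
    { toFun := fun y ↦ Multiplicative.ofAdd (φ (ModP.proj p (Additive C) (Additive.ofMul y)))
      map_one' := by simp
      map_mul' := fun a b ↦ by
        rw [ofMul_mul, map_add, map_add, ofAdd_add] }
  exact hφ (h f)

variable {G : Type*} [Group G] [Fintype G]

/-- The averaged homomorphism. -/
def avgHom (A : G → C →* C) (ψ : G →* (ZMod p)ˣ) (f₁ : C →* Multiplicative (ZMod p)) :
    C →* Multiplicative (ZMod p) where
  toFun y := Multiplicative.ofAdd (∑ σ : G, ((ψ σ)⁻¹ : (ZMod p)ˣ) * (f₁ (A σ y)).toAdd)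
  map_one' := by
    have : ∀ σ : G, (((ψ σ)⁻¹ : (ZMod p)ˣ) : ZMod p) * (f₁ (A σ 1)).toAdd = 0 := by
      intro σ
      rw [map_one, map_one, toAdd_one, mul_zero]
    rw [Finset.sum_congr rfl fun σ _ ↦ this σ, Finset.sum_const_zero]
    rfl
  map_mul' a b := by
    rw [← ofAdd_add, ← Finset.sum_add_distrib]
    congr 1
    refine Finset.sum_congr rfl fun σ _ ↦ ?_
    rw [map_mul, map_mul, toAdd_mul, mul_add]

theorem avgHom_apply (A : G → C →* C) (ψ : G →* (ZMod p)ˣ) (f₁ : C →* Multiplicative (ZMod p))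
    (y : C) : (avgHom A ψ f₁ y).toAdd =
      ∑ σ : G, ((ψ σ)⁻¹ : (ZMod p)ˣ) * (f₁ (A σ y)).toAdd := rfl

theorem avgHom_equivariant (A : G → C →* C) (hA : ∀ σ τ y, A (σ * τ) y = A σ (A τ y))
    (ψ : G →* (ZMod p)ˣ) (f₁ : C →* Multiplicative (ZMod p)) (τ : G) (y : C) :
    (avgHom A ψ f₁ (A τ y)).toAdd = (ψ τ : ZMod p) * (avgHom A ψ f₁ y).toAdd := by
  rw [avgHom_apply, avgHom_apply, Finset.mul_sum]
  refine Fintype.sum_equiv (Equiv.mulRight τ) _ _ fun σ ↦ ?_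
  simp only [Equiv.coe_mulRight]
  rw [hA, map_mul, mul_inv, Units.val_mul, ← mul_assoc, ← mul_assoc]
  congr 1
  rw [mul_comm ((ψ τ : (ZMod p)ˣ) : ZMod p), mul_assoc, Units.mul_inv, mul_one]

/-- The corresponding endomorphism of `C`. -/
def avgEnd (A : G → C →* C) (ψ : G →* (ZMod p)ˣ) : C →* C where
  toFun y := ∏ σ : G, (A σ y) ^ (((ψ σ)⁻¹ : (ZMod p)ˣ) : ZMod p).val
  map_one' := by
    refine Finset.prod_eq_one fun σ _ ↦ ?_
    rw [map_one, one_pow]
  map_mul' a b := by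
    rw [← Finset.prod_mul_distrib]
    refine Finset.prod_congr rfl fun σ _ ↦ ?_
    rw [map_mul, mul_pow]

theorem hom_avgEnd (A : G → C →* C) (ψ : G →* (ZMod p)ˣ) (f₁ : C →* Multiplicative (ZMod p))
    (y : C) : f₁ (avgEnd A ψ y) = avgHom A ψ f₁ y := by
  apply Multiplicative.toAdd.injective
  rw [avgHom_apply]
  show (f₁ (∏ σ : G, (A σ y) ^ (((ψ σ)⁻¹ : (ZMod p)ˣ) : ZMod p).val)).toAdd = _
  rw [map_prod, toAdd_prod]
  refine Finset.sum_congr rfl fun σ _ ↦ ?_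
  rw [map_pow, toAdd_pow, nsmul_eq_mul, ZMod.natCast_val, ZMod.cast_id', id]

theorem exists_eigen_hom [Finite C] (A : G → C →* C) (hA : ∀ σ τ y, A (σ * τ) y = A σ (A τ y))
    (ψ : G →* (ZMod p)ˣ) (hG : ((Fintype.card G : ℕ) : ZMod p) ≠ 0)
    (x : C) (hx1 : x ≠ 1) (hxp : x ^ p = 1)
    (hx : ∀ σ, A σ x = x ^ ((ψ σ : (ZMod p)ˣ) : ZMod p).val) :
    ∃ f : C →* Multiplicative (ZMod p), f ≠ 1 ∧
      ∀ σ y, (f (A σ y)).toAdd = (ψ σ : ZMod p) * (f y).toAdd := by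
  classical
  have hp : p.Prime := Fact.out
  by_contra hcon
  push Not at hcon
  have hall : ∀ f₁ : C →* Multiplicative (ZMod p), avgHom A ψ f₁ = 1 := by
    intro f₁
    by_contra hne
    obtain ⟨σ, y, hσy⟩ := hcon _ hne
    exact hσy (avgHom_equivariant A hA ψ f₁ σ y)
  have hE : ∀ y : C, ∃ w : C, w ^ p = avgEnd A ψ y := by
    intro y
    refine exists_pow_eq_of_forall_hom _ fun f₁ ↦ ?_
    rw [hom_avgEnd, hall]; rfl
  have hord : orderOf x = p := orderOf_eq_prime hxp hx1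
  -- `E' x = x ^ k` with `k ≡ |G|`
  set k : ℕ := ∑ σ : G, ((ψ σ : (ZMod p)ˣ) : ZMod p).val * (((ψ σ)⁻¹ : (ZMod p)ˣ) : ZMod p).val with hk
  have hEx : avgEnd A ψ x = x ^ k := by
    show ∏ σ : G, (A σ x) ^ (((ψ σ)⁻¹ : (ZMod p)ˣ) : ZMod p).val = _
    rw [hk, ← Finset.prod_pow_eq_pow_sum]
    refine Finset.prod_congr rfl fun σ _ ↦ ?_
    rw [hx, ← pow_mul]
  have hkG : (k : ZMod p) = (Fintype.card G : ℕ) := by
    rw [hk, Nat.cast_sum]
    have : ∀ σ : G, ((((ψ σ : (ZMod p)ˣ) : ZMod p).val * (((ψ σ)⁻¹ : (ZMod p)ˣ) : ZMod p).val : ℕ) :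
        ZMod p) = 1 := by
      intro σ
      rw [Nat.cast_mul, ZMod.natCast_val, ZMod.natCast_val, ZMod.cast_id', id, id, Units.mul_inv]
    rw [Finset.sum_congr rfl fun σ _ ↦ this σ, Finset.sum_const, Finset.card_univ, nsmul_eq_mul,
      mul_one]
  -- an inverse of `k`
  obtain ⟨k', hk'⟩ : ∃ k' : ℕ, x ^ (k * k') = x := by
    refine ⟨((k : ZMod p)⁻¹).val, ?_⟩
    conv_rhs => rw [← pow_one x]
    rw [pow_eq_pow_iff_modEq, hord, ← ZMod.natCast_eq_natCast_iff]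
    push_cast
    rw [ZMod.natCast_val, ZMod.cast_id', id, mul_inv_cancel₀ (by rw [hkG]; exact hG)]
  have hind : ∀ n : ℕ, ∃ w : C, w ^ (p ^ n) = x := by
    intro n
    induction n with
    | zero => exact ⟨x, by simp⟩
    | succ n ih =>
      obtain ⟨w, hw⟩ := ih
      obtain ⟨u, hu⟩ := hE w
      refine ⟨u ^ k', ?_⟩
      have h1 : u ^ (p ^ (n + 1)) = x ^ k := by
        rw [pow_succ', pow_mul, hu, ← map_pow, hw, hEx]
      rw [← pow_mul, mul_comm, pow_mul, h1, ← pow_mul, hk']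
  obtain ⟨e, m, hm, hcard⟩ := Nat.exists_eq_pow_mul_and_not_dvd (Nat.card_pos (α := C)).ne' p
    hp.ne_one
  obtain ⟨w, hw⟩ := hind e
  have h1 : x ^ m = 1 := by
    rw [← hw, ← pow_mul, ← hcard, pow_card_eq_one']
  have h2 : p ∣ m := by
    rw [← hord]; exact orderOf_dvd_of_pow_eq_one h1
  exact hm h2

end

end Fermat.Agent.S14
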