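/-
S14 [ClHom]: an `ω²`-eigenclass of order `p` produces an `ω²`-eigen homomorphism `Cl → 𝔽_p`.
-/
import Fermat.Agent.S14.ClHomAbs
import Fermat.Prelude.Def_ClassGroup_GaloisAction

set_option autoImplicit false
set_option linter.unusedSectionVars false

namespace Fermat.Agent.S14

open NumberField
open scoped nonZeroDivisors

noncomputable section

variable {p : ℕ} [Fact p.Prime]
variable {K : Type*} [Field K] [NumberField K]

/-- The ring automorphism of `𝓞 K` induced by `σ`. -/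
def sigO (σ : K ≃ₐ[ℚ] K) : 𝓞 K ≃+* 𝓞 K := RingOfIntegers.mapRingEquiv σ.toRingEquiv

theorem sigO_apply (σ : K ≃ₐ[ℚ] K) (x : 𝓞 K) : ((sigO σ x : 𝓞 K) : K) = σ (x : K) := rfl

theorem sigO_mul (σ τ : K ≃ₐ[ℚ] K) : sigO (σ * τ) = (sigO τ).trans (sigO σ) := by
  ext x
  rfl

/-- The action of `σ` on the class group. -/
def clAct (σ : K ≃ₐ[ℚ] K) : ClassGroup (𝓞 K) →* ClassGroup (𝓞 K) :=
  (ClassGroup.mulEquiv (sigO σ)).toMonoidHom

theorem clAct_mk0 (σ : K ≃ₐ[ℚ] K) (I : (Ideal (𝓞 K))⁰) :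
    clAct σ (ClassGroup.mk0 I) = ClassGroup.mk0 (Ideal.mapNonZero (sigO σ) I) :=
  ClassGroup.mulEquiv_mk0 _ _

theorem clAct_mul (σ τ : K ≃ₐ[ℚ] K) (y : ClassGroup (𝓞 K)) :
    clAct (σ * τ) y = clAct σ (clAct τ y) := by
  show ClassGroup.mulEquiv (sigO (σ * τ)) y = _
  rw [sigO_mul, ClassGroup.mulEquiv_trans_apply]
  rfl

/-- `f` is an `ω²`-eigen homomorphism. -/
def IsEigenHom (ζ : K) (f : ClassGroup (𝓞 K) →* Multiplicative (ZMod p)) : Prop :=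
  ∀ (σ : K ≃ₐ[ℚ] K) (b : ℕ), σ ζ = ζ ^ b → ∀ y : ClassGroup (𝓞 K), f (clAct σ y) = f y ^ (b ^ 2)

theorem IsEigenHom.mk0 {ζ : K} {f : ClassGroup (𝓞 K) →* Multiplicative (ZMod p)}
    (h : IsEigenHom ζ f) (σ : K ≃ₐ[ℚ] K) (b : ℕ) (hb : σ ζ = ζ ^ b) (I : (Ideal (𝓞 K))⁰) :
    f (ClassGroup.mk0 (Ideal.mapNonZero (sigO σ) I)) = f (ClassGroup.mk0 I) ^ (b ^ 2) := by
  rw [← clAct_mk0]; exact h σ b hb _

variable [IsCyclotomicExtension {p} ℚ K] {ζ : K} (hζ : IsPrimitiveRoot ζ p)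

include hζ in
theorem cast_eq_autToPow {σ : K ≃ₐ[ℚ] K} {b : ℕ} (hb : σ ζ = ζ ^ b) :
    (b : ZMod p) = (hζ.autToPow ℚ σ : ZMod p) := by
  have h1 := hζ.autToPow_spec ℚ σ
  rw [hb] at h1
  have hp : 0 < p := (Fact.out : p.Prime).pos
  rw [← pow_mod_orderOf ζ b, ← hζ.eq_orderOf] at h1
  have h2 := hζ.pow_inj (ZMod.val_lt _) (Nat.mod_lt _ hp) h1
  have h3 : ((b % p : ℕ) : ZMod p) = (b : ZMod p) := by simp
  rw [← h3, ← h2, ZMod.natCast_val, ZMod.cast_id', id]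

theorem pow_eq_pow_of_cast_eq {C : Type*} [Group C] {x : C} (hxp : x ^ p = 1) {a b : ℕ}
    (hab : (a : ZMod p) = b) : x ^ a = x ^ b := by
  rw [pow_eq_pow_iff_modEq]
  exact ((ZMod.natCast_eq_natCast_iff a b p).mp hab).of_dvd (orderOf_dvd_of_pow_eq_one hxp)

include hζ in
/-- [ClHom]. -/
theorem exists_clHom (x : ClassGroup (𝓞 K)) (hx1 : x ≠ 1) (hxp : x ^ p = 1)
    (hx : ∀ (σ : K ≃ₐ[ℚ] K) (b : ℕ), σ ζ = ζ ^ b → clAct σ x = x ^ (b ^ 2)) :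
    ∃ f : ClassGroup (𝓞 K) →* Multiplicative (ZMod p), f ≠ 1 ∧ IsEigenHom ζ f := by
  classical
  have hp : p.Prime := Fact.out
  let ψ : (K ≃ₐ[ℚ] K) →* (ZMod p)ˣ := (powMonoidHom 2).comp (hζ.autToPow ℚ)
  have hψ : ∀ σ, (ψ σ : ZMod p) = (hζ.autToPow ℚ σ : ZMod p) ^ 2 := fun σ ↦ by
    simp [ψ]
  have hcard : ((Fintype.card (K ≃ₐ[ℚ] K) : ℕ) : ZMod p) ≠ 0 := by
    have hgal : IsGalois ℚ K := IsCyclotomicExtension.isGalois {p} ℚ K
    have h1 : Fintype.card (K ≃ₐ[ℚ] K) = p - 1 := by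
      rw [← Nat.card_eq_fintype_card, IsGalois.card_aut_eq_finrank,
        IsCyclotomicExtension.finrank K (Polynomial.cyclotomic.irreducible_rat hp.pos),
        Nat.totient_prime hp]
    rw [h1, Ne, ZMod.natCast_eq_zero_iff]
    intro hd
    have := Nat.le_of_dvd (by have := hp.two_le; omega) hd
    have := hp.two_le
    omega
  obtain ⟨f, hf1, hf⟩ := exists_eigen_hom (p := p) (fun σ : K ≃ₐ[ℚ] K ↦ clAct σ) clAct_mul ψ hcard
    x hx1 hxp (fun σ ↦ by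
      rw [hx σ _ (hζ.autToPow_spec ℚ σ).symm]
      refine pow_eq_pow_of_cast_eq hxp ?_
      rw [ZMod.natCast_val, ZMod.cast_id', id, hψ]
      push_cast
      rw [ZMod.natCast_val, ZMod.cast_id', id])
  refine ⟨f, hf1, fun σ b hb y ↦ ?_⟩
  apply Multiplicative.toAdd.injective
  rw [hf σ y, toAdd_pow, nsmul_eq_mul, hψ, ← cast_eq_autToPow hζ hb]
  push_cast
  rfl

end

end Fermat.Agent.S14
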