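/-
S14 [ClHom]: the statement in the shape of `ClDefs.lean`.
-/
import Fermat.Agent.S14.ClHom
import Fermat.Agent.S14.ClDefs

set_option autoImplicit false
set_option linter.unusedSectionVars false

namespace Fermat.Agent.S14

open NumberField
open scoped nonZeroDivisors

variable {p : ℕ} [Fact p.Prime]
variable {K : Type*} [Field K] [NumberField K] [IsCyclotomicExtension {p} ℚ K]
variable {ζ : K} (hζ : IsPrimitiveRoot ζ p)

theorem clAct_mk0_sigI (σ : K ≃ₐ[ℚ] K) (I : (Ideal (𝓞 K))⁰) :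
    clAct σ (ClassGroup.mk0 I) = ClassGroup.mk0 (sigI σ I) :=
  clAct_mk0 σ I

/-- [ClHom] in the shape of `ClDefs`. -/
theorem exists_clHom_equivariant (I : (Ideal (𝓞 K))⁰) (h1 : ClassGroup.mk0 I ≠ 1)
    (hp : ClassGroup.mk0 I ^ p = 1)
    (hσ : ∀ (σ : K ≃ₐ[ℚ] K) (b : ℕ), σ ζ = ζ ^ b →
      ClassGroup.mk0 (sigI σ I) = ClassGroup.mk0 I ^ (b ^ 2)) :
    ∃ f : ClassGroup (𝓞 K) →* Multiplicative (ZMod p), f ≠ 1 ∧ Equivariant hζ f := by
  obtain ⟨f, hf1, hf⟩ := exists_clHom hζ (ClassGroup.mk0 I) h1 hp (fun σ b hb ↦ by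
    rw [clAct_mk0_sigI]; exact hσ σ b hb)
  refine ⟨f, hf1, fun σ b hb J ↦ ?_⟩
  rw [← clAct_mk0_sigI]
  exact hf σ b hb _

end Fermat.Agent.S14
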