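/-
S14 [Deg]: the primes whose absolute norm is not a prime number (or equals a fixed number)
contribute a bounded amount to `∑ N(v)^(-s)`.
-/
import Mathlib

set_option autoImplicit false
set_option linter.unusedSectionVars false
set_option linter.deprecated false

namespace Fermat.Agent.S14

open NumberField Ideal IsDedekindDomain

noncomputable section

variable (M : Type*) [Field M] [NumberField M]

/-- The rational prime below `v`. -/
def ratPrime (v : HeightOneSpectrum (𝓞 M)) : ℕ := absNorm (under ℤ v.asIdeal)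

variable {M}

theorem ratPrime_prime (v : HeightOneSpectrum (𝓞 M)) : (ratPrime M v).Prime := by
  have : NeZero v.asIdeal := ⟨v.ne_bot⟩
  exact Nat.absNorm_under_prime v.asIdeal

instance liesOver_ratPrime (v : HeightOneSpectrum (𝓞 M)) :
    v.asIdeal.LiesOver (span {((ratPrime M v : ℕ) : ℤ)}) :=
  Int.liesOver_span_absNorm v.asIdeal

theorem absNorm_eq_ratPrime_pow (v : HeightOneSpectrum (𝓞 M)) :
    ∃ f : ℕ, f ≠ 0 ∧ absNorm v.asIdeal = ratPrime M v ^ f := by
  refine ⟨_, ?_, absNorm_eq_pow_inertiaDeg' v.asIdeal (ratPrime_prime v)⟩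
  have : Fact (ratPrime M v).Prime := ⟨ratPrime_prime v⟩
  have : (span {((ratPrime M v : ℕ) : ℤ)}).IsMaximal :=
    Int.ideal_span_isMaximal_of_prime (ratPrime M v)
  exact inertiaDeg'_ne_zero _ _

theorem card_filter_ratPrime_le (Y : Finset (HeightOneSpectrum (𝓞 M))) (r : ℕ) :
    (Y.filter (fun v ↦ ratPrime M v = r)).card ≤ Module.finrank ℚ M := by
  classical
  by_cases hr : r.Prime
  · have : Fact r.Prime := ⟨hr⟩
    have : (span {(r : ℤ)}).IsMaximal := Int.ideal_span_isMaximal_of_prime r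
    have hr0 : span {(r : ℤ)} ≠ ⊥ := by
      simpa using hr.ne_zero
    refine le_trans ?_ (card_primesOverFinset_le_finrank (𝓞 M) ℚ M hr0)
    refine Finset.card_le_card_of_injOn (fun v ↦ v.asIdeal) ?_ ?_
    · intro v hv
      have hv' : ratPrime M v = r := (Finset.mem_filter.mp hv).2
      rw [Finset.mem_coe, IsDedekindDomain.mem_primesOverFinset_iff hr0]
      refine ⟨v.isPrime, ?_⟩
      rw [← hv']
      exact Int.liesOver_span_absNorm v.asIdeal
    · intro v _ w _ h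
      exact HeightOneSpectrum.ext h
  · have : Y.filter (fun v ↦ ratPrime M v = r) = ∅ := by
      rw [Finset.filter_eq_empty_iff]
      intro v _ h
      exact hr (h ▸ ratPrime_prime v)
    rw [this]; simp

theorem term_le_of_not_prime {v : HeightOneSpectrum (𝓞 M)} (hv : ¬ (absNorm v.asIdeal).Prime)
    {s : ℝ} (hs : 1 ≤ s) :
    (absNorm v.asIdeal : ℝ) ^ (-s) ≤ 1 / ((ratPrime M v : ℕ) : ℝ) ^ 2 := by
  obtain ⟨f, hf0, hf⟩ := absNorm_eq_ratPrime_pow v
  have hr := ratPrime_prime v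
  have hf2 : 2 ≤ f := by
    rcases f with _ | _ | f
    · exact absurd rfl hf0
    · exfalso; apply hv; rw [hf, zero_add, pow_one]; exact hr
    · omega
  have hr1 : (1 : ℝ) ≤ (ratPrime M v : ℕ) := by exact_mod_cast hr.one_lt.le
  have h1 : ((ratPrime M v : ℕ) : ℝ) ^ 2 ≤ (absNorm v.asIdeal : ℝ) := by
    rw [hf]; push_cast
    exact pow_le_pow_right₀ hr1 hf2
  have h0 : (0 : ℝ) < ((ratPrime M v : ℕ) : ℝ) ^ 2 := by positivity
  have h2 : (1 : ℝ) ≤ (absNorm v.asIdeal : ℝ) := le_trans (one_le_pow₀ hr1) h1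
  calc (absNorm v.asIdeal : ℝ) ^ (-s) ≤ (absNorm v.asIdeal : ℝ) ^ (-1 : ℝ) :=
        Real.rpow_le_rpow_of_exponent_le h2 (by linarith)
    _ = 1 / (absNorm v.asIdeal : ℝ) := by rw [Real.rpow_neg_one, one_div]
    _ ≤ 1 / ((ratPrime M v : ℕ) : ℝ) ^ 2 := one_div_le_one_div_of_le h0 h1

theorem term_le_one (v : HeightOneSpectrum (𝓞 M)) {s : ℝ} (hs : 0 ≤ s) :
    (absNorm v.asIdeal : ℝ) ^ (-s) ≤ 1 := by
  have h1 : (1 : ℝ) ≤ (absNorm v.asIdeal : ℝ) := by
    have : absNorm v.asIdeal ≠ 0 := by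
      rw [Ne, absNorm_eq_zero_iff]; exact v.ne_bot
    exact_mod_cast Nat.one_le_iff_ne_zero.mpr this
  exact Real.rpow_le_one_of_one_le_of_nonpos h1 (by linarith)

variable (M) in
/-- [Deg] -/
theorem deg_bound (q : ℕ) : ∃ C : ℝ, ∀ s : ℝ, 1 ≤ s → ∀ Y : Finset (HeightOneSpectrum (𝓞 M)),
    (∀ v ∈ Y, ¬ (absNorm v.asIdeal).Prime ∨ absNorm v.asIdeal = q) →
      ∑ v ∈ Y, (absNorm v.asIdeal : ℝ) ^ (-s) ≤ C := by
  classical
  have hsum : Summable (fun k : ℕ ↦ 1 / (k : ℝ) ^ 2) := Real.summable_one_div_nat_pow.mpr one_lt_two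
  have hfin : {I : Ideal (𝓞 M) | absNorm I = q}.Finite := finite_setOfPred_absNorm_eq q
  refine ⟨Module.finrank ℚ M * ∑' k : ℕ, 1 / (k : ℝ) ^ 2 + hfin.toFinset.card, ?_⟩
  intro s hs Y hY
  rw [← Finset.sum_filter_add_sum_filter_not Y (fun v ↦ ¬ (absNorm v.asIdeal).Prime)]
  refine add_le_add ?_ ?_
  · calc ∑ v ∈ Y.filter (fun v ↦ ¬ (absNorm v.asIdeal).Prime), (absNorm v.asIdeal : ℝ) ^ (-s)
        ≤ ∑ v ∈ Y.filter (fun v ↦ ¬ (absNorm v.asIdeal).Prime),
            1 / ((ratPrime M v : ℕ) : ℝ) ^ 2 :=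
          Finset.sum_le_sum fun v hv ↦ term_le_of_not_prime (Finset.mem_filter.mp hv).2 hs
      _ = ∑ r ∈ (Y.filter (fun v ↦ ¬ (absNorm v.asIdeal).Prime)).image (ratPrime M),
            ((Y.filter (fun v ↦ ¬ (absNorm v.asIdeal).Prime)).filter
              (fun v ↦ ratPrime M v = r)).card • (1 / (r : ℝ) ^ 2) :=
          Finset.sum_comp (fun r : ℕ ↦ 1 / (r : ℝ) ^ 2) (ratPrime M)
      _ ≤ ∑ r ∈ (Y.filter (fun v ↦ ¬ (absNorm v.asIdeal).Prime)).image (ratPrime M),
            (Module.finrank ℚ M : ℝ) * (1 / (r : ℝ) ^ 2) := by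
          refine Finset.sum_le_sum fun r _ ↦ ?_
          rw [nsmul_eq_mul]
          refine mul_le_mul_of_nonneg_right ?_ (by positivity)
          exact_mod_cast card_filter_ratPrime_le _ r
      _ = (Module.finrank ℚ M : ℝ) *
            ∑ r ∈ (Y.filter (fun v ↦ ¬ (absNorm v.asIdeal).Prime)).image (ratPrime M),
              (1 / (r : ℝ) ^ 2) := by rw [Finset.mul_sum]
      _ ≤ _ := by
          refine mul_le_mul_of_nonneg_left ?_ (Nat.cast_nonneg _)
          exact hsum.sum_le_tsum _ fun _ _ ↦ by positivity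
  · calc ∑ v ∈ Y.filter (fun v ↦ ¬ ¬ (absNorm v.asIdeal).Prime), (absNorm v.asIdeal : ℝ) ^ (-s)
        ≤ ∑ v ∈ Y.filter (fun v ↦ ¬ ¬ (absNorm v.asIdeal).Prime), (1 : ℝ) :=
          Finset.sum_le_sum fun v _ ↦ term_le_one v (by linarith)
      _ = ((Y.filter (fun v ↦ ¬ ¬ (absNorm v.asIdeal).Prime)).card : ℝ) := by simp
      _ ≤ _ := by
          have : (Y.filter (fun v ↦ ¬ ¬ (absNorm v.asIdeal).Prime)).card ≤ hfin.toFinset.card := by
            refine Finset.card_le_card_of_injOn (fun v ↦ v.asIdeal) ?_ ?_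
            · intro v hv
              obtain ⟨hvY, hvp⟩ := Finset.mem_filter.mp hv
              rcases hY v hvY with h | h
              · exact absurd h hvp
              · simpa using h
            · intro v _ w _ h
              exact HeightOneSpectrum.ext h
          exact_mod_cast this

end

end Fermat.Agent.S14
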