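/-
S14 [Bdd] (B1): the smooth cut-off `phi` is a partition of unity along unit orbits.
-/
import Fermat.Agent.S14.BddDefs

set_option autoImplicit false

namespace Fermat.Agent.S14

open NumberField NumberField.mixedEmbedding NumberField.Units
open scoped nonZeroDivisors

noncomputable section

theorem tent_nonneg (t : ℝ) : 0 ≤ tent t := le_max_left _ _

theorem tent_le_one (t : ℝ) : tent t ≤ 1 := by
  unfold tent
  exact max_le zero_le_one (by linarith [abs_nonneg t])

theorem tent_eq_zero {t : ℝ} (h : 1 ≤ |t|) : tent t = 0 := by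
  unfold tent
  exact max_eq_left (by linarith)

theorem tent_of_abs_le {t : ℝ} (h : |t| ≤ 1) : tent t = 1 - |t| := by
  unfold tent
  exact max_eq_right (by linarith)

/-- The finite support of `k ↦ tent (t + k)`. -/
def tentSupp (t : ℝ) : Finset ℤ := {-⌊t⌋, -⌊t⌋ - 1}

theorem tent_add_eq_zero {t : ℝ} {k : ℤ} (hk : k ∉ tentSupp t) : tent (t + k) = 0 := by
  apply tent_eq_zero
  simp only [tentSupp, Finset.mem_insert, Finset.mem_singleton, not_or] at hk
  obtain ⟨h1, h2⟩ := hk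
  have hf1 := Int.floor_le t
  have hf2 := Int.lt_floor_add_one t
  rcases lt_trichotomy k (-⌊t⌋ - 1) with h | h | h
  · have : k ≤ -⌊t⌋ - 2 := by omega
    have h' : (k : ℝ) ≤ -(⌊t⌋ : ℝ) - 2 := by exact_mod_cast this
    rw [le_abs]; right; linarith
  · exact absurd h h2
  · have : -⌊t⌋ + 1 ≤ k := by omega
    have h' : -(⌊t⌋ : ℝ) + 1 ≤ (k : ℝ) := by exact_mod_cast this
    rw [le_abs]; left; linarith

theorem sum_tentSupp (t : ℝ) : ∑ k ∈ tentSupp t, tent (t + k) = 1 := by
  have hf1 := Int.floor_le t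
  have hf2 := Int.lt_floor_add_one t
  rw [tentSupp, Finset.sum_pair (by omega)]
  rw [tent_of_abs_le, tent_of_abs_le]
  · push_cast
    rw [abs_of_nonneg (by linarith), abs_of_nonpos (by linarith)]
    ring
  · push_cast
    rw [abs_le]; constructor <;> linarith
  · push_cast
    rw [abs_le]; constructor <;> linarith

theorem hasSum_tent (t : ℝ) : HasSum (fun k : ℤ ↦ tent (t + k)) 1 := by
  rw [← sum_tentSupp t]
  exact hasSum_sum_of_ne_finset_zero fun k hk ↦ tent_add_eq_zero hk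

theorem hasSum_prod_tent {r : ℕ} (t : Fin r → ℝ) :
    HasSum (fun n : Fin r → ℤ ↦ ∏ i, tent (t i + n i)) 1 := by
  have h1 : ∑ n ∈ Fintype.piFinset (fun i ↦ tentSupp (t i)), ∏ i, tent (t i + n i) = 1 := by
    have := Finset.prod_univ_sum (fun i ↦ tentSupp (t i)) (fun i (k : ℤ) ↦ tent (t i + k))
    rw [← this]
    simp [sum_tentSupp]
  rw [← h1]
  refine hasSum_sum_of_ne_finset_zero fun n hn ↦ ?_
  rw [Fintype.mem_piFinset, not_forall] at hn
  obtain ⟨i, hi⟩ := hn
  exact Finset.prod_eq_zero (Finset.mem_univ i) (tent_add_eq_zero hi)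

variable (M : Type*) [Field M] [NumberField M]

theorem phi_nonneg (x : mixedSpace M) : 0 ≤ phi M x :=
  Finset.prod_nonneg fun _ _ ↦ tent_nonneg _

theorem phi_le_one (x : mixedSpace M) : phi M x ≤ 1 :=
  Finset.prod_le_one (fun _ _ ↦ tent_nonneg _) fun _ _ ↦ tent_le_one _

/-- The parametrisation of the units by the torsion and the exponents. -/
def unitEquiv : torsion M × (Fin (rank M) → ℤ) ≃ (𝓞 M)ˣ :=
  Equiv.ofBijective (fun ζe ↦ ζe.1 * ∏ i, (fundSystem M i) ^ (ζe.2 i)) (by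
    constructor
    · intro a b hab
      obtain ⟨c, _, hc⟩ := exist_unique_eq_mul_prod M ((a.1 : (𝓞 M)ˣ) * ∏ i, (fundSystem M i) ^ (a.2 i))
      rw [hc a rfl, hc b hab]
    · intro x
      obtain ⟨c, hc, _⟩ := exist_unique_eq_mul_prod M x
      exact ⟨c, hc.symm⟩)

theorem unitEquiv_apply (ζe : torsion M × (Fin (rank M) → ℤ)) :
    unitEquiv M ζe = ζe.1 * ∏ i, (fundSystem M i) ^ (ζe.2 i) := rfl

theorem logEmbedding_unitEquiv (ζe : torsion M × (Fin (rank M) → ℤ)) :
    logEmbedding M (Additive.ofMul (unitEquiv M ζe)) =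
      ∑ i, (ζe.2 i) • (basisUnitLattice M i : dirichletUnitTheorem.logSpace M) := by
  rw [unitEquiv_apply, ofMul_mul, map_add, ofMul_prod, map_sum]
  have h0 : logEmbedding M (Additive.ofMul (ζe.1 : (𝓞 M)ˣ)) = 0 :=
    (dirichletUnitTheorem.logEmbedding_eq_zero_iff).mpr ζe.1.2
  rw [h0, zero_add]
  refine Finset.sum_congr rfl fun i _ ↦ ?_
  rw [ofMul_zpow, map_zsmul, logEmbedding_fundSystem]

theorem lcoord_unit_smul (ζe : torsion M × (Fin (rank M) → ℤ)) {x : mixedSpace M}
    (hx : mixedEmbedding.norm x ≠ 0) (i : Fin (rank M)) :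
    lcoord M (unitEquiv M ζe • x) i = lcoord M x i + ζe.2 i := by
  classical
  unfold lcoord
  rw [logMap_unit_smul _ hx, logEmbedding_unitEquiv, map_add, Finsupp.add_apply, add_comm]
  congr 1
  rw [map_sum, Finsupp.finsetSum_apply]
  have : ∀ j, (((basisUnitLattice M).ofZLatticeBasis ℝ (unitLattice M)).repr
      ((ζe.2 j) • (basisUnitLattice M j : dirichletUnitTheorem.logSpace M))) i =
      if j = i then (ζe.2 j : ℝ) else 0 := by
    intro j
    rw [← Module.Basis.ofZLatticeBasis_apply ℝ (unitLattice M) (basisUnitLattice M) j,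
      ← Int.cast_smul_eq_zsmul ℝ, map_smul, Module.Basis.repr_self, Finsupp.smul_apply,
      Finsupp.single_apply]
    split_ifs <;> simp
  rw [Finset.sum_congr rfl fun j _ ↦ this j]
  simp

theorem hasSum_phi_unit_smul {x : mixedSpace M} (hx : mixedEmbedding.norm x ≠ 0) :
    HasSum (fun u : (𝓞 M)ˣ ↦ phi M (u • x)) (torsionOrder M) := by
  rw [← (unitEquiv M).hasSum_iff]
  have h1 : ∀ ζ : torsion M, HasSum (fun n : Fin (rank M) → ℤ ↦
      ((fun u : (𝓞 M)ˣ ↦ phi M (u • x)) ∘ unitEquiv M) (ζ, n)) 1 := by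
    intro ζ
    have h2 := hasSum_prod_tent (fun i ↦ lcoord M x i)
    convert h2 using 2 with n
    simp only [Function.comp_apply, phi]
    exact Finset.prod_congr rfl fun i _ ↦ by rw [lcoord_unit_smul M (ζ, n) hx i]
  have h3 : Summable ((fun u : (𝓞 M)ˣ ↦ phi M (u • x)) ∘ unitEquiv M) := by
    have hnn : 0 ≤ ((fun u : (𝓞 M)ˣ ↦ phi M (u • x)) ∘ unitEquiv M) := fun _ ↦ phi_nonneg M _
    exact (summable_prod_of_nonneg hnn).mpr ⟨fun ζ ↦ (h1 ζ).summable, Summable.of_finite⟩
  have h4 := h3.hasSum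
  rw [h3.tsum_prod' (fun ζ ↦ (h1 ζ).summable)] at h4
  simp only [(h1 _).tsum_eq] at h4
  haveI : Fintype (torsion M) := Fintype.ofFinite _
  rw [tsum_fintype] at h4
  simpa [torsionOrder, Nat.card_eq_fintype_card] using h4

end

end Fermat.Agent.S14
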