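/-
S14 [Bdd] (B2): the partial zeta function as a smoothed sum over an ideal.
-/
import Fermat.Agent.S14.BddUnit

set_option autoImplicit false
set_option linter.unusedSectionVars false

namespace Fermat.Agent.S14

open NumberField NumberField.mixedEmbedding NumberField.Units Ideal
open scoped nonZeroDivisors

noncomputable section

variable (M : Type*) [Field M] [NumberField M]

theorem norm_mixedEmbedding_int (β : 𝓞 M) :
    mixedEmbedding.norm (mixedEmbedding M (β : M)) = (absNorm (span {β}) : ℝ) := by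
  rw [norm_eq_norm, absNorm_span_singleton, Nat.cast_natAbs, ← Rat.cast_intCast, Int.cast_abs,
    Algebra.coe_norm_int]

theorem gsInt_nonneg (s : ℝ) (β : 𝓞 M) : 0 ≤ gsInt M s β :=
  mul_nonneg (phi_nonneg M _) (Real.rpow_nonneg (mixedEmbedding.norm_nonneg _) _)

theorem gsInt_zero {s : ℝ} (hs : s ≠ 0) : gsInt M s 0 = 0 := by
  unfold gsInt gs
  have h0 : ((0 : 𝓞 M) : M) = 0 := map_zero _
  rw [h0, map_zero, map_zero, Real.zero_rpow (neg_ne_zero.mpr hs), mul_zero]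

theorem hasSum_gsInt_unit_mul (s : ℝ) {β : 𝓞 M} (hβ : β ≠ 0) :
    HasSum (fun u : (𝓞 M)ˣ ↦ gsInt M s (u * β))
      (torsionOrder M * (absNorm (span {β}) : ℝ) ^ (-s)) := by
  have hx : mixedEmbedding.norm (mixedEmbedding M (β : M)) ≠ 0 := by
    rw [norm_mixedEmbedding_int]
    exact Nat.cast_ne_zero.mpr (by simpa [absNorm_eq_zero_iff] using hβ)
  have h := (hasSum_phi_unit_smul M hx).mul_right ((absNorm (span {β}) : ℝ) ^ (-s))
  have hfun : (fun u : (𝓞 M)ˣ ↦ gsInt M s (u * β)) =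
      fun u : (𝓞 M)ˣ ↦ phi M (u • mixedEmbedding M (β : M)) * (absNorm (span {β}) : ℝ) ^ (-s) := by
    funext u
    unfold gsInt gs
    have : mixedEmbedding M (((u : 𝓞 M) * β : 𝓞 M) : M) = u • mixedEmbedding M (β : M) := by
      rw [unitSMul_smul, ← map_mul]; rfl
    rw [this, norm_unit_smul, norm_mixedEmbedding_int]
  rw [hfun]
  exact h

/-- The nonzero principal ideals divisible by `J`. -/
abbrev PrinDvd (J : (Ideal (𝓞 M))⁰) : Type _ :=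
  {I : (Ideal (𝓞 M))⁰ // J ∣ I ∧ Submodule.IsPrincipal (I : Ideal (𝓞 M))}

/-- A generator. -/
def PrinDvd.gen {J : (Ideal (𝓞 M))⁰} (I : PrinDvd M J) : 𝓞 M :=
  I.2.2.generator

theorem PrinDvd.span_gen {J : (Ideal (𝓞 M))⁰} (I : PrinDvd M J) :
    span {I.gen} = (I.1 : Ideal (𝓞 M)) :=
  I.2.2.span_singleton_generator

theorem PrinDvd.gen_ne_zero {J : (Ideal (𝓞 M))⁰} (I : PrinDvd M J) : I.gen ≠ 0 := by
  intro h
  have h1 := I.span_gen
  rw [h] at h1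
  have h2 : (I.1 : Ideal (𝓞 M)) ≠ 0 := nonZeroDivisors.coe_ne_zero _
  exact h2 (by rw [← h1]; simp)

theorem PrinDvd.gen_mem {J : (Ideal (𝓞 M))⁰} (I : PrinDvd M J) : I.gen ∈ (J : Ideal (𝓞 M)) := by
  have h1 : (J : Ideal (𝓞 M)) ∣ (I.1 : Ideal (𝓞 M)) := (nonZeroDivisors_dvd_iff_dvd_coe).mp I.2.1
  rw [← I.span_gen, dvd_span_singleton] at h1
  exact h1

/-- The nonzero elements of `J` are parametrised by principal ideals and units. -/
def elemEquiv (J : (Ideal (𝓞 M))⁰) :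
    PrinDvd M J × (𝓞 M)ˣ ≃ {β : 𝓞 M // β ∈ (J : Ideal (𝓞 M)) ∧ β ≠ 0} :=
  Equiv.ofBijective
    (fun Iu ↦ ⟨(Iu.2 : 𝓞 M) * Iu.1.gen, Ideal.mul_mem_left _ _ Iu.1.gen_mem,
      mul_ne_zero (Units.ne_zero _) Iu.1.gen_ne_zero⟩) (by
    constructor
    · rintro ⟨I, u⟩ ⟨I', u'⟩ h
      simp only [Subtype.mk.injEq] at h
      have h1 : span {I.gen} = span {I'.gen} := by
        rw [span_singleton_eq_span_singleton]
        refine ⟨u'⁻¹ * u, ?_⟩
        rw [Units.val_mul, mul_comm I.gen, mul_assoc, h, ← mul_assoc, Units.inv_mul, one_mul]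
      have h2 : I = I' := by
        apply Subtype.ext; apply Subtype.ext
        rw [← I.span_gen, ← I'.span_gen, h1]
      subst h2
      have h3 := mul_right_cancel₀ I.gen_ne_zero h
      rw [Units.ext h3]
    · rintro ⟨β, hβJ, hβ0⟩
      have hI0 : span {β} ∈ (Ideal (𝓞 M))⁰ :=
        mem_nonZeroDivisors_of_ne_zero (by simpa using hβ0)
      let I : PrinDvd M J := ⟨⟨span {β}, hI0⟩,
        (nonZeroDivisors_dvd_iff_dvd_coe).mpr (dvd_span_singleton.mpr hβJ), ⟨β, rfl⟩⟩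
      have h1 : span {I.gen} = span {β} := I.span_gen
      rw [span_singleton_eq_span_singleton] at h1
      obtain ⟨u, hu⟩ := h1
      exact ⟨⟨I, u⟩, Subtype.ext (by simp only; rw [mul_comm]; exact hu)⟩)

theorem elemEquiv_apply (J : (Ideal (𝓞 M))⁰) (Iu : PrinDvd M J × (𝓞 M)ˣ) :
    ((elemEquiv M J Iu : {β : 𝓞 M // β ∈ (J : Ideal (𝓞 M)) ∧ β ≠ 0}) : 𝓞 M) =
      (Iu.2 : 𝓞 M) * Iu.1.gen := rfl

/-- Ideals in the class `C` correspond to principal ideals divisible by `J ∈ C⁻¹`. -/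
def classEquiv {C : ClassGroup (𝓞 M)} {J : (Ideal (𝓞 M))⁰} (hJ : ClassGroup.mk0 J = C⁻¹) :
    {I : (Ideal (𝓞 M))⁰ // ClassGroup.mk0 I = C} ≃ PrinDvd M J :=
  ((Equiv.dvd J).subtypeEquiv fun I ↦ (by
    rw [← ClassGroup.mk0_eq_one_iff (SetLike.coe_mem _)]
    simp_rw [Equiv.dvd_apply, Submonoid.coe_mul, ← Submonoid.mul_def, _root_.map_mul, hJ,
      inv_mul_eq_one, eq_comm])).trans
    (Equiv.subtypeSubtypeEquivSubtypeInter (fun I : (Ideal (𝓞 M))⁰ ↦ J ∣ I) _)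

theorem classEquiv_apply {C : ClassGroup (𝓞 M)} {J : (Ideal (𝓞 M))⁰}
    (hJ : ClassGroup.mk0 J = C⁻¹) (I : {I : (Ideal (𝓞 M))⁰ // ClassGroup.mk0 I = C}) :
    ((classEquiv M hJ I).1 : Ideal (𝓞 M)) = (J : Ideal (𝓞 M)) * (I.1 : Ideal (𝓞 M)) := rfl

/-- summability of the zeta sum at `s`. -/
def ZSummable (s : ℝ) : Prop :=
  Summable (fun I : (Ideal (𝓞 M))⁰ ↦ (Ideal.absNorm (I : Ideal (𝓞 M)) : ℝ) ^ (-s))

variable {M}

theorem ZSummable.partial {s : ℝ} (h : ZSummable M s) (C : ClassGroup (𝓞 M)) :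
    Summable (fun I : {I : (Ideal (𝓞 M))⁰ // ClassGroup.mk0 I = C} ↦
      (Ideal.absNorm (I.1 : Ideal (𝓞 M)) : ℝ) ^ (-s)) :=
  h.subtype _

theorem partialZeta_nonneg (C : ClassGroup (𝓞 M)) (s : ℝ) : 0 ≤ partialZeta M C s :=
  tsum_nonneg fun _ ↦ Real.rpow_nonneg (Nat.cast_nonneg _) _

theorem ZSummable.partialZeta_le {s : ℝ} (h : ZSummable M s) (C : ClassGroup (𝓞 M)) :
    partialZeta M C s ≤ zetaSum M s :=
  h.tsum_subtype_le _ _ fun _ ↦ Real.rpow_nonneg (Nat.cast_nonneg _) _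

theorem hasSum_prinDvd {s : ℝ} (h : ZSummable M s) {C : ClassGroup (𝓞 M)} {J : (Ideal (𝓞 M))⁰}
    (hJ : ClassGroup.mk0 J = C⁻¹) :
    HasSum (fun I : PrinDvd M J ↦ (absNorm (I.1 : Ideal (𝓞 M)) : ℝ) ^ (-s))
      ((absNorm (J : Ideal (𝓞 M)) : ℝ) ^ (-s) * partialZeta M C s) := by
  rw [← (classEquiv M hJ).hasSum_iff]
  have h1 := ((h.partial C).hasSum).mul_left ((absNorm (J : Ideal (𝓞 M)) : ℝ) ^ (-s))
  have hfun : ((fun I : PrinDvd M J ↦ (absNorm (I.1 : Ideal (𝓞 M)) : ℝ) ^ (-s)) ∘ classEquiv M hJ)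
      = fun I : {I : (Ideal (𝓞 M))⁰ // ClassGroup.mk0 I = C} ↦
        (absNorm (J : Ideal (𝓞 M)) : ℝ) ^ (-s) * (Ideal.absNorm (I.1 : Ideal (𝓞 M)) : ℝ) ^ (-s) := by
    funext I
    simp only [Function.comp_apply]
    rw [classEquiv_apply, _root_.map_mul, Nat.cast_mul,
      Real.mul_rpow (Nat.cast_nonneg _) (Nat.cast_nonneg _)]
  rw [hfun]
  exact h1

/-- (B2). -/
theorem hasSum_gsInt_ideal {s : ℝ} (hs : s ≠ 0) (h : ZSummable M s) {C : ClassGroup (𝓞 M)}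
    {J : (Ideal (𝓞 M))⁰} (hJ : ClassGroup.mk0 J = C⁻¹) :
    HasSum (fun β : (J : Ideal (𝓞 M)) ↦ gsInt M s (β : 𝓞 M))
      (torsionOrder M * ((absNorm (J : Ideal (𝓞 M)) : ℝ) ^ (-s) * partialZeta M C s)) := by
  -- the sum over pairs
  have h1 : ∀ I : PrinDvd M J, HasSum (fun u : (𝓞 M)ˣ ↦ gsInt M s (elemEquiv M J (I, u) : 𝓞 M))
      (torsionOrder M * (absNorm (I.1 : Ideal (𝓞 M)) : ℝ) ^ (-s)) := by
    intro I
    have := hasSum_gsInt_unit_mul M s I.gen_ne_zero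
    rw [I.span_gen] at this
    exact this
  have h2 := (hasSum_prinDvd h hJ).mul_left (torsionOrder M : ℝ)
  have hnn : 0 ≤ fun Iu : PrinDvd M J × (𝓞 M)ˣ ↦ gsInt M s (elemEquiv M J Iu : 𝓞 M) :=
    fun _ ↦ gsInt_nonneg M s _
  have h3 : Summable fun Iu : PrinDvd M J × (𝓞 M)ˣ ↦ gsInt M s (elemEquiv M J Iu : 𝓞 M) := by
    refine (summable_prod_of_nonneg hnn).mpr ⟨fun I ↦ (h1 I).summable, ?_⟩
    simp only [(h1 _).tsum_eq]
    exact h2.summable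
  have h4 : HasSum (fun Iu : PrinDvd M J × (𝓞 M)ˣ ↦ gsInt M s (elemEquiv M J Iu : 𝓞 M))
      (torsionOrder M * ((absNorm (J : Ideal (𝓞 M)) : ℝ) ^ (-s) * partialZeta M C s)) := by
    have := h3.hasSum
    rw [h3.tsum_prod' (fun I ↦ (h1 I).summable)] at this
    simp only [(h1 _).tsum_eq] at this
    rwa [h2.tsum_eq] at this
  have h5 : HasSum (fun β : {β : 𝓞 M // β ∈ (J : Ideal (𝓞 M)) ∧ β ≠ 0} ↦ gsInt M s (β : 𝓞 M))
      (torsionOrder M * ((absNorm (J : Ideal (𝓞 M)) : ℝ) ^ (-s) * partialZeta M C s)) :=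
    (elemEquiv M J).hasSum_iff.mp h4
  let i : {β : 𝓞 M // β ∈ (J : Ideal (𝓞 M)) ∧ β ≠ 0} → (J : Ideal (𝓞 M)) := fun β ↦ ⟨β.1, β.2.1⟩
  have hi : Function.Injective i := fun a b hab ↦
    Subtype.ext (congrArg (fun z : (J : Ideal (𝓞 M)) ↦ (z : 𝓞 M)) hab)
  refine (hi.hasSum_iff ?_).mp h5
  intro β hβ
  have : (β : 𝓞 M) = 0 := by
    by_contra h0
    exact hβ ⟨⟨β.1, β.2, h0⟩, rfl⟩
  rw [this, gsInt_zero M hs]

end

end Fermat.Agent.S14
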