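/-
S14 [Bdd] (B4): differences of partial zeta functions are bounded on `(1,2]`.
-/
import Fermat.Agent.S14.BddClass

set_option autoImplicit false
set_option linter.unusedSectionVars false

namespace Fermat.Agent.S14

open NumberField NumberField.mixedEmbedding NumberField.Units Ideal
open scoped nonZeroDivisors

noncomputable section

section coset
def cosetEquiv {G : Type*} [AddCommGroup G] (s : AddSubgroup G) : (G ⧸ s) × s ≃ G where
  toFun qh := Quotient.out qh.1 + qh.2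
  invFun x := (QuotientAddGroup.mk x, ⟨-Quotient.out (QuotientAddGroup.mk x : G ⧸ s) + x, by
    rw [← QuotientAddGroup.eq]
    exact Quotient.out_eq _⟩)
  left_inv := by
    rintro ⟨q, h⟩
    have h1 : (QuotientAddGroup.mk (Quotient.out q + (h : G)) : G ⧸ s) = q := by
      rw [QuotientAddGroup.mk_add_of_mem _ h.2]
      exact Quotient.out_eq _
    ext
    · exact h1
    · simp only [h1]
      abel
  right_inv := by
    intro x
    simp

theorem cosetEquiv_apply {G : Type*} [AddCommGroup G] (s : AddSubgroup G) (q : G ⧸ s) (h : s) :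
    cosetEquiv s (q, h) = Quotient.out q + h := rfl

variable {A : Type*} [AddCommGroup A] (K H : AddSubgroup A)

theorem shift_lemma (G : A → ℝ) {SH : ℝ} (hH : HasSum (fun x : H ↦ G x) SH) (c : A) (b : ℝ)
    (hs : Summable (fun v : H ↦ |G ((v : A) + c) - G v|))
    (hb : ∑' v : H, |G ((v : A) + c) - G v| ≤ b) :
    ∃ T : ℝ, HasSum (fun v : H ↦ G ((v : A) + c)) T ∧ |T - SH| ≤ b := by
  have hs' : Summable (fun v : H ↦ G ((v : A) + c) - G v) := hs.of_abs
  refine ⟨∑' v : H, (G ((v : A) + c) - G v) + SH, ?_, ?_⟩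
  · have := hs'.hasSum.add hH
    simpa using this
  · rw [add_sub_cancel_right]
    refine le_trans ?_ hb
    have := norm_tsum_le_tsum_norm (f := fun v : H ↦ G ((v : A) + c) - G v) (by simpa using hs)
    simpa using this

theorem hasSum_coset_decomp (hHK : H ≤ K) [Finite (K ⧸ H.addSubgroupOf K)] :
    ∃ R : Finset A, ∀ (G : A → ℝ) (SK SH : ℝ), HasSum (fun x : K ↦ G x) SK →
      HasSum (fun x : H ↦ G x) SH → ∀ (B : A → ℝ),
      (∀ c : A, Summable (fun v : H ↦ |G ((v : A) + c) - G v|) ∧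
        ∑' v : H, |G ((v : A) + c) - G v| ≤ B c) →
      |SK - (H.relIndex K : ℝ) * SH| ≤ ∑ c ∈ R, B c := by
  classical
  have : Fintype (K ⧸ H.addSubgroupOf K) := Fintype.ofFinite _
  refine ⟨Finset.univ.image (fun q : K ⧸ H.addSubgroupOf K ↦ ((Quotient.out q : K) : A)), ?_⟩
  intro G SK SH hK hH B hB
  have h1 : HasSum (fun qh : (K ⧸ H.addSubgroupOf K) × (H.addSubgroupOf K) ↦
      G ((cosetEquiv (H.addSubgroupOf K) qh : K) : A)) SK := by
    have h0 := (Equiv.hasSum_iff (cosetEquiv (H.addSubgroupOf K)) (f := fun x : K ↦ G x) (a := SK)).mpr hK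
    exact h0
  choose T hT hTB using fun c ↦ shift_lemma H G hH c (B c) (hB c).1 (hB c).2
  have h2 : ∀ q : K ⧸ H.addSubgroupOf K, HasSum (fun h : H.addSubgroupOf K ↦
      G ((cosetEquiv (H.addSubgroupOf K) (q, h) : K) : A)) (T ((Quotient.out q : K) : A)) := by
    intro q
    rw [← (AddSubgroup.addSubgroupOfEquivOfLe hHK).toEquiv.symm.hasSum_iff]
    have hfun : ((fun h : H.addSubgroupOf K ↦ G ((cosetEquiv (H.addSubgroupOf K) (q, h) : K) : A)) ∘
        (AddSubgroup.addSubgroupOfEquivOfLe hHK).toEquiv.symm) =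
        fun v : H ↦ G ((v : A) + ((Quotient.out q : K) : A)) := by
      funext v
      simp only [Function.comp_apply, cosetEquiv_apply]
      congr 1
      rw [AddSubgroup.coe_add, add_comm]
      rfl
    rw [hfun]
    exact hT _
  have h3 : SK = ∑ q : K ⧸ H.addSubgroupOf K, T ((Quotient.out q : K) : A) := by
    have h4 := h1.prod_fiberwise h2
    exact h4.unique (hasSum_fintype _)
  have hinj : Function.Injective (fun q : K ⧸ H.addSubgroupOf K ↦ ((Quotient.out q : K) : A)) := by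
    intro q q' hqq
    have : (Quotient.out q : K) = Quotient.out q' := Subtype.ext hqq
    rw [← Quotient.out_eq q, ← Quotient.out_eq q', this]
  rw [Finset.sum_image (fun a _ b _ h ↦ hinj h), h3]
  have hcard : (H.relIndex K : ℝ) * SH = ∑ _q : K ⧸ H.addSubgroupOf K, SH := by
    rw [Finset.sum_const, Finset.card_univ, nsmul_eq_mul, AddSubgroup.relIndex, AddSubgroup.index,
      Nat.card_eq_fintype_card]
  rw [hcard, ← Finset.sum_sub_distrib]
  exact (Finset.abs_sum_le_sum_abs _ _).trans (Finset.sum_le_sum fun q _ ↦ hTB _)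

end coset

variable {M : Type*} [Field M] [NumberField M]

theorem one_sub_rpow_le {m s : ℝ} (hm : 1 ≤ m) (hs : 1 ≤ s) :
    0 ≤ 1 - m ^ (1 - s) ∧ 1 - m ^ (1 - s) ≤ (s - 1) * Real.log m := by
  have hm0 : 0 < m := by linarith
  constructor
  · have : m ^ (1 - s) ≤ 1 := Real.rpow_le_one_of_one_le_of_nonpos hm (by linarith)
    linarith
  · rw [Real.rpow_def_of_pos hm0]
    have := Real.add_one_le_exp (Real.log m * (1 - s))
    nlinarith

theorem relIndex_mul_absNorm {I I' : Ideal (𝓞 M)} (h : I' ≤ I) :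
    (Submodule.toAddSubgroup I').relIndex (Submodule.toAddSubgroup I) * absNorm I = absNorm I' := by
  have h1 : Submodule.toAddSubgroup I' ≤ Submodule.toAddSubgroup I :=
    Submodule.toAddSubgroup_mono h
  have h2 := AddSubgroup.relIndex_mul_index h1
  rw [absNorm_apply, absNorm_apply]
  exact h2

/-- [Bdd]: differences of partial zeta functions are bounded on `(1,2]`. -/
theorem bdd_partialZeta (hK : KeyEstimate M) (hZ : ZetaBound M) (C C' : ClassGroup (𝓞 M)) :
    ∃ B : ℝ, ∀ s ∈ Set.Ioc (1 : ℝ) 2, |partialZeta M C s - partialZeta M C' s| ≤ B := by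
  obtain ⟨J, hJ⟩ := ClassGroup.mk0_surjective C⁻¹
  obtain ⟨J₀, hJ₀⟩ := ClassGroup.mk0_surjective (C * C'⁻¹)
  have hJ' : ClassGroup.mk0 (J * J₀) = C'⁻¹ := by
    rw [_root_.map_mul, hJ, hJ₀, inv_mul_cancel_left]
  obtain ⟨CZ, hCZ⟩ := hZ
  set KK : AddSubgroup (𝓞 M) := Submodule.toAddSubgroup (J : Ideal (𝓞 M)) with hKK
  set HH : AddSubgroup (𝓞 M) := Submodule.toAddSubgroup ((J * J₀ : (Ideal (𝓞 M))⁰) : Ideal (𝓞 M))
    with hHH
  have hle0 : ((J * J₀ : (Ideal (𝓞 M))⁰) : Ideal (𝓞 M)) ≤ (J : Ideal (𝓞 M)) := by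
    rw [Submonoid.coe_mul]; exact Ideal.le_of_dvd (Dvd.intro _ rfl)
  have hle : HH ≤ KK := Submodule.toAddSubgroup_mono hle0
  have hrel : HH.relIndex KK * absNorm (J : Ideal (𝓞 M)) =
      absNorm ((J * J₀ : (Ideal (𝓞 M))⁰) : Ideal (𝓞 M)) := relIndex_mul_absNorm hle0
  have ha'0 : absNorm ((J * J₀ : (Ideal (𝓞 M))⁰) : Ideal (𝓞 M)) ≠ 0 :=
    absNorm_ne_zero_of_nonZeroDivisors _
  have ha0 : absNorm (J : Ideal (𝓞 M)) ≠ 0 := absNorm_ne_zero_of_nonZeroDivisors _
  have hm0 : HH.relIndex KK ≠ 0 := by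
    intro h
    rw [h, zero_mul] at hrel
    exact ha'0 hrel.symm
  have : Finite (KK ⧸ HH.addSubgroupOf KK) := Nat.finite_of_card_ne_zero hm0
  obtain ⟨R, hR⟩ := hasSum_coset_decomp KK HH hle
  choose Bc hBc using hK ((J * J₀ : (Ideal (𝓞 M))⁰) : Ideal (𝓞 M))
  set m : ℝ := (HH.relIndex KK : ℝ) with hm
  set a : ℝ := (absNorm (J : Ideal (𝓞 M)) : ℝ) with ha
  set w : ℝ := (torsionOrder M : ℝ) with hw
  have hm1 : 1 ≤ m := by
    rw [hm]; exact_mod_cast Nat.one_le_iff_ne_zero.mpr hm0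
  have ha1 : 1 ≤ a := by
    rw [ha]; exact_mod_cast Nat.one_le_iff_ne_zero.mpr ha0
  have hw0 : 0 < w := by
    rw [hw]; exact_mod_cast torsionOrder_pos M
  have ha' : ((absNorm ((J * J₀ : (Ideal (𝓞 M))⁰) : Ideal (𝓞 M)) : ℕ) : ℝ) = m * a := by
    rw [← hrel]; push_cast; rfl
  refine ⟨(∑ c ∈ R, Bc c) * a ^ (2 : ℝ) / w + CZ * Real.log m, ?_⟩
  intro s hs
  obtain ⟨hsum, hbound⟩ := hCZ s hs
  have hs0 : s ≠ 0 := by have := hs.1; linarith
  have hsI : s ∈ Set.Icc (1 : ℝ) 2 := ⟨hs.1.le, hs.2⟩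
  have h1 := hasSum_gsInt_ideal hs0 hsum hJ
  have h2 := hasSum_gsInt_ideal hs0 hsum hJ'
  have h3 := hR (gsInt M s) _ _ h1 h2 Bc (fun c ↦ hBc c s hsI)
  set z := partialZeta M C s with hz
  set z' := partialZeta M C' s with hz'
  have hz'0 : 0 ≤ z' := partialZeta_nonneg _ _
  have hz'le : z' ≤ CZ / (s - 1) := (ZSummable.partialZeta_le hsum C').trans hbound
  rw [ha'] at h3
  have ha_pos : 0 < a := by linarith
  have hm_pos : 0 < m := by linarith
  have e1 : w * (a ^ (-s) * z) - m * (w * ((m * a) ^ (-s) * z')) =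
      w * a ^ (-s) * (z - m ^ (1 - s) * z') := by
    rw [Real.mul_rpow hm_pos.le ha_pos.le, sub_eq_add_neg 1 s, Real.rpow_add hm_pos, Real.rpow_one]
    ring
  rw [e1, abs_mul, abs_of_pos (mul_pos hw0 (Real.rpow_pos_of_pos ha_pos _))] at h3
  have hB0 : 0 ≤ ∑ c ∈ R, Bc c := le_trans (by positivity) h3
  have h4 : |z - m ^ (1 - s) * z'| ≤ (∑ c ∈ R, Bc c) * a ^ (2 : ℝ) / w := by
    have h5 : |z - m ^ (1 - s) * z'| ≤ (∑ c ∈ R, Bc c) * a ^ s / w := by
      rw [le_div_iff₀ hw0]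
      have h6 : a ^ s * a ^ (-s) = 1 := by
        rw [← Real.rpow_add ha_pos]; simp
      calc |z - m ^ (1 - s) * z'| * w = (w * a ^ (-s) * |z - m ^ (1 - s) * z'|) * a ^ s := by
            linear_combination (-(|z - m ^ (1 - s) * z'| * w)) * h6
        _ ≤ (∑ c ∈ R, Bc c) * a ^ s :=
            mul_le_mul_of_nonneg_right h3 (Real.rpow_pos_of_pos ha_pos _).le
    refine h5.trans ?_
    gcongr
    exact hs.2
  obtain ⟨h7, h8⟩ := one_sub_rpow_le hm1 hs.1.le
  have hs1 : 0 < s - 1 := by have := hs.1; linarith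
  have h9 : (1 - m ^ (1 - s)) * z' ≤ CZ * Real.log m := by
    have hlog : 0 ≤ Real.log m := Real.log_nonneg hm1
    calc (1 - m ^ (1 - s)) * z' ≤ ((s - 1) * Real.log m) * (CZ / (s - 1)) :=
          mul_le_mul h8 hz'le hz'0 (by positivity)
      _ = CZ * Real.log m := by field_simp
  calc |z - z'| = |(z - m ^ (1 - s) * z') - (1 - m ^ (1 - s)) * z'| := by congr 1; ring
    _ ≤ |z - m ^ (1 - s) * z'| + |(1 - m ^ (1 - s)) * z'| := abs_sub _ _
    _ = |z - m ^ (1 - s) * z'| + (1 - m ^ (1 - s)) * z' := by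
        rw [abs_of_nonneg (mul_nonneg h7 hz'0)]
    _ ≤ _ := add_le_add h4 h9

end

end Fermat.Agent.S14
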