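/-
S14 [Dens]: interfaces ([Z] lower bound, [Euler]) used by the final density argument.
-/
import Fermat.Agent.S14.BddDefs

set_option autoImplicit false

namespace Fermat.Agent.S14

open NumberField Ideal IsDedekindDomain Filter Topology
open scoped nonZeroDivisors

noncomputable section

variable (M : Type*) [Field M] [NumberField M]

variable {M} in
/-- A prime as a nonzero ideal. -/
def primeNZ (v : HeightOneSpectrum (𝓞 M)) : (Ideal (𝓞 M))⁰ :=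
  ⟨v.asIdeal, mem_nonZeroDivisors_of_ne_zero v.ne_bot⟩

variable {M} in
/-- `x_v = N(v)^(-s)`. -/
def xterm (s : ℝ) (v : HeightOneSpectrum (𝓞 M)) : ℝ := (absNorm v.asIdeal : ℝ) ^ (-s)

/-- The `L`-series of a multiplicative function on nonzero ideals. -/
def LSum (χ : (Ideal (𝓞 M))⁰ →* ℂ) (s : ℝ) : ℂ :=
  ∑' I : (Ideal (𝓞 M))⁰, χ I * (((absNorm (I : Ideal (𝓞 M)) : ℝ) ^ (-s) : ℝ) : ℂ)

/-- [Z], lower bound. -/
def ZetaLower : Prop :=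
  ∃ c : ℝ, 0 < c ∧ ∃ δ : ℝ, 0 < δ ∧ ∀ s ∈ Set.Ioo (1 : ℝ) (1 + δ), c / (s - 1) ≤ zetaSum M s

/-- [Euler]. -/
def EulerProp : Prop :=
  ∀ χ : (Ideal (𝓞 M))⁰ →* ℂ, (∀ I, ‖χ I‖ ≤ 1) → ∀ s : ℝ, 1 < s →
    Tendsto (fun Y : Finset (HeightOneSpectrum (𝓞 M)) ↦
      ∏ v ∈ Y, (1 - χ (primeNZ v) * ((xterm s v : ℝ) : ℂ))⁻¹) atTop (𝓝 (LSum M χ s))

end

end Fermat.Agent.S14
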