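/-
S14 [Dens], part A: consequences of the Euler product for the trivial character.
-/
import Fermat.Agent.S14.DensDefs

set_option autoImplicit false
set_option linter.unusedSectionVars false

namespace Fermat.Agent.S14

open NumberField Ideal IsDedekindDomain Filter Topology
open scoped nonZeroDivisors

noncomputable section

theorem one_le_prod_real {ι : Type*} (Y : Finset ι) (F : ι → ℝ) (hF : ∀ v ∈ Y, 1 ≤ F v) :
    1 ≤ ∏ v ∈ Y, F v := by
  classical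
  induction Y using Finset.induction_on with
  | empty => simp
  | insert a Y ha ih =>
    rw [Finset.prod_insert ha]
    have h1 := hF a (Finset.mem_insert_self _ _)
    have h2 := ih fun v hv ↦ hF v (Finset.mem_insert_of_mem hv)
    nlinarith

theorem prod_le_prod_of_subset_real {ι : Type*} {Y₀ Y : Finset ι} (h : Y₀ ⊆ Y) (F : ι → ℝ)
    (hF : ∀ v, 1 ≤ F v) : ∏ v ∈ Y₀, F v ≤ ∏ v ∈ Y, F v := by
  classical
  rw [← Finset.prod_sdiff h]
  have h1 := one_le_prod_real (Y \ Y₀) F fun v _ ↦ hF v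
  have h2 := one_le_prod_real Y₀ F fun v _ ↦ hF v
  nlinarith

theorem prod_le_of_tendsto {ι : Type*} (F : ι → ℝ) (hF : ∀ v, 1 ≤ F v) {L : ℝ}
    (hL : Tendsto (fun Y : Finset ι ↦ ∏ v ∈ Y, F v) atTop (𝓝 L)) (Y₀ : Finset ι) :
    ∏ v ∈ Y₀, F v ≤ L :=
  ge_of_tendsto hL ((eventually_ge_atTop Y₀).mono fun _ hY ↦ prod_le_prod_of_subset_real hY F hF)

variable {M : Type*} [Field M] [NumberField M]

theorem two_le_absNorm (v : HeightOneSpectrum (𝓞 M)) : 2 ≤ absNorm v.asIdeal := by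
  have h0 : absNorm v.asIdeal ≠ 0 := by
    rw [Ne, absNorm_eq_zero_iff]; exact v.ne_bot
  have h1 : absNorm v.asIdeal ≠ 1 := by
    rw [Ne, absNorm_eq_one_iff]; exact v.isPrime.ne_top
  omega

theorem xterm_pos (s : ℝ) (v : HeightOneSpectrum (𝓞 M)) : 0 < xterm s v := by
  have := two_le_absNorm v
  exact Real.rpow_pos_of_pos (by positivity) _

theorem xterm_le_half {s : ℝ} (hs : 1 ≤ s) (v : HeightOneSpectrum (𝓞 M)) : xterm s v ≤ 1 / 2 := by
  have h2 : (2 : ℝ) ≤ (absNorm v.asIdeal : ℝ) := by exact_mod_cast two_le_absNorm v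
  calc xterm s v ≤ (absNorm v.asIdeal : ℝ) ^ (-1 : ℝ) :=
        Real.rpow_le_rpow_of_exponent_le (by linarith) (by linarith)
    _ = 1 / (absNorm v.asIdeal : ℝ) := by rw [Real.rpow_neg_one, one_div]
    _ ≤ 1 / 2 := one_div_le_one_div_of_le (by norm_num) h2

theorem LSum_one (s : ℝ) : LSum M 1 s = ((zetaSum M s : ℝ) : ℂ) := by
  unfold LSum zetaSum
  rw [Complex.ofReal_tsum]
  simp

/-- The real Euler product. -/
theorem tendsto_real_euler (hE : EulerProp M) {s : ℝ} (hs : 1 < s) :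
    Tendsto (fun Y : Finset (HeightOneSpectrum (𝓞 M)) ↦ ∏ v ∈ Y, (1 - xterm s v)⁻¹) atTop
      (𝓝 (zetaSum M s)) := by
  have h := hE 1 (fun _ ↦ by simp) s hs
  rw [LSum_one] at h
  have h2 := (Complex.continuous_re.tendsto _).comp h
  rw [Complex.ofReal_re] at h2
  refine h2.congr fun Y ↦ ?_
  simp only [Function.comp_apply, MonoidHom.one_apply, one_mul]
  have : ∏ v ∈ Y, (1 - ((xterm s v : ℝ) : ℂ))⁻¹ = ((∏ v ∈ Y, (1 - xterm s v)⁻¹ : ℝ) : ℂ) := by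
    push_cast; rfl
  rw [this, Complex.ofReal_re]

theorem exp_le_inv_one_sub {x : ℝ} (hx : x < 1) : Real.exp x ≤ (1 - x)⁻¹ := by
  have h1 : 0 < 1 - x := by linarith
  rw [le_inv_comm₀ (Real.exp_pos _) h1, ← Real.exp_neg]
  exact Real.one_sub_le_exp_neg x

theorem inv_one_sub_le_exp {x : ℝ} (hx0 : 0 ≤ x) (hx : x ≤ 1 / 2) :
    (1 - x)⁻¹ ≤ Real.exp (x + x ^ 2) := by
  have h1 : 0 < 1 - x := by linarith
  rw [inv_le_iff_one_le_mul₀ h1]
  have h2 := Real.quadratic_le_exp_of_nonneg (show 0 ≤ x + x ^ 2 by positivity)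
  have h3 : 1 ≤ (1 - x) * (1 + (x + x ^ 2) + (x + x ^ 2) ^ 2 / 2) := by
    have : (1 - x) * (1 + (x + x ^ 2) + (x + x ^ 2) ^ 2 / 2) =
        1 + x ^ 2 / 2 * (1 - x - x ^ 2 - x ^ 3) := by ring
    rw [this]
    have h4 : 0 ≤ 1 - x - x ^ 2 - x ^ 3 := by nlinarith [mul_nonneg hx0 hx0]
    have : 0 ≤ x ^ 2 / 2 * (1 - x - x ^ 2 - x ^ 3) := by positivity
    linarith
  rw [mul_comm]
  exact h3.trans (mul_le_mul_of_nonneg_left h2 h1.le)

/-- (E-low). -/
theorem exp_sum_le_zetaSum (hE : EulerProp M) {s : ℝ} (hs : 1 < s)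
    (Y : Finset (HeightOneSpectrum (𝓞 M))) :
    Real.exp (∑ v ∈ Y, xterm s v) ≤ zetaSum M s := by
  have hx : ∀ v : HeightOneSpectrum (𝓞 M), xterm s v < 1 := fun v ↦
    lt_of_le_of_lt (xterm_le_half hs.le v) (by norm_num)
  have h1 : ∀ v : HeightOneSpectrum (𝓞 M), 1 ≤ (1 - xterm s v)⁻¹ := fun v ↦
    le_trans (Real.one_le_exp (xterm_pos s v).le) (exp_le_inv_one_sub (hx v))
  refine le_trans ?_ (prod_le_of_tendsto _ h1 (tendsto_real_euler hE hs) Y)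
  rw [Real.exp_sum]
  exact Finset.prod_le_prod (fun _ _ ↦ (Real.exp_pos _).le) fun v _ ↦ exp_le_inv_one_sub (hx v)

/-- (E-up). -/
theorem zetaSum_le_exp (hE : EulerProp M) {s : ℝ} (hs : 1 < s) {W : ℝ}
    (hW : ∀ Y : Finset (HeightOneSpectrum (𝓞 M)), ∑ v ∈ Y, (xterm s v + xterm s v ^ 2) ≤ W) :
    zetaSum M s ≤ Real.exp W := by
  refine le_of_tendsto (tendsto_real_euler hE hs) (Eventually.of_forall fun Y ↦ ?_)
  refine le_trans ?_ (Real.exp_le_exp.mpr (hW Y))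
  rw [Real.exp_sum]
  refine Finset.prod_le_prod (fun v _ ↦ ?_) fun v _ ↦
    inv_one_sub_le_exp (xterm_pos s v).le (xterm_le_half hs.le v)
  have := xterm_le_half hs.le v
  exact inv_nonneg.mpr (by linarith)

theorem primeNZ_injective : Function.Injective (primeNZ (M := M)) := by
  intro v w h
  exact HeightOneSpectrum.ext (congrArg (fun I : (Ideal (𝓞 M))⁰ ↦ (I : Ideal (𝓞 M))) h)

/-- `∑ x_v^2 ≤ Z(2)`. -/
theorem sum_xterm_sq_le (hZ : ZetaBound M) {s : ℝ} (hs : 1 ≤ s)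
    (Y : Finset (HeightOneSpectrum (𝓞 M))) : ∑ v ∈ Y, xterm s v ^ 2 ≤ zetaSum M 2 := by
  obtain ⟨CZ, hCZ⟩ := hZ
  have hsum := (hCZ 2 ⟨by norm_num, le_refl _⟩).1
  calc ∑ v ∈ Y, xterm s v ^ 2 ≤ ∑ v ∈ Y, (absNorm ((primeNZ v : (Ideal (𝓞 M))⁰) : Ideal (𝓞 M)) : ℝ) ^ (-2 : ℝ) := by
        refine Finset.sum_le_sum fun v _ ↦ ?_
        have h2 : (1 : ℝ) ≤ (absNorm v.asIdeal : ℝ) := by
          have := two_le_absNorm v
          exact_mod_cast (by omega : 1 ≤ absNorm v.asIdeal)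
        unfold xterm
        rw [← Real.rpow_natCast, ← Real.rpow_mul (by linarith)]
        exact Real.rpow_le_rpow_of_exponent_le h2 (by push_cast; linarith)
    _ = ∑ I ∈ Y.map ⟨primeNZ, primeNZ_injective⟩, (absNorm (I : Ideal (𝓞 M)) : ℝ) ^ (-2 : ℝ) := by
        rw [Finset.sum_map]; rfl
    _ ≤ zetaSum M 2 := hsum.sum_le_tsum _ fun _ _ ↦ Real.rpow_nonneg (Nat.cast_nonneg _) _

end

end Fermat.Agent.S14
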