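/-
S14 [Dens], part B: class group characters of order `p`.
-/
import Fermat.Agent.S14.DensA
import Fermat.Agent.S14.Bdd

set_option autoImplicit false
set_option linter.unusedSectionVars false

namespace Fermat.Agent.S14

open NumberField Ideal IsDedekindDomain Filter Topology
open scoped nonZeroDivisors

noncomputable section

variable {p : ℕ} [Fact p.Prime]

/-- `∏_j (1 - e(j c) x) = 1 - x^p` for `c ≠ 0`. -/
theorem prod_one_sub_stdAddChar {c : ZMod p} (hc : c ≠ 0) (x : ℂ) :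
    ∏ j : ZMod p, (1 - ZMod.stdAddChar (j * c) * x) = 1 - x ^ p := by
  classical
  have hp : 0 < p := (Fact.out : p.Prime).pos
  have hprim : IsPrimitiveRoot (Complex.exp (2 * Real.pi * Complex.I / p)) p :=
    Complex.isPrimitiveRoot_exp p hp.ne'
  have h1 := hprim.pow_sub_pow_eq_prod_sub_mul (1 : ℂ) x hp
  rw [one_pow] at h1
  rw [h1]
  have hinj : Function.Injective (fun j : ZMod p ↦ (ZMod.stdAddChar (j * c) : ℂ)) := by
    intro a b hab
    have := ZMod.injective_stdAddChar hab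
    exact mul_right_cancel₀ hc this
  have himg : Finset.univ.image (fun j : ZMod p ↦ (ZMod.stdAddChar (j * c) : ℂ)) =
      Polynomial.nthRootsFinset p (1 : ℂ) := by
    apply Finset.eq_of_subset_of_card_le
    · intro z hz
      obtain ⟨j, _, rfl⟩ := Finset.mem_image.mp hz
      rw [Polynomial.mem_nthRootsFinset hp, ← AddChar.map_nsmul_eq_pow]
      simp
    · rw [hprim.card_nthRootsFinset, Finset.card_image_of_injective _ hinj]
      simp [ZMod.card]
  rw [← himg, Finset.prod_image (fun a _ b _ h ↦ hinj h)]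

variable {K : Type*} [Field K] [NumberField K]

/-- The character `C ↦ e(j f(C))` of the class group. -/
def clChar (f : ClassGroup (𝓞 K) →* Multiplicative (ZMod p)) (j : ZMod p) :
    ClassGroup (𝓞 K) →* ℂ :=
  (AddChar.toMonoidHom (AddChar.mulShift (ZMod.stdAddChar (N := p)) j)).comp f

theorem clChar_apply (f : ClassGroup (𝓞 K) →* Multiplicative (ZMod p)) (j : ZMod p)
    (C : ClassGroup (𝓞 K)) : clChar f j C = ZMod.stdAddChar (j * (f C).toAdd) := rfl

theorem norm_clChar (f : ClassGroup (𝓞 K) →* Multiplicative (ZMod p)) (j : ZMod p)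
    (C : ClassGroup (𝓞 K)) : ‖clChar f j C‖ = 1 := by
  rw [clChar_apply, ZMod.stdAddChar_apply]
  exact Circle.norm_coe _

theorem clChar_zero (f : ClassGroup (𝓞 K) →* Multiplicative (ZMod p)) : clChar f 0 = 1 := by
  ext C
  rw [clChar_apply]; simp

theorem clChar_ne_one {f : ClassGroup (𝓞 K) →* Multiplicative (ZMod p)} (hf : f ≠ 1) {j : ZMod p}
    (hj : j ≠ 0) : clChar f j ≠ 1 := by
  intro h
  apply hf
  ext C
  have h1 : clChar f j C = 1 := by rw [h]; rfl
  rw [clChar_apply, ← (ZMod.stdAddChar (N := p)).map_zero_eq_one] at h1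
  have h2 := ZMod.injective_stdAddChar h1
  have h3 : (f C).toAdd = 0 := (mul_eq_zero.mp h2).resolve_left hj
  exact h3

/-- The character on ideals. -/
def idChar (f : ClassGroup (𝓞 K) →* Multiplicative (ZMod p)) (j : ZMod p) :
    (Ideal (𝓞 K))⁰ →* ℂ := (clChar f j).comp ClassGroup.mk0

theorem idChar_apply (f : ClassGroup (𝓞 K) →* Multiplicative (ZMod p)) (j : ZMod p)
    (I : (Ideal (𝓞 K))⁰) : idChar f j I = clChar f j (ClassGroup.mk0 I) := rfl

theorem norm_idChar (f : ClassGroup (𝓞 K) →* Multiplicative (ZMod p)) (j : ZMod p)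
    (I : (Ideal (𝓞 K))⁰) : ‖idChar f j I‖ = 1 := norm_clChar f j _

theorem idChar_zero (f : ClassGroup (𝓞 K) →* Multiplicative (ZMod p)) : idChar f 0 = 1 := by
  ext I
  rw [idChar_apply, clChar_zero]; rfl

/-- decomposition of the `L`-series into partial zeta functions. -/
theorem LSum_eq_sum_partialZeta (χ : ClassGroup (𝓞 K) →* ℂ) (hχ : ∀ C, ‖χ C‖ = 1) {s : ℝ}
    (hs : ZSummable K s) :
    LSum K (χ.comp ClassGroup.mk0) s = ∑ C : ClassGroup (𝓞 K), χ C * (partialZeta K C s : ℂ) := by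
  classical
  unfold LSum
  have hsum : Summable (fun I : (Ideal (𝓞 K))⁰ ↦
      (χ.comp ClassGroup.mk0) I * (((absNorm (I : Ideal (𝓞 K)) : ℝ) ^ (-s) : ℝ) : ℂ)) := by
    refine Summable.of_norm ?_
    refine hs.congr fun I ↦ ?_
    rw [norm_mul, MonoidHom.comp_apply, hχ, one_mul, Complex.norm_real, Real.norm_of_nonneg
      (Real.rpow_nonneg (Nat.cast_nonneg _) _)]
  rw [← (Equiv.sigmaFiberEquiv (ClassGroup.mk0 (R := 𝓞 K))).tsum_eq]
  have hsum' := (Equiv.sigmaFiberEquiv (ClassGroup.mk0 (R := 𝓞 K))).summable_iff.mpr hsum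
  refine (hsum'.tsum_sigma).trans ?_
  rw [tsum_fintype]
  refine Finset.sum_congr rfl fun C _ ↦ ?_
  unfold partialZeta
  rw [Complex.ofReal_tsum, ← tsum_mul_left]
  refine tsum_congr fun I ↦ ?_
  simp only [Function.comp_apply, Equiv.sigmaFiberEquiv_apply, MonoidHom.comp_apply, I.2]

/-- Boundedness of the `L`-series of a nontrivial class group character. -/
theorem exists_bound_LSum (hK : KeyEstimate K) (hZ : ZetaBound K) (χ : ClassGroup (𝓞 K) →* ℂ)
    (hχ : ∀ C, ‖χ C‖ = 1) (hne : χ ≠ 1) :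
    ∃ B : ℝ, ∀ s ∈ Set.Ioc (1 : ℝ) 2, ‖LSum K (χ.comp ClassGroup.mk0) s‖ ≤ B := by
  classical
  choose B hB using fun C ↦ bdd_partialZeta hK hZ C 1
  refine ⟨∑ C, B C, fun s hs ↦ ?_⟩
  obtain ⟨CZ, hCZ⟩ := hZ
  rw [LSum_eq_sum_partialZeta χ hχ (hCZ s hs).1]
  have h0 : ∑ C : ClassGroup (𝓞 K), χ C = 0 := sum_hom_units_eq_zero χ hne
  have h1 : ∑ C : ClassGroup (𝓞 K), χ C * (partialZeta K C s : ℂ) =
      ∑ C : ClassGroup (𝓞 K), χ C * ((partialZeta K C s - partialZeta K 1 s : ℝ) : ℂ) := by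
    have : ∑ C : ClassGroup (𝓞 K), χ C * ((partialZeta K C s - partialZeta K 1 s : ℝ) : ℂ) =
        ∑ C : ClassGroup (𝓞 K), χ C * (partialZeta K C s : ℂ) -
          (∑ C : ClassGroup (𝓞 K), χ C) * (partialZeta K 1 s : ℂ) := by
      rw [Finset.sum_mul, ← Finset.sum_sub_distrib]
      refine Finset.sum_congr rfl fun C _ ↦ ?_
      push_cast; ring
    rw [this, h0, zero_mul, sub_zero]
  rw [h1]
  refine (norm_sum_le _ _).trans (Finset.sum_le_sum fun C _ ↦ ?_)
  rw [norm_mul, hχ, one_mul, Complex.norm_real]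
  exact hB C s hs

end

end Fermat.Agent.S14
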