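/-
S14 [Dens], part C: the primes with `f(v) = 1` have density at most `1/p`.
-/
import Fermat.Agent.S14.DensB

set_option autoImplicit false
set_option linter.unusedSectionVars false

namespace Fermat.Agent.S14

open NumberField Ideal IsDedekindDomain Filter Topology
open scoped nonZeroDivisors

noncomputable section

variable {p : ℕ} [Fact p.Prime]
variable {K : Type*} [Field K] [NumberField K]

/-- The local factor of `∏_j L(s, χ_j)`. -/
def locFactor (f : ClassGroup (𝓞 K) →* Multiplicative (ZMod p)) (s : ℝ)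
    (v : HeightOneSpectrum (𝓞 K)) : ℝ :=
  if f (ClassGroup.mk0 (primeNZ v)) = 1 then ((1 - xterm s v) ^ p)⁻¹ else (1 - xterm s v ^ p)⁻¹

theorem prod_idChar_factor (f : ClassGroup (𝓞 K) →* Multiplicative (ZMod p)) (s : ℝ)
    (v : HeightOneSpectrum (𝓞 K)) :
    ∏ j : ZMod p, (1 - idChar f j (primeNZ v) * ((xterm s v : ℝ) : ℂ))⁻¹ =
      ((locFactor f s v : ℝ) : ℂ) := by
  rw [Finset.prod_inv_distrib]
  unfold locFactor
  split_ifs with h
  · have : ∀ j : ZMod p, idChar f j (primeNZ v) = 1 := by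
      intro j
      rw [idChar_apply, clChar_apply, h]
      simp
    simp only [this, one_mul, Finset.prod_const, Finset.card_univ, ZMod.card]
    push_cast; rfl
  · have hc : (f (ClassGroup.mk0 (primeNZ v))).toAdd ≠ 0 := fun h0 ↦ h h0
    have := prod_one_sub_stdAddChar hc ((xterm s v : ℝ) : ℂ)
    simp only [idChar_apply, clChar_apply]
    rw [this]
    push_cast; rfl

theorem one_le_locFactor (f : ClassGroup (𝓞 K) →* Multiplicative (ZMod p)) {s : ℝ} (hs : 1 ≤ s)
    (v : HeightOneSpectrum (𝓞 K)) : 1 ≤ locFactor f s v := by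
  have h0 := xterm_pos s v
  have h1 := xterm_le_half hs v
  have hp : p ≠ 0 := (Fact.out : p.Prime).ne_zero
  unfold locFactor
  split_ifs
  · rw [one_le_inv₀ (pow_pos (by linarith) _)]
    exact pow_le_one₀ (by linarith) (by linarith)
  · have h2 : xterm s v ^ p ≤ 1 / 2 :=
      le_trans (pow_le_of_le_one h0.le (by linarith) hp) h1
    have h3 : 0 < xterm s v ^ p := pow_pos h0 _
    rw [one_le_inv₀ (by linarith)]
    linarith

theorem exp_le_locFactor (f : ClassGroup (𝓞 K) →* Multiplicative (ZMod p)) {s : ℝ} (hs : 1 ≤ s)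
    {v : HeightOneSpectrum (𝓞 K)} (hv : f (ClassGroup.mk0 (primeNZ v)) = 1) :
    Real.exp (p * xterm s v) ≤ locFactor f s v := by
  have h1 := xterm_le_half hs v
  unfold locFactor
  rw [if_pos hv, ← inv_pow, mul_comm, Real.exp_mul, Real.rpow_natCast]
  exact pow_le_pow_left₀ (Real.exp_pos _).le (exp_le_inv_one_sub (by linarith)) _

/-- (i): the primes with `f(v) = 1`. -/
theorem exists_bound_f_one (hE : EulerProp K) (hK : KeyEstimate K) (hZ : ZetaBound K)
    {f : ClassGroup (𝓞 K) →* Multiplicative (ZMod p)} (hf : f ≠ 1) :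
    ∃ D : ℝ, 0 ≤ D ∧ ∀ s ∈ Set.Ioc (1 : ℝ) 2, ∀ Y : Finset (HeightOneSpectrum (𝓞 K)),
      (∀ v ∈ Y, f (ClassGroup.mk0 (primeNZ v)) = 1) →
        Real.exp (p * ∑ v ∈ Y, xterm s v) ≤ zetaSum K s * D := by
  classical
  have hex : ∀ j : ZMod p, ∃ B : ℝ, j ≠ 0 → ∀ s ∈ Set.Ioc (1 : ℝ) 2, ‖LSum K (idChar f j) s‖ ≤ B := by
    intro j
    by_cases hj : j = 0
    · exact ⟨0, fun h ↦ absurd hj h⟩
    · obtain ⟨B, hB⟩ := exists_bound_LSum hK hZ (clChar f j) (norm_clChar f j) (clChar_ne_one hf hj)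
      exact ⟨B, fun _ ↦ hB⟩
  choose B hB using hex
  refine ⟨∏ j ∈ Finset.univ.erase (0 : ZMod p), max (B j) 0,
    Finset.prod_nonneg fun _ _ ↦ le_max_right _ _, ?_⟩
  intro s hs Y hY
  have hT : Tendsto (fun Y : Finset (HeightOneSpectrum (𝓞 K)) ↦
      ∏ j : ZMod p, ∏ v ∈ Y, (1 - idChar f j (primeNZ v) * ((xterm s v : ℝ) : ℂ))⁻¹) atTop
      (𝓝 (∏ j : ZMod p, LSum K (idChar f j) s)) :=
    tendsto_finsetProd _ fun j _ ↦ hE (idChar f j) (fun I ↦ (norm_idChar f j I).le) s hs.1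
  have hT2 : Tendsto (fun Y : Finset (HeightOneSpectrum (𝓞 K)) ↦ ∏ v ∈ Y, locFactor f s v) atTop
      (𝓝 ‖∏ j : ZMod p, LSum K (idChar f j) s‖) := by
    refine (hT.norm).congr fun Y ↦ ?_
    rw [Finset.prod_comm]
    simp only [prod_idChar_factor]
    rw [← Complex.ofReal_prod, Complex.norm_real, Real.norm_of_nonneg]
    exact Finset.prod_nonneg fun v _ ↦ le_trans zero_le_one (one_le_locFactor f hs.1.le v)
  have h1 := prod_le_of_tendsto _ (one_le_locFactor f hs.1.le) hT2 Y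
  have h2 : Real.exp (p * ∑ v ∈ Y, xterm s v) ≤ ∏ v ∈ Y, locFactor f s v := by
    rw [Finset.mul_sum, Real.exp_sum]
    exact Finset.prod_le_prod (fun _ _ ↦ (Real.exp_pos _).le) fun v hv ↦
      exp_le_locFactor f hs.1.le (hY v hv)
  refine h2.trans (h1.trans ?_)
  rw [norm_prod, ← Finset.mul_prod_erase Finset.univ _ (Finset.mem_univ (0 : ZMod p))]
  have h3 : ‖LSum K (idChar f 0) s‖ = zetaSum K s := by
    rw [idChar_zero, LSum_one, Complex.norm_real, Real.norm_of_nonneg]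
    exact tsum_nonneg fun _ ↦ Real.rpow_nonneg (Nat.cast_nonneg _) _
  rw [h3]
  refine mul_le_mul_of_nonneg_left ?_ (tsum_nonneg fun _ ↦ Real.rpow_nonneg (Nat.cast_nonneg _) _)
  exact Finset.prod_le_prod (fun _ _ ↦ norm_nonneg _) fun j hj ↦
    (hB j (Finset.ne_of_mem_erase hj) s hs).trans (le_max_left _ _)

end

end Fermat.Agent.S14
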