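/-
S14 [Dens]: the final density contradiction.
-/
import Fermat.Agent.S14.DensC
import Fermat.Agent.S14.Deg

set_option autoImplicit false
set_option linter.unusedSectionVars false

namespace Fermat.Agent.S14

open NumberField Ideal IsDedekindDomain Filter Topology
open scoped nonZeroDivisors

noncomputable section

variable {p : ℕ} [Fact p.Prime]
variable {K : Type*} [Field K] [NumberField K]
variable {K2 : Type*} [Field K2] [NumberField K2]

/-- (ii): the primes in `T`. -/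
theorem exp_le_zetaSum_of_split (hE2 : EulerProp K2) (T : Set (HeightOneSpectrum (𝓞 K)))
    (iota : T × Fin p → HeightOneSpectrum (𝓞 K2)) (hinj : Function.Injective iota)
    (hN : ∀ x, absNorm (iota x).asIdeal = absNorm x.1.1.asIdeal) {s : ℝ} (hs : 1 < s)
    (Y : Finset (HeightOneSpectrum (𝓞 K))) (hY : ∀ v ∈ Y, v ∈ T) :
    Real.exp (p * ∑ v ∈ Y, xterm s v) ≤ zetaSum K2 s := by
  classical
  let Y' : Finset T := Y.subtype (· ∈ T)
  have h1 : ∑ v ∈ Y, xterm s v = ∑ v ∈ Y', xterm s (v : HeightOneSpectrum (𝓞 K)) := by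
    rw [Finset.sum_subtype_of_mem _ hY]
  have h2 : (p : ℝ) * ∑ v ∈ Y, xterm s v =
      ∑ w ∈ (Y' ×ˢ (Finset.univ : Finset (Fin p))).map ⟨iota, hinj⟩, xterm s w := by
    rw [Finset.sum_map, Finset.sum_product, h1, Finset.mul_sum]
    refine Finset.sum_congr rfl fun v _ ↦ ?_
    have : ∀ i : Fin p, xterm s (iota (v, i)) = xterm s (v : HeightOneSpectrum (𝓞 K)) := by
      intro i
      unfold xterm
      rw [hN]
    simp [this]
  rw [h2]
  exact exp_sum_le_zetaSum hE2 hs _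

/-- `Z^p ≤ R` as soon as `exp (p ∑_Y (x + x^2)) ≤ R` for all finite `Y`. -/
theorem zetaSum_pow_le (hE : EulerProp K) {s : ℝ} (hs : 1 < s) {R : ℝ}
    (hR : ∀ Y : Finset (HeightOneSpectrum (𝓞 K)),
      Real.exp (p * ∑ v ∈ Y, (xterm s v + xterm s v ^ 2)) ≤ R) :
    zetaSum K s ^ p ≤ R := by
  have hp : (0 : ℝ) < p := by exact_mod_cast (Fact.out : p.Prime).pos
  have hR0 : 0 < R := lt_of_lt_of_le (Real.exp_pos _) (hR ∅)
  have h1 : zetaSum K s ≤ Real.exp (Real.log R / p) := by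
    refine zetaSum_le_exp hE hs fun Y ↦ ?_
    rw [le_div_iff₀ hp, mul_comm, Real.le_log_iff_exp_le hR0]
    exact hR Y
  have h0 : 0 ≤ zetaSum K s := tsum_nonneg fun _ ↦ Real.rpow_nonneg (Nat.cast_nonneg _) _
  calc zetaSum K s ^ p ≤ Real.exp (Real.log R / p) ^ p := pow_le_pow_left₀ h0 h1 _
    _ = R := by
      rw [← Real.exp_nat_mul, mul_div_cancel₀ _ hp.ne', Real.exp_log hR0]

/-- [Dens], with all the analytic inputs as hypotheses. -/
theorem dens_contradiction_aux (hp3 : 3 ≤ p)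
    (hE : EulerProp K) (hKey : KeyEstimate K) (hZ : ZetaBound K) (hL : ZetaLower K)
    (hE2 : EulerProp K2) (hZ2 : ZetaBound K2)
    (f : ClassGroup (𝓞 K) →* Multiplicative (ZMod p)) (hf : f ≠ 1)
    (T : Set (HeightOneSpectrum (𝓞 K)))
    (hcover : ∀ v : HeightOneSpectrum (𝓞 K), (absNorm v.asIdeal).Prime → absNorm v.asIdeal ≠ p →
      f (ClassGroup.mk0 (primeNZ v)) = 1 ∨ v ∈ T)
    (iota : T × Fin p → HeightOneSpectrum (𝓞 K2)) (hinj : Function.Injective iota)
    (hN : ∀ x, absNorm (iota x).asIdeal = absNorm x.1.1.asIdeal) : False := by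
  classical
  obtain ⟨D, hD0, hD⟩ := exists_bound_f_one hE hKey hZ hf
  obtain ⟨Cd, hCd⟩ := deg_bound K p
  obtain ⟨c, hc0, δ, hδ0, hc⟩ := hL
  have hV := fun {s : ℝ} (hs : 1 ≤ s) Y ↦ sum_xterm_sq_le hZ hs (M := K) Y
  obtain ⟨CZ, hCZ⟩ := hZ
  obtain ⟨CZ2, hCZ2⟩ := hZ2
  set V := zetaSum K 2 with hVdef
  have hpR : (0 : ℝ) < p := by exact_mod_cast (Fact.out : p.Prime).pos
  -- the main inequality
  have main : ∀ s ∈ Set.Ioc (1 : ℝ) 2, zetaSum K s ^ p ≤
      Real.exp (p * Cd) * (CZ / (s - 1) * D) * (CZ2 / (s - 1)) * Real.exp (p * V) := by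
    intro s hs
    have hs1 : 0 < s - 1 := by have := hs.1; linarith
    refine zetaSum_pow_le hE hs.1 fun Y ↦ ?_
    set Yb := Y.filter (fun v ↦ ¬ (absNorm v.asIdeal).Prime ∨ absNorm v.asIdeal = p) with hYb
    set Yg := Y.filter (fun v ↦ ¬ (¬ (absNorm v.asIdeal).Prime ∨ absNorm v.asIdeal = p)) with hYg
    set Y1 := Yg.filter (fun v ↦ f (ClassGroup.mk0 (primeNZ v)) = 1) with hY1
    set Y2 := Yg.filter (fun v ↦ ¬ f (ClassGroup.mk0 (primeNZ v)) = 1) with hY2
    have e1 : ∑ v ∈ Y, xterm s v = ∑ v ∈ Yb, xterm s v + (∑ v ∈ Y1, xterm s v + ∑ v ∈ Y2, xterm s v) := by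
      rw [hY1, hY2, Finset.sum_filter_add_sum_filter_not, hYb, hYg,
        Finset.sum_filter_add_sum_filter_not]
    have b0 : ∑ v ∈ Yb, xterm s v ≤ Cd :=
      hCd s hs.1.le Yb fun v hv ↦ (Finset.mem_filter.mp hv).2
    have b1 : Real.exp (p * ∑ v ∈ Y1, xterm s v) ≤ CZ / (s - 1) * D :=
      (hD s hs Y1 fun v hv ↦ (Finset.mem_filter.mp hv).2).trans
        (mul_le_mul_of_nonneg_right (hCZ s hs).2 hD0)
    have b2 : Real.exp (p * ∑ v ∈ Y2, xterm s v) ≤ CZ2 / (s - 1) := by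
      refine (exp_le_zetaSum_of_split hE2 T iota hinj hN hs.1 Y2 fun v hv ↦ ?_).trans (hCZ2 s hs).2
      obtain ⟨hvg, hvf⟩ := Finset.mem_filter.mp hv
      have hvg' := (Finset.mem_filter.mp hvg).2
      rw [not_or, not_not] at hvg'
      exact (hcover v hvg'.1 hvg'.2).resolve_left hvf
    have b3 : ∑ v ∈ Y, xterm s v ^ 2 ≤ V := hV hs.1.le Y
    rw [Finset.sum_add_distrib, e1]
    have e2 : (p : ℝ) * (∑ v ∈ Yb, xterm s v + (∑ v ∈ Y1, xterm s v + ∑ v ∈ Y2, xterm s v) +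
        ∑ v ∈ Y, xterm s v ^ 2) = p * ∑ v ∈ Yb, xterm s v + p * ∑ v ∈ Y1, xterm s v +
          p * ∑ v ∈ Y2, xterm s v + p * ∑ v ∈ Y, xterm s v ^ 2 := by ring
    rw [e2, Real.exp_add, Real.exp_add, Real.exp_add]
    have c0 : Real.exp (p * ∑ v ∈ Yb, xterm s v) ≤ Real.exp (p * Cd) :=
      Real.exp_le_exp.mpr (mul_le_mul_of_nonneg_left b0 hpR.le)
    have c3 : Real.exp (p * ∑ v ∈ Y, xterm s v ^ 2) ≤ Real.exp (p * V) :=
      Real.exp_le_exp.mpr (mul_le_mul_of_nonneg_left b3 hpR.le)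
    have n1 : 0 ≤ CZ / (s - 1) * D := le_trans (Real.exp_pos _).le b1
    have n2 : 0 ≤ CZ2 / (s - 1) := le_trans (Real.exp_pos _).le b2
    have m1 := mul_le_mul c0 b1 (Real.exp_pos _).le (Real.exp_pos _).le
    have m2 := mul_le_mul m1 b2 (Real.exp_pos _).le (mul_nonneg (Real.exp_pos _).le n1)
    exact mul_le_mul m2 c3 (Real.exp_pos _).le
      (mul_nonneg (mul_nonneg (Real.exp_pos _).le n1) n2)
  -- the constant
  set A := Real.exp (p * Cd) * CZ * D * CZ2 * Real.exp (p * V) with hA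
  have main2 : ∀ t : ℝ, 0 < t → t < δ → t ≤ 1 → c ^ p ≤ A * t := by
    intro t ht0 htδ ht1
    have hs : (1 + t) ∈ Set.Ioc (1 : ℝ) 2 := ⟨by linarith, by linarith⟩
    have h1 := main (1 + t) hs
    have h2 := hc (1 + t) ⟨by linarith, by linarith⟩
    rw [add_sub_cancel_left] at h1 h2
    have h3 : (c / t) ^ p ≤ zetaSum K (1 + t) ^ p := pow_le_pow_left₀ (by positivity) h2 _
    have h4 := h3.trans h1
    have h5 : Real.exp (p * Cd) * (CZ / t * D) * (CZ2 / t) * Real.exp (p * V) = A / t ^ 2 := by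
      rw [hA]; field_simp
    rw [h5, div_pow, div_le_div_iff₀ (by positivity) (by positivity)] at h4
    -- c^p * t^2 ≤ A * t^p
    have hA0 : 0 ≤ A := by
      have : 0 ≤ A * t ^ p := le_trans (by positivity) h4
      exact nonneg_of_mul_nonneg_left this (by positivity)
    have h6 : t ^ p ≤ t ^ 3 := pow_le_pow_of_le_one ht0.le ht1 hp3
    have h7 : c ^ p * t ^ 2 ≤ (A * t) * t ^ 2 := by
      calc c ^ p * t ^ 2 ≤ A * t ^ p := h4
        _ ≤ A * t ^ 3 := mul_le_mul_of_nonneg_left h6 hA0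
        _ = (A * t) * t ^ 2 := by ring
    exact le_of_mul_le_mul_right h7 (by positivity)
  have hcp : 0 < c ^ p := pow_pos hc0 _
  -- choose t small
  have hApos : 0 < A := by
    have := main2 (min (δ / 2) 1) (by positivity) (lt_of_le_of_lt (min_le_left _ _) (by linarith))
      (min_le_right _ _)
    have h2 : 0 < A * min (δ / 2) 1 := lt_of_lt_of_le hcp this
    exact (pos_iff_pos_of_mul_pos h2).mpr (by positivity)
  set t := min (min (δ / 2) 1) (c ^ p / (2 * A)) with ht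
  have ht0 : 0 < t := by positivity
  have h1 := main2 t ht0 (lt_of_le_of_lt ((min_le_left _ _).trans (min_le_left _ _)) (by linarith))
    ((min_le_left _ _).trans (min_le_right _ _))
  have h2 : A * t ≤ A * (c ^ p / (2 * A)) := mul_le_mul_of_nonneg_left (min_le_right _ _) hApos.le
  have h3 : A * (c ^ p / (2 * A)) = c ^ p / 2 := by field_simp
  linarith

end

end Fermat.Agent.S14
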