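import Mathlib

set_option autoImplicit false

/-! # S14 [Euler]: the abstract Euler product over a free commutative monoid `P →₀ ℕ` -/

namespace Fermat.Agent.S14.EulerAbs

open Filter Topology

variable {P : Type*}

/-- the weight of an exponent vector -/
noncomputable def wt (a : P → ℂ) (k : P →₀ ℕ) : ℂ := k.prod fun l n => a l ^ n

theorem wt_zero (a : P → ℂ) : wt a 0 = 1 := Finsupp.prod_zero_index

theorem wt_add (a : P → ℂ) (k k' : P →₀ ℕ) : wt a (k + k') = wt a k * wt a k' := by
  classical
  exact Finsupp.prod_add_index' (fun _ => pow_zero _) (fun _ _ _ => pow_add _ _ _)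

theorem wt_single (a : P → ℂ) (l : P) (n : ℕ) : wt a (Finsupp.single l n) = a l ^ n :=
  Finsupp.prod_single_index (pow_zero _)

/-- exponent vectors supported in `insert l Y`. -/
noncomputable def insertEquiv [DecidableEq P] (l : P) (Y : Finset P) (hl : l ∉ Y) :
    ℕ × {k : P →₀ ℕ // k.support ⊆ Y} ≃ {k : P →₀ ℕ // k.support ⊆ insert l Y} where
  toFun x := ⟨Finsupp.single l x.1 + x.2.1, by
    refine Finsupp.support_add.trans (Finset.union_subset ?_ ?_)
    · exact Finsupp.support_single_subset.trans (by simp)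
    · exact x.2.2.trans (Finset.subset_insert _ _)⟩
  invFun k := ⟨k.1 l, ⟨k.1.erase l, by
    rw [Finsupp.support_erase]
    intro x hx
    rw [Finset.mem_erase] at hx
    exact (Finset.mem_insert.mp (k.2 hx.2)).resolve_left hx.1⟩⟩
  left_inv x := by
    have h0 : x.2.1 l = 0 := by
      by_contra h
      exact hl (x.2.2 (Finsupp.mem_support_iff.mpr h))
    ext1
    · simp [h0]
    · apply Subtype.ext
      ext y
      by_cases hy : y = l
      · subst hy; simp [h0]
      · simp [Finsupp.erase_ne hy]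
  right_inv k := by
    apply Subtype.ext
    exact Finsupp.single_add_erase l k.1

theorem hasSum_supp (a : P → ℂ) (ha : ∀ l, ‖a l‖ < 1) (Y : Finset P) :
    Summable (fun k : {k : P →₀ ℕ // k.support ⊆ Y} => ‖wt a k.1‖) ∧
      HasSum (fun k : {k : P →₀ ℕ // k.support ⊆ Y} => wt a k.1) (∏ l ∈ Y, (1 - a l)⁻¹) := by
  classical
  induction Y using Finset.induction_on with
  | empty =>
    have hk : ∀ k : {k : P →₀ ℕ // k.support ⊆ (∅ : Finset P)}, k.1 = 0 := fun k => by
      have := k.2
      rw [Finset.subset_empty, Finsupp.support_eq_empty] at this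
      exact this
    have : Unique {k : P →₀ ℕ // k.support ⊆ (∅ : Finset P)} :=
      { default := ⟨0, by simp⟩
        uniq := fun k => Subtype.ext (hk k) }
    refine ⟨(hasSum_unique _).summable, ?_⟩
    have h := hasSum_unique (fun k : {k : P →₀ ℕ // k.support ⊆ (∅ : Finset P)} => wt a k.1)
    rw [hk, wt_zero] at h
    simpa using h
  | insert l Y hl ih =>
    obtain ⟨ih1, ih2⟩ := ih
    have hg := hasSum_geometric_of_norm_lt_one (ha l)
    have hgn : Summable fun n : ℕ => ‖a l ^ n‖ := by
      simp_rw [norm_pow]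
      exact summable_geometric_of_lt_one (norm_nonneg _) (ha l)
    have hw : ∀ x : ℕ × {k : P →₀ ℕ // k.support ⊆ Y},
        wt a (insertEquiv l Y hl x).1 = a l ^ x.1 * wt a x.2.1 := by
      intro x
      show wt a (Finsupp.single l x.1 + x.2.1) = _
      rw [wt_add, wt_single]
    have e1 : (fun k : {k : P →₀ ℕ // k.support ⊆ insert l Y} => ‖wt a k.1‖) ∘
        (insertEquiv l Y hl) = fun x => ‖a l ^ x.1‖ * ‖wt a x.2.1‖ := by
      funext x
      rw [Function.comp_apply, hw, norm_mul]
    have e2 : (fun k : {k : P →₀ ℕ // k.support ⊆ insert l Y} => wt a k.1) ∘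
        (insertEquiv l Y hl) = fun x => a l ^ x.1 * wt a x.2.1 := by
      funext x
      rw [Function.comp_apply, hw]
    constructor
    · rw [← (insertEquiv l Y hl).summable_iff, e1]
      exact Summable.mul_of_nonneg hgn ih1 (fun _ => norm_nonneg _) (fun _ => norm_nonneg _)
    · rw [← (insertEquiv l Y hl).hasSum_iff, Finset.prod_insert hl, e2]
      have h5 : Summable fun x : ℕ × {k : P →₀ ℕ // k.support ⊆ Y} => a l ^ x.1 * wt a x.2.1 :=
        summable_mul_of_summable_norm (f := fun n : ℕ => a l ^ n)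
          (g := fun k : {k : P →₀ ℕ // k.support ⊆ Y} => wt a k.1) hgn ih1
      exact HasSum.mul (f := fun n : ℕ => a l ^ n)
        (g := fun k : {k : P →₀ ℕ // k.support ⊆ Y} => wt a k.1) hg ih2 h5

/-- **The abstract Euler product.** -/
theorem tendsto_prod (a : P → ℂ) (ha : ∀ l, ‖a l‖ < 1)
    (hs : Summable fun k : P →₀ ℕ => ‖wt a k‖) :
    Tendsto (fun Y : Finset P => ∏ l ∈ Y, (1 - a l)⁻¹) atTop (𝓝 (∑' k : P →₀ ℕ, wt a k)) := by
  classical
  have h1 : ∀ Y : Finset P, ∏ l ∈ Y, (1 - a l)⁻¹ =
      ∑' k : P →₀ ℕ, Set.indicator {k : P →₀ ℕ | k.support ⊆ Y} (wt a) k := by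
    intro Y
    rw [← (hasSum_supp a ha Y).2.tsum_eq]
    exact tsum_subtype {k : P →₀ ℕ | k.support ⊆ Y} (wt a)
  simp_rw [h1]
  refine tendsto_tsum_of_dominated_convergence hs ?_ ?_
  · intro k
    refine tendsto_const_nhds.congr' ?_
    filter_upwards [eventually_ge_atTop k.support] with Y hY
    rw [Set.indicator_of_mem]
    exact hY
  · refine Eventually.of_forall fun Y k => ?_
    by_cases hk : k ∈ {k : P →₀ ℕ | k.support ⊆ Y}
    · rw [Set.indicator_of_mem hk]
    · rw [Set.indicator_of_notMem hk, norm_zero]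
      exact norm_nonneg _

end Fermat.Agent.S14.EulerAbs
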