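import Mathlib

set_option autoImplicit false

/-! # S14 [Euler]: nonzero ideals of a Dedekind domain = finitely supported exponent vectors -/

namespace Fermat.Agent.S14.IdealFinsupp

open IsDedekindDomain
open scoped nonZeroDivisors

variable (R : Type*) [CommRing R] [IsDedekindDomain R]

/-- a nonzero prime as an element of `(Ideal R)⁰`. -/
def primeI (l : HeightOneSpectrum R) : (Ideal R)⁰ :=
  ⟨l.asIdeal, mem_nonZeroDivisors_of_ne_zero l.ne_bot⟩

/-- `k ↦ ∏ l ^ k l`. -/
noncomputable def ofExp (k : HeightOneSpectrum R →₀ ℕ) : (Ideal R)⁰ :=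
  k.prod fun l n => primeI R l ^ n

theorem coe_ofExp (k : HeightOneSpectrum R →₀ ℕ) :
    ((ofExp R k : (Ideal R)⁰) : Ideal R) = k.prod fun l n => l.asIdeal ^ n := by
  unfold ofExp Finsupp.prod
  rw [Submonoid.coe_finsetProd]
  rfl

theorem ofExp_injective : Function.Injective (ofExp R) := by
  intro k k' h
  have h1 := congrArg (fun I : (Ideal R)⁰ => (I : Ideal R)) h
  simp only [coe_ofExp] at h1
  ext v
  have key : ∀ k : HeightOneSpectrum R →₀ ℕ,
      FractionalIdeal.count (FractionRing R) v
        (((k.prod fun l n => l.asIdeal ^ n : Ideal R)) : FractionalIdeal R⁰ (FractionRing R)) =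
        (k v : ℤ) := by
    intro k
    have := FractionalIdeal.count_finsuppProd (FractionRing R) v
      (k.mapRange (fun n : ℕ => (n : ℤ)) rfl)
    rw [Finsupp.mapRange_apply] at this
    rw [← this, Finsupp.prod_mapRange_index (fun _ => zpow_zero _)]
    congr 1
    unfold Finsupp.prod
    have h3 := map_prod (FractionalIdeal.coeIdealHom R⁰ (FractionRing R))
      (fun l : HeightOneSpectrum R => l.asIdeal ^ k l) k.support
    refine h3.trans ?_
    refine Finset.prod_congr rfl fun l _ => ?_
    show ((l.asIdeal ^ k l : Ideal R) : FractionalIdeal R⁰ (FractionRing R)) = _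
    rw [FractionalIdeal.coeIdeal_pow]
    exact (zpow_natCast _ _).symm
  have h2 := key k
  rw [h1, key k'] at h2
  exact_mod_cast h2.symm

theorem ofExp_surjective : Function.Surjective (ofExp R) := by
  intro I
  have hI : (I : Ideal R) ≠ ⊥ := nonZeroDivisors.coe_ne_zero I
  have hfin : (Function.support fun l : HeightOneSpectrum R =>
      multiplicity l.asIdeal (I : Ideal R)).Finite := by
    refine (Ideal.finite_factors hI).subset ?_
    intro l hl
    rw [Function.mem_support] at hl
    exact dvd_of_multiplicity_pos (Nat.pos_of_ne_zero hl)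
  refine ⟨Finsupp.ofSupportFinite _ hfin, Subtype.ext ?_⟩
  rw [coe_ofExp]
  conv_rhs => rw [← Ideal.finprod_heightOneSpectrum_pow_multiplicity hI]
  rw [finprod_eq_finsetProd_of_mulSupport_subset (s := (Finsupp.ofSupportFinite _ hfin).support)]
  · rfl
  · intro l hl
    rw [Function.mem_mulSupport] at hl
    rw [Finset.mem_coe, Finsupp.mem_support_iff]
    intro h0
    apply hl
    have : multiplicity l.asIdeal (I : Ideal R) = 0 := h0
    rw [this, pow_zero]

/-- the equivalence. -/
noncomputable def expEquiv : (HeightOneSpectrum R →₀ ℕ) ≃ (Ideal R)⁰ :=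
  Equiv.ofBijective (ofExp R) ⟨ofExp_injective R, ofExp_surjective R⟩

theorem expEquiv_apply (k : HeightOneSpectrum R →₀ ℕ) : expEquiv R k = ofExp R k := rfl

theorem map_ofExp {A : Type*} [CommMonoid A] (w : (Ideal R)⁰ →* A)
    (k : HeightOneSpectrum R →₀ ℕ) :
    w (ofExp R k) = k.prod fun l n => w (primeI R l) ^ n := by
  unfold ofExp
  rw [map_finsuppProd]
  simp_rw [map_pow]

end Fermat.Agent.S14.IdealFinsupp
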