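import Mathlib
import Fermat.Agent.S14.BddDefs

set_option autoImplicit false

/-! # S14 [Z]: the zeta sum over nonzero ideals -/

namespace Fermat.Agent.S14

open NumberField Filter Topology Ideal
open scoped nonZeroDivisors

variable (M : Type*) [Field M] [NumberField M]

namespace Zeta

/-- the number of ideals of norm `n` -/
noncomputable def cnt (n : ℕ) : ℕ := Nat.card {I : Ideal (𝓞 M) // absNorm I = n}

theorem tendsto_sum_cnt :
    Tendsto (fun n : ℕ => (∑ k ∈ Finset.Icc 1 n, (cnt M k : ℝ)) / (n : ℝ)) atTop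
      (𝓝 (dedekindZeta_residue M)) := by
  refine ((Ideal.tendsto_norm_le_div_atTop₀ M).comp tendsto_natCast_atTop_atTop).congr fun n ↦ ?_
  simp only [Function.comp_apply, Nat.cast_le, ← Nat.cast_sum, cnt]
  congr
  rw [← add_left_inj 1, ← card_norm_le_eq_card_norm_le_add_one,
    show Finset.Icc 1 n = Finset.Ioc 0 n from Finset.Icc_succ_left_eq_Ioc _ _,
    show 1 = Nat.card {I : Ideal (𝓞 M) // absNorm I = 0} by simp [Ideal.absNorm_eq_zero_iff],
    Finset.sum_Ioc_add_eq_sum_Icc (n.zero_le),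
    ← Finset.card_preimage_eq_sum_card_image_eq (fun k _ ↦ finite_setOfPred_absNorm_eq k)]
  simp [Set.coe_eq_subtype]

theorem lseriesSummable_cnt {s : ℝ} (hs : 1 < s) :
    LSeriesSummable (fun n => ((cnt M n : ℝ) : ℂ)) (s : ℂ) := by
  refine LSeriesSummable_of_sum_norm_bigO_and_nonneg ?_ (fun _ => Nat.cast_nonneg _) zero_le_one
    (by simpa using hs)
  exact Asymptotics.isBigO_atTop_natCast_rpow_of_tendsto_div_rpow (a := dedekindZeta_residue M)
    (by simpa using tendsto_sum_cnt M)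

/-- the fibre of the norm on nonzero ideals -/
abbrev Fib (n : ℕ) : Type _ := {I : (Ideal (𝓞 M))⁰ // absNorm (I : Ideal (𝓞 M)) = n}

instance (n : ℕ) : Finite (Fib M n) := by
  have : Finite {I : Ideal (𝓞 M) // absNorm I = n} := finite_setOfPred_absNorm_eq n
  exact Finite.of_injective (fun I : Fib M n => (⟨I.1.1, I.2⟩ : {I : Ideal (𝓞 M) // absNorm I = n}))
    (fun I J h => Subtype.ext (Subtype.ext (congrArg
      (fun x : {I : Ideal (𝓞 M) // absNorm I = n} => x.1) h)))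

theorem card_fib {n : ℕ} (hn : n ≠ 0) : Nat.card (Fib M n) = cnt M n := by
  refine Nat.card_congr
    { toFun := fun I => ⟨I.1.1, I.2⟩
      invFun := fun I => ⟨⟨I.1, mem_nonZeroDivisors_of_ne_zero (fun h => hn (by
        rw [← I.2, h]; simp))⟩, I.2⟩
      left_inv := fun I => rfl
      right_inv := fun I => rfl }

theorem isEmpty_fib_zero : IsEmpty (Fib M 0) :=
  ⟨fun I => nonZeroDivisors.coe_ne_zero I.1 (Ideal.absNorm_eq_zero_iff.mp I.2)⟩

/-- the real term -/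
noncomputable def rterm (s : ℝ) (n : ℕ) : ℝ := if n = 0 then 0 else (cnt M n : ℝ) * (n : ℝ) ^ (-s)

theorem term_eq (s : ℝ) (n : ℕ) :
    LSeries.term (fun n => ((cnt M n : ℝ) : ℂ)) (s : ℂ) n = ((rterm M s n : ℝ) : ℂ) := by
  unfold rterm
  rw [LSeries.term_def]
  split_ifs with h
  · simp
  · rw [Real.rpow_neg (Nat.cast_nonneg _), Complex.ofReal_mul, Complex.ofReal_inv,
      Complex.ofReal_cpow (Nat.cast_nonneg _), div_eq_mul_inv]
    simp

theorem summable_rterm {s : ℝ} (hs : 1 < s) : Summable (rterm M s) := by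
  have h := lseriesSummable_cnt M hs
  unfold LSeriesSummable at h
  have h2 : Summable fun n => ((rterm M s n : ℝ) : ℂ) := h.congr fun n => term_eq M s n
  exact Complex.summable_ofReal.mp h2

theorem tsum_fib (s : ℝ) (n : ℕ) :
    ∑' I : Fib M n, (absNorm (I.1 : Ideal (𝓞 M)) : ℝ) ^ (-s) = rterm M s n := by
  have h1 : ∀ I : Fib M n, (absNorm (I.1 : Ideal (𝓞 M)) : ℝ) ^ (-s) = (n : ℝ) ^ (-s) :=
    fun I => by rw [I.2]
  simp_rw [h1]
  rw [tsum_const, rterm]
  split_ifs with h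
  · subst h
    have := isEmpty_fib_zero M
    simp
  · rw [card_fib M h, nsmul_eq_mul]

end Zeta

open Zeta

theorem hasSum_absNorm_rpow {s : ℝ} (hs : 1 < s) :
    HasSum (fun I : (Ideal (𝓞 M))⁰ => (absNorm (I : Ideal (𝓞 M)) : ℝ) ^ (-s))
      (∑' n, rterm M s n) := by
  rw [← (Equiv.sigmaFiberEquiv (fun I : (Ideal (𝓞 M))⁰ => absNorm (I : Ideal (𝓞 M)))).hasSum_iff]
  have hsum : Summable ((fun I : (Ideal (𝓞 M))⁰ => (absNorm (I : Ideal (𝓞 M)) : ℝ) ^ (-s)) ∘
      (Equiv.sigmaFiberEquiv (fun I : (Ideal (𝓞 M))⁰ => absNorm (I : Ideal (𝓞 M))))) := by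
    refine (summable_sigma_of_nonneg (fun x => ?_)).mpr ?_
    · exact Real.rpow_nonneg (Nat.cast_nonneg _) _
    refine ⟨fun n => Summable.of_finite, ?_⟩
    refine (summable_rterm M hs).congr fun n => ?_
    exact (tsum_fib M s n).symm
  have h3 := hsum.hasSum
  rw [hsum.tsum_sigma] at h3
  have h4 : ∀ n : ℕ, ∑' c : Fib M n, ((fun I : (Ideal (𝓞 M))⁰ =>
      (absNorm (I : Ideal (𝓞 M)) : ℝ) ^ (-s)) ∘ (Equiv.sigmaFiberEquiv
      (fun I : (Ideal (𝓞 M))⁰ => absNorm (I : Ideal (𝓞 M))))) ⟨n, c⟩ = rterm M s n :=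
    fun n => tsum_fib M s n
  simp_rw [h4] at h3
  exact h3

theorem summable_absNorm_rpow {s : ℝ} (hs : 1 < s) :
    Summable fun I : (Ideal (𝓞 M))⁰ => (absNorm (I : Ideal (𝓞 M)) : ℝ) ^ (-s) :=
  (hasSum_absNorm_rpow M hs).summable

theorem zetaSum_eq {s : ℝ} (hs : 1 < s) : zetaSum M s = ∑' n, rterm M s n :=
  (hasSum_absNorm_rpow M hs).tsum_eq

theorem dedekindZeta_eq {s : ℝ} (hs : 1 < s) : dedekindZeta M (s : ℂ) = ((zetaSum M s : ℝ) : ℂ) := by
  rw [zetaSum_eq M hs, Complex.ofReal_tsum]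
  unfold dedekindZeta LSeries
  refine tsum_congr fun n => ?_
  rw [← term_eq]
  simp [cnt]

theorem tendsto_sub_one_mul_zetaSum :
    Tendsto (fun s : ℝ => (s - 1) * zetaSum M s) (𝓝[>] 1) (𝓝 (dedekindZeta_residue M)) := by
  have h := tendsto_sub_one_mul_dedekindZeta_nhdsGT M
  rw [← Filter.tendsto_ofReal_iff]
  refine h.congr' ?_
  filter_upwards [self_mem_nhdsWithin] with s hs
  rw [dedekindZeta_eq M hs]
  push_cast
  ring

theorem zetaSum_nonneg (s : ℝ) : 0 ≤ zetaSum M s :=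
  tsum_nonneg fun _ => Real.rpow_nonneg (Nat.cast_nonneg _) _

theorem one_le_absNorm (I : (Ideal (𝓞 M))⁰) : (1 : ℝ) ≤ (absNorm (I : Ideal (𝓞 M)) : ℝ) := by
  have h : absNorm (I : Ideal (𝓞 M)) ≠ 0 := fun h =>
    nonZeroDivisors.coe_ne_zero I (Ideal.absNorm_eq_zero_iff.mp h)
  exact_mod_cast Nat.one_le_iff_ne_zero.mpr h

theorem zetaSum_anti {s t : ℝ} (hs : 1 < s) (hst : s ≤ t) : zetaSum M t ≤ zetaSum M s :=
  (summable_absNorm_rpow M (hs.trans_le hst)).tsum_le_tsum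
    (fun I => Real.rpow_le_rpow_of_exponent_le (one_le_absNorm M I) (neg_le_neg hst))
    (summable_absNorm_rpow M hs)

theorem zetaBound : ZetaBound M := by
  have h := tendsto_sub_one_mul_zetaSum M
  have h1 : ∀ᶠ s in 𝓝[>] (1 : ℝ), (s - 1) * zetaSum M s < dedekindZeta_residue M + 1 :=
    h.eventually (gt_mem_nhds (lt_add_one _))
  obtain ⟨u, hu, hsub⟩ := mem_nhdsGT_iff_exists_Ioo_subset.mp h1
  have hu' : (1 : ℝ) < u := hu
  set s₀ : ℝ := (1 + u) / 2 with hs₀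
  have hs₀1 : 1 < s₀ := by rw [hs₀]; linarith
  have hs₀u : s₀ < u := by rw [hs₀]; linarith
  refine ⟨max (dedekindZeta_residue M + 1) (zetaSum M s₀), fun s hs => ⟨summable_absNorm_rpow M hs.1, ?_⟩⟩
  have hpos : 0 < s - 1 := sub_pos.mpr hs.1
  rw [le_div_iff₀ hpos]
  by_cases hsu : s < u
  · have := hsub (show s ∈ Set.Ioo 1 u from ⟨hs.1, hsu⟩)
    have h2 : (s - 1) * zetaSum M s < dedekindZeta_residue M + 1 := this
    rw [mul_comm]
    exact h2.le.trans (le_max_left _ _)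
  · push Not at hsu
    have h2 : zetaSum M s ≤ zetaSum M s₀ := zetaSum_anti M hs₀1 (hs₀u.le.trans hsu)
    have h3 : s - 1 ≤ 1 := by linarith [hs.2]
    calc zetaSum M s * (s - 1) ≤ zetaSum M s * 1 :=
          mul_le_mul_of_nonneg_left h3 (zetaSum_nonneg M s)
      _ = zetaSum M s := mul_one _
      _ ≤ zetaSum M s₀ := h2
      _ ≤ _ := le_max_right _ _

theorem zeta_lower : ∃ c > 0, ∃ δ > 0, ∀ s ∈ Set.Ioo (1 : ℝ) (1 + δ), c / (s - 1) ≤ zetaSum M s := by
  have h := tendsto_sub_one_mul_zetaSum M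
  have hκ := dedekindZeta_residue_pos M
  have h1 : ∀ᶠ s in 𝓝[>] (1 : ℝ), dedekindZeta_residue M / 2 < (s - 1) * zetaSum M s :=
    h.eventually (lt_mem_nhds (half_lt_self hκ))
  obtain ⟨u, hu, hsub⟩ := mem_nhdsGT_iff_exists_Ioo_subset.mp h1
  have hu' : (1 : ℝ) < u := hu
  refine ⟨dedekindZeta_residue M / 2, half_pos hκ, u - 1, sub_pos.mpr hu', fun s hs => ?_⟩
  have hpos : 0 < s - 1 := sub_pos.mpr hs.1
  rw [div_le_iff₀ hpos, mul_comm]
  have := hsub (show s ∈ Set.Ioo 1 u from ⟨hs.1, by linarith [hs.2]⟩)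
  exact le_of_lt this

end Fermat.Agent.S14
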