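import Mathlib
import Fermat.Agent.S14.DensDefs
import Fermat.Agent.S14.Zeta
import Fermat.Agent.S14.EulerAbs
import Fermat.Agent.S14.IdealFinsupp

set_option autoImplicit false

/-! # S14 [Euler]: the Euler product of `L(s, χ)` over the primes of a number field -/

namespace Fermat.Agent.S14

open NumberField Filter Topology Ideal IsDedekindDomain
open scoped nonZeroDivisors

variable (M : Type*) [Field M] [NumberField M]

theorem zetaLower : ZetaLower M := by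
  obtain ⟨c, hc, δ, hδ, h⟩ := zeta_lower M
  exact ⟨c, hc, δ, hδ, h⟩

namespace Euler

/-- the weight `I ↦ χ(I) N(I)^(-s)` as a monoid hom. -/
noncomputable def weight (χ : (Ideal (𝓞 M))⁰ →* ℂ) (s : ℝ) : (Ideal (𝓞 M))⁰ →* ℂ where
  toFun I := χ I * (((absNorm (I : Ideal (𝓞 M)) : ℝ) ^ (-s) : ℝ) : ℂ)
  map_one' := by simp
  map_mul' I J := by
    rw [map_mul, Submonoid.coe_mul, map_mul, Nat.cast_mul,
      Real.mul_rpow (Nat.cast_nonneg _) (Nat.cast_nonneg _), Complex.ofReal_mul]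
    ring

theorem weight_apply (χ : (Ideal (𝓞 M))⁰ →* ℂ) (s : ℝ) (I : (Ideal (𝓞 M))⁰) :
    weight M χ s I = χ I * (((absNorm (I : Ideal (𝓞 M)) : ℝ) ^ (-s) : ℝ) : ℂ) := rfl

theorem norm_weight_le (χ : (Ideal (𝓞 M))⁰ →* ℂ) (hχ : ∀ I, ‖χ I‖ ≤ 1) (s : ℝ)
    (I : (Ideal (𝓞 M))⁰) : ‖weight M χ s I‖ ≤ (absNorm (I : Ideal (𝓞 M)) : ℝ) ^ (-s) := by
  have h0 : 0 ≤ (absNorm (I : Ideal (𝓞 M)) : ℝ) ^ (-s) := Real.rpow_nonneg (Nat.cast_nonneg _) _
  rw [weight_apply, norm_mul, Complex.norm_real, Real.norm_of_nonneg h0]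
  exact mul_le_of_le_one_left h0 (hχ I)

theorem xterm_lt_one {s : ℝ} (hs : 0 < s) (v : HeightOneSpectrum (𝓞 M)) : xterm s v < 1 := by
  have h1 : absNorm v.asIdeal ≠ 1 := fun h => v.isPrime.ne_top (Ideal.absNorm_eq_one_iff.mp h)
  have h0 : absNorm v.asIdeal ≠ 0 := fun h => v.ne_bot (Ideal.absNorm_eq_zero_iff.mp h)
  have h2 : (1 : ℝ) < (absNorm v.asIdeal : ℝ) := by
    have : 1 < absNorm v.asIdeal := by omega
    exact_mod_cast this
  exact Real.rpow_lt_one_of_one_lt_of_neg h2 (neg_lt_zero.mpr hs)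

end Euler

open Euler in
theorem eulerProp : EulerProp M := by
  intro χ hχ s hs
  set w := weight M χ s with hw
  set a : HeightOneSpectrum (𝓞 M) → ℂ := fun v => w (IdealFinsupp.primeI (𝓞 M) v) with ha
  have ha' : ∀ v, a v = χ (primeNZ v) * ((xterm s v : ℝ) : ℂ) := fun v => rfl
  have hlt : ∀ v, ‖a v‖ < 1 := fun v =>
    (norm_weight_le M χ hχ s _).trans_lt (xterm_lt_one M (zero_lt_one.trans hs) v)
  have hwt : ∀ k, EulerAbs.wt a k = w (IdealFinsupp.expEquiv (𝓞 M) k) := fun k => by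
    rw [IdealFinsupp.expEquiv_apply, IdealFinsupp.map_ofExp]
    rfl
  have hsumI : Summable fun I : (Ideal (𝓞 M))⁰ => ‖w I‖ :=
    Summable.of_nonneg_of_le (fun _ => norm_nonneg _) (norm_weight_le M χ hχ s)
      (summable_absNorm_rpow M hs)
  have hsum : Summable fun k => ‖EulerAbs.wt a k‖ := by
    simp_rw [hwt]
    exact (IdealFinsupp.expEquiv (𝓞 M)).summable_iff.mpr hsumI
  have key := EulerAbs.tendsto_prod a hlt hsum
  have htsum : ∑' k, EulerAbs.wt a k = LSum M χ s := by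
    simp_rw [hwt]
    exact (IdealFinsupp.expEquiv (𝓞 M)).tsum_eq (fun I => w I)
  rw [htsum] at key
  exact key

end Fermat.Agent.S14
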