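import Mathlib

/-!
# S14 `[Split]`, abstract part

`L/K` of degree `p`, `θ ∈ 𝓞 L` with `θ^p = η ∈ (𝓞 K)ˣ`, `τ θ = ζ θ`.  If `η ≡ x^p mod λ` and
`p ∉ λ`, there are `p` distinct primes of `𝓞 L` over `λ`, each of the same absolute norm as `λ`.
-/

set_option autoImplicit false
set_option linter.unusedSectionVars false
set_option linter.deprecated false

open NumberField Finset

namespace Fermat.Agent.S14

section
variable {p : ℕ} [hpf : Fact p.Prime]

/-- `1 - ζ^m ∣ p` for `0 < m < p`. -/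
lemma one_sub_pow_dvd_prime {R : Type*} [CommRing R] [IsDomain R] {ζ : R}
    (hζ : IsPrimitiveRoot ζ p) {m : ℕ} (hm0 : 0 < m) (hm : m < p) : (1 - ζ ^ m) ∣ (p : R) := by
  obtain ⟨n, rfl⟩ : ∃ n, p = n + 1 := ⟨p - 1, by have := hpf.out.pos; omega⟩
  have h := hζ.prod_one_sub_pow_eq_order
  have h2 : ((n + 1 : ℕ) : R) = ∏ k ∈ range n, (1 - ζ ^ (k + 1)) := by
    rw [h]; push_cast; ring
  rw [h2]
  have : m - 1 ∈ range n := by rw [mem_range]; omega
  have h3 := Finset.dvd_prod_of_mem (fun k => (1 - ζ ^ (k + 1))) this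
  have h4 : m - 1 + 1 = m := by omega
  simpa [h4] using h3

variable {K L : Type*} [Field K] [NumberField K] [Field L] [NumberField L] [Algebra K L]

/-- restriction of a `K`-automorphism of `L` to `𝓞 L`. -/
noncomputable def autO (τ : L ≃ₐ[K] L) : 𝓞 L ≃+* 𝓞 L := RingOfIntegers.mapRingEquiv τ.toRingEquiv

lemma autO_coe (τ : L ≃ₐ[K] L) (y : 𝓞 L) : ((autO τ y : 𝓞 L) : L) = τ (y : L) := rfl

lemma autO_algebraMap (τ : L ≃ₐ[K] L) (a : 𝓞 K) :
    autO τ (algebraMap (𝓞 K) (𝓞 L) a) = algebraMap (𝓞 K) (𝓞 L) a := by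
  apply RingOfIntegers.ext
  rw [autO_coe]
  have : ((algebraMap (𝓞 K) (𝓞 L) a : 𝓞 L) : L) = algebraMap K L (a : K) := rfl
  rw [this, τ.commutes]

theorem exists_primes_over (hdeg : Module.finrank K L = p)
    {ζ : 𝓞 K} (hζ : IsPrimitiveRoot ζ p) (η : 𝓞 K) (hη : IsUnit η) (θ : 𝓞 L)
    (hθ : θ ^ p = algebraMap (𝓞 K) (𝓞 L) η)
    (τ : L ≃ₐ[K] L) (hτ : autO τ θ = algebraMap (𝓞 K) (𝓞 L) ζ * θ)
    (lam : Ideal (𝓞 K)) [hlp : lam.IsPrime] (hlam : lam ≠ ⊥) (hp : (p : 𝓞 K) ∉ lam)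
    (x : 𝓞 K) (hx : x ^ p - η ∈ lam) :
    ∃ Q : Fin p → Ideal (𝓞 L), Function.Injective Q ∧
      ∀ i, (Q i).IsPrime ∧ (Q i).LiesOver lam ∧ Ideal.absNorm (Q i) = Ideal.absNorm lam := by
  classical
  set ι := algebraMap (𝓞 K) (𝓞 L) with hι
  have hιinj : Function.Injective ι := FaithfulSMul.algebraMap_injective (𝓞 K) (𝓞 L)
  have hmax : lam.IsMaximal := hlp.isMaximal hlam
  -- a prime over `lam`
  obtain ⟨P, hPmax, hPover⟩ := Ideal.exists_maximal_ideal_liesOver_of_isIntegral (S := 𝓞 L) lam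
  have hPp : P.IsPrime := hPmax.isPrime
  have hPcomap : P.comap ι = lam := (hPover.over).symm
  have hmemP : ∀ a : 𝓞 K, ι a ∈ P ↔ a ∈ lam := by
    intro a; rw [← hPcomap]; rfl
  -- `θ - ζ^i0 x ∈ P`
  have hζL : IsPrimitiveRoot (ι ζ) p := hζ.map_of_injective hιinj
  have hprod := hζL.pow_sub_pow_eq_prod_sub_mul θ (ι x) hpf.out.pos
  have hin : θ ^ p - (ι x) ^ p ∈ P := by
    rw [hθ, ← map_pow, ← map_sub, hmemP]
    have := lam.neg_mem hx
    simpa using this
  rw [hprod] at hin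
  obtain ⟨μ, hμ, hμP⟩ := (Ideal.IsPrime.prod_mem_iff).mp hin
  rw [Polynomial.mem_nthRootsFinset hpf.out.pos] at hμ
  obtain ⟨i0, -, rfl⟩ := hζL.eq_pow_of_pow_eq_one hμ
  -- powers of `τ`
  have hτpow : ∀ i : ℕ, autO (τ ^ i) θ = ι ζ ^ i * θ := by
    intro i
    induction i with
    | zero =>
      apply RingOfIntegers.ext
      rw [autO_coe]; simp
    | succ n ih =>
      apply RingOfIntegers.ext
      have h1 : ((autO (τ ^ (n + 1)) θ : 𝓞 L) : L) = τ ((autO (τ ^ n) θ : 𝓞 L) : L) := by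
        rw [autO_coe, autO_coe, pow_succ']; rfl
      rw [h1, ih, ← autO_coe, map_mul, map_pow, hι, autO_algebraMap, hτ]
      congr 1
      ring
  set Q : Fin p → Ideal (𝓞 L) := fun i => P.comap (autO (τ ^ (i : ℕ))) with hQ
  have hQprime : ∀ i, (Q i).IsPrime := fun i => Ideal.comap_isPrime _ _
  have hQover : ∀ i, (Q i).LiesOver lam := by
    intro i
    constructor
    ext a
    rw [Ideal.mem_comap, hQ, Ideal.mem_comap, autO_algebraMap]
    exact (hmemP a).symm
  have hQmem : ∀ i : Fin p, θ - ι ζ ^ (i0 + (i : ℕ)) * ι x ∈ Q i := by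
    intro i
    rw [hQ, Ideal.mem_comap, map_sub, map_mul, map_pow, hτpow, hι, autO_algebraMap,
      autO_algebraMap]
    have : algebraMap (𝓞 K) (𝓞 L) ζ ^ (i : ℕ) * θ -
        algebraMap (𝓞 K) (𝓞 L) ζ ^ (i0 + (i : ℕ)) * algebraMap (𝓞 K) (𝓞 L) x =
        algebraMap (𝓞 K) (𝓞 L) ζ ^ (i : ℕ) *
          (θ - algebraMap (𝓞 K) (𝓞 L) ζ ^ i0 * algebraMap (𝓞 K) (𝓞 L) x) := by ring
    rw [this]
    exact P.mul_mem_left _ hμP
  have hxlam : x ∉ lam := by
    intro hxl
    have : η ∈ lam := by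
      have h1 := lam.sub_mem (lam.pow_mem_of_mem hxl p hpf.out.pos) hx
      simpa using h1
    exact hlp.ne_top (Ideal.eq_top_of_isUnit_mem _ this hη)
  have hζlam : ∀ n : ℕ, ζ ^ n ∉ lam := by
    intro n hn
    exact hlp.ne_top (Ideal.eq_top_of_isUnit_mem _ hn ((hζ.isUnit hpf.out.ne_zero).pow n))
  have hQinj : Function.Injective Q := by
    -- enough: `i < j` impossible
    have key : ∀ i j : Fin p, (i : ℕ) < (j : ℕ) → Q i ≠ Q j := by
      intro i j hij heq
      have h1 := hQmem i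
      have h2 := hQmem j
      rw [← heq] at h2
      have h3 := (Q i).sub_mem h1 h2
      have h4 : (θ - ι ζ ^ (i0 + (i : ℕ)) * ι x) - (θ - ι ζ ^ (i0 + (j : ℕ)) * ι x) =
          ι (-(ζ ^ (i0 + (i : ℕ)) * x * (1 - ζ ^ ((j : ℕ) - (i : ℕ))))) := by
        have hj : (j : ℕ) = (i : ℕ) + ((j : ℕ) - (i : ℕ)) := by omega
        conv_lhs => rw [hj]
        simp only [map_neg, map_mul, map_sub, map_pow, map_one]
        ring
      rw [h4] at h3
      have h5 : -(ζ ^ (i0 + (i : ℕ)) * x * (1 - ζ ^ ((j : ℕ) - (i : ℕ)))) ∈ lam := by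
        have := (hQover i).over
        rw [this]; exact h3
      rw [neg_mem_iff] at h5
      rcases hlp.mem_or_mem h5 with h6 | h6
      · rcases hlp.mem_or_mem h6 with h7 | h7
        · exact hζlam _ h7
        · exact hxlam h7
      · exact hp (lam.mem_of_dvd (one_sub_pow_dvd_prime hζ (by omega) (by omega)) h6)
    intro i j hij
    by_contra hne
    rcases lt_or_gt_of_ne (fun h => hne (Fin.ext h) : (i : ℕ) ≠ (j : ℕ)) with h | h
    · exact key i j h hij
    · exact key j i h hij.symm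
  refine ⟨Q, hQinj, fun i => ⟨hQprime i, hQover i, ?_⟩⟩
  -- the fundamental identity
  have hsum := Ideal.sum_ramification_inertia (R := 𝓞 K) (S := 𝓞 L) K L (p := lam) hlam
  rw [hdeg] at hsum
  have hmemS : ∀ i, Q i ∈ IsDedekindDomain.primesOverFinset lam (𝓞 L) := by
    intro i
    rw [IsDedekindDomain.mem_primesOverFinset_iff hlam]
    exact ⟨hQprime i, hQover i⟩
  have hpos : ∀ P' ∈ IsDedekindDomain.primesOverFinset lam (𝓞 L),
      1 ≤ Ideal.ramificationIdx' lam P' * Ideal.inertiaDeg' lam P' := by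
    intro P' hP'
    rw [IsDedekindDomain.mem_primesOverFinset_iff hlam] at hP'
    have := hP'.1
    have := hP'.2
    have h1 : Ideal.ramificationIdx' lam P' ≠ 0 :=
      Ideal.IsDedekindDomain.ramificationIdx'_ne_zero_of_liesOver P' hlam
    have h2 : 0 < Ideal.inertiaDeg' lam P' := Ideal.inertiaDeg'_pos lam P'
    exact Nat.one_le_iff_ne_zero.mpr (mul_ne_zero h1 h2.ne')
  have hf : Ideal.inertiaDeg' lam (Q i) = 1 := by
    by_contra hne
    have := hQprime i
    have := hQover i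
    have h1 : Ideal.ramificationIdx' lam (Q i) ≠ 0 :=
      Ideal.IsDedekindDomain.ramificationIdx'_ne_zero_of_liesOver (Q i) hlam
    have h2 : 0 < Ideal.inertiaDeg' lam (Q i) := Ideal.inertiaDeg'_pos lam (Q i)
    have h3 : 2 ≤ Ideal.ramificationIdx' lam (Q i) * Ideal.inertiaDeg' lam (Q i) := by
      have h4 : 2 ≤ Ideal.inertiaDeg' lam (Q i) := by omega
      calc 2 ≤ 1 * Ideal.inertiaDeg' lam (Q i) := by omega
        _ ≤ _ := Nat.mul_le_mul_right _ (Nat.one_le_iff_ne_zero.mpr h1)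
    -- sum over the image of `Q`
    have himg : (Finset.univ.image Q) ⊆ IsDedekindDomain.primesOverFinset lam (𝓞 L) := by
      intro P' hP'
      obtain ⟨j, -, rfl⟩ := Finset.mem_image.mp hP'
      exact hmemS j
    have hle : ∑ P' ∈ Finset.univ.image Q,
        Ideal.ramificationIdx' lam P' * Ideal.inertiaDeg' lam P' ≤ p :=
      le_of_le_of_eq (Finset.sum_le_sum_of_subset himg) hsum
    rw [Finset.sum_image (fun a _ b _ h => hQinj h)] at hle
    have hlt : ∑ j : Fin p, 1 <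
        ∑ j : Fin p, Ideal.ramificationIdx' lam (Q j) * Ideal.inertiaDeg' lam (Q j) := by
      apply Finset.sum_lt_sum
      · intro j _
        exact hpos _ (hmemS j)
      · exact ⟨i, Finset.mem_univ _, by omega⟩
    rw [Finset.sum_const, Finset.card_univ, Fintype.card_fin, smul_eq_mul, mul_one] at hlt
    omega
  have := hQover i
  rw [Ideal.absNorm_eq_pow_inertiaDeg'_of_liesOver (Q i) lam hlp hlam, hf, pow_one]

end

end Fermat.Agent.S14
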