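import Mathlib
import Fermat.Agent.S14.Eta
import Fermat.Agent.S14.SplitAbs

/-!
# S14 `[Split]`: primes `λ` of degree one with `eta` a `p`-th power mod `λ` split completely in
`K(eta^(1/p))`.
-/

set_option autoImplicit false
set_option linter.unusedSectionVars false

open NumberField Finset Polynomial IsDedekindDomain

namespace Fermat.Agent.S14

universe u

variable {p : ℕ} [hpf : Fact p.Prime]
variable {K : Type u} [Field K] [NumberField K] [IsCyclotomicExtension {p} ℚ K]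
variable {ζ : K} (hζ : IsPrimitiveRoot ζ p)

/-- `eta` as an element of `K`. -/
noncomputable def etaK : K := (((eta hζ : (𝓞 K)ˣ) : 𝓞 K) : K)

lemma irreducible_X_pow_sub_eta (hp5 : 5 ≤ p) : Irreducible (X ^ p - C (etaK hζ)) :=
  X_pow_sub_C_irreducible_of_prime hpf.out (fun b hb => eta_not_pow hζ hp5 ⟨b, hb⟩)

/-- the set `T` of degree one primes modulo which `eta` is a `p`-th power. -/
def SplitSet : Set (HeightOneSpectrum (𝓞 K)) :=
  {v | (Ideal.absNorm v.asIdeal).Prime ∧ Ideal.absNorm v.asIdeal ≠ p ∧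
    ∃ x : 𝓞 K, x ^ p - ((eta hζ : (𝓞 K)ˣ) : 𝓞 K) ∈ v.asIdeal}

theorem split_exists (hp5 : 5 ≤ p) :
    ∃ (K2 : Type u) (_ : Field K2) (_ : NumberField K2)
      (iota : SplitSet hζ × Fin p → HeightOneSpectrum (𝓞 K2)),
      Function.Injective iota ∧
        ∀ v i, Ideal.absNorm (iota (v, i)).asIdeal = Ideal.absNorm v.1.asIdeal := by
  classical
  have hirr := irreducible_X_pow_sub_eta hζ hp5
  have : Fact (Irreducible (X ^ p - C (etaK hζ))) := ⟨hirr⟩
  let L := AdjoinRoot (X ^ p - C (etaK hζ))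
  have hne : (X ^ p - C (etaK hζ)) ≠ 0 := hirr.ne_zero
  have : Module.Finite K L := (AdjoinRoot.powerBasis hne).finite
  have : NumberField L := NumberField.of_module_finite K L
  have hdeg : Module.finrank K L = p := by
    rw [(AdjoinRoot.powerBasis hne).finrank, AdjoinRoot.powerBasis_dim,
      natDegree_X_pow_sub_C]
  -- `θ`
  have hroot : (AdjoinRoot.root (X ^ p - C (etaK hζ)) : L) ^ p = algebraMap K L (etaK hζ) :=
    root_X_pow_sub_C_pow p (etaK hζ)
  have hint : IsIntegral ℤ (AdjoinRoot.root (X ^ p - C (etaK hζ)) : L) := by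
    apply IsIntegral.of_pow hpf.out.pos
    rw [hroot]
    exact (RingOfIntegers.isIntegral_coe ((eta hζ : (𝓞 K)ˣ) : 𝓞 K)).map
      (IsScalarTower.toAlgHom ℤ K L)
  let θ : 𝓞 L := ⟨AdjoinRoot.root (X ^ p - C (etaK hζ)), hint⟩
  have hθ : θ ^ p = algebraMap (𝓞 K) (𝓞 L) ((eta hζ : (𝓞 K)ˣ) : 𝓞 K) := by
    apply RingOfIntegers.ext
    exact hroot
  let τ : L ≃ₐ[K] L := autAdjoinRootXPowSubC p (etaK hζ) hζ.toRootsOfUnity
  have hτ : autO τ θ = algebraMap (𝓞 K) (𝓞 L) hζ.toInteger * θ := by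
    apply RingOfIntegers.ext
    rw [autO_coe]
    have h1 : τ (AdjoinRoot.root (X ^ p - C (etaK hζ))) =
        ((hζ.toRootsOfUnity : Kˣ) : K) • AdjoinRoot.root (X ^ p - C (etaK hζ)) :=
      autAdjoinRootXPowSubC_root (etaK hζ) hζ.toRootsOfUnity
    have h2 : ((hζ.toRootsOfUnity : Kˣ) : K) = ζ := rfl
    rw [h2, Algebra.smul_def] at h1
    exact h1
  have hmain : ∀ v : SplitSet hζ, ∃ Q : Fin p → Ideal (𝓞 L), Function.Injective Q ∧
      ∀ i, (Q i).IsPrime ∧ (Q i).LiesOver v.1.asIdeal ∧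
        Ideal.absNorm (Q i) = Ideal.absNorm v.1.asIdeal := by
    rintro ⟨v, hv1, hv2, x, hx⟩
    have := v.isPrime
    refine exists_primes_over hdeg hζ.toInteger_isPrimitiveRoot _ (Units.isUnit _) θ hθ τ hτ
      v.asIdeal v.ne_bot ?_ x hx
    intro hpv
    have hl : ((Ideal.absNorm v.asIdeal : ℕ) : 𝓞 K) ∈ v.asIdeal := Ideal.absNorm_mem v.asIdeal
    have hcop : Nat.Coprime p (Ideal.absNorm v.asIdeal) :=
      (Nat.coprime_primes hpf.out hv1).mpr (Ne.symm hv2)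
    have h1 : (1 : 𝓞 K) ∈ v.asIdeal := by
      have hb := Nat.gcd_eq_gcd_ab p (Ideal.absNorm v.asIdeal)
      rw [hcop.gcd_eq_one] at hb
      have hb' : (1 : 𝓞 K) = (p : 𝓞 K) * ((Nat.gcdA p (Ideal.absNorm v.asIdeal) : ℤ) : 𝓞 K) +
          ((Ideal.absNorm v.asIdeal : ℕ) : 𝓞 K) *
            ((Nat.gcdB p (Ideal.absNorm v.asIdeal) : ℤ) : 𝓞 K) := by
        exact_mod_cast congrArg (fun t : ℤ => (t : 𝓞 K)) hb
      rw [hb']
      exact v.asIdeal.add_mem (v.asIdeal.mul_mem_right _ hpv) (v.asIdeal.mul_mem_right _ hl)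
    exact v.isPrime.ne_top ((Ideal.eq_top_iff_one _).mpr h1)
  choose Q hQinj hQ using hmain
  have hQbot : ∀ v i, Q v i ≠ ⊥ := by
    intro v i hbot
    have h1 := (hQ v i).2.2
    rw [hbot, Ideal.absNorm_bot] at h1
    exact v.2.1.ne_zero h1.symm
  refine ⟨L, inferInstance, inferInstance,
    fun vi => ⟨Q vi.1 vi.2, (hQ vi.1 vi.2).1, hQbot vi.1 vi.2⟩, ?_, fun v i => (hQ v i).2.2⟩
  rintro ⟨v, i⟩ ⟨w, j⟩ h
  have h1 : Q v i = Q w j := congrArg HeightOneSpectrum.asIdeal h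
  have hvw : v = w := by
    apply Subtype.ext
    apply HeightOneSpectrum.ext
    rw [(hQ v i).2.1.over, (hQ w j).2.1.over, h1]
  subst hvw
  rw [hQinj v h1]

end Fermat.Agent.S14
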