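import Fermat.Agent.S14.UnitTrace
import Fermat.Agent.S14.EtaDefs

/-!
# S14 [Unit]: the `ω²`-eigenspace of `E / E^p` has dimension at most one
-/

set_option autoImplicit false
set_option linter.unusedSectionVars false

open NumberField NumberField.Units NumberField.InfinitePlace

namespace Fermat.Agent.S14.UnitDim

variable {p : ℕ} [Fact p.Prime]
variable {K : Type*} [Field K] [NumberField K] [IsCyclotomicExtension {p} ℚ K]
variable {ζ : K} (hζ : IsPrimitiveRoot ζ p)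

local notation "G" => (K ≃ₐ[ℚ] K)
local notation "F" => ZMod p


/-- the cyclotomic character -/
noncomputable def chr : G →* (ZMod p)ˣ := hζ.autToPow ℚ

lemma chr_spec (σ : G) : σ ζ = ζ ^ ((chr hζ σ : (ZMod p)ˣ) : ZMod p).val :=
  (hζ.autToPow_spec ℚ σ).symm

lemma chr_injective : Function.Injective (chr hζ) := hζ.autToPow_injective ℚ

lemma chr_bijective : Function.Bijective (chr hζ) := by
  classical
  rw [Fintype.bijective_iff_injective_and_card]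
  refine ⟨chr_injective hζ, ?_⟩
  have : IsGalois ℚ K := IsCyclotomicExtension.isGalois {p} ℚ K
  rw [← Nat.card_eq_fintype_card, IsGalois.card_aut_eq_finrank,
    IsCyclotomicExtension.finrank (n := p) K
      (Polynomial.cyclotomic.irreducible_rat (NeZero.pos _)), ZMod.card_units_eq_totient]

/-- the cyclotomic character as an equivalence -/
noncomputable def chrEquiv : G ≃ (ZMod p)ˣ := Equiv.ofBijective _ (chr_bijective hζ)

lemma chrEquiv_apply (σ : G) : chrEquiv hζ σ = chr hζ σ := rfl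

lemma chr_eq_of_pow {σ : G} {b : ℕ} (h : σ ζ = ζ ^ b) :
    ((chr hζ σ : (ZMod p)ˣ) : ZMod p) = (b : ZMod p) := by
  rw [chr_spec hζ σ] at h
  have h0 : ζ ≠ 0 := hζ.ne_zero (NeZero.ne p)
  have h1 : ζ ^ (((((chr hζ σ : (ZMod p)ˣ) : ZMod p).val : ℕ) : ℤ) - (b : ℤ)) = 1 := by
    rw [zpow_sub₀ h0, zpow_natCast, zpow_natCast, h, div_self (pow_ne_zero _ h0)]
  have h2 := (hζ.zpow_eq_one_iff_dvd _).1 h1
  have h3 := (ZMod.intCast_zmod_eq_zero_iff_dvd _ p).2 h2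
  push_cast at h3
  rw [sub_eq_zero] at h3
  simpa using h3

include hζ in
lemma ringHom_ext_zeta {f g : K →+* ℂ} (h : f ζ = g ζ) : f = g := by
  have h1 := (hζ.powerBasis ℚ).algHom_ext (f := f.toRatAlgHom) (g := g.toRatAlgHom)
    (by simpa using h)
  ext x
  exact DFunLike.congr_fun h1 x

include hζ in
lemma conj_emb_zeta (φ : K →+* ℂ) : (starRingEnd ℂ) (φ ζ) = φ ζ⁻¹ := by
  have h1 : (φ ζ) ^ p = 1 := by rw [← map_pow, hζ.pow_eq_one, map_one]
  have h2 : ‖φ ζ‖ = 1 := Complex.norm_eq_one_of_pow_eq_one h1 (NeZero.ne p)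
  rw [map_inv₀, Complex.inv_eq_conj h2]

include hζ in
lemma zeta_inv : ζ⁻¹ = ζ ^ (p - 1) := by
  have hp : 1 ≤ p := (Fact.out : p.Prime).one_le
  have h0 : ζ ≠ 0 := hζ.ne_zero (NeZero.ne p)
  apply inv_eq_of_mul_eq_one_right
  rw [← pow_succ', Nat.sub_add_cancel hp, hζ.pow_eq_one]

lemma neg_one_val : ((-1 : (ZMod p)ˣ) : ZMod p) = ((p - 1 : ℕ) : ZMod p) := by
  have hp : 1 ≤ p := (Fact.out : p.Prime).one_le
  rw [Nat.cast_sub hp]
  simp

lemma fix_iff (σ : G) (w : InfinitePlace K) :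
    σ • w = w ↔ chr hζ σ = 1 ∨ chr hζ σ = -1 := by
  obtain ⟨φ, rfl⟩ : ∃ φ, mk φ = w := ⟨_, mk_embedding w⟩
  rw [smul_mk, mk_eq_iff]
  constructor
  · rintro (h | h)
    · left
      have h1 : φ ζ = φ (σ ζ) := by
        have := DFunLike.congr_fun h (σ ζ)
        simpa using this
      have h2 : σ ζ = ζ ^ 1 := by rw [pow_one]; exact (φ.injective h1).symm
      have h3 := chr_eq_of_pow hζ h2
      ext
      simpa using h3
    · right
      have h1 : (starRingEnd ℂ) (φ ζ) = φ (σ ζ) := by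
        have := DFunLike.congr_fun h (σ ζ)
        simpa [ComplexEmbedding.conjugate_coe_eq] using this
      rw [conj_emb_zeta hζ] at h1
      have h2 : σ ζ = ζ ^ (p - 1) := by rw [← zeta_inv hζ]; exact (φ.injective h1).symm
      have h3 := chr_eq_of_pow hζ h2
      ext
      rw [h3, neg_one_val]
  · rintro (h | h)
    · left
      have : σ = 1 := chr_injective hζ (by rw [h, map_one])
      subst this
      rfl
    · right
      apply ringHom_ext_zeta hζ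
      have h1 : chr hζ σ⁻¹ = -1 := by rw [map_inv, h]; simp
      have h2 : σ⁻¹ ζ = ζ⁻¹ := by
        rw [chr_spec hζ σ⁻¹, h1, zeta_inv hζ, neg_one_val]
        congr 1
        exact ZMod.val_cast_of_lt (Nat.sub_lt (NeZero.pos p) one_pos)
      have h3 : σ.symm ζ = ζ⁻¹ := h2
      simp only [ComplexEmbedding.conjugate_coe_eq, RingHom.coe_comp, Function.comp_apply]
      have h4 : (σ.symm : K →+* K) ζ = ζ⁻¹ := h3
      rw [h4, ← conj_emb_zeta hζ, Complex.conj_conj]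

variable (p K) in
lemma card_places (hp3 : 3 ≤ p) : 2 * Fintype.card (InfinitePlace K) = p - 1 := by
  have h2 : Even (p - 1) := (Fact.out : p.Prime).even_sub_one (by omega)
  rw [card_eq_nrRealPlaces_add_nrComplexPlaces,
    IsCyclotomicExtension.Rat.nrRealPlaces_eq_zero (n := p) K (by omega),
    IsCyclotomicExtension.Rat.nrComplexPlaces_eq_totient_div_two p K,
    Nat.totient_prime Fact.out, zero_add]
  exact Nat.two_mul_div_two_of_even h2

variable (p K) in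
lemma rank_lt (hp3 : 3 ≤ p) : rank K < p := by
  have := card_places p K hp3
  unfold rank
  omega

open scoped Classical in
lemma card_fix (σ : G) : Fintype.card {w : InfinitePlace K // σ • w = w} =
    if chr hζ σ = 1 ∨ chr hζ σ = -1 then Fintype.card (InfinitePlace K) else 0 := by
  split_ifs with h
  · rw [Fintype.card_subtype]
    simp [fix_iff hζ, h]
  · rw [Fintype.card_eq_zero_iff]
    exact ⟨fun w => h ((fix_iff hζ σ w.1).1 w.2)⟩

lemma trace_mod (σ : G) : (((A K σ).trace : ℤ) : F) =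
    (if chr hζ σ = 1 ∨ chr hζ σ = -1 then (Fintype.card (InfinitePlace K) : F) else 0) - 1 := by
  classical
  have h := trace_A K σ
  rw [card_fix hζ] at h
  have h' : (A K σ).trace + 1 =
      ((if chr hζ σ = 1 ∨ chr hζ σ = -1 then Fintype.card (InfinitePlace K) else 0 : ℕ) : ℤ) := by
    exact_mod_cast h
  have h2 := congrArg (Int.cast : ℤ → F) h'
  push_cast at h2
  rw [eq_sub_iff_add_eq, h2]

variable (p K) in
/-- the action on `(E/torsion) ⊗ 𝔽_p`. -/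
noncomputable def rho (σ : G) : (Fin (rank K) → F) →ₗ[F] (Fin (rank K) → F) :=
  Matrix.toLin' ((A K σ).map (Int.castRingHom F))

lemma rho_mul (σ τ : G) (x : Fin (rank K) → F) :
    rho p K (σ * τ) x = rho p K σ (rho p K τ x) := by
  unfold rho
  rw [A_mul, Matrix.map_mul, Matrix.toLin'_mul]
  rfl

lemma trace_rho (σ : G) : LinearMap.trace F _ (rho p K σ) = (((A K σ).trace : ℤ) : F) := by
  unfold rho
  rw [Matrix.trace_toLin'_eq]
  simp [Matrix.trace, Matrix.diag]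

variable (p) in
/-- reduction mod `p` of the exponent vector. -/
noncomputable def bar (x : (𝓞 K)ˣ) : Fin (rank K) → F := fun i => (vec K x i : F)

lemma rho_bar (σ : G) (x : (𝓞 K)ˣ) : rho p K σ (bar p x) = bar p (act K σ x) := by
  unfold rho bar
  rw [Matrix.toLin'_apply, vec_act]
  ext i
  exact (RingHom.map_mulVec (Int.castRingHom F) (A K σ) (vec K x) i).symm

lemma bar_mul (x y : (𝓞 K)ˣ) : bar p (x * y) = bar p x + bar p y := by
  unfold bar
  rw [vec_mul]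
  ext i
  simp

lemma bar_pow (x : (𝓞 K)ˣ) (n : ℕ) : bar p (x ^ n) = (n : F) • bar p x := by
  unfold bar
  rw [vec_pow]
  ext i
  simp

lemma bar_inv (x : (𝓞 K)ˣ) : bar p x⁻¹ = - bar p x := by
  unfold bar
  rw [vec_inv]
  ext i
  simp

/-- the `ω²`-eigenspace. -/
def W : Submodule F (Fin (rank K) → F) where
  carrier := {x | ∀ σ : G, rho p K σ x = (((chr hζ σ : (ZMod p)ˣ) : F) ^ 2) • x}
  add_mem' := by
    intro a b ha hb σ
    rw [map_add, ha σ, hb σ, smul_add]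
  zero_mem' := by
    intro σ
    simp
  smul_mem' := by
    intro c x hx σ
    rw [map_smul, hx σ, smul_comm]

/-- the projector onto the `ω²`-eigenspace. -/
noncomputable def proj : (Fin (rank K) → F) →ₗ[F] (Fin (rank K) → F) :=
  (-1 : F) • ∑ σ : G, ((((chr hζ σ)⁻¹ : (ZMod p)ˣ) : F) ^ 2) • rho p K σ

include hζ in
lemma card_G : (Fintype.card G : F) = -1 := by
  rw [Fintype.card_congr (chrEquiv hζ), ZMod.card_units, Nat.cast_sub (Fact.out : p.Prime).one_le]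
  simp

lemma isProj : LinearMap.IsProj (W hζ) (proj hζ) := by
  constructor
  · intro x τ
    simp only [proj, LinearMap.smul_apply, LinearMap.sum_apply, map_smul, map_sum, ← rho_mul]
    rw [smul_comm]
    congr 1
    rw [Finset.smul_sum]
    refine Fintype.sum_equiv (Equiv.mulLeft τ) _ _ fun σ => ?_
    rw [Equiv.coe_mulLeft, smul_smul]
    congr 1
    rw [map_mul, mul_inv, Units.val_mul, mul_pow, ← mul_assoc, ← mul_pow, Units.mul_inv, one_pow,
      one_mul]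
  · intro x hx
    have hx' : ∀ σ : G, rho p K σ x = (((chr hζ σ : (ZMod p)ˣ) : F) ^ 2) • x := hx
    simp only [proj, LinearMap.smul_apply, LinearMap.sum_apply, hx', smul_smul, ← mul_pow,
      Units.inv_mul, one_pow, one_smul]
    rw [Finset.sum_const, Finset.card_univ, ← Nat.cast_smul_eq_nsmul F, card_G hζ]
    simp

lemma one_ne_neg_one (hp3 : 3 ≤ p) : (1 : (ZMod p)ˣ) ≠ -1 := by
  intro h
  have h1 : ((1 : (ZMod p)ˣ) : F) = ((-1 : (ZMod p)ˣ) : F) := by rw [← h]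
  have h2 : ((2 : ℕ) : F) = 0 := by
    push_cast at h1 ⊢
    linear_combination h1
  rw [ZMod.natCast_eq_zero_iff] at h2
  have := Nat.le_of_dvd (by norm_num) h2
  omega

lemma trace_proj (hp5 : 5 ≤ p) : LinearMap.trace F _ (proj hζ) = 1 := by
  classical
  simp only [proj, map_smul, map_sum, trace_rho, trace_mod hζ]
  set c : F := (Fintype.card (InfinitePlace K) : F) with hc
  have hc2 : 2 * c = -1 := by
    have := congrArg (Nat.cast : ℕ → F) (card_places p K (by omega))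
    rw [Nat.cast_sub (Fact.out : p.Prime).one_le] at this
    push_cast at this
    rw [this]
    simp
  have h1 : ∑ σ : G, ((((chr hζ σ)⁻¹ : (ZMod p)ˣ) : F) ^ 2) •
      ((if chr hζ σ = 1 ∨ chr hζ σ = -1 then c else 0) - 1) =
      ∑ a : (ZMod p)ˣ, (((a⁻¹ : (ZMod p)ˣ) : F) ^ 2) •
      ((if a = 1 ∨ a = -1 then c else 0) - 1) :=
    Fintype.sum_equiv (chrEquiv hζ) _ _ fun σ => rfl
  rw [h1]
  have h2 : ∀ a : (ZMod p)ˣ, (((a⁻¹ : (ZMod p)ˣ) : F) ^ 2) •
      ((if a = 1 ∨ a = -1 then c else 0) - 1) =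
      ((if a = 1 then c else 0) + (if a = -1 then c else 0)) -
        ((a⁻¹ ^ 2 : (ZMod p)ˣ) : ZMod p) := by
    intro a
    by_cases h : a = 1
    · subst h
      simp [one_ne_neg_one (by omega : 3 ≤ p)]
    · by_cases h' : a = -1
      · subst h'
        rw [if_pos (Or.inr rfl), if_neg h, if_pos rfl, inv_neg_one, neg_one_sq, Units.val_neg,
          Units.val_one, neg_one_sq, one_smul, zero_add]
      · rw [if_neg (not_or.2 ⟨h, h'⟩), if_neg h, if_neg h', Units.val_pow_eq_pow_val, smul_eq_mul]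
        ring
  simp only [h2]
  rw [Finset.sum_sub_distrib, Finset.sum_add_distrib, Fermat.Agent.S14.sum_units_inv_sq hp5]
  simp only [Finset.sum_ite_eq', Finset.mem_univ, if_true, sub_zero, smul_eq_mul]
  linear_combination - hc2

lemma finrank_W (hp5 : 5 ≤ p) : Module.finrank F (W hζ) = 1 := by
  have h1 := (isProj hζ).trace
  rw [trace_proj hζ hp5] at h1
  have h2 : Module.finrank F (W hζ) ≤ rank K :=
    (Submodule.finrank_le _).trans_eq (by simp)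
  have h3 : rank K < p := rank_lt p K (by omega)
  have h4 : ((1 : ℕ) : F) = ((Module.finrank F (W hζ) : ℕ) : F) := by simpa using h1
  rw [ZMod.natCast_eq_natCast_iff'] at h4
  rw [Nat.mod_eq_of_lt (by omega), Nat.mod_eq_of_lt (by omega)] at h4
  exact h4.symm

include hζ in
lemma torsion_cases (hp3 : 3 ≤ p) {t : (𝓞 K)ˣ} (ht : t ∈ torsion K) :
    ∃ j : ℕ, (t : K) = ζ ^ j ∨ (t : K) = - ζ ^ j := by
  have hodd : Odd p := (Fact.out : p.Prime).odd_of_ne_two (by omega)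
  have hfin : IsOfFinOrder (t : K) := by
    rw [torsion, CommGroup.mem_torsion] at ht
    exact (cK K).isOfFinOrder ht
  obtain ⟨r, -, hr⟩ := hζ.exists_pow_or_neg_mul_pow_of_isOfFinOrder hodd hfin
  exact ⟨r, hr⟩

include hζ in
lemma torsion_sq (hp3 : 3 ≤ p) {t : (𝓞 K)ˣ} (ht : t ∈ torsion K) :
    ∃ j : ℕ, ((t : K) = ζ ^ j ∨ (t : K) = - ζ ^ j) ∧ (t : K) ^ 2 = ζ ^ (2 * j) := by
  obtain ⟨j, hj⟩ := torsion_cases hζ hp3 ht
  refine ⟨j, hj, ?_⟩
  rcases hj with h | h <;> rw [h] <;> ring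

include hζ in
/-- A unit in the eigenspace whose exponent vector vanishes mod `p` is a `p`-th power. -/
lemma pow_of_bar_eq_zero (hp3 : 3 ≤ p) (ε v : (𝓞 K)ˣ) (σ : G) (hσ : σ ζ = ζ ^ 2)
    (h : act K σ ε = ε ^ 4 * v ^ p) (h0 : bar p ε = 0) : ∃ u : (𝓞 K)ˣ, ε = u ^ p := by
  have hodd : Odd p := (Fact.out : p.Prime).odd_of_ne_two (by omega)
  have hζ0 : ζ ≠ 0 := hζ.ne_zero (NeZero.ne p)
  have h1 : ∀ i, (p : ℤ) ∣ vec K ε i := fun i =>
    (ZMod.intCast_zmod_eq_zero_iff_dvd _ p).1 (congrFun h0 i)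
  choose y hy using h1
  obtain ⟨u, hu_def⟩ : ∃ u : (𝓞 K)ˣ, u = ∏ i, fundSystem K i ^ y i := ⟨_, rfl⟩
  have hu : vec K u = y := by
    rw [hu_def, vec_prod]
    ext k
    simp [vec_zpow, vec_fund, Finset.sum_apply, Pi.single_apply]
  obtain ⟨t, ht_def⟩ : ∃ t : (𝓞 K)ˣ, t = ε * (u ^ p)⁻¹ := ⟨_, rfl⟩
  have ht : t ∈ torsion K := by
    rw [← vec_eq_zero_iff, ht_def, vec_mul, vec_inv, vec_pow, hu]
    ext i
    simp [hy i]
  have hε : ε = t * u ^ p := by simp [ht_def]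
  obtain ⟨b, hb_def⟩ : ∃ b : (𝓞 K)ˣ, b = act K σ u := ⟨_, rfl⟩
  obtain ⟨a, ha_def⟩ : ∃ a : (𝓞 K)ˣ, a = act K σ t := ⟨_, rfl⟩
  obtain ⟨z, hz_def⟩ : ∃ z : (𝓞 K)ˣ, z = u ^ 4 * v * b⁻¹ := ⟨_, rfl⟩
  have ht0 : cK K t ≠ 0 := by simp [cK_apply]
  have hb0 : cK K b ≠ 0 := by simp [cK_apply]
  have hzc : cK K z ^ p = cK K a * (cK K t ^ 4)⁻¹ := by
    have h2 := h
    rw [hε, map_mul, map_pow, ← ha_def, ← hb_def] at h2
    have h2K := congrArg (cK K) h2
    simp only [map_mul, map_pow] at h2K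
    rw [hz_def, map_mul, map_mul, map_inv, map_pow, mul_pow, inv_pow, ← div_eq_mul_inv,
      ← div_eq_mul_inv, div_eq_div_iff (pow_ne_zero _ hb0) (pow_ne_zero _ ht0), h2K]
    ring
  have hz : z ^ p = a * (t ^ 4)⁻¹ := by
    apply NumberField.Units.coe_injective K
    beta_reduce
    have h3 : cK K (z ^ p) = cK K (a * (t ^ 4)⁻¹) := by
      rw [map_pow, map_mul, map_inv, map_pow]
      exact hzc
    exact h3
  have hzt : z ∈ torsion K := by
    rw [← vec_eq_zero_iff]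
    have h2 : vec K (z ^ p) = 0 := by
      rw [hz, vec_eq_zero_iff, ha_def]
      exact mul_mem (act_torsion K σ ht) (inv_mem (pow_mem ht 4))
    rw [vec_pow] at h2
    exact (smul_eq_zero.1 h2).resolve_left (NeZero.ne p)
  obtain ⟨k, -, hk⟩ := torsion_sq hζ hp3 hzt
  obtain ⟨j, hj, hj2⟩ := torsion_sq hζ hp3 ht
  have hz2 : ((z : K) ^ p) ^ 2 = 1 := by
    rw [← pow_mul, mul_comm, pow_mul, hk, ← pow_mul, mul_comm, pow_mul, hζ.pow_eq_one, one_pow]
  have ht0 : (t : K) ≠ 0 := by simp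
  have hzK : (z : K) ^ p = σ (t : K) * ((t : K) ^ 4)⁻¹ := by
    rw [← act_coe, ← ha_def]
    exact hzc
  have h8 : (σ (t : K)) ^ 2 = (t : K) ^ 8 := by
    rw [hzK] at hz2
    field_simp at hz2
    linear_combination hz2
  have h4 : ζ ^ (4 * j) = 1 := by
    rw [← map_pow, hj2, map_pow, hσ, show (t : K) ^ 8 = ((t : K) ^ 2) ^ 4 by ring, hj2] at h8
    have h5 : ζ ^ (4 * j) * ζ ^ (4 * j) = ζ ^ (4 * j) * 1 := by
      rw [mul_one]
      calc ζ ^ (4 * j) * ζ ^ (4 * j) = (ζ ^ (2 * j)) ^ 4 := by ring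
        _ = (ζ ^ 2) ^ (2 * j) := h8.symm
        _ = ζ ^ (4 * j) := by ring
    exact mul_left_cancel₀ (pow_ne_zero _ hζ0) h5
  have hpj : p ∣ j := by
    have h5 := hζ.dvd_of_pow_eq_one _ h4
    have hc : Nat.Coprime p 4 := by
      have : Nat.Coprime p 2 := (Nat.coprime_primes Fact.out Nat.prime_two).2 (by omega)
      exact Nat.Coprime.pow_right 2 this
    exact hc.dvd_of_dvd_mul_left h5
  have hζj : ζ ^ j = 1 := by
    obtain ⟨m, rfl⟩ := hpj
    rw [pow_mul, hζ.pow_eq_one, one_pow]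
  have htp : t ^ p = t := by
    apply NumberField.Units.coe_injective K
    beta_reduce
    have h5 : ((t ^ p : (𝓞 K)ˣ) : K) = (t : K) ^ p := map_pow (cK K) t p
    rw [h5]
    rcases hj with h | h
    · rw [h, hζj, one_pow]
    · rw [h, hζj, hodd.neg_one_pow]
  exact ⟨t * u, by rw [mul_pow, htp]; exact hε⟩

lemma act_eq_of_coe {σ : G} {ε v : (𝓞 K)ˣ} {n : ℕ}
    (h : σ (ε : K) = (ε : K) ^ n * (v : K) ^ p) : act K σ ε = ε ^ n * v ^ p := by
  apply NumberField.Units.coe_injective K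
  beta_reduce
  rw [act_coe, h]
  exact (by rw [map_mul, map_pow, map_pow] : cK K (ε ^ n * v ^ p) = cK K ε ^ n * cK K v ^ p).symm

lemma bar_mem_W {ε : (𝓞 K)ˣ}
    (h : ∀ (σ : K ≃ₐ[ℚ] K) (b : ℕ), σ ζ = ζ ^ b →
      ∃ v : (𝓞 K)ˣ, σ (ε : K) = (ε : K) ^ (b ^ 2) * (v : K) ^ p) : bar p ε ∈ W hζ := by
  intro σ
  obtain ⟨v, hv⟩ := h σ _ (chr_spec hζ σ)
  rw [rho_bar, act_eq_of_coe hv, bar_mul, bar_pow, bar_pow]
  simp

end Fermat.Agent.S14.UnitDim

namespace Fermat.Agent.S14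

open UnitDim

/-- **[Unit]** The `ω²`-eigenspace of `E/E^p` is at most one-dimensional. -/
theorem unit_eigen {p : ℕ} [Fact p.Prime] (hp5 : 5 ≤ p) {K : Type*} [Field K] [NumberField K]
    [IsCyclotomicExtension {p} ℚ K] {ζ : K} (hζ : IsPrimitiveRoot ζ p) (ε₁ ε₂ : (𝓞 K)ˣ)
    (h₁ : ∀ (σ : K ≃ₐ[ℚ] K) (b : ℕ), σ ζ = ζ ^ b →
      ∃ v : (𝓞 K)ˣ, σ (ε₁ : K) = (ε₁ : K) ^ (b ^ 2) * (v : K) ^ p)
    (h₂ : ∀ (σ : K ≃ₐ[ℚ] K) (b : ℕ), σ ζ = ζ ^ b →
      ∃ v : (𝓞 K)ˣ, σ (ε₂ : K) = (ε₂ : K) ^ (b ^ 2) * (v : K) ^ p)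
    (hn : ¬ ∃ v : (𝓞 K)ˣ, ε₂ = v ^ p) : ∃ (k : ℕ) (u : (𝓞 K)ˣ), ε₁ = ε₂ ^ k * u ^ p := by
  have hp3 : 3 ≤ p := by omega
  -- an automorphism with `σ ζ = ζ ^ 2`
  obtain ⟨σ, hσ⟩ : ∃ σ : K ≃ₐ[ℚ] K, σ ζ = ζ ^ 2 := by
    have hc : Nat.Coprime 2 p := (Nat.coprime_primes Nat.prime_two Fact.out).2 (by omega)
    obtain ⟨σ, hσ⟩ := (chr_bijective hζ).2 (ZMod.unitOfCoprime 2 hc)
    refine ⟨σ, ?_⟩
    rw [chr_spec hζ σ, hσ, ZMod.coe_unitOfCoprime]
    congr 1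
    exact ZMod.val_cast_of_lt (by omega)
  obtain ⟨v₁, hv₁⟩ := h₁ σ 2 hσ
  obtain ⟨v₂, hv₂⟩ := h₂ σ 2 hσ
  have ha₁ : act K σ ε₁ = ε₁ ^ 4 * v₁ ^ p := act_eq_of_coe hv₁
  have ha₂ : act K σ ε₂ = ε₂ ^ 4 * v₂ ^ p := act_eq_of_coe hv₂
  have hb₂ : bar p ε₂ ≠ 0 := fun h0 => hn (pow_of_bar_eq_zero hζ hp3 ε₂ v₂ σ hσ ha₂ h0)
  have hW := finrank_W hζ hp5
  obtain ⟨c, hc⟩ := (finrank_eq_one_iff_of_nonzero' (⟨bar p ε₂, bar_mem_W hζ h₂⟩ : W hζ)
    (by simpa [Subtype.ext_iff] using hb₂)).1 hW ⟨bar p ε₁, bar_mem_W hζ h₁⟩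
  have hc' : c • bar p ε₂ = bar p ε₁ := congrArg Subtype.val hc
  refine ⟨c.val, ?_⟩
  have h3 : act K σ (ε₁ * (ε₂ ^ c.val)⁻¹) =
      (ε₁ * (ε₂ ^ c.val)⁻¹) ^ 4 * (v₁ * (v₂ ^ c.val)⁻¹) ^ p := by
    rw [map_mul, map_inv, map_pow, ha₁, ha₂]
    apply NumberField.Units.coe_injective K
    beta_reduce
    have h5 : cK K (ε₁ ^ 4 * v₁ ^ p * ((ε₂ ^ 4 * v₂ ^ p) ^ c.val)⁻¹) =
        cK K ((ε₁ * (ε₂ ^ c.val)⁻¹) ^ 4 * (v₁ * (v₂ ^ c.val)⁻¹) ^ p) := by
      simp only [map_mul, map_pow, map_inv]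
      simp only [mul_pow, inv_pow, mul_inv, ← pow_mul]
      ring
    exact h5
  have h4 : bar p (ε₁ * (ε₂ ^ c.val)⁻¹) = 0 := by
    rw [bar_mul, bar_inv, bar_pow, ← hc']
    simp
  obtain ⟨u, hu⟩ := pow_of_bar_eq_zero hζ hp3 _ _ σ hσ h3 h4
  exact ⟨u, by rw [← hu]; simp⟩

end Fermat.Agent.S14
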