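/-
S14 [Arith]: assembly of the arithmetic part, with [Thaine] as a hypothesis.
-/
import Fermat.Agent.S14.ArithCl
import Fermat.Agent.S14.ClHomE
import Fermat.Agent.S14.Unit
import Fermat.Agent.S14.Split
import Fermat.Agent.S14.Dens
import Fermat.Agent.S14.Euler
import Fermat.Agent.S14.BddKey

set_option autoImplicit false
set_option linter.unusedSectionVars false

namespace Fermat.Agent.S14

open NumberField IsDedekindDomain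
open scoped nonZeroDivisors

universe u

variable {p : ℕ} [Fact p.Prime]
variable {K : Type u} [Field K] [NumberField K] [IsCyclotomicExtension {p} ℚ K]
variable {ζ : K} (hζ : IsPrimitiveRoot ζ p)

/-- The statement of [Thaine]. -/
def ThaineStmt : Prop :=
  ∀ f : ClassGroup (𝓞 K) →* Multiplicative (ZMod p), Equivariant hζ f →
    ∀ v : HeightOneSpectrum (𝓞 K), (Ideal.absNorm v.asIdeal).Prime → Ideal.absNorm v.asIdeal ≠ p →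
      f (ClassGroup.mk0 (primeNZ v)) = 1 ∨
        ∃ x : 𝓞 K, x ^ p - ((eta hζ : (𝓞 K)ˣ) : 𝓞 K) ∈ v.asIdeal

/-- [Cl]: the `ω²`-eigenspace of the `p`-torsion of the class group is trivial. -/
theorem class_trivial (hp5 : 5 ≤ p) (hT : ThaineStmt hζ) (I : (Ideal (𝓞 K))⁰)
    (hp : ClassGroup.mk0 I ^ p = 1)
    (hσ : ∀ (σ : K ≃ₐ[ℚ] K) (b : ℕ), σ ζ = ζ ^ b →
      ClassGroup.mk0 (sigI σ I) = ClassGroup.mk0 I ^ (b ^ 2)) :
    ClassGroup.mk0 I = 1 := by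
  by_contra h1
  obtain ⟨f, hf1, hf⟩ := exists_clHom_equivariant hζ I h1 hp hσ
  obtain ⟨K2, _, _, iota, hinj, hN⟩ := split_exists hζ hp5
  refine dens_contradiction_aux (p := p) (K := K) (K2 := K2) (by omega) (eulerProp K)
    (keyEstimate K) (zetaBound K) (zetaLower K) (eulerProp K2) (zetaBound K2) f hf1
    (SplitSet hζ) ?_ iota hinj (fun x => hN x.1 x.2)
  intro v hv hvp
  rcases hT f hf v hv hvp with h | h
  · exact Or.inl h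
  · exact Or.inr ⟨hv, hvp, h⟩

/-- [Arith] for `p ≥ 5`. -/
theorem arith_of_thaine (hp5 : 5 ≤ p) (hT : ThaineStmt hζ) (α : 𝓞 K) (hα0 : α ≠ 0)
    (hb : ∀ (σ : K ≃ₐ[ℚ] K) (b : ℕ), σ ζ = ζ ^ b →
      ∃ γ : K, σ (α : K) = (α : K) ^ (b ^ 2) * γ ^ p)
    (hc : ∃ I : Ideal (𝓞 K), Ideal.span {α} = I ^ p)
    (hd : ∃ (g : K) (x y : 𝓞 K), ¬ (hζ.toInteger - 1) ∣ y ∧ (hζ.toInteger - 1) ^ 3 ∣ x - y ∧
      (α : K) * (y : K) = g ^ p * (x : K)) :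
    ∃ z : K, z ^ p = (α : K) := by
  have hp0 : p ≠ 0 := (Fact.out : p.Prime).ne_zero
  obtain ⟨I, hI⟩ := hc
  have hI0 : I ≠ ⊥ := by
    rintro rfl
    rw [← Ideal.zero_eq_bot, zero_pow hp0, Ideal.zero_eq_bot, Ideal.span_singleton_eq_bot] at hI
    exact hα0 hI
  set I₀ : (Ideal (𝓞 K))⁰ := ⟨I, mem_nonZeroDivisors_of_ne_zero hI0⟩ with hI₀
  have hcl : ClassGroup.mk0 I₀ = 1 := by
    refine class_trivial hζ hp5 hT I₀ (ArithAux.mk0_pow_eq_one α I₀ hI) ?_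
    intro σ b hσ
    obtain ⟨γ, hγ⟩ := hb σ b hσ
    exact ArithAux.mk0_sigI α hα0 I₀ hI σ (b ^ 2) γ hγ
  rw [ClassGroup.mk0_eq_one_iff] at hcl
  obtain ⟨β, hβ⟩ := hcl.principal
  have hβ' : I = Ideal.span {β} := hβ
  rw [hβ', Ideal.span_singleton_pow, Ideal.span_singleton_eq_span_singleton] at hI
  obtain ⟨u, hu⟩ := hI.symm
  -- `β ^ p * u = α`
  have hβ0 : β ≠ 0 := by
    rintro rfl
    apply hα0
    rw [← hu, zero_pow hp0, zero_mul]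
  have hβK : (β : K) ≠ 0 := by simpa using hβ0
  have huK : ((u : 𝓞 K) : K) ≠ 0 := by simp
  have hαK : (α : K) = (β : K) ^ p * ((u : 𝓞 K) : K) := by
    rw [← hu]; simp
  -- `u` is an eigen-unit
  have h₁ : ∀ (σ : K ≃ₐ[ℚ] K) (b : ℕ), σ ζ = ζ ^ b →
      ∃ v : (𝓞 K)ˣ, σ (u : K) = (u : K) ^ (b ^ 2) * (v : K) ^ p := by
    intro σ b hσ
    obtain ⟨γ, hγ⟩ := hb σ b hσ
    have hσβ : σ (β : K) ≠ 0 := by simpa using hβK
    set w : K := γ * (β : K) ^ (b ^ 2) / σ (β : K) with hw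
    have hσu : σ ((u : 𝓞 K) : K) = ((u : 𝓞 K) : K) ^ (b ^ 2) * w ^ p := by
      rw [hαK, map_mul, map_pow] at hγ
      rw [hw, div_pow, mul_pow]
      field_simp
      rw [mul_comm, hγ]
      ring
    -- `w ^ p` is a unit of `𝓞 K`
    let σu : (𝓞 K)ˣ := Units.map (RingOfIntegers.mapRingEquiv (σ : K ≃+* K)).toMonoidHom u
    have hσu' : (((σu : (𝓞 K)ˣ) : 𝓞 K) : K) = σ ((u : 𝓞 K) : K) := rfl
    have hwp : w ^ p = (((σu * (u ^ (b ^ 2))⁻¹ : (𝓞 K)ˣ) : 𝓞 K) : K) := by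
      have h1 : ((((u ^ (b ^ 2))⁻¹ : (𝓞 K)ˣ) : 𝓞 K) : K) * ((u : 𝓞 K) : K) ^ (b ^ 2) = 1 := by
        rw [← map_pow, ← map_mul, ← Units.val_pow_eq_pow_val, Units.inv_mul, map_one]
      rw [Units.val_mul]
      change w ^ p = (((σu : (𝓞 K)ˣ) : 𝓞 K) : K) * ((((u ^ (b ^ 2))⁻¹ : (𝓞 K)ˣ) : 𝓞 K) : K)
      rw [hσu', hσu]
      calc w ^ p = w ^ p * (((((u ^ (b ^ 2))⁻¹ : (𝓞 K)ˣ) : 𝓞 K) : K) *
            ((u : 𝓞 K) : K) ^ (b ^ 2)) := by rw [h1, mul_one]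
        _ = _ := by ring
    obtain ⟨v, hv⟩ := ArithAux.exists_unit_of_pow_eq hp0 w _ hwp
    refine ⟨v, ?_⟩
    rw [← hv] at hσu
    exact hσu
  have hn : ¬ ∃ v : (𝓞 K)ˣ, eta hζ = v ^ p := by
    rintro ⟨v, hv⟩
    exact eta_not_pow hζ hp5 ⟨((v : 𝓞 K) : K), by rw [hv]; simp⟩
  obtain ⟨k, u', hk⟩ := unit_eigen hp5 hζ u (eta hζ) h₁ (eta_eigen hζ hp5) hn
  have huK' : ((u : 𝓞 K) : K) = (((eta hζ : (𝓞 K)ˣ) : 𝓞 K) : K) ^ k * ((u' : 𝓞 K) : K) ^ p := by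
    rw [hk]; simp
  have hu'K : ((u' : 𝓞 K) : K) ≠ 0 := by simp
  obtain ⟨g, x, y, hy, hxy, hg⟩ := hd
  have hpk : p ∣ k := by
    refine eta_local hζ hp5 k (g / ((β : K) * ((u' : 𝓞 K) : K))) x y hy hxy ?_
    rw [hαK, huK'] at hg
    rw [div_pow, mul_pow]
    field_simp
    rw [← hg]
    ring
  obtain ⟨j, rfl⟩ := hpk
  refine ⟨(β : K) * (((eta hζ : (𝓞 K)ˣ) : 𝓞 K) : K) ^ j * ((u' : 𝓞 K) : K), ?_⟩
  rw [hαK, huK']
  ring

end Fermat.Agent.S14
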