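/-
S14 [Gal] (a),(b), part A: the abstract Lagrange resolvent (Hilbert 90 for a character
`b : H → ZMod p` of finite level), inside `Qb = AlgebraicClosure ℚ`.
-/
import Mathlib
import Fermat.Agent.Lib.Frobenius

set_option autoImplicit false
set_option linter.style.haveILetI false
set_option linter.unusedSectionVars false

open IntermediateField

namespace Fermat.Agent.S14

local notation "Qb" => AlgebraicClosure ℚ
local notation "GQ" => (AlgebraicClosure ℚ ≃ₐ[ℚ] AlgebraicClosure ℚ)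

namespace GalRes

variable {p : ℕ} [Fact p.Prime]

/-- `ζ ^ x` for `x : ZMod p`. -/
noncomputable def zpw (ζ : Qb) (x : ZMod p) : Qb := ζ ^ x.val

theorem zpw_natCast {ζ : Qb} (hζ : ζ ^ p = 1) (n : ℕ) : zpw ζ (n : ZMod p) = ζ ^ n := by
  unfold zpw
  rw [ZMod.val_natCast]
  conv_rhs => rw [← Nat.div_add_mod n p, pow_add, pow_mul, hζ, one_pow, one_mul]

theorem zpw_add {ζ : Qb} (hζ : ζ ^ p = 1) (x y : ZMod p) :
    zpw ζ (x + y) = zpw ζ x * zpw ζ y := by
  have hx : x = ((x.val : ℕ) : ZMod p) := (ZMod.natCast_zmod_val x).symm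
  have hy : y = ((y.val : ℕ) : ZMod p) := (ZMod.natCast_zmod_val y).symm
  have : x + y = ((x.val + y.val : ℕ) : ZMod p) := by
    push_cast; rw [← hx, ← hy]
  rw [this, zpw_natCast hζ, pow_add]
  rfl

theorem zpw_zero (ζ : Qb) : zpw ζ (0 : ZMod p) = 1 := by
  unfold zpw; simp

theorem zpw_one (ζ : Qb) : zpw ζ (1 : ZMod p) = ζ := by
  unfold zpw
  have : (1 : ZMod p).val = 1 := by
    haveI : Fact (1 < p) := ⟨(Fact.out : p.Prime).one_lt⟩
    exact ZMod.val_one p
  rw [this, pow_one]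

theorem zpw_ne_zero {ζ : Qb} (hζ : ζ ^ p = 1) (x : ZMod p) : zpw ζ x ≠ 0 := by
  unfold zpw
  apply pow_ne_zero
  rintro rfl
  rw [zero_pow (Fact.out : p.Prime).ne_zero] at hζ
  exact zero_ne_one hζ

theorem zpw_pow {ζ : Qb} (hζ : ζ ^ p = 1) (x : ZMod p) (n : ℕ) :
    zpw ζ x ^ n = zpw ζ ((n : ZMod p) * x) := by
  have hx : x = ((x.val : ℕ) : ZMod p) := (ZMod.natCast_zmod_val x).symm
  have : (n : ZMod p) * x = ((x.val * n : ℕ) : ZMod p) := by
    push_cast; rw [← hx, mul_comm]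
  rw [this, zpw_natCast hζ, pow_mul]
  rfl

theorem zpw_pow_p {ζ : Qb} (hζ : ζ ^ p = 1) (x : ZMod p) : zpw ζ x ^ p = 1 := by
  rw [zpw_pow hζ, ZMod.natCast_self, zero_mul, zpw_zero]

theorem map_zpw (σ : GQ) (ζ : Qb) (x : ZMod p) : σ (zpw ζ x) = zpw (σ ζ) x := by
  unfold zpw; rw [map_pow]

/-- every `ℚ`-embedding of an intermediate field extends to an automorphism of `Qb`. -/
theorem exists_lift (E : IntermediateField ℚ Qb) (f : E →ₐ[ℚ] Qb) :
    ∃ σ : GQ, ∀ x : E, σ (x : Qb) = f x := by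
  refine ⟨AlgEquiv.ofBijective (f.liftNormal Qb) (AlgHom.normal_bijective ℚ Qb Qb _), fun x => ?_⟩
  have := f.liftNormal_commutes Qb x
  simpa using this

/-- The abstract resolvent. -/
theorem exists_resolvent_aux (ζ : Qb) (hζ : ζ ^ p = 1)
    (b : GQ → ZMod p)
    (hb : ∀ h g : GQ, h ζ = ζ → g ζ = ζ → b (h * g) = b h + b g)
    (E : IntermediateField ℚ Qb) [FiniteDimensional ℚ E] (hζE : ζ ∈ E)
    (hE : ∀ σ ∈ E.fixingSubgroup, b σ = 0) :
    ∃ a : Qb, a ≠ 0 ∧ ∀ h : GQ, h ζ = ζ → h a = zpw ζ (b h) * a := by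
  classical
  choose lift hlift using exists_lift E
  -- the embeddings fixing ζ
  let S : Finset (E →ₐ[ℚ] Qb) := Finset.univ.filter (fun f => f ⟨ζ, hζE⟩ = ζ)
  have hliftζ : ∀ f ∈ S, lift f ζ = ζ := by
    intro f hf
    have := hlift f ⟨ζ, hζE⟩
    rw [(Finset.mem_filter.mp hf).2] at this
    exact this
  let c : (E →ₐ[ℚ] Qb) → ZMod p := fun f => b (lift f)
  -- composition
  let comp : GQ → (E →ₐ[ℚ] Qb) → (E →ₐ[ℚ] Qb) := fun h f => (h : Qb →ₐ[ℚ] Qb).comp f
  have hcomp_apply : ∀ (h : GQ) (f : E →ₐ[ℚ] Qb) (x : E), comp h f x = h (f x) := fun _ _ _ => rfl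
  have hcompS : ∀ h : GQ, h ζ = ζ → ∀ f ∈ S, comp h f ∈ S := by
    intro h hh f hf
    refine Finset.mem_filter.mpr ⟨Finset.mem_univ _, ?_⟩
    rw [hcomp_apply, (Finset.mem_filter.mp hf).2, hh]
  have hc : ∀ h : GQ, h ζ = ζ → ∀ f ∈ S, c (comp h f) = b h + c f := by
    intro h hh f hf
    -- u := (h * lift f)⁻¹ * lift (comp h f) fixes E
    set u : GQ := (h * lift f)⁻¹ * lift (comp h f) with hu
    have huE : u ∈ E.fixingSubgroup := by
      rw [IntermediateField.mem_fixingSubgroup_iff]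
      intro x hx
      have h1 : lift (comp h f) x = h (lift f x) := by
        have := hlift (comp h f) ⟨x, hx⟩
        rw [hcomp_apply, ← hlift f ⟨x, hx⟩] at this
        exact this
      show (h * lift f)⁻¹ (lift (comp h f) x) = x
      rw [h1]
      show (h * lift f)⁻¹ ((h * lift f) x) = x
      rw [← AlgEquiv.mul_apply, inv_mul_cancel, AlgEquiv.one_apply]
    have huζ : u ζ = ζ := by
      have := (IntermediateField.mem_fixingSubgroup_iff E u).mp huE ζ hζE
      exact this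
    have h2 : lift (comp h f) = (h * lift f) * u := by
      rw [hu, mul_inv_cancel_left]
    have hhl : (h * lift f) ζ = ζ := by
      rw [AlgEquiv.mul_apply, hliftζ f hf, hh]
    show b (lift (comp h f)) = b h + b (lift f)
    rw [h2, hb _ _ hhl huζ, hb _ _ hh (hliftζ f hf), hE u huE, add_zero]
  -- the resolvent
  let A : E → Qb := fun x => ∑ f ∈ S, zpw ζ (- c f) * f x
  have hA : ∀ (h : GQ), h ζ = ζ → ∀ x, h (A x) = zpw ζ (b h) * A x := by
    intro h hh x
    show h (∑ f ∈ S, zpw ζ (- c f) * f x) = zpw ζ (b h) * ∑ f ∈ S, zpw ζ (- c f) * f x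
    rw [map_sum, Finset.mul_sum]
    -- reindex the right-hand side by `comp h`
    have hinj : Set.InjOn (comp h) (S : Set (E →ₐ[ℚ] Qb)) := by
      intro f _ g _ hfg
      ext x
      have := DFunLike.congr_fun hfg x
      rw [hcomp_apply, hcomp_apply] at this
      exact h.injective this
    have himg : S.image (comp h) = S := by
      apply Finset.eq_of_subset_of_card_le
      · intro g hg
        obtain ⟨f, hf, rfl⟩ := Finset.mem_image.mp hg
        exact hcompS h hh f hf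
      · rw [Finset.card_image_of_injOn hinj]
    conv_rhs => rw [← himg, Finset.sum_image hinj]
    refine Finset.sum_congr rfl fun f hf => ?_
    rw [map_mul, map_zpw, hh, hcomp_apply, hc h hh f hf, ← mul_assoc, ← zpw_add hζ]
    congr 2
    ring
  -- non vanishing
  have hne : ∃ x, A x ≠ 0 := by
    by_contra hcon
    push Not at hcon
    have hli := linearIndependent_algHom_toLinearMap ℚ E Qb
    rw [linearIndependent_iff'] at hli
    have h0 : ∑ f ∈ S, (zpw ζ (- c f)) • (AlgHom.toLinearMap f : E →ₗ[ℚ] Qb) = 0 := by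
      ext x
      have := hcon x
      simpa [A, LinearMap.sum_apply] using this
    have hval : E.val ∈ S := Finset.mem_filter.mpr ⟨Finset.mem_univ _, rfl⟩
    exact zpw_ne_zero hζ _ (hli S (fun f => zpw ζ (- c f)) h0 E.val hval)
  obtain ⟨x, hx⟩ := hne
  exact ⟨A x, hx, fun h hh => hA h hh x⟩

end GalRes

end Fermat.Agent.S14
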