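/-
S14 [Gal] (a),(b): from a non-split admissible extension to the Kummer generator `a`.
-/
import Mathlib
import Fermat.Agent.S14.GalResA
import Fermat.Prelude.Def_ExtCitation_AdmissibleExtension_v2

set_option autoImplicit false
set_option linter.style.haveILetI false
set_option linter.unusedSectionVars false

open IntermediateField ExtCitation

namespace Fermat.Agent.S14

local notation "Qb" => AlgebraicClosure ℚ
local notation "GQ" => (AlgebraicClosure ℚ ≃ₐ[ℚ] AlgebraicClosure ℚ)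

namespace GalRes

variable {p : ℕ} [Fact p.Prime]

theorem apply_eq_pow_cycloExp (σ : GQ) {ζ : Qb} (hζ : ζ ^ p = 1) :
    σ ζ = ζ ^ cycloExp p σ := by
  haveI : NeZero p := ⟨(Fact.out : p.Prime).ne_zero⟩
  have h0 : ζ ≠ 0 := by
    rintro rfl
    rw [zero_pow (Fact.out : p.Prime).ne_zero] at hζ
    exact zero_ne_one hζ
  have ht : Units.mk0 ζ h0 ∈ rootsOfUnity p Qb := by
    rw [mem_rootsOfUnity]
    ext
    simpa using hζ
  have := modularCyclotomicCharacter.spec (L := Qb) (card_rootsOfUnity_eq_self p)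
    (σ : Qb ≃+* Qb) ht
  simpa [cycloExp] using this

variable {V : Type} [AddCommGroup V] [Module (ZMod p) V]
  [DistribMulAction GQ V] [SMulCommClass GQ (ZMod p) V]
variable {C : Submodule (ZMod p) V}

theorem exists_basis (hadm : IsAdmissibleExtension p V C) :
    ∃ e1 e2 : V, e1 ∈ C ∧ (∀ x ∈ C, ∃ t : ZMod p, x = t • e1) ∧
      (∀ v : V, ∃ x y : ZMod p, v = x • e2 + y • e1) ∧
      (∀ x y : ZMod p, x • e2 + y • e1 = 0 → x = 0 ∧ y = 0) := by
  classical
  have hp : p.Prime := Fact.out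
  haveI hVfin : Finite V := Nat.finite_of_card_ne_zero (by
    rw [hadm.card_total]; exact pow_ne_zero _ hp.ne_zero)
  haveI hCfin : Finite C := Nat.finite_of_card_ne_zero (by
    rw [hadm.card_sub]; exact hp.ne_zero)
  -- e1
  obtain ⟨e1, he1C, he1⟩ : ∃ e1 ∈ C, e1 ≠ 0 := by
    by_contra hcon
    push Not at hcon
    have : Subsingleton C := ⟨fun x y => Subtype.ext (by rw [hcon x x.2, hcon y y.2])⟩
    have h1 : Nat.card C ≤ 1 := Finite.card_le_one_iff_subsingleton.mpr this
    rw [hadm.card_sub] at h1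
    exact absurd hp.one_lt (not_lt.mpr h1)
  -- e2
  obtain ⟨e2, he2⟩ : ∃ e2 : V, e2 ∉ C := by
    by_contra hcon
    push Not at hcon
    have htop : C = ⊤ := eq_top_iff.mpr fun x _ => hcon x
    have h1 : Nat.card C = Nat.card V := by
      rw [htop]; exact Nat.card_congr (Equiv.Set.univ V)
    rw [hadm.card_sub, hadm.card_total] at h1
    have : p * 1 = p * p := by rw [mul_one, ← sq]; exact h1
    have := Nat.eq_of_mul_eq_mul_left hp.pos this
    exact absurd this.symm hp.one_lt.ne'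
  have hind : ∀ x y : ZMod p, x • e2 + y • e1 = 0 → x = 0 ∧ y = 0 := by
    intro x y h
    have hx : x = 0 := by
      by_contra hx
      apply he2
      have : e2 = (-(x⁻¹ * y)) • e1 := by
        have h2 : x • e2 = -(y • e1) := eq_neg_of_add_eq_zero_left h
        calc e2 = (x⁻¹ * x) • e2 := by rw [inv_mul_cancel₀ hx, one_smul]
          _ = x⁻¹ • (x • e2) := by rw [mul_smul]
          _ = (-(x⁻¹ * y)) • e1 := by rw [h2, smul_neg, neg_smul, mul_smul]
      rw [this]
      exact C.smul_mem _ he1C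
    refine ⟨hx, ?_⟩
    rw [hx, zero_smul, zero_add] at h
    exact (smul_eq_zero.mp h).resolve_right he1
  have hsurj : ∀ v : V, ∃ x y : ZMod p, v = x • e2 + y • e1 := by
    let F : ZMod p × ZMod p → V := fun xy => xy.1 • e2 + xy.2 • e1
    have hinj : Function.Injective F := by
      rintro ⟨x, y⟩ ⟨x', y'⟩ h
      have h' : (x - x') • e2 + (y - y') • e1 = 0 := by
        have h1 : x • e2 + y • e1 = x' • e2 + y' • e1 := h
        rw [sub_smul, sub_smul]
        have : x • e2 - x' • e2 + (y • e1 - y' • e1)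
            = (x • e2 + y • e1) - (x' • e2 + y' • e1) := by abel
        rw [this, h1, sub_self]
      obtain ⟨h1, h2⟩ := hind _ _ h'
      rw [sub_eq_zero.mp h1, sub_eq_zero.mp h2]
    have hbij : Function.Bijective F := by
      apply hinj.bijective_of_nat_card_le
      rw [hadm.card_total, Nat.card_prod, Nat.card_zmod, sq]
    intro v
    obtain ⟨⟨x, y⟩, h⟩ := hbij.2 v
    exact ⟨x, y, h.symm⟩
  refine ⟨e1, e2, he1C, ?_, hsurj, hind⟩
  intro x hx
  obtain ⟨s, t, hst⟩ := hsurj x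
  have hs : s = 0 := by
    by_contra hs
    apply he2
    have h1 : s • e2 ∈ C := by
      have : s • e2 = x - t • e1 := by rw [hst]; abel
      rw [this]
      exact C.sub_mem hx (C.smul_mem _ he1C)
    have : e2 = s⁻¹ • (s • e2) := by rw [← mul_smul, inv_mul_cancel₀ hs, one_smul]
    rw [this]
    exact C.smul_mem _ h1
  exact ⟨t, by rw [hst, hs, zero_smul, zero_add]⟩


theorem zpw_injective {ζ : Qb} (hζ : IsPrimitiveRoot ζ p) :
    Function.Injective (zpw (p := p) ζ) := by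
  intro x y h
  haveI : NeZero p := ⟨(Fact.out : p.Prime).ne_zero⟩
  exact ZMod.val_injective p (hζ.pow_inj (ZMod.val_lt x) (ZMod.val_lt y) h)

theorem mem_adjoin_of_fixed {ζ x : Qb} (h : ∀ σ : GQ, σ ζ = ζ → σ x = x) : x ∈ ℚ⟮ζ⟯ := by
  rw [← InfiniteGalois.fixedField_fixingSubgroup ℚ⟮ζ⟯, IntermediateField.mem_fixedField_iff]
  intro f hf
  apply h
  exact (IntermediateField.mem_fixingSubgroup_iff _ f).mp hf ζ (mem_adjoin_simple_self ℚ ζ)

theorem exists_moving (h3 : 3 ≤ p) {ζ : Qb} (hζ : IsPrimitiveRoot ζ p) : ∃ s : GQ, s ζ ≠ ζ := by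
  by_contra hcon
  push Not at hcon
  obtain ⟨r, hr⟩ := (InfiniteGalois.mem_range_algebraMap_iff_fixed (k := ℚ) (K := Qb) ζ).mpr hcon
  have hp : p.Prime := Fact.out
  have hodd : Odd p := hp.odd_of_ne_two (by omega)
  have h1 : r ^ p = 1 := by
    apply (algebraMap ℚ Qb).injective
    rw [map_pow, hr, hζ.pow_eq_one, map_one]
  have h2 : r = 1 := hodd.strictMono_pow.injective (by simpa using h1)
  rw [h2, map_one] at hr
  exact hp.one_lt.ne' (hζ.unique (hr ▸ IsPrimitiveRoot.one))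

/-- The cocycle data attached to an admissible extension. -/
theorem exists_cocycle (hadm : IsAdmissibleExtension p V C) {ζ : Qb} (hζ : IsPrimitiveRoot ζ p) :
    ∃ (e1 e2 : V) (w b : GQ → ZMod p), e1 ∈ C ∧ (∀ x ∈ C, ∃ t : ZMod p, x = t • e1) ∧
      (∀ v : V, ∃ x y : ZMod p, v = x • e2 + y • e1) ∧
      (∀ x y x' y' : ZMod p, x • e2 + y • e1 = x' • e2 + y' • e1 → x = x' ∧ y = y') ∧
      (∀ σ : GQ, σ • e1 = e1) ∧
      (∀ σ : GQ, σ • e2 = w σ • e2 + b σ • e1) ∧
      (∀ σ : GQ, σ ζ = zpw ζ (w σ)) ∧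
      (∀ σ : GQ, ∀ x : V, σ • x - w σ • x ∈ C) := by
  obtain ⟨e1, e2, he1C, hC, hsurj, hind⟩ := exists_basis hadm
  have hex : ∀ σ : GQ, ∃ t : ZMod p, σ • e2 - (cycloExp p σ : ZMod p) • e2 = t • e1 :=
    fun σ => hC _ (hadm.cyclo_quot σ e2)
  choose b hb using hex
  refine ⟨e1, e2, fun σ => (cycloExp p σ : ZMod p), b, he1C, hC, hsurj, ?_,
    fun σ => hadm.fixed_sub σ e1 he1C, ?_, ?_, fun σ x => hadm.cyclo_quot σ x⟩
  · intro x y x' y' h
    have h' : (x - x') • e2 + (y - y') • e1 = 0 := by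
      rw [sub_smul, sub_smul]
      have : x • e2 - x' • e2 + (y • e1 - y' • e1)
          = (x • e2 + y • e1) - (x' • e2 + y' • e1) := by abel
      rw [this, h, sub_self]
    obtain ⟨h1, h2⟩ := hind _ _ h'
    exact ⟨sub_eq_zero.mp h1, sub_eq_zero.mp h2⟩
  · intro σ
    rw [← hb σ]; abel
  · intro σ
    rw [zpw_natCast hζ.pow_eq_one]
    exact apply_eq_pow_cycloExp σ hζ.pow_eq_one

end GalRes

open GalRes in
/-- **[Gal] (a),(b)**: a non-split admissible extension produces a Kummer generator. -/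
theorem exists_resolvent {p : ℕ} [Fact p.Prime] (h3 : 3 ≤ p)
    (V : Type) [AddCommGroup V] [Module (ZMod p) V]
    [DistribMulAction GQ V] [SMulCommClass GQ (ZMod p) V]
    (C : Submodule (ZMod p) V)
    (hadm : IsAdmissibleExtensionCts p V C) (hns : ¬ SplitsGlobally C) :
    ∃ ζ a : Qb, IsPrimitiveRoot ζ p ∧ a ≠ 0 ∧ IsIntegral ℤ a ∧ a ^ p ∈ ℚ⟮ζ⟯ ∧
      (∃ h : GQ, h ζ = ζ ∧ h a = ζ * a) ∧
      (∀ (s : GQ) (k : ℕ), s ζ = ζ ^ k → ∃ γ ∈ ℚ⟮ζ⟯, s a = a ^ (k ^ 2) * γ) ∧
      (∀ ℓ : ℕ, ℓ.Prime → ℓ ≠ p → ∀ A : ValuationSubring Qb, A.LiesOverPrime ℓ →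
        ∀ σ ∈ A.inertiaSubgroupIn ℚ, σ ζ = ζ ∧ σ a = a) ∧
      (∀ A : ValuationSubring Qb, A.LiesOverPrime p →
        ∀ σ ∈ A.decompositionSubgroup ℚ, σ ζ = ζ → σ a = a) := by
  classical
  have hp : p.Prime := Fact.out
  haveI : NeZero p := ⟨hp.ne_zero⟩
  haveI : NeZero (p : Qb) := ⟨Nat.cast_ne_zero.mpr hp.ne_zero⟩
  obtain ⟨ζ, hζ⟩ := HasEnoughRootsOfUnity.exists_primitiveRoot Qb p
  have hζ1 : ζ ^ p = 1 := hζ.pow_eq_one
  obtain ⟨e1, e2, w, b, he1C, hC, hsurj, huniq, hfix1, hact, hwζ, hquot⟩ :=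
    exists_cocycle hadm.toIsAdmissibleExtension hζ
  -- w σ = 1 ↔ σ ζ = ζ
  have hw1 : ∀ σ : GQ, σ ζ = ζ ↔ w σ = 1 := by
    intro σ
    rw [hwζ σ]
    constructor
    · intro h
      apply zpw_injective hζ
      rw [h, zpw_one]
    · intro h
      rw [h, zpw_one]
  -- cocycle relations
  have hcoc : ∀ σ τ : GQ, w (σ * τ) = w σ * w τ ∧ b (σ * τ) = w τ * b σ + b τ := by
    intro σ τ
    have h1 : (σ * τ) • e2 = (w σ * w τ) • e2 + (w τ * b σ + b τ) • e1 := by
      rw [mul_smul, hact τ, smul_add, smul_comm σ (w τ) e2, smul_comm σ (b τ) e1, hact σ, hfix1 σ,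
        smul_add, ← mul_smul, ← mul_smul, add_smul, mul_comm (w σ) (w τ), add_assoc]
    rw [hact (σ * τ)] at h1
    exact huniq _ _ _ _ h1
  have htriv : ∀ σ : GQ, σ • e2 = e2 → w σ = 1 ∧ b σ = 0 := by
    intro σ h
    have h1 : w σ • e2 + b σ • e1 = (1 : ZMod p) • e2 + (0 : ZMod p) • e1 := by
      rw [← hact σ, h, one_smul, zero_smul, add_zero]
    exact huniq _ _ _ _ h1
  have hone : w 1 = 1 ∧ b 1 = 0 := htriv 1 (one_smul _ _)
  have hwne : ∀ σ : GQ, w σ ≠ 0 := by
    intro σ h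
    have := (hcoc σ σ⁻¹).1
    rw [mul_inv_cancel, hone.1, h, zero_mul] at this
    exact one_ne_zero this
  by_cases hH : ∀ h : GQ, h ζ = ζ → b h = 0
  · -- split case
    exfalso
    apply hns
    obtain ⟨s0, hs0⟩ := exists_moving h3 hζ
    have hws0 : w s0 - 1 ≠ 0 := fun h => hs0 ((hw1 s0).mpr (sub_eq_zero.mp h))
    have hkey : ∀ σ : GQ, b σ * (w s0 - 1) = b s0 * (w σ - 1) := by
      intro σ
      set h : GQ := σ * s0 * (s0 * σ)⁻¹ with hh
      have hmul : h * (s0 * σ) = σ * s0 := by rw [hh, inv_mul_cancel_right]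
      have hwh : w h = 1 := by
        have h1 := (hcoc h (s0 * σ)).1
        rw [hmul, (hcoc σ s0).1, (hcoc s0 σ).1] at h1
        have hne : w s0 * w σ ≠ 0 := mul_ne_zero (hwne s0) (hwne σ)
        have h2 : 1 * (w s0 * w σ) = w h * (w s0 * w σ) := by rw [one_mul, ← h1, mul_comm]
        exact (mul_right_cancel₀ hne h2).symm
      have hbh : b h = 0 := hH h ((hw1 h).mpr hwh)
      have h2 := (hcoc h (s0 * σ)).2
      rw [hmul, hbh, mul_zero, zero_add, (hcoc σ s0).2, (hcoc s0 σ).2] at h2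
      linear_combination h2
    set x0 : ZMod p := b s0 / (w s0 - 1) with hx0
    have hbx : ∀ σ : GQ, b σ = (w σ - 1) * x0 := by
      intro σ
      rw [hx0]
      field_simp
      rw [hkey σ]; ring
    refine ⟨Submodule.span (ZMod p) {e2 + x0 • e1}, ?_, ?_⟩
    · intro σ x hx
      obtain ⟨t, rfl⟩ := Submodule.mem_span_singleton.mp hx
      have : σ • (e2 + x0 • e1) = w σ • (e2 + x0 • e1) := by
        rw [smul_add, smul_comm σ x0 e1, hfix1 σ, hact σ, hbx σ, smul_add, ← mul_smul,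
          add_assoc, ← add_smul]
        congr 2
        ring
      rw [smul_comm σ t, this]
      exact Submodule.smul_mem _ _ (Submodule.smul_mem _ _ (Submodule.mem_span_singleton_self _))
    · constructor
      · rw [Submodule.disjoint_def]
        intro v hvC hv
        obtain ⟨t, rfl⟩ := Submodule.mem_span_singleton.mp hv
        obtain ⟨u, hu⟩ := hC _ hvC
        have h1 : t • e2 + (t * x0) • e1 = (0 : ZMod p) • e2 + u • e1 := by
          rw [zero_smul, zero_add, ← hu, smul_add, mul_smul]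
        rw [(huniq _ _ _ _ h1).1, zero_smul]
      · rw [codisjoint_iff, eq_top_iff]
        intro v _
        obtain ⟨x, y, rfl⟩ := hsurj v
        have : x • e2 + y • e1 = (y - x * x0) • e1 + x • (e2 + x0 • e1) := by
          rw [smul_add, sub_smul, mul_smul]; abel
        rw [this]
        exact Submodule.add_mem_sup (C.smul_mem _ he1C)
          (Submodule.smul_mem _ _ (Submodule.mem_span_singleton_self _))
  · -- non-split case
    push Not at hH
    obtain ⟨h0, hh0ζ, hbh0⟩ := hH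
    -- finite level
    have hU : {σ : GQ | ∀ v : V, σ • v = v} ∈ nhds (1 : GQ) :=
      hadm.open_kernel.mem_nhds (by simp)
    obtain ⟨E0, hE0fin, hE0⟩ := (krullTopology_mem_nhds_one_iff ℚ Qb _).mp hU
    haveI := hE0fin
    haveI : FiniteDimensional ℚ ℚ⟮ζ⟯ :=
      IntermediateField.adjoin.finiteDimensional (Algebra.IsIntegral.isIntegral ζ)
    let E : IntermediateField ℚ Qb := E0 ⊔ ℚ⟮ζ⟯
    haveI : FiniteDimensional ℚ E := IntermediateField.finiteDimensional_sup E0 ℚ⟮ζ⟯
    have hζE : ζ ∈ E := (le_sup_right : ℚ⟮ζ⟯ ≤ E) (mem_adjoin_simple_self ℚ ζ)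
    have hE : ∀ σ ∈ E.fixingSubgroup, b σ = 0 := by
      intro σ hσ
      have h1 : σ ∈ E0.fixingSubgroup :=
        IntermediateField.fixingSubgroup_antitone (le_sup_left : E0 ≤ E) hσ
      exact (htriv σ (hE0 h1 e2)).2
    have hbadd : ∀ h g : GQ, h ζ = ζ → g ζ = ζ → b (h * g) = b h + b g := by
      intro h g _ hg
      rw [(hcoc h g).2, (hw1 g).mp hg, one_mul]
    obtain ⟨a0, ha0, hres0⟩ := exists_resolvent_aux ζ hζ1 b hbadd E hζE hE
    -- integrality
    have halg : IsAlgebraic ℤ a0 :=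
      (IsFractionRing.isAlgebraic_iff ℤ ℚ Qb).mpr (Algebra.IsAlgebraic.isAlgebraic a0)
    obtain ⟨n, hn0, hnint⟩ := halg.exists_integral_multiple
    set a : Qb := (n : Qb) * a0 with ha
    have hna : n • a0 = a := by rw [ha, zsmul_eq_mul]
    rw [hna] at hnint
    have hnQ : (n : Qb) ≠ 0 := Int.cast_ne_zero.mpr hn0
    have ha_ne : a ≠ 0 := mul_ne_zero hnQ ha0
    have hres : ∀ h : GQ, h ζ = ζ → h a = zpw ζ (b h) * a := by
      intro h hh
      rw [ha, map_mul, map_intCast, hres0 h hh]; ring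
    refine ⟨ζ, a, hζ, ha_ne, hnint, ?_, ?_, ?_, ?_, ?_⟩
    · apply mem_adjoin_of_fixed
      intro σ hσ
      rw [map_pow, hres σ hσ, mul_pow, zpw_pow_p hζ1, one_mul]
    · -- moving element
      have hpow : ∀ m : ℕ, (h0 ^ m) ζ = ζ ∧ b (h0 ^ m) = (m : ZMod p) * b h0 := by
        intro m
        induction m with
        | zero => simp [hone.2]
        | succ m ih =>
          have h1 : (h0 ^ (m + 1)) ζ = ζ := by
            rw [pow_succ, AlgEquiv.mul_apply, hh0ζ, ih.1]
          refine ⟨h1, ?_⟩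
          rw [pow_succ, hbadd _ _ ih.1 hh0ζ, ih.2]
          push_cast; ring
      refine ⟨h0 ^ ((b h0)⁻¹).val, (hpow _).1, ?_⟩
      rw [hres _ (hpow _).1, (hpow _).2, ZMod.natCast_zmod_val, inv_mul_cancel₀ hbh0, zpw_one]
    · -- eigen property
      intro s k hsk
      have hwsk : w s = (k : ZMod p) := by
        apply zpw_injective hζ
        rw [← hwζ s, hsk, zpw_natCast hζ1]
      refine ⟨s a * (a ^ (k ^ 2))⁻¹, ?_, ?_⟩
      · apply mem_adjoin_of_fixed
        intro h hh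
        set h' : GQ := s⁻¹ * h * s with hh'
        have hsh : s * h' = h * s := by rw [hh', mul_assoc, mul_inv_cancel_left]
        have hwinv : w s⁻¹ * w s = 1 := by
          rw [← (hcoc s⁻¹ s).1, inv_mul_cancel, hone.1]
        have hwh' : w h' = 1 := by
          rw [hh', (hcoc _ _).1, (hcoc _ _).1, (hw1 h).mp hh, mul_one, hwinv]
        have hbinv : w s * b s⁻¹ + b s = 0 := by
          rw [← (hcoc s⁻¹ s).2, inv_mul_cancel, hone.2]
        have hbh' : b h' = w s * b h := by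
          rw [hh', (hcoc _ _).2, (hcoc _ _).2, (hw1 h).mp hh]
          linear_combination hbinv
        have h1 : h (s a) = zpw ζ ((k : ZMod p) * ((k : ZMod p) * b h)) * s a := by
          have : h (s a) = s (h' a) := by
            rw [← AlgEquiv.mul_apply, ← AlgEquiv.mul_apply, hsh]
          rw [this, hres h' ((hw1 h').mpr hwh'), map_mul, map_zpw, hsk, hbh', hwsk]
          congr 1
          rw [← zpw_pow hζ1]
          unfold zpw
          rw [← pow_mul, ← pow_mul, mul_comm]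
        have h2 : h (a ^ (k ^ 2)) = zpw ζ ((k : ZMod p) * ((k : ZMod p) * b h)) * a ^ (k ^ 2) := by
          rw [map_pow, hres h hh, mul_pow, zpw_pow hζ1]
          congr 2
          push_cast; ring
        rw [map_mul, map_inv₀, h1, h2, mul_inv]
        have hz := zpw_ne_zero hζ1 ((k : ZMod p) * ((k : ZMod p) * b h))
        generalize zpw ζ ((k : ZMod p) * ((k : ZMod p) * b h)) = z at hz ⊢
        field_simp
      · have : a ^ (k ^ 2) ≠ 0 := pow_ne_zero _ ha_ne
        field_simp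
    · -- unramified outside p
      intro ℓ hℓ hℓp A hA σ hσ
      have h1 := htriv σ (hadm.unramified_outside ℓ hℓ hℓp A hA σ hσ e2)
      have h2 : σ ζ = ζ := (hw1 σ).mpr h1.1
      refine ⟨h2, ?_⟩
      rw [hres σ h2, h1.2, zpw_zero, one_mul]
    · -- locally split at p
      intro A hA σ hσ hσζ
      obtain ⟨C', hC', hcompl⟩ := hadm.locally_split A hA
      have hwσ : w σ = 1 := (hw1 σ).mp hσζ
      have htop : e2 ∈ C ⊔ C' := by rw [hcompl.sup_eq_top]; trivial
      obtain ⟨c, hc, c', hc', hcc⟩ := Submodule.mem_sup.mp htop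
      have h1 : σ • c' - c' = 0 := by
        have hC1 : σ • c' - c' ∈ C := by
          have := hquot σ c'
          rwa [hwσ, one_smul] at this
        have hC2 : σ • c' - c' ∈ C' := C'.sub_mem (hC' σ hσ c' hc') hc'
        exact (Submodule.disjoint_def.mp hcompl.disjoint) _ hC1 hC2
      have h2 : σ • e2 = e2 := by
        rw [← hcc, smul_add, hadm.fixed_sub σ c hc, sub_eq_zero.mp h1]
      rw [hres σ hσζ, (htriv σ h2).2, zpw_zero, one_mul]

end Fermat.Agent.S14
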