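/-
S14 [Gal]: glue from the `Qb`-level statements of `exists_resolvent` to statements about
`K := ℚ⟮ζ⟯` (as a type): (a) `α` is not a `p`-th power in `K`, (b) the `ω²`-eigen property.
-/
import Mathlib
import Fermat.Agent.S14.GalRes

set_option autoImplicit false
set_option linter.style.haveILetI false
set_option linter.unusedSectionVars false

open IntermediateField NumberField

namespace Fermat.Agent.S14

local notation "Qb" => AlgebraicClosure ℚ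
local notation "GQ" => (AlgebraicClosure ℚ ≃ₐ[ℚ] AlgebraicClosure ℚ)

/-- (a): `a ^ p` is not a `p`-th power in `ℚ⟮ζ⟯`. -/
theorem gal_not_pow {p : ℕ} [Fact p.Prime] {ζ a : Qb} (hζ : IsPrimitiveRoot ζ p) (ha0 : a ≠ 0)
    (hmove : ∃ h : GQ, h ζ = ζ ∧ h a = ζ * a) (α : ℚ⟮ζ⟯) (hα : (α : Qb) = a ^ p) :
    ¬ ∃ z : ℚ⟮ζ⟯, z ^ p = α := by
  rintro ⟨z, hz⟩
  obtain ⟨h, hhζ, hha⟩ := hmove
  have hp : p.Prime := Fact.out
  have hz' : (z : Qb) ^ p = a ^ p := by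
    rw [← hα, ← hz]; rfl
  -- h fixes z
  have hfix : h (z : Qb) = z := by
    have hext : ((h : Qb →ₐ[ℚ] Qb).comp (ℚ⟮ζ⟯).val) = (ℚ⟮ζ⟯).val := by
      apply IntermediateField.adjoin_algHom_ext
      intro x hx
      rw [Set.mem_singleton_iff] at hx
      subst hx
      exact hhζ
    exact DFunLike.congr_fun hext z
  -- a = ξ z with ξ^p = 1, ξ a power of ζ hence fixed by h
  have hz0 : (z : Qb) ≠ 0 := by
    intro h0
    rw [h0, zero_pow hp.ne_zero] at hz'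
    exact pow_ne_zero p ha0 hz'.symm
  have hξ : (a / z) ^ p = 1 := by
    rw [div_pow, hz', div_self (pow_ne_zero p ha0)]
  haveI : NeZero p := ⟨hp.ne_zero⟩
  obtain ⟨i, -, hi⟩ := hζ.eq_pow_of_pow_eq_one hξ
  have ha : a = ζ ^ i * z := by
    rw [hi]; field_simp
  have h1 : h a = a := by
    rw [ha, map_mul, map_pow, hhζ, hfix]
  rw [hha] at h1
  have h2 : ζ = 1 := by
    have : ζ * a = 1 * a := by rw [h1, one_mul]
    exact mul_right_cancel₀ ha0 this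
  exact hp.one_lt.ne' (hζ.unique (h2 ▸ IsPrimitiveRoot.one))

/-- (b): the `ω²`-eigen property of `α = a ^ p` over `K = ℚ⟮ζ⟯`. -/
theorem gal_eigen {p : ℕ} {ζ a : Qb}
    (heig : ∀ (s : GQ) (k : ℕ), s ζ = ζ ^ k → ∃ γ ∈ ℚ⟮ζ⟯, s a = a ^ (k ^ 2) * γ)
    (α : ℚ⟮ζ⟯) (hα : (α : Qb) = a ^ p)
    (σ : ℚ⟮ζ⟯ ≃ₐ[ℚ] ℚ⟮ζ⟯) (b : ℕ) (hσ : σ (AdjoinSimple.gen ℚ ζ) = AdjoinSimple.gen ℚ ζ ^ b) :
    ∃ γ : ℚ⟮ζ⟯, σ α = α ^ (b ^ 2) * γ ^ p := by
  set s : GQ := σ.liftNormal Qb with hs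
  have hcomm : ∀ x : ℚ⟮ζ⟯, s (x : Qb) = (σ x : ℚ⟮ζ⟯) := fun x => σ.liftNormal_commutes Qb x
  have hsζ : s ζ = ζ ^ b := by
    have := hcomm (AdjoinSimple.gen ℚ ζ)
    rw [hσ] at this
    simpa using this
  obtain ⟨γ, hγ, hsa⟩ := heig s b hsζ
  refine ⟨⟨γ, hγ⟩, ?_⟩
  apply Subtype.val_injective
  show ((σ α : ℚ⟮ζ⟯) : Qb) = (α : Qb) ^ (b ^ 2) * γ ^ p
  rw [← hcomm α, hα, map_pow, hsa]
  ring

end Fermat.Agent.S14
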