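import Mathlib
import Fermat.Prelude.Def_FLTPrelim_Ramification
import Fermat.Agent.Lib.Frobenius

/-!
# S14 [Gal]: primes of `𝓞 K` (`K ⊂ ℚ̄` a number field) versus valuation subrings of `ℚ̄`
-/

set_option autoImplicit false
set_option linter.style.haveILetI false
set_option linter.unusedSectionVars false

namespace Fermat.Agent.S14

open Finset NumberField UniqueFactorizationMonoid
open Fermat.Agent.Lib.Frobenius

local notation "Qb" => AlgebraicClosure ℚ
local notation "Zb" => integralClosure ℤ (AlgebraicClosure ℚ)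
local notation "GQ" => (AlgebraicClosure ℚ ≃ₐ[ℚ] AlgebraicClosure ℚ)

/-- An ideal of a Dedekind domain all of whose multiplicities are divisible by `p` is a
`p`-th power. -/
lemma exists_eq_pow_of_dvd_count {R : Type*} [CommRing R] [IsDedekindDomain R] (I : Ideal R)
    (hI : I ≠ ⊥) (p : ℕ)
    (h : ∀ P ∈ normalizedFactors I, p ∣ Multiset.count P (normalizedFactors I)) :
    ∃ J : Ideal R, I = J ^ p := by
  obtain ⟨u, hu⟩ := Multiset.exists_smul_of_dvd_count _ h
  refine ⟨u.prod, ?_⟩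
  rw [← Multiset.prod_nsmul, ← hu, Ideal.prod_normalizedFactors_eq_self hI]

variable (K : IntermediateField ℚ Qb)

/-- the inclusion of the integers of `K` in all algebraic integers -/
noncomputable def jK : 𝓞 K →+* Zb where
  toFun x := ⟨((x : K) : Qb), by
    have := x.2
    exact this.map (IsScalarTower.toAlgHom ℤ K Qb)⟩
  map_one' := rfl
  map_mul' _ _ := rfl
  map_zero' := rfl
  map_add' _ _ := rfl

@[simp] lemma jK_coe (x : 𝓞 K) : ((jK K x : Zb) : Qb) = ((x : K) : Qb) := rfl

lemma val_int_le_one (A : ValuationSubring Qb) (x : 𝓞 K) : A.valuation ((x : K) : Qb) ≤ 1 :=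
  valuation_le_one A (jK K x)

variable [NumberField K]

/-- Every nonzero prime of `𝓞 K` is the centre of a valuation subring of `ℚ̄`. -/
theorem exists_valuationSubring_of_prime (r : Ideal (𝓞 K)) [hr : r.IsPrime] (h0 : r ≠ ⊥) :
    ∃ (A : ValuationSubring Qb) (ℓ : ℕ), ℓ.Prime ∧ A.LiesOverPrime ℓ ∧
      ∀ w : 𝓞 K, A.valuation ((w : K) : Qb) < 1 ↔ w ∈ r := by
  have hmax : r.IsMaximal := hr.isMaximal h0
  let φ : 𝓞 K →+* Qb := (algebraMap K Qb).comp (algebraMap (𝓞 K) K)
  let A₀ : Subring Qb := φ.range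
  let φ' : 𝓞 K →+* A₀ := φ.rangeRestrict
  have hφinj : Function.Injective φ' := by
    intro x y hxy
    have h1 : φ x = φ y := congrArg (Subtype.val : A₀ → Qb) hxy
    exact RingOfIntegers.coe_injective ((algebraMap K Qb).injective h1)
  have hφsurj : Function.Surjective φ' := φ.rangeRestrict_surjective
  have hI : r.map φ' ≠ ⊤ := by
    intro h
    have h1 := Ideal.comap_map_of_bijective φ' ⟨hφinj, hφsurj⟩ (I := r)
    rw [h, Ideal.comap_top] at h1
    exact hr.ne_top h1.symm
  obtain ⟨A, -, hA⟩ := Ideal.image_subset_nonunits_valuationSubring _ hI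
  have hsub : r ≤ (center A).comap (jK K) := by
    intro w hw
    rw [Ideal.mem_comap, mem_center_iff]
    exact (ValuationSubring.mem_nonunits_iff A).mp (hA ⟨φ' w, Ideal.mem_map_of_mem _ hw, rfl⟩)
  have heq : r = (center A).comap (jK K) :=
    hmax.eq_of_le (Ideal.comap_ne_top _ (Ideal.IsPrime.ne_top inferInstance)) hsub
  have hiff : ∀ w : 𝓞 K, A.valuation ((w : K) : Qb) < 1 ↔ w ∈ r := by
    intro w
    rw [heq, Ideal.mem_comap, mem_center_iff]
    rfl
  haveI : Finite (𝓞 K ⧸ r) := Ideal.finiteQuotientOfFreeOfNeBot r h0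
  obtain ⟨ℓ, hchar⟩ := CharP.exists (𝓞 K ⧸ r)
  have hℓ : ℓ.Prime := CharP.char_is_prime (𝓞 K ⧸ r) ℓ
  have hmem : (ℓ : 𝓞 K) ∈ r := by
    rw [← Ideal.Quotient.eq_zero_iff_mem, map_natCast]
    exact CharP.cast_eq_zero _ _
  refine ⟨A, ℓ, hℓ, ?_, hiff⟩
  have h1 := (hiff _).mpr hmem
  apply (ValuationSubring.mem_nonunits_iff A).mpr
  simpa using h1

variable {K}

section
variable (A : ValuationSubring Qb) (r : Ideal (𝓞 K)) [hr : r.IsPrime]
  (hAr : ∀ w : 𝓞 K, A.valuation ((w : K) : Qb) < 1 ↔ w ∈ r)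

include hAr hr

lemma val_eq_one_of_notMem {w : 𝓞 K} (hw : w ∉ r) : A.valuation ((w : K) : Qb) = 1 :=
  le_antisymm (val_int_le_one K A w) (not_lt.mp fun h => hw ((hAr w).mp h))

lemma val_le_of_mem_pow (x y : 𝓞 K) (m : ℕ) (J : Ideal (𝓞 K)) (hJ : r ⊔ J = ⊤)
    (hy : Ideal.span {y} = r ^ m * J) (hx : x ∈ r ^ m) :
    A.valuation ((x : K) : Qb) ≤ A.valuation ((y : K) : Qb) := by
  obtain ⟨s, hsJ, hsr⟩ : ∃ s ∈ J, s ∉ r := by
    by_contra hcon
    push Not at hcon
    have : J ≤ r := hcon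
    rw [sup_eq_left.mpr this] at hJ
    exact hr.ne_top hJ
  have h1 : x * s ∈ Ideal.span {y} := hy ▸ Ideal.mul_mem_mul hx hsJ
  obtain ⟨u, hu⟩ := Ideal.mem_span_singleton'.mp h1
  have h2 : A.valuation ((u : K) : Qb) * A.valuation ((y : K) : Qb) =
      A.valuation ((x : K) : Qb) * A.valuation ((s : K) : Qb) := by
    rw [← map_mul, ← map_mul]
    congr 1
    have := congrArg (fun w : 𝓞 K => ((w : K) : Qb)) hu
    simpa using this
  rw [val_eq_one_of_notMem A r hAr hsr, mul_one] at h2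
  rw [← h2]
  exact mul_le_of_le_one_left' (val_int_le_one K A u)

/-- the valuation of an integer of `K` in terms of a uniformiser -/
lemma val_eq_pow_count (h0 : r ≠ ⊥) (t : 𝓞 K) (ht : t ∈ r) (ht2 : t ∉ r ^ 2) (y : 𝓞 K)
    (hy : y ≠ 0) :
    A.valuation ((y : K) : Qb) =
      A.valuation ((t : K) : Qb) ^ Multiset.count r (normalizedFactors (Ideal.span {y})) := by
  haveI hmax : r.IsMaximal := hr.isMaximal h0
  have ht0 : t ≠ 0 := by
    rintro rfl
    exact ht2 (Ideal.zero_mem _)
  obtain ⟨Jt, hJt, hteq⟩ := Ideal.eq_prime_pow_mul_coprime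
    (I := Ideal.span {t}) (by simpa using ht0) r
  set c := Multiset.count r (normalizedFactors (Ideal.span {t})) with hc
  have hc1 : c = 1 := by
    have h1 : c ≠ 0 := by
      intro h
      rw [h, pow_zero, one_mul] at hteq
      have : Jt ≤ r := by
        rw [← hteq, Ideal.span_singleton_le_iff_mem]
        exact ht
      rw [sup_eq_left.mpr this] at hJt
      exact hr.ne_top hJt
    have h2 : c < 2 := by
      by_contra h
      push Not at h
      apply ht2
      have h3 : Ideal.span {t} ≤ r ^ 2 := by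
        rw [hteq]
        exact Ideal.mul_le_left.trans (Ideal.pow_le_pow_right h)
      exact h3 (Ideal.mem_span_singleton_self t)
    omega
  rw [hc1, pow_one] at hteq
  obtain ⟨J, hJ, hyeq⟩ := Ideal.eq_prime_pow_mul_coprime
    (I := Ideal.span {y}) (by simpa using hy) r
  set m := Multiset.count r (normalizedFactors (Ideal.span {y})) with hm
  have htm : Ideal.span {t ^ m} = r ^ m * Jt ^ m := by
    rw [← Ideal.span_singleton_pow, hteq, mul_pow]
  have hcast : A.valuation ((t : K) : Qb) ^ m = A.valuation (((t ^ m : 𝓞 K) : K) : Qb) := by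
    rw [← map_pow]
    simp
  rw [hcast]
  apply le_antisymm
  · refine val_le_of_mem_pow A r hAr y (t ^ m) m (Jt ^ m) (Ideal.sup_pow_eq_top hJt) htm ?_
    have : Ideal.span {y} ≤ r ^ m := hyeq ▸ Ideal.mul_le_left
    exact this (Ideal.mem_span_singleton_self y)
  · exact val_le_of_mem_pow A r hAr (t ^ m) y m J hJ hyeq (Ideal.pow_mem_pow ht m)

/-- the value group of `K` is generated by the valuation of a uniformiser -/
lemma val_mem_zpowers (h0 : r ≠ ⊥) (t : 𝓞 K) (ht : t ∈ r) (ht2 : t ∉ r ^ 2) :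
    ∀ c ∈ K, c ≠ 0 → ∃ m : ℤ, A.valuation c = A.valuation ((t : K) : Qb) ^ m := by
  intro c hc hc0
  obtain ⟨x, y, hy, hxy⟩ := IsFractionRing.div_surjective (A := 𝓞 K) (⟨c, hc⟩ : K)
  have hy0 : y ≠ 0 := nonZeroDivisors.ne_zero hy
  have hx0 : x ≠ 0 := by
    rintro rfl
    rw [map_zero, zero_div] at hxy
    exact hc0 (congrArg Subtype.val hxy).symm
  have ht0 : t ≠ 0 := by
    rintro rfl
    exact ht2 (Ideal.zero_mem _)
  have hvt : A.valuation ((t : K) : Qb) ≠ 0 := by
    rw [Valuation.ne_zero_iff]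
    intro h
    apply ht0
    exact RingOfIntegers.coe_injective (Subtype.ext h)
  refine ⟨(Multiset.count r (normalizedFactors (Ideal.span {x})) : ℤ) -
    Multiset.count r (normalizedFactors (Ideal.span {y})), ?_⟩
  have h1 : c = ((x : K) : Qb) / ((y : K) : Qb) := by
    have := congrArg Subtype.val hxy
    simpa using this.symm
  rw [h1, map_div₀, val_eq_pow_count A r hAr h0 t ht ht2 x hx0,
    val_eq_pow_count A r hAr h0 t ht ht2 y hy0, zpow_sub₀ hvt, zpow_natCast, zpow_natCast]

end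

end Fermat.Agent.S14
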