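import Mathlib

/-!
# S14 [Gal]: valuation-theoretic lemma "totally ramified ⇒ the Galois element is inertia"
-/

set_option autoImplicit false

namespace Fermat.Agent.S14

open Finset

section Val

variable {F : Type*} [Field F] {Γ₀ : Type*} [LinearOrderedCommGroupWithZero Γ₀]

/-- If the nonzero terms of a finite sum have pairwise distinct valuations, every term is bounded
by the valuation of the sum. -/
lemma val_le_of_sum_le (v : Valuation F Γ₀) {ι : Type*} (s : Finset ι) (f : ι → F)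
    (hdist : ∀ i ∈ s, ∀ j ∈ s, i ≠ j → f i ≠ 0 → v (f i) ≠ v (f j)) :
    ∀ i ∈ s, v (f i) ≤ v (∑ i ∈ s, f i) := by
  classical
  intro i hi
  obtain ⟨i0, hi0, hmax⟩ := Finset.exists_max_image s (fun i => v (f i)) ⟨i, hi⟩
  by_cases h0 : f i0 = 0
  · have := hmax i hi
    rw [h0, map_zero] at this
    exact this.trans zero_le
  have hlt : ∀ j ∈ s.erase i0, v (f j) < v (f i0) := by
    intro j hj
    have hj' := Finset.mem_erase.mp hj
    exact lt_of_le_of_ne (hmax j hj'.2) (fun h => hdist i0 hi0 j hj'.2 hj'.1.symm h0 h.symm)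
  have hne : v (f i0) ≠ 0 := (Valuation.ne_zero_iff v).mpr h0
  have h1 : v (∑ j ∈ s.erase i0, f j) < v (f i0) := Valuation.map_sum_lt v hne hlt
  have h2 : v (∑ j ∈ s, f j) = v (f i0) := by
    rw [← Finset.add_sum_erase s f hi0]
    exact Valuation.map_add_eq_of_lt_left v h1
  rw [h2]
  exact hmax i hi

lemma zpow_inj_of_lt_one {x : Γ₀} (h0 : x ≠ 0) (h1 : x < 1) {m n : ℤ} (h : x ^ m = x ^ n) :
    m = n :=
  (zpow_right_strictAnti₀ (zero_lt_iff.mpr h0) h1).injective h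

/-- **Totally ramified ⇒ inertia.**  `v` a valuation on `F`, `K₀` a subset ("subfield") all of whose
nonzero elements have valuation in `v(t)^ℤ`; `z` with `v(z)^p = v(t)^m`, `p ∤ m`; `h` a ring
endomorphism fixing `K₀` with `v (h z) ≤ v z`.  Then `h y ≡ y` for every `v`-integral
`y = ∑_{k<p} c_k z^k`. -/
theorem val_sub_lt_one_of_ramified (v : Valuation F Γ₀) (K₀ : Set F) (t : F) (ht0 : t ≠ 0)
    (ht1 : v t < 1) (hK : ∀ c ∈ K₀, c ≠ 0 → ∃ m : ℤ, v c = v t ^ m)
    {p : ℕ} (hp : p.Prime) (z : F) (m : ℤ) (hz : v z ^ p = v t ^ m) (hm : ¬ (p : ℤ) ∣ m)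
    (h : F →+* F) (hhK : ∀ c ∈ K₀, h c = c) (hhz : v (h z) ≤ v z)
    (c : ℕ → F) (hc : ∀ k, c k ∈ K₀) (hy1 : v (∑ k ∈ range p, c k * z ^ k) ≤ 1) :
    v (h (∑ k ∈ range p, c k * z ^ k) - ∑ k ∈ range p, c k * z ^ k) < 1 := by
  have hvt0 : v t ≠ 0 := (Valuation.ne_zero_iff v).mpr ht0
  have hpZ : Prime (p : ℤ) := Nat.prime_iff_prime_int.mp hp
  -- the valuation of a nonzero term
  have hterm : ∀ k, c k * z ^ k ≠ 0 → ∃ e : ℤ, v (c k * z ^ k) ^ p = v t ^ ((p : ℤ) * e + k * m) := by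
    intro k hk
    obtain ⟨e, he⟩ := hK (c k) (hc k) (left_ne_zero_of_mul hk)
    refine ⟨e, ?_⟩
    rw [map_mul, map_pow, mul_pow, he, ← pow_mul, mul_comm k p, pow_mul, hz, zpow_add₀ hvt0,
      ← zpow_natCast (v t ^ e) p, ← zpow_mul, ← zpow_natCast (v t ^ m) k, ← zpow_mul]
    congr 2 <;> ring
  have hdist : ∀ i ∈ range p, ∀ j ∈ range p, i ≠ j → c i * z ^ i ≠ 0 →
      v (c i * z ^ i) ≠ v (c j * z ^ j) := by
    intro i hi j hj hij h0 heq
    have hj0 : c j * z ^ j ≠ 0 := by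
      intro h
      rw [h, map_zero] at heq
      exact h0 ((Valuation.zero_iff v).mp heq)
    obtain ⟨e, he⟩ := hterm i h0
    obtain ⟨e', he'⟩ := hterm j hj0
    rw [heq, he'] at he
    have h1 := zpow_inj_of_lt_one hvt0 ht1 he
    have h2 : (p : ℤ) ∣ ((i : ℤ) - j) * m := ⟨e' - e, by linarith⟩
    have h3 : (p : ℤ) ∣ (i : ℤ) - j := (hpZ.dvd_or_dvd h2).resolve_right hm
    have hi' := Finset.mem_range.mp hi
    have hj' := Finset.mem_range.mp hj
    have h4 : (i : ℤ) - j = 0 := by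
      apply Int.eq_zero_of_abs_lt_dvd h3
      rw [abs_lt]
      constructor <;> omega
    apply hij
    omega
  have hle : ∀ k ∈ range p, v (c k * z ^ k) ≤ 1 := fun k hk =>
    (val_le_of_sum_le v (range p) (fun k => c k * z ^ k) hdist k hk).trans hy1
  have hlt : ∀ k ∈ range p, k ≠ 0 → v (c k * z ^ k) < 1 := by
    intro k hk hk0
    refine lt_of_le_of_ne (hle k hk) ?_
    intro h1
    have h0 : c k * z ^ k ≠ 0 := by
      intro h
      rw [h, map_zero] at h1
      exact zero_ne_one h1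
    obtain ⟨e, he⟩ := hterm k h0
    rw [h1, one_pow, ← zpow_zero (v t)] at he
    have h2 := zpow_inj_of_lt_one hvt0 ht1 he
    have h3 : (p : ℤ) ∣ (k : ℤ) * m := ⟨-e, by linarith⟩
    have h4 : (p : ℤ) ∣ (k : ℤ) := (hpZ.dvd_or_dvd h3).resolve_right hm
    have h5 : p ∣ k := by exact_mod_cast h4
    have := Nat.le_of_dvd (Nat.pos_of_ne_zero hk0) h5
    have := Finset.mem_range.mp hk
    omega
  rw [map_sum, ← Finset.sum_sub_distrib]
  refine Valuation.map_sum_lt v one_ne_zero ?_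
  intro k hk
  rw [map_mul, map_pow, hhK _ (hc k)]
  by_cases hk0 : k = 0
  · subst hk0
    simp
  · have h1 := hlt k hk hk0
    have h2 : v (c k * h z ^ k) < 1 := by
      refine lt_of_le_of_lt ?_ h1
      rw [map_mul, map_mul, map_pow, map_pow]
      gcongr
    exact lt_of_le_of_lt (Valuation.map_sub v _ _) (max_lt h2 h1)

end Val

end Fermat.Agent.S14
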