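import Mathlib
import Fermat.Prelude.Def_FLTPrelim_Ramification
import Fermat.Agent.Lib.Frobenius
import Fermat.Agent.S13.Mink
import Fermat.Agent.S14.GalVal

/-!
# S14 [Gal]: unramifiedness of `K(a)/K` forces `p ∣ m` whenever `v(z)^p = v(t)^m`
-/

set_option autoImplicit false

namespace Fermat.Agent.S14

open Finset Polynomial IntermediateField
open Fermat.Agent.Lib.Frobenius Fermat.Agent.S13

local notation "Qb" => AlgebraicClosure ℚ
local notation "Zb" => integralClosure ℤ (AlgebraicClosure ℚ)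
local notation "GQ" => (AlgebraicClosure ℚ ≃ₐ[ℚ] AlgebraicClosure ℚ)

/-- Elements of `K(z)` are `K`-combinations of `1, z, …, z^(p-1)` if `z` is a root of a monic
polynomial of degree `p`. -/
lemma exists_repr_adjoin (K : IntermediateField ℚ Qb) (z : Qb) (P : K[X]) (hP : P.Monic) {p : ℕ}
    (hp : 0 < p) (hdeg : P.natDegree = p) (hroot : aeval z P = 0)
    (y : Qb) (hy : y ∈ IntermediateField.adjoin K {z}) :
    ∃ c : ℕ → Qb, (∀ k, c k ∈ K) ∧ y = ∑ k ∈ range p, c k * z ^ k := by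
  have hz : IsAlgebraic K z := ⟨P, hP.ne_zero, hroot⟩
  have hy' : y ∈ (IntermediateField.adjoin K {z}).toSubalgebra := hy
  rw [IntermediateField.adjoin_simple_toSubalgebra_of_isAlgebraic hz,
    Algebra.adjoin_singleton_eq_range_aeval] at hy'
  obtain ⟨f, rfl⟩ := hy'
  have hne1 : P ≠ 1 := by
    intro h
    rw [h, natDegree_one] at hdeg
    omega
  have hlt : (f %ₘ P).natDegree < p := hdeg ▸ natDegree_modByMonic_lt f hP hne1
  refine ⟨fun k => (((f %ₘ P).coeff k : K) : Qb), fun k => ((f %ₘ P).coeff k).2, ?_⟩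
  have h1 : aeval z f = aeval z (f %ₘ P) := (aeval_modByMonic_eq_self_of_root hroot).symm
  change aeval z f = _
  rw [h1, aeval_eq_sum_range' hlt]
  refine Finset.sum_congr rfl fun k _ => ?_
  rw [Algebra.smul_def]
  rfl

/-- An automorphism fixing `ζ` fixes `ℚ(ζ)` pointwise. -/
lemma fix_adjoin (ζ : Qb) (h : GQ) (hh : h ζ = ζ) : ∀ c ∈ ℚ⟮ζ⟯, h c = c := by
  intro c hc
  have : ((h : Qb →ₐ[ℚ] Qb).comp (ℚ⟮ζ⟯).val) = (ℚ⟮ζ⟯).val := by
    apply IntermediateField.adjoin_algHom_ext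
    intro x hx
    rw [Set.mem_singleton_iff] at hx
    subst hx
    exact hh
  exact DFunLike.congr_fun this ⟨c, hc⟩

/-- `ℚ(ζ, a)` is stable under `G_ℚ` as soon as the conjugates of `ζ` and `a` lie in it. -/
lemma stable_adjoin (ζ a : Qb) (hgal : ∀ g : GQ, g ζ ∈ IntermediateField.adjoin ℚ {ζ, a} ∧
      g a ∈ IntermediateField.adjoin ℚ {ζ, a}) :
    ∀ (g : GQ), ∀ x ∈ IntermediateField.adjoin ℚ {ζ, a}, g x ∈ IntermediateField.adjoin ℚ {ζ, a} := by
  intro g x hx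
  have h1 : g x ∈ (IntermediateField.adjoin ℚ {ζ, a}).map (g : Qb →ₐ[ℚ] Qb) :=
    ⟨x, hx, rfl⟩
  rw [IntermediateField.adjoin_map] at h1
  refine (IntermediateField.adjoin_le_iff.mpr ?_) h1
  rintro _ ⟨y, hy, rfl⟩
  rcases hy with rfl | hy
  · exact (hgal g).1
  · rw [Set.mem_singleton_iff] at hy
    subst hy
    exact (hgal g).2

lemma mem_adjoin_adjoin (ζ a x : Qb) (hx : x ∈ IntermediateField.adjoin ℚ {ζ, a}) :
    x ∈ IntermediateField.adjoin ℚ⟮ζ⟯ {a} := by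
  have h := IntermediateField.adjoin_adjoin_left ℚ ({ζ} : Set Qb) ({a} : Set Qb)
  have h2 : x ∈ IntermediateField.adjoin ℚ (({ζ} : Set Qb) ∪ {a}) := by
    rw [Set.singleton_union]
    exact hx
  rw [← h] at h2
  exact h2

/-- **Unramified ⇒ the value group does not grow.** -/
theorem dvd_of_unramified {p : ℕ} (hp : p.Prime) (ζ a : Qb)
    (hgal : ∀ g : GQ, g ζ ∈ IntermediateField.adjoin ℚ {ζ, a} ∧
      g a ∈ IntermediateField.adjoin ℚ {ζ, a})
    (A : ValuationSubring Qb) (ℓ : ℕ) (hℓ : ℓ.Prime) (hA : A.LiesOverPrime ℓ)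
    (hin : ∀ σ ∈ A.inertiaSubgroupIn ℚ, σ ζ = ζ → σ a = a)
    (h : GQ) (hhζ : h ζ = ζ) (hha : h a ≠ a)
    (t : Qb) (ht0 : t ≠ 0) (ht1 : A.valuation t < 1)
    (hK : ∀ c ∈ ℚ⟮ζ⟯, c ≠ 0 → ∃ m : ℤ, A.valuation c = A.valuation t ^ m)
    (z : Qb) (P : (ℚ⟮ζ⟯)[X]) (hP : P.Monic) (hdeg : P.natDegree = p) (hroot : aeval z P = 0)
    (haz : a ∈ IntermediateField.adjoin ℚ⟮ζ⟯ {z})
    (m : ℤ) (hz : A.valuation z ^ p = A.valuation t ^ m)
    (hhz : A.valuation (h z) ≤ A.valuation z) : (p : ℤ) ∣ m := by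
  by_contra hm
  set F : IntermediateField ℚ Qb := IntermediateField.adjoin ℚ {ζ, a} with hF
  have hstab := stable_adjoin ζ a hgal
  have hle : IntermediateField.adjoin ℚ⟮ζ⟯ {a} ≤ IntermediateField.adjoin ℚ⟮ζ⟯ {z} :=
    IntermediateField.adjoin_simple_le_iff.mpr haz
  obtain ⟨τ, hτF, hτ⟩ := lift_inertia F hstab (center A) h (by
    intro b hb
    rw [mem_center_iff]
    obtain ⟨c, hc, hbc⟩ := exists_repr_adjoin ℚ⟮ζ⟯ z P hP hp.pos hdeg hroot (b : Qb)
      (hle (mem_adjoin_adjoin ζ a _ hb))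
    have h1 := val_sub_lt_one_of_ramified A.valuation (ℚ⟮ζ⟯ : Set Qb) t ht0 ht1 hK hp z m hz hm
      (h : Qb →+* Qb) (fix_adjoin ζ h hhζ) hhz c hc (hbc ▸ valuation_le_one A b)
    rw [← hbc] at h1
    exact h1)
  have hτI : τ ∈ A.inertiaSubgroupIn ℚ := mem_inertiaSubgroupIn A ℓ hℓ hA τ hτ
  have hζF : ζ ∈ F := IntermediateField.subset_adjoin _ _ (by simp)
  have haF : a ∈ F := IntermediateField.subset_adjoin _ _ (by simp)
  have h1 : τ a = a := hin τ hτI ((hτF ζ hζF).trans hhζ)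
  exact hha ((hτF a haF).symm.trans h1)

end Fermat.Agent.S14
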