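import Mathlib
import Fermat.Prelude.Def_FLTPrelim_Ramification
import Fermat.Agent.Lib.Frobenius
import Fermat.Agent.Lib.Kummer.CaseII
import Fermat.Agent.S14.GalUnr
import Fermat.Agent.S14.GalPrime

/-!
# S14 [Gal] (c), (d): the Kummer generator `α = a^p` is a `p`-th power of an ideal, and is locally
a `p`-th power modulo `(ζ - 1)^3`.
-/

set_option autoImplicit false
set_option linter.style.haveILetI false
set_option linter.unusedSectionVars false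

namespace Fermat.Agent.S14

open Finset Polynomial IntermediateField NumberField UniqueFactorizationMonoid
open Fermat.Agent.Lib.Frobenius

local notation "Qb" => AlgebraicClosure ℚ
local notation "Zb" => integralClosure ℤ (AlgebraicClosure ℚ)
local notation "GQ" => (AlgebraicClosure ℚ ≃ₐ[ℚ] AlgebraicClosure ℚ)

variable {p : ℕ} [hpF : Fact p.Prime]

/-- `ℚ(ζ)` is a number field. -/
theorem numberField_adjoin_zeta (ζ : Qb) : NumberField ℚ⟮ζ⟯ :=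
  { to_charZero := inferInstance
    to_finiteDimensional :=
      IntermediateField.adjoin.finiteDimensional (Algebra.IsIntegral.isIntegral ζ) }

/-- `ℚ(ζ)` is the `p`-th cyclotomic field. -/
theorem isCyclotomicExtension_adjoin_zeta {ζ : Qb} (hζ : IsPrimitiveRoot ζ p) :
    IsCyclotomicExtension {p} ℚ ℚ⟮ζ⟯ :=
  hζ.intermediateField_adjoin_isCyclotomicExtension ℚ

/-- `ζ` as an element of `ℚ(ζ)`. -/
noncomputable def zetaK (ζ : Qb) : ℚ⟮ζ⟯ := AdjoinSimple.gen ℚ ζ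

@[simp] lemma zetaK_coe (ζ : Qb) : ((zetaK ζ : ℚ⟮ζ⟯) : Qb) = ζ := rfl

theorem zetaK_isPrimitiveRoot {ζ : Qb} (hζ : IsPrimitiveRoot ζ p) :
    IsPrimitiveRoot (zetaK ζ) p :=
  IsPrimitiveRoot.of_map_of_injective (f := algebraMap ℚ⟮ζ⟯ Qb) hζ (algebraMap ℚ⟮ζ⟯ Qb).injective

/-- stability of `ℚ(ζ,a)` from the eigen-relation -/
lemma hgal_of_eigen {ζ a : Qb} (hζ : IsPrimitiveRoot ζ p)
    (hgal : ∀ (s : GQ) (k : ℕ), s ζ = ζ ^ k → ∃ γ ∈ ℚ⟮ζ⟯, s a = a ^ (k ^ 2) * γ) :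
    ∀ g : GQ, g ζ ∈ IntermediateField.adjoin ℚ {ζ, a} ∧
      g a ∈ IntermediateField.adjoin ℚ {ζ, a} := by
  intro g
  have hζF : ζ ∈ IntermediateField.adjoin ℚ {ζ, a} :=
    IntermediateField.subset_adjoin _ _ (by simp)
  have haF : a ∈ IntermediateField.adjoin ℚ {ζ, a} :=
    IntermediateField.subset_adjoin _ _ (by simp)
  have hle : ℚ⟮ζ⟯ ≤ IntermediateField.adjoin ℚ {ζ, a} :=
    IntermediateField.adjoin_simple_le_iff.mpr hζF
  have h1 : (g ζ) ^ p = 1 := by rw [← map_pow, hζ.pow_eq_one, map_one]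
  obtain ⟨k, -, hk⟩ := hζ.eq_pow_of_pow_eq_one h1
  obtain ⟨γ, hγ, hga⟩ := hgal g k hk.symm
  refine ⟨hk ▸ pow_mem hζF k, ?_⟩
  rw [hga]
  exact mul_mem (pow_mem haF _) (hle hγ)

lemma val_pow_le_iff {Γ₀ : Type*} [LinearOrderedCommGroupWithZero Γ₀] {x y : Γ₀} {n : ℕ}
    (hn : n ≠ 0) : x ^ n ≤ y ^ n ↔ x ≤ y :=
  pow_le_pow_iff_left₀ zero_le zero_le hn

/-- the combined inertia hypothesis -/
lemma hin_of {ζ a : Qb}
    (hunr : ∀ ℓ : ℕ, ℓ.Prime → ℓ ≠ p → ∀ A : ValuationSubring Qb, A.LiesOverPrime ℓ →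
      ∀ σ ∈ A.inertiaSubgroupIn ℚ, σ ζ = ζ ∧ σ a = a)
    (hspl : ∀ A : ValuationSubring Qb, A.LiesOverPrime p →
      ∀ σ ∈ A.decompositionSubgroup ℚ, σ ζ = ζ → σ a = a)
    (ℓ : ℕ) (hℓ : ℓ.Prime) (A : ValuationSubring Qb) (hA : A.LiesOverPrime ℓ) :
    ∀ σ ∈ A.inertiaSubgroupIn ℚ, σ ζ = ζ → σ a = a := by
  intro σ hσ hσζ
  by_cases hℓp : ℓ = p
  · subst hℓp
    obtain ⟨⟨τ, hτ⟩, -, rfl⟩ := hσ
    exact hspl A hA τ hτ hσζ
  · exact (hunr ℓ hℓ hℓp A hA σ hσ).2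

/-- **(c)**: the ideal `(α)` is a `p`-th power. -/
theorem gal_ideal_pow (ζ a : Qb) (hζ : IsPrimitiveRoot ζ p) (ha0 : a ≠ 0)
    (hmove : ∃ h : GQ, h ζ = ζ ∧ h a = ζ * a)
    (hgal : ∀ (s : GQ) (k : ℕ), s ζ = ζ ^ k → ∃ γ ∈ ℚ⟮ζ⟯, s a = a ^ (k ^ 2) * γ)
    (hunr : ∀ ℓ : ℕ, ℓ.Prime → ℓ ≠ p → ∀ A : ValuationSubring Qb, A.LiesOverPrime ℓ →
      ∀ σ ∈ A.inertiaSubgroupIn ℚ, σ ζ = ζ ∧ σ a = a)
    (hspl : ∀ A : ValuationSubring Qb, A.LiesOverPrime p →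
      ∀ σ ∈ A.decompositionSubgroup ℚ, σ ζ = ζ → σ a = a)
    (α : 𝓞 ℚ⟮ζ⟯) (hα : ((α : ℚ⟮ζ⟯) : Qb) = a ^ p) :
    ∃ I : Ideal (𝓞 ℚ⟮ζ⟯), Ideal.span {α} = I ^ p := by
  haveI := numberField_adjoin_zeta ζ
  have hp : p.Prime := hpF.out
  obtain ⟨h, hhζ, hha⟩ := hmove
  have hζ1 : ζ ≠ 1 := hζ.ne_one hp.one_lt
  have hha' : h a ≠ a := by
    rw [hha]
    intro h1
    exact hζ1 (mul_right_cancel₀ ha0 (h1.trans (one_mul a).symm))
  have hα0 : α ≠ 0 := by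
    rintro rfl
    have : (0 : Qb) = a ^ p := by simpa using hα
    exact pow_ne_zero p ha0 this.symm
  have hspan0 : Ideal.span {α} ≠ ⊥ := by simpa using hα0
  apply exists_eq_pow_of_dvd_count _ hspan0
  intro r hr
  have hrprime : Prime r := prime_of_normalized_factor r hr
  have hr0 : r ≠ ⊥ := hrprime.ne_zero
  haveI hrP : r.IsPrime := Ideal.isPrime_of_prime hrprime
  obtain ⟨A, ℓ, hℓ, hA, hAr⟩ := exists_valuationSubring_of_prime ℚ⟮ζ⟯ r hr0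
  obtain ⟨t, ht, ht2⟩ := Ideal.exists_mem_pow_notMem_pow_succ r hr0 hrP.ne_top 1
  rw [pow_one] at ht
  have ht0 : ((t : ℚ⟮ζ⟯) : Qb) ≠ 0 := by
    intro h0
    apply ht2
    have : t = 0 := RingOfIntegers.coe_injective (Subtype.ext h0)
    rw [this]
    exact Ideal.zero_mem _
  have hfix := fix_adjoin ζ h hhζ
  have key := dvd_of_unramified hp ζ a (hgal_of_eigen hζ hgal) A ℓ hℓ hA
    (hin_of hunr hspl ℓ hℓ A hA) h hhζ hha' ((t : ℚ⟮ζ⟯) : Qb) ht0 ((hAr t).mpr ht)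
    (val_mem_zpowers A r hAr hr0 t ht ht2) a (X ^ p - C (α : ℚ⟮ζ⟯))
    (monic_X_pow_sub_C _ hp.ne_zero) (natDegree_X_pow_sub_C) (by
      simp only [map_sub, map_pow, aeval_X, aeval_C]
      rw [sub_eq_zero]
      exact hα.symm)
    (IntermediateField.mem_adjoin_simple_self _ a)
    (Multiset.count r (normalizedFactors (Ideal.span {α})) : ℤ) (by
      rw [← map_pow, ← hα, val_eq_pow_count A r hAr hr0 t ht ht2 α hα0, zpow_natCast]) (by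
      rw [← val_pow_le_iff hp.ne_zero, ← map_pow, ← map_pow, ← map_pow, ← hα,
        hfix _ (α : ℚ⟮ζ⟯).2])
  exact_mod_cast key

end Fermat.Agent.S14
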