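import Mathlib
import Fermat.Agent.S14.GalLoc

/-!
# S14 [Gal] (d): `α` is locally a `p`-th power modulo `(ζ - 1)^3`.
-/

set_option autoImplicit false
set_option linter.style.haveILetI false
set_option linter.unusedSectionVars false

namespace Fermat.Agent.S14

open Finset Polynomial IntermediateField NumberField UniqueFactorizationMonoid
open Fermat.Agent.Lib.Frobenius

local notation "Qb" => AlgebraicClosure ℚ
local notation "Zb" => integralClosure ℤ (AlgebraicClosure ℚ)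
local notation "GQ" => (AlgebraicClosure ℚ ≃ₐ[ℚ] AlgebraicClosure ℚ)

variable {p : ℕ} [hpF : Fact p.Prime]

lemma int_pow_sub_self_dvd (c : ℤ) : (p : ℤ) ∣ c ^ p - c := by
  rw [← ZMod.intCast_zmod_eq_zero_iff_dvd]
  push_cast
  rw [ZMod.pow_card, sub_self]

/-- **(d)**: `α` is a `p`-th power times something `≡ 1` modulo `(ζ-1)^3`. -/
theorem gal_local (h3 : 3 ≤ p) (ζ a : Qb) (hζ : IsPrimitiveRoot ζ p) (ha0 : a ≠ 0)
    (hmove : ∃ h : GQ, h ζ = ζ ∧ h a = ζ * a)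
    (hgal : ∀ (s : GQ) (k : ℕ), s ζ = ζ ^ k → ∃ γ ∈ ℚ⟮ζ⟯, s a = a ^ (k ^ 2) * γ)
    (hspl : ∀ A : ValuationSubring Qb, A.LiesOverPrime p →
      ∀ σ ∈ A.decompositionSubgroup ℚ, σ ζ = ζ → σ a = a)
    (ζK : ℚ⟮ζ⟯) (hζK : IsPrimitiveRoot ζK p) (hcoe : (ζK : Qb) = ζ)
    (α : 𝓞 ℚ⟮ζ⟯) (hα : ((α : ℚ⟮ζ⟯) : Qb) = a ^ p) :
    ∃ (g : ℚ⟮ζ⟯) (x y : 𝓞 ℚ⟮ζ⟯), ¬ (hζK.toInteger - 1) ∣ y ∧ (hζK.toInteger - 1) ^ 3 ∣ x - y ∧
      (α : ℚ⟮ζ⟯) * (y : ℚ⟮ζ⟯) = g ^ p * (x : ℚ⟮ζ⟯) := by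
  haveI := numberField_adjoin_zeta ζ
  haveI := isCyclotomicExtension_adjoin_zeta hζ
  have hp : p.Prime := hpF.out
  obtain ⟨h, hhζ, hha⟩ := hmove
  have hζ1 : ζ ≠ 1 := hζ.ne_one hp.one_lt
  have hha' : h a ≠ a := by
    rw [hha]
    intro h1
    exact hζ1 (mul_right_cancel₀ ha0 (h1.trans (one_mul a).symm))
  have hα0 : α ≠ 0 := by
    rintro rfl
    have : (0 : Qb) = a ^ p := by simpa using hα
    exact pow_ne_zero p ha0 this.symm
  let ι : 𝓞 ℚ⟮ζ⟯ →+* Qb := (algebraMap ℚ⟮ζ⟯ Qb).comp (algebraMap (𝓞 ℚ⟮ζ⟯) ℚ⟮ζ⟯)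
  have hι : ∀ w : 𝓞 ℚ⟮ζ⟯, ((w : ℚ⟮ζ⟯) : Qb) = ι w := fun _ => rfl
  have hιK : ∀ w : 𝓞 ℚ⟮ζ⟯, ι w ∈ ℚ⟮ζ⟯ := fun w => (w : ℚ⟮ζ⟯).2
  have hιinj : Function.Injective ι := fun x y hxy =>
    RingOfIntegers.coe_injective ((algebraMap ℚ⟮ζ⟯ Qb).injective hxy)
  set π : 𝓞 ℚ⟮ζ⟯ := hζK.toInteger - 1 with hπdef
  have hπ : Prime π := hζK.zeta_sub_one_prime'
  have hιζ : ι hζK.toInteger = ζ := hcoe
  have hπQ : ι π = ζ - 1 := by rw [hπdef, map_sub, map_one, hιζ]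
  set r : Ideal (𝓞 ℚ⟮ζ⟯) := Ideal.span {π} with hrdef
  haveI hrP : r.IsPrime := (Ideal.span_singleton_prime hπ.ne_zero).mpr hπ
  have hr0 : r ≠ ⊥ := by simpa [hrdef] using hπ.ne_zero
  obtain ⟨A, -, -, -, hAr⟩ := exists_valuationSubring_of_prime ℚ⟮ζ⟯ r hr0
  have hAr' : ∀ w : 𝓞 ℚ⟮ζ⟯, A.valuation (ι w) < 1 ↔ π ∣ w :=
    fun w => (hAr w).trans Ideal.mem_span_singleton
  have hle1 : ∀ w : 𝓞 ℚ⟮ζ⟯, A.valuation (ι w) ≤ 1 := fun w => val_int_le_one _ A w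
  have heq1 : ∀ w : 𝓞 ℚ⟮ζ⟯, ¬ π ∣ w → A.valuation (ι w) = 1 := fun w hw =>
    le_antisymm (hle1 w) (not_lt.mp fun h => hw ((hAr' w).mp h))
  have hA : A.LiesOverPrime p := by
    apply (ValuationSubring.mem_nonunits_iff A).mpr
    have := (hAr' (p : 𝓞 ℚ⟮ζ⟯)).mpr hζK.toInteger_sub_one_dvd_prime'
    simpa using this
  have hπr : π ∈ r := Ideal.mem_span_singleton_self π
  have hπr2 : π ∉ r ^ 2 := by
    rw [hrdef, Ideal.span_singleton_pow, Ideal.mem_span_singleton]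
    intro hd
    have h1 : π * π ∣ π * 1 := by simpa [sq] using hd
    exact hπ.not_isUnit (isUnit_of_dvd_one ((mul_dvd_mul_iff_left hπ.ne_zero).mp h1))
  have hK := val_mem_zpowers A r hAr hr0 π hπr hπr2
  have hπQ0 : ι π ≠ 0 := fun h0 => hπ.ne_zero (hιinj (h0.trans (map_zero ι).symm))
  have hvπ1 : A.valuation (ι π) < 1 := (hAr' π).mpr dvd_rfl
  have hvπ0 : A.valuation (ι π) ≠ 0 := (Valuation.ne_zero_iff _).mpr hπQ0
  have hfix := fix_adjoin ζ h hhζ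
  have hgal' := hgal_of_eigen hζ hgal
  have hin : ∀ σ ∈ A.inertiaSubgroupIn ℚ, σ ζ = ζ → σ a = a := by
    rintro σ ⟨⟨τ, hτ⟩, -, rfl⟩ hσζ
    exact hspl A hA τ hτ hσζ
  -- Step 1: `α = π ^ n * x0`
  obtain ⟨n, x0, hx0, hαeq⟩ := WfDvdMonoid.max_power_factor hα0 hπ.irreducible
  have hvα : A.valuation (ι α) = A.valuation (ι π) ^ n := by
    rw [hαeq, map_mul, map_mul, map_pow, map_pow, heq1 x0 hx0, mul_one]
  have key1 := dvd_of_unramified hp ζ a hgal' A p hp hA hin h hhζ hha' (ι π) hπQ0 hvπ1 hK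
    a (X ^ p - C (α : ℚ⟮ζ⟯)) (monic_X_pow_sub_C _ hp.ne_zero) (natDegree_X_pow_sub_C) (by
      simp only [map_sub, map_pow, aeval_X, aeval_C]
      rw [sub_eq_zero]
      exact hα.symm)
    (IntermediateField.mem_adjoin_simple_self _ a) (n : ℤ) (by
      rw [← map_pow, ← hα, hι, hvα, zpow_natCast]) (by
      rw [← val_pow_le_iff hp.ne_zero, ← map_pow, ← map_pow, ← map_pow, ← hα,
        hfix _ (α : ℚ⟮ζ⟯).2])
  obtain ⟨k, hk⟩ : p ∣ n := by exact_mod_cast key1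
  -- Step 2: `a2 = a / π ^ k`
  set a2 : Qb := a / ι π ^ k with ha2def
  have ha2 : a2 ^ p = ι x0 := by
    rw [ha2def, div_pow, ← hα, hι, hαeq, map_mul, map_pow, hk, ← pow_mul, mul_comm k p]
    field_simp
  have hva2 : A.valuation a2 ≤ 1 := by
    rw [← val_pow_le_iff hp.ne_zero, ← map_pow, ha2, one_pow]
    exact hle1 x0
  have haa2 : a = ι π ^ k * a2 := by
    rw [ha2def]
    field_simp
  -- Step 3: an integer congruent to `x0`
  obtain ⟨c0, hc0⟩ := Fermat.Agent.Lib.Kummer.exists_int_sub_dvd hζK x0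
  have hπp : π ∣ (p : 𝓞 ℚ⟮ζ⟯) := hζK.toInteger_sub_one_dvd_prime'
  have hπc : π ∣ ((c0 : 𝓞 ℚ⟮ζ⟯) ^ p - c0) := by
    obtain ⟨d, hd⟩ := int_pow_sub_self_dvd (p := p) c0
    have : ((c0 : 𝓞 ℚ⟮ζ⟯) ^ p - c0) = (p : 𝓞 ℚ⟮ζ⟯) * (d : 𝓞 ℚ⟮ζ⟯) := by
      have := congrArg (Int.cast : ℤ → 𝓞 ℚ⟮ζ⟯) hd
      push_cast at this
      exact this
    rw [this]
    exact Dvd.dvd.mul_right hπp _
  set w : 𝓞 ℚ⟮ζ⟯ := x0 - (c0 : 𝓞 ℚ⟮ζ⟯) ^ p with hwdef
  have hπw : π ∣ w := by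
    have : w = (x0 - c0) - ((c0 : 𝓞 ℚ⟮ζ⟯) ^ p - c0) := by rw [hwdef]; ring
    rw [this]
    exact dvd_sub hc0 hπc
  have hιc : ι (c0 : 𝓞 ℚ⟮ζ⟯) = (c0 : Qb) := map_intCast ι c0
  have hvc : A.valuation (c0 : Qb) ≤ 1 := hιc ▸ hle1 _
  -- roots of unity are `≡ 1`
  have hroot : ∀ μ : Qb, μ ^ p = 1 → A.valuation (μ - 1) ≤ A.valuation (ι π) := by
    intro μ hμ
    obtain ⟨i, -, rfl⟩ := hζ.eq_pow_of_pow_eq_one hμ
    have h1 : ζ ^ i - 1 = ι (∑ j ∈ range i, hζK.toInteger ^ j) * ι π := by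
      rw [hπQ, map_sum]
      simp_rw [map_pow, hιζ]
      exact (geom_sum_mul ζ i).symm
    rw [h1, map_mul]
    exact mul_le_of_le_one_left' (hle1 _)
  have hclaim : π ^ 3 ∣ w := by
    by_cases hw0 : w = 0
    · rw [hw0]; exact dvd_zero _
    obtain ⟨m, u, hu, hweq⟩ := WfDvdMonoid.max_power_factor hw0 hπ.irreducible
    by_contra hnot
    have hm3 : m < 3 := by
      by_contra hcon
      push Not at hcon
      exact hnot (hweq ▸ Dvd.dvd.mul_right (pow_dvd_pow π hcon) u)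
    have hm0 : m ≠ 0 := by
      rintro rfl
      rw [pow_zero, one_mul] at hweq
      exact hu (hweq ▸ hπw)
    have hvw : A.valuation (ι w) = A.valuation (ι π) ^ m := by
      rw [hweq, map_mul, map_mul, map_pow, map_pow, heq1 u hu, mul_one]
    set z : Qb := a2 - c0 with hzdef
    have hprod : ι w = ∏ μ ∈ nthRootsFinset p (1 : Qb), (a2 - μ * c0) := by
      rw [← hζ.pow_sub_pow_eq_prod_sub_mul a2 (c0 : Qb) hp.pos, ha2, hwdef, map_sub, map_pow, hιc]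
    have hμz : ∀ μ ∈ nthRootsFinset p (1 : Qb),
        a2 - μ * c0 = z + (-(μ - 1) * c0) ∧ A.valuation (-(μ - 1) * c0) ≤ A.valuation (ι π) := by
      intro μ hμ
      refine ⟨by rw [hzdef]; ring, ?_⟩
      rw [map_mul, Valuation.map_neg]
      exact (mul_le_of_le_one_right' hvc).trans
        (hroot μ ((mem_nthRootsFinset hp.pos 1).mp hμ))
    have hzgt : A.valuation (ι π) < A.valuation z := by
      by_contra hcon
      push Not at hcon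
      have h1 : A.valuation (ι w) ≤ A.valuation (ι π) ^ p := by
        rw [hprod, map_prod]
        have h0 := Finset.prod_le_pow_card (nthRootsFinset p (1 : Qb))
          (fun μ => A.valuation (a2 - μ * c0)) (A.valuation (ι π)) (by
            intro μ hμ
            rw [(hμz μ hμ).1]
            exact (Valuation.map_add _ _ _).trans (max_le hcon (hμz μ hμ).2))
        rwa [hζ.card_nthRootsFinset] at h0
      rw [hvw] at h1
      have h2 : A.valuation (ι π) ^ p < A.valuation (ι π) ^ m :=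
        pow_lt_pow_right_of_lt_one₀ (zero_lt_iff.mpr hvπ0) hvπ1 (by omega)
      exact absurd h1 (not_le.mpr h2)
    have hzp : A.valuation z ^ p = A.valuation (ι π) ^ (m : ℤ) := by
      rw [zpow_natCast, ← hvw, hprod, map_prod]
      have h0 : ∏ μ ∈ nthRootsFinset p (1 : Qb), A.valuation (a2 - μ * c0) =
          ∏ _μ ∈ nthRootsFinset p (1 : Qb), A.valuation z := by
        refine Finset.prod_congr rfl fun μ hμ => ?_
        rw [(hμz μ hμ).1]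
        exact Valuation.map_add_eq_of_lt_left _ (lt_of_le_of_lt (hμz μ hμ).2 hzgt)
      rw [h0, Finset.prod_const, hζ.card_nthRootsFinset]
    have hha2 : h a2 = ζ * a2 := by
      rw [ha2def, map_div₀, map_pow, hfix _ (hιK π), hha, mul_div_assoc]
    have hhz : A.valuation (h z) ≤ A.valuation z := by
      have h1 : h z = z + (ζ - 1) * a2 := by
        rw [hzdef, map_sub, hha2, map_intCast]
        ring
      rw [h1]
      refine (Valuation.map_add _ _ _).trans (max_le le_rfl ?_)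
      rw [map_mul]
      exact ((mul_le_of_le_one_right' hva2).trans (hroot ζ hζ.pow_eq_one)).trans hzgt.le
    have hPmonic : ((X + C ((c0 : ℤ) : ℚ⟮ζ⟯)) ^ p - C (x0 : ℚ⟮ζ⟯)).Monic := by
      apply Monic.sub_of_left ((monic_X_add_C _).pow p)
      rw [degree_pow, degree_X_add_C]
      refine lt_of_le_of_lt degree_C_le ?_
      simpa using hp.pos
    have hPdeg : ((X + C ((c0 : ℤ) : ℚ⟮ζ⟯)) ^ p - C (x0 : ℚ⟮ζ⟯)).natDegree = p := by
      rw [natDegree_sub_C, natDegree_pow, natDegree_X_add_C, mul_one]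
    have key2 := dvd_of_unramified hp ζ a hgal' A p hp hA hin h hhζ hha' (ι π) hπQ0 hvπ1 hK
      z ((X + C ((c0 : ℤ) : ℚ⟮ζ⟯)) ^ p - C (x0 : ℚ⟮ζ⟯)) hPmonic hPdeg (by
        simp only [map_sub, map_pow, map_add, aeval_X, aeval_C]
        rw [sub_eq_zero, map_intCast, hzdef, sub_add_cancel, ha2]
        rfl)
      (by
        rw [haa2]
        refine mul_mem (pow_mem ?_ k) ?_
        · exact (IntermediateField.adjoin ℚ⟮ζ⟯ {z}).algebraMap_mem (π : ℚ⟮ζ⟯)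
        · have h1 : a2 = z + algebraMap ℚ⟮ζ⟯ Qb ((c0 : ℤ) : ℚ⟮ζ⟯) := by
            rw [map_intCast, hzdef, sub_add_cancel]
          rw [h1]
          exact add_mem (IntermediateField.mem_adjoin_simple_self _ z)
            ((IntermediateField.adjoin ℚ⟮ζ⟯ {z}).algebraMap_mem _))
      (m : ℤ) hzp hhz
    have h5 : p ∣ m := by exact_mod_cast key2
    have := Nat.le_of_dvd (Nat.pos_of_ne_zero hm0) h5
    omega
  refine ⟨((π ^ k * (c0 : 𝓞 ℚ⟮ζ⟯) : 𝓞 ℚ⟮ζ⟯) : ℚ⟮ζ⟯), x0, (c0 : 𝓞 ℚ⟮ζ⟯) ^ p, ?_, hclaim, ?_⟩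
  · intro hd
    have h1 : π ∣ (c0 : 𝓞 ℚ⟮ζ⟯) := hπ.dvd_of_dvd_pow hd
    have h2 : π ∣ x0 := by
      have := dvd_add hc0 h1
      simpa using this
    exact hx0 h2
  · have h1 : α * (c0 : 𝓞 ℚ⟮ζ⟯) ^ p = (π ^ k * (c0 : 𝓞 ℚ⟮ζ⟯)) ^ p * x0 := by
      rw [hαeq, hk]
      ring
    have h2 := congrArg (fun w : 𝓞 ℚ⟮ζ⟯ => (w : ℚ⟮ζ⟯)) h1
    simpa using h2

end Fermat.Agent.S14
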