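import Mathlib

/-!
# S14: the case `p = 3` of `[Arith]`
-/

set_option autoImplicit false
set_option linter.unusedSectionVars false

open NumberField

namespace Fermat.Agent.S14

/-- existence of `σ_a`. -/
lemma exists_aut_pow {n : ℕ} [NeZero n] {K : Type*} [Field K] [NumberField K]
    [IsCyclotomicExtension {n} ℚ K] {ζ : K} (hζ : IsPrimitiveRoot ζ n) (a : (ZMod n)ˣ) :
    ∃ σ : K ≃ₐ[ℚ] K, σ ζ = ζ ^ (a : ZMod n).val := by
  refine ⟨(IsCyclotomicExtension.Rat.galEquivZMod n K).symm a, ?_⟩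
  rw [IsCyclotomicExtension.Rat.galEquivZMod_apply_of_pow_eq n K _ hζ.pow_eq_one,
    MulEquiv.apply_symm_apply]

variable {K : Type*} [Field K] [NumberField K] [IsCyclotomicExtension {3} ℚ K]
variable {ζ : K} (hζ : IsPrimitiveRoot ζ 3)

include hζ in
/-- **`p = 3`.**  An `ω²`-eigen (= fixed modulo cubes by complex conjugation) element of `𝓞 K`
generating the cube of an ideal is a cube in `K`. -/
theorem three_case (α : 𝓞 K) (hα : α ≠ 0) (I : Ideal (𝓞 K)) (hI : Ideal.span {α} = I ^ 3)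
    (hb : ∀ (σ : K ≃ₐ[ℚ] K) (b : ℕ), σ ζ = ζ ^ b →
      ∃ γ : K, σ (α : K) = (α : K) ^ (b ^ 2) * γ ^ 3) :
    ∃ z : K, z ^ 3 = (α : K) := by
  have := IsCyclotomicExtension.Rat.three_pid K
  obtain ⟨β, rfl⟩ := (IsPrincipalIdealRing.principal I).principal
  rw [Ideal.submodule_span_eq, Ideal.span_singleton_pow, Ideal.span_singleton_eq_span_singleton]
    at hI
  obtain ⟨u, hu⟩ := hI.symm
  -- `β ^ 3 * u = α`
  have hβ0 : β ≠ 0 := by
    rintro rfl
    apply hα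
    rw [← hu]; simp
  have hβK : (β : K) ≠ 0 := by simpa using hβ0
  obtain ⟨σ, hσ⟩ := exists_aut_pow hζ (-1 : (ZMod 3)ˣ)
  have h2 : ((-1 : (ZMod 3)ˣ) : ZMod 3).val = 2 := by decide
  rw [h2] at hσ
  obtain ⟨γ, hγ⟩ := hb σ 2 hσ
  have hζ3 : ζ ^ 3 = 1 := hζ.pow_eq_one
  have hζ0 : ζ ≠ 0 := hζ.ne_zero (by norm_num)
  have hαK : (α : K) = (β : K) ^ 3 * ((u : 𝓞 K) : K) := by
    rw [← hu]; simp
  -- `σ u * u = 1` and `u ^ 6 = 1`
  have hu6 : σ ((u : 𝓞 K) : K) * ((u : 𝓞 K) : K) = 1 ∧ ((u : 𝓞 K) : K) ^ 6 = 1 := by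
    have hmem := IsCyclotomicExtension.Rat.Three.Units.mem hζ u
    have hηK : (((IsPrimitiveRoot.isUnit (hζ.toInteger_isPrimitiveRoot) (by decide)).unit :
        (𝓞 K)ˣ) : 𝓞 K) = hζ.toInteger := rfl
    have hint : ((hζ.toInteger : 𝓞 K) : K) = ζ := rfl
    simp only [List.mem_cons, List.mem_nil_iff, or_false] at hmem
    rcases hmem with h | h | h | h | h | h <;> subst h
    · simp
    · simp only [Units.val_neg, Units.val_one, map_neg, map_one]
      constructor <;> norm_num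
    · simp only [hηK, hint, hσ]
      constructor
      · rw [← pow_succ, hζ3]
      · calc ζ ^ 6 = (ζ ^ 3) ^ 2 := by ring
          _ = 1 := by rw [hζ3, one_pow]
    · simp only [Units.val_neg, hηK, map_neg, hint, hσ]
      constructor
      · calc -ζ ^ 2 * -ζ = ζ ^ 3 := by ring
          _ = 1 := hζ3
      · calc (-ζ) ^ 6 = (ζ ^ 3) ^ 2 := by ring
          _ = 1 := by rw [hζ3, one_pow]
    · simp only [Units.val_pow_eq_pow_val, hηK, map_pow, hint, hσ]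
      constructor
      · calc (ζ ^ 2) ^ 2 * ζ ^ 2 = (ζ ^ 3) ^ 2 := by ring
          _ = 1 := by rw [hζ3, one_pow]
      · calc (ζ ^ 2) ^ 6 = (ζ ^ 3) ^ 4 := by ring
          _ = 1 := by rw [hζ3, one_pow]
    · simp only [Units.val_neg, Units.val_pow_eq_pow_val, hηK, map_neg, map_pow, hint, hσ]
      constructor
      · calc -(ζ ^ 2) ^ 2 * -ζ ^ 2 = (ζ ^ 3) ^ 2 := by ring
          _ = 1 := by rw [hζ3, one_pow]
      · calc (-ζ ^ 2) ^ 6 = (ζ ^ 3) ^ 4 := by ring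
          _ = 1 := by rw [hζ3, one_pow]
  obtain ⟨hu1, hu6⟩ := hu6
  set U : K := ((u : 𝓞 K) : K) with hU
  have hU0 : U ≠ 0 := by simp [hU]
  have hσβ : σ (β : K) ≠ 0 := by simpa using hβK
  -- `σ U * (σ β)^3 = U^4 β^12 γ^3`
  rw [hαK, map_mul, map_pow] at hγ
  -- `U = (β^4 γ / σ β)^3`
  have hUcube : U = ((β : K) ^ 4 * γ / σ (β : K)) ^ 3 := by
    have h1 : σ U = U⁻¹ := eq_inv_of_mul_eq_one_left hu1
    rw [h1] at hγ
    have h3 : (σ (β : K)) ^ 3 = U ^ 5 * ((β : K) ^ 4 * γ) ^ 3 := by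
      have : (σ (β : K)) ^ 3 = U * ((σ (β : K)) ^ 3 * U⁻¹) := by field_simp
      rw [this, hγ]; ring
    rw [div_pow, h3]
    have hγ0 : (β : K) ^ 4 * γ ≠ 0 := by
      intro h0
      rw [h0] at h3
      simp at h3
      exact hβ0 h3
    have hγ1 : γ ≠ 0 := fun h => hγ0 (by rw [h, mul_zero])
    field_simp
    exact hu6
  refine ⟨(β : K) * ((β : K) ^ 4 * γ / σ (β : K)), ?_⟩
  rw [mul_pow, ← hUcube, hαK]

end Fermat.Agent.S14
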