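/-
S14: final wiring, with [Thaine] as a hypothesis.
-/
import Fermat.Agent.S14.Arith
import Fermat.Agent.S14.Three
import Fermat.Agent.S14.GalRes
import Fermat.Agent.S14.GalGlue
import Fermat.Agent.S14.GalLocD

set_option autoImplicit false
set_option linter.unusedSectionVars false
set_option linter.style.haveILetI false

namespace Fermat.Agent.S14

open NumberField IntermediateField ExtCitation

local notation "Qb" => AlgebraicClosure ℚ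
local notation "GQ" => (AlgebraicClosure ℚ ≃ₐ[ℚ] AlgebraicClosure ℚ)

/-- S14 from [Thaine]. -/
theorem extVanishingCts_of_thaine {p : ℕ} [Fact p.Prime] (h3 : 3 ≤ p)
    (hT : 5 ≤ p → ∀ (K : Type) [Field K] [NumberField K] [IsCyclotomicExtension {p} ℚ K]
      (ζ : K) (hζ : IsPrimitiveRoot ζ p), ThaineStmt hζ) :
    ExtVanishingCts p := by
  intro V _ _ _ _ C hadm
  by_contra hns
  obtain ⟨ζ, a, hζ, ha0, hint, hpow, hmove, heig, hunr, hspl⟩ :=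
    exists_resolvent h3 V C hadm hns
  haveI := numberField_adjoin_zeta ζ
  haveI := isCyclotomicExtension_adjoin_zeta hζ
  have hζK : IsPrimitiveRoot (zetaK ζ) p := zetaK_isPrimitiveRoot hζ
  -- `α`
  let αK : ℚ⟮ζ⟯ := ⟨a ^ p, hpow⟩
  have hαint : IsIntegral ℤ αK := by
    have h1 : IsIntegral ℤ (algebraMap ℚ⟮ζ⟯ Qb αK) := hint.pow p
    exact (isIntegral_algebraMap_iff (algebraMap ℚ⟮ζ⟯ Qb).injective).mp h1
  let α : 𝓞 ℚ⟮ζ⟯ := ⟨αK, hαint⟩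
  have hα : ((α : ℚ⟮ζ⟯) : Qb) = a ^ p := rfl
  have hα0 : α ≠ 0 := by
    intro h
    have h1 : ((α : ℚ⟮ζ⟯) : Qb) = 0 := by rw [h]; rfl
    rw [hα] at h1
    exact pow_ne_zero p ha0 h1
  have hnot := gal_not_pow hζ ha0 hmove (α : ℚ⟮ζ⟯) hα
  have hb : ∀ (σ : ℚ⟮ζ⟯ ≃ₐ[ℚ] ℚ⟮ζ⟯) (b : ℕ), σ (zetaK ζ) = zetaK ζ ^ b →
      ∃ γ : ℚ⟮ζ⟯, σ (α : ℚ⟮ζ⟯) = (α : ℚ⟮ζ⟯) ^ (b ^ 2) * γ ^ p :=
    fun σ b hσ => gal_eigen heig (α : ℚ⟮ζ⟯) hα σ b hσ
  have hc := gal_ideal_pow ζ a hζ ha0 hmove heig hunr hspl α hα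
  have hd := gal_local h3 ζ a hζ ha0 hmove heig hspl (zetaK ζ) hζK rfl α hα
  apply hnot
  by_cases hp5 : 5 ≤ p
  · exact arith_of_thaine hζK hp5 (hT hp5 _ _ hζK) α hα0 hb hc hd
  · have hp3 : p = 3 := by
      have hp : p.Prime := Fact.out
      have : p ≠ 4 := by rintro rfl; norm_num at hp
      omega
    subst hp3
    obtain ⟨I, hI⟩ := hc
    exact three_case hζK α hα0 I hI hb

end Fermat.Agent.S14
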