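/-
S14 [Thaine] (Th-A): the field `L = K(ζ_l) = ℚ(ζ_{pl})`, norm of `ζ - ζ_l`, Hilbert 90.
-/
import Mathlib

set_option autoImplicit false
set_option linter.unusedSectionVars false
set_option linter.style.haveILetI false
open NumberField Polynomial

namespace Fermat.Agent.S14

variable {p l : ℕ} [Fact p.Prime] [Fact l.Prime]
variable {K L : Type} [Field K] [NumberField K] [IsCyclotomicExtension {p} ℚ K]
  [Field L] [NumberField L] [Algebra K L] [IsCyclotomicExtension {l} K L]
  [IsCyclotomicExtension {p * l} ℚ L]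

variable (p l K L) in
include p in
theorem thA_finrank (hlp : l ≠ p) : Module.finrank K L = l - 1 := by
  have hp : p.Prime := Fact.out
  have hl : l.Prime := Fact.out
  haveI : NeZero (p * l) := ⟨Nat.mul_ne_zero hp.ne_zero hl.ne_zero⟩
  haveI : NeZero p := ⟨hp.ne_zero⟩
  have h1 : Module.finrank ℚ L = (p * l).totient := IsCyclotomicExtension.Rat.finrank (p * l) L
  have h2 : Module.finrank ℚ K = p.totient := IsCyclotomicExtension.Rat.finrank p K
  have h3 := Module.finrank_mul_finrank ℚ K L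
  have hcop : p.Coprime l := (Nat.coprime_primes hp hl).2 (Ne.symm hlp)
  rw [h1, h2, Nat.totient_mul hcop, Nat.totient_prime hp, Nat.totient_prime hl] at h3
  have : 0 < p - 1 := by have := hp.two_le; omega
  exact Nat.eq_of_mul_eq_mul_left this h3

variable (p l K L) in
include p L in
theorem thA_irreducible (hlp : l ≠ p) : Irreducible (cyclotomic l K) := by
  have hl : l.Prime := Fact.out
  haveI : NeZero l := ⟨hl.ne_zero⟩
  have hμ := IsCyclotomicExtension.zeta_spec l K L
  set μ := IsCyclotomicExtension.zeta l K L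
  have hint : IsIntegral K μ := hμ.isIntegral (NeZero.pos l) |>.tower_top 
  have hdvd : minpoly K μ ∣ cyclotomic l K := by
    apply minpoly.dvd
    rw [aeval_def, eval₂_eq_eval_map, map_cyclotomic]
    exact hμ.isRoot_cyclotomic (NeZero.pos l)
  have hdeg : (minpoly K μ).natDegree = l - 1 := by
    have h1 := (hμ.powerBasis K).natDegree_minpoly
    rw [← (hμ.powerBasis K).finrank, thA_finrank p l K L hlp, hμ.powerBasis_gen K] at h1
    exact h1
  have heq : cyclotomic l K = minpoly K μ := by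
    refine eq_of_monic_of_dvd_of_natDegree_le (minpoly.monic hint) (cyclotomic.monic l K) hdvd
      ?_
    rw [hdeg, natDegree_cyclotomic, Nat.totient_prime hl]
  rw [heq]
  exact minpoly.irreducible hint

/-- norm of `a - μ`. -/
theorem thA_norm_sub (hlp : l ≠ p) {μ : L} (hμ : IsPrimitiveRoot μ l) (a : K) :
    Algebra.norm K (algebraMap K L a - μ) = (cyclotomic l K).eval a := by
  have hl : l.Prime := Fact.out
  haveI : NeZero l := ⟨hl.ne_zero⟩
  have hirr := thA_irreducible p l K L hlp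
  have hmin : minpoly K μ = cyclotomic l K := (hμ.minpoly_eq_cyclotomic_of_irreducible hirr).symm
  let pb := hμ.powerBasis K
  rw [Algebra.norm_eq_matrix_det pb.basis, map_sub, ← hmin, ← hμ.powerBasis_gen K,
    ← charpoly_leftMulMatrix pb, Matrix.eval_charpoly]
  congr 1
  rw [AlgHom.commutes]
  rfl

omit [NumberField K] [IsCyclotomicExtension {p} ℚ K] in
theorem thA_eval_cyclotomic (hl1 : p ∣ l - 1) {ζ : K} (hζ : IsPrimitiveRoot ζ p) :
    (cyclotomic l K).eval ζ = 1 := by
  have hp : p.Prime := Fact.out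
  have hl : l.Prime := Fact.out
  rw [cyclotomic_prime, eval_geom_sum]
  have h1 : ζ - 1 ≠ 0 := sub_ne_zero.2 (hζ.ne_one hp.one_lt)
  apply mul_left_cancel₀ h1
  rw [mul_geom_sum, mul_one]
  obtain ⟨k, hk⟩ := hl1
  have : l = p * k + 1 := by have := hl.one_lt; omega
  rw [this, pow_succ, pow_mul, hζ.pow_eq_one, one_pow, one_mul]

theorem thA_main (hlp : l ≠ p) (hl1 : p ∣ l - 1) {ζ : K} (hζ : IsPrimitiveRoot ζ p)
    {μ : L} (hμ : IsPrimitiveRoot μ l) :
    ∃ (T : 𝓞 L ≃ₐ[𝓞 K] 𝓞 L) (s : ℕ) (β : 𝓞 L) (κ : 𝓞 K),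
      β ≠ 0 ∧ T hμ.toInteger = hμ.toInteger ^ s ∧
      T β = (algebraMap (𝓞 K) (𝓞 L) hζ.toInteger - hμ.toInteger) * β ∧
      Associated (algebraMap (𝓞 K) (𝓞 L) κ) (β ^ (l - 1)) := by
  have hp : p.Prime := Fact.out
  have hl : l.Prime := Fact.out
  haveI : NeZero l := ⟨hl.ne_zero⟩
  haveI : IsGalois K L := IsCyclotomicExtension.isGalois {l} K L
  haveI : FiniteDimensional K L := IsCyclotomicExtension.finiteDimensional {l} K L
  have hirr : Irreducible (cyclotomic l K) := thA_irreducible p l K L hlp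
  haveI : IsCyclic (L ≃ₐ[K] L) :=
    isCyclic_of_injective (hμ.autToPow K) (hμ.autToPow_injective K)
  obtain ⟨g, hg⟩ := IsCyclic.exists_generator (α := L ≃ₐ[K] L)
  set θ : 𝓞 L := algebraMap (𝓞 K) (𝓞 L) hζ.toInteger - hμ.toInteger with hθ
  have hθL : algebraMap (𝓞 L) L θ = algebraMap K L ζ - μ := by
    rw [hθ, map_sub]
    rfl
  have hnorm : Algebra.norm K (algebraMap (𝓞 L) L θ) = 1 := by
    rw [hθL, thA_norm_sub (p := p) hlp hμ, thA_eval_cyclotomic hl1 hζ]
  let R := galRestrict (𝓞 K) K L (𝓞 L)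
  -- `θ` is a unit
  have hprodθ : (∏ σ : L ≃ₐ[K] L, R σ θ) = 1 := by
    have h := prod_galRestrict_eq_norm (𝓞 K) K L (𝓞 L) θ
    rw [h]
    apply IsIntegralClosure.algebraMap_injective (𝓞 L) (𝓞 K) L
    rw [← IsScalarTower.algebraMap_apply, IsScalarTower.algebraMap_apply (𝓞 K) K L,
      IsIntegralClosure.algebraMap_mk', hnorm, map_one, map_one]
  have hθu : IsUnit θ := by
    have h1 : R 1 θ ∣ ∏ σ : L ≃ₐ[K] L, R σ θ := Finset.dvd_prod_of_mem _ (Finset.mem_univ 1)
    rw [hprodθ, map_one] at h1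
    exact isUnit_of_dvd_one h1
  obtain ⟨η, hη⟩ : ∃ η : 𝓞 L, η * θ = 1 := ⟨_, hθu.val_inv_mul⟩
  have hnormη : Algebra.norm K (algebraMap (𝓞 L) L η) = 1 := by
    have h1 := congrArg (fun x => Algebra.norm K (algebraMap (𝓞 L) L x)) hη
    simp only [map_mul, map_one, hnorm, mul_one] at h1
    exact h1
  obtain ⟨β, hβ0, hβ'⟩ := groupCohomology.exists_mul_galRestrict_of_norm_eq_one
    (A := 𝓞 K) (B := 𝓞 L) hg hnormη
  have hβ : R g β = θ * β := by
    calc R g β = (η * θ) * R g β := by rw [hη, one_mul]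
      _ = θ * (η * R g β) := by ring
      _ = θ * β := by rw [hβ']
  -- all conjugates of `β` are associated to `β`
  let H : Subgroup (L ≃ₐ[K] L) :=
    { carrier := {σ | Associated (R σ β) β}
      one_mem' := by
        show Associated (R 1 β) β
        rw [map_one]; exact Associated.refl _
      mul_mem' := by
        intro a b ha hb
        show Associated (R (a * b) β) β
        rw [map_mul]
        exact (Associated.map (R a : 𝓞 L →* 𝓞 L) hb).trans ha
      inv_mem' := by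
        intro a ha
        show Associated (R a⁻¹ β) β
        have h := Associated.map (R a⁻¹ : 𝓞 L →* 𝓞 L) ha
        have h2 : (R a⁻¹ : 𝓞 L →* 𝓞 L) (R a β) = β := by
          show R a⁻¹ (R a β) = β
          rw [← AlgEquiv.mul_apply, ← map_mul, inv_mul_cancel, map_one]; rfl
        rw [h2] at h
        exact h.symm }
  have hgH : g ∈ H := by
    show Associated (R g β) β
    rw [hβ]
    exact (associated_isUnit_mul_left_iff hθu).2 (Associated.refl β)
  have hall : ∀ σ : L ≃ₐ[K] L, Associated (R σ β) β := by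
    intro σ
    have : σ ∈ H := (Subgroup.zpowers_le.2 hgH) (hg σ)
    exact this
  obtain ⟨s, -, hs⟩ := hμ.eq_pow_of_pow_eq_one (ξ := g μ) (by rw [← map_pow, hμ.pow_eq_one, map_one])
  obtain ⟨κ, hκ⟩ : ∃ κ : 𝓞 K, (∏ σ : L ≃ₐ[K] L, R σ β) = algebraMap (𝓞 K) (𝓞 L) κ :=
    ⟨_, prod_galRestrict_eq_norm (𝓞 K) K L (𝓞 L) β⟩
  refine ⟨R g, s, β, κ, hβ0, ?_, hβ, ?_⟩
  · apply IsIntegralClosure.algebraMap_injective (𝓞 L) (𝓞 K) L
    rw [algebraMap_galRestrict_apply, map_pow]
    exact hs.symm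
  · rw [← hκ]
    have hcard : l - 1 = (Finset.univ : Finset (L ≃ₐ[K] L)).card := by
      rw [Finset.card_univ, ← Nat.card_eq_fintype_card, IsGalois.card_aut_eq_finrank,
        thA_finrank p l K L hlp]
    rw [hcard, ← Finset.prod_const]
    exact Finset.prod_hom_rel (Associated.refl 1) (fun {σ b c} h => (hall σ).mul_mul h)

/-- An `𝓞 K`-automorphism of `𝓞 L` is trivial modulo `μ - 1`. -/
theorem thA_congr (hlp : l ≠ p) {ζ : K} (hζ : IsPrimitiveRoot ζ p)
    {μ : L} (hμ : IsPrimitiveRoot μ l) (T : 𝓞 L ≃ₐ[𝓞 K] 𝓞 L) (s : ℕ)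
    (hT : T hμ.toInteger = hμ.toInteger ^ s) (x : 𝓞 L) :
    T x - x ∈ Ideal.span {hμ.toInteger - 1} := by
  have hp : p.Prime := Fact.out
  have hl : l.Prime := Fact.out
  haveI : NeZero (p * l) := ⟨Nat.mul_ne_zero hp.ne_zero hl.ne_zero⟩
  have hcop : p.Coprime l := (Nat.coprime_primes hp hl).2 (Ne.symm hlp)
  have hζL : IsPrimitiveRoot (algebraMap K L ζ) p := hζ.map_of_injective (algebraMap K L).injective
  have hν : IsPrimitiveRoot (algebraMap K L ζ * μ) (p * l) := by
    rw [IsPrimitiveRoot.iff_orderOf, (Commute.all _ _).orderOf_mul_eq_mul_orderOf_of_coprime,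
      ← hζL.eq_orderOf, ← hμ.eq_orderOf]
    rw [← hζL.eq_orderOf, ← hμ.eq_orderOf]; exact hcop
  have htop := IsCyclotomicExtension.Rat.adjoin_singleton_eq_top hν
  set I : Ideal (𝓞 L) := Ideal.span {hμ.toInteger - 1} with hI
  let φ₁ : 𝓞 L →ₐ[ℤ] (𝓞 L ⧸ I) := ((Ideal.Quotient.mk I).comp (T : 𝓞 L →+* 𝓞 L)).toIntAlgHom
  let φ₂ : 𝓞 L →ₐ[ℤ] (𝓞 L ⧸ I) := (Ideal.Quotient.mk I).toIntAlgHom
  have hνint : hν.toInteger = algebraMap (𝓞 K) (𝓞 L) hζ.toInteger * hμ.toInteger := by
    apply RingOfIntegers.ext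
    rfl
  have hμ1 : Ideal.Quotient.mk I hμ.toInteger = 1 := by
    rw [← map_one (Ideal.Quotient.mk I), Ideal.Quotient.eq]
    exact Ideal.mem_span_singleton_self _
  have key : φ₁ = φ₂ := by
    apply AlgHom.ext_of_adjoin_eq_top htop
    intro y hy
    rw [Set.mem_singleton_iff] at hy
    subst hy
    show Ideal.Quotient.mk I (T hν.toInteger) = Ideal.Quotient.mk I hν.toInteger
    rw [hνint, map_mul, AlgEquiv.commutes, hT, map_mul, map_mul, map_pow, hμ1, one_pow]
  have := congrArg (fun φ => φ x) key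
  exact Ideal.Quotient.eq.1 this

end Fermat.Agent.S14
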