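import Mathlib

/-!
# S14, (Th-B): behaviour of valuations in `ℚ(ζ_{pl}) / ℚ(ζ_p)`

* `emult_map_general`: for `P ∣ r`, `v_P(x) = e · v_r(x)` with `e ≠ 0`;
* `emult_map_of_not_mem`: `e = 1` unless `r ∣ l`;
* `emult_l`: `l` is unramified in `ℚ(ζ_p)`.
-/

namespace Fermat.Agent.S14

open NumberField

section general

variable {K L : Type*} [Field K] [NumberField K] [Field L] [NumberField L] [Algebra K L]

/-- the basic formula `v_P(x) = e(P|r) v_r(x)`. -/
theorem emult_map_ramIdx (r : Ideal (𝓞 K)) [r.IsPrime] (hr : r ≠ ⊥)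
    (P : Ideal (𝓞 L)) [P.IsPrime] [P.LiesOver r] (x : 𝓞 K) (hx : x ≠ 0) :
    emultiplicity P (Ideal.span {algebraMap (𝓞 K) (𝓞 L) x}) =
      (P.ramificationIdx (𝓞 K) : ℕ) * emultiplicity r (Ideal.span {x}) := by
  have hP : P ≠ ⊥ := Ideal.ne_bot_of_liesOver_of_ne_bot hr P
  have h := Ideal.IsDedekindDomain.emultiplicity_map_eq_ramificationIdx'_mul
    (R := 𝓞 K) (S := 𝓞 L) (v := r) (w := P) (I := Ideal.span {x})
    (by simpa using hx) (Ideal.prime_of_isPrime hr inferInstance).irreducible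
    (Ideal.prime_of_isPrime hP inferInstance).irreducible hP
  rw [Ideal.map_span, Set.image_singleton, Ideal.ramificationIdx'_eq_ramificationIdx r P hr] at h
  exact h

theorem emult_map_general (r : Ideal (𝓞 K)) [r.IsPrime] (hr : r ≠ ⊥)
    (P : Ideal (𝓞 L)) [P.IsPrime] [P.LiesOver r] :
    ∃ e : ℕ, e ≠ 0 ∧ ∀ x : 𝓞 K, x ≠ 0 →
      emultiplicity P (Ideal.span {algebraMap (𝓞 K) (𝓞 L) x}) =
        e * emultiplicity r (Ideal.span {x}) :=
  ⟨P.ramificationIdx (𝓞 K), (Ideal.ramificationIdx_pos P (𝓞 K)).ne',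
    fun x hx => emult_map_ramIdx r hr P x hx⟩

/-- a nonzero prime of `𝓞 K` lies over a rational prime. -/
theorem exists_prime_liesOver (r : Ideal (𝓞 K)) [r.IsPrime] (hr : r ≠ ⊥) :
    ∃ q : ℕ, q.Prime ∧ r.LiesOver (Ideal.span {(q : ℤ)}) := by
  have h1 : (r.under ℤ).IsPrime := inferInstance
  have h2 : r.under ℤ ≠ ⊥ := Ideal.under_ne_bot ℤ hr
  obtain h | ⟨q, hq, h⟩ := Ideal.isPrime_int_iff.mp h1
  · exact absurd h h2
  · exact ⟨q, hq, ⟨h.symm⟩⟩

end general

variable {p l : ℕ} [Fact p.Prime] [Fact l.Prime]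
  {K L : Type*} [Field K] [NumberField K] [IsCyclotomicExtension {p} ℚ K]
  [Field L] [NumberField L] [Algebra K L] [IsCyclotomicExtension {p * l} ℚ L]

theorem ramIdx_eq_one_of_not_mem (hlp : l ≠ p) (r : Ideal (𝓞 K)) [r.IsPrime] (hr : r ≠ ⊥)
    (P : Ideal (𝓞 L)) [P.IsPrime] [P.LiesOver r] (hl : (l : 𝓞 K) ∉ r) :
    P.ramificationIdx (𝓞 K) = 1 := by
  have hpp : p.Prime := Fact.out
  have hlpr : l.Prime := Fact.out
  obtain ⟨q, hq, hqr⟩ := exists_prime_liesOver r hr
  haveI : Fact q.Prime := ⟨hq⟩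
  haveI : P.LiesOver (Ideal.span {(q : ℤ)}) := Ideal.LiesOver.trans P r _
  have htower : P.ramificationIdx ℤ = r.ramificationIdx ℤ * P.ramificationIdx (𝓞 K) :=
    Ideal.ramificationIdx_tower r P
  have hql : q ≠ l := by
    rintro rfl
    apply hl
    have : ((q : ℤ)) ∈ r.under ℤ := by
      rw [← hqr.over]
      exact Ideal.mem_span_singleton_self _
    simpa [Ideal.under_def, Ideal.mem_comap] using this
  haveI : NeZero (p * l) := ⟨Nat.mul_ne_zero hpp.ne_zero hlpr.ne_zero⟩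
  haveI : NeZero p := ⟨hpp.ne_zero⟩
  by_cases hqp : q = p
  · subst hqp
    have h1 : r.ramificationIdx ℤ = q - 1 :=
      IsCyclotomicExtension.Rat.ramificationIdx_eq_of_prime q K r
    have h2 : P.ramificationIdx ℤ = q ^ 0 * (q - 1) :=
      IsCyclotomicExtension.Rat.ramificationIdx_eq (q * l) (m := l) (k := 0) L P (by simp)
        (fun h => hql ((Nat.prime_dvd_prime_iff_eq hq hlpr).mp h))
    rw [h1, h2, pow_zero, one_mul] at htower
    have hpos : 0 < q - 1 := by have := hq.two_le; omega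
    exact (Nat.eq_of_mul_eq_mul_left hpos (by rw [mul_one]; exact htower)).symm
  · have h2 : P.ramificationIdx ℤ = 1 :=
      IsCyclotomicExtension.Rat.ramificationIdx_eq_of_not_dvd (m := p * l) q L P (by
        intro h
        rcases (Nat.Prime.dvd_mul hq).mp h with h | h
        · exact hqp ((Nat.prime_dvd_prime_iff_eq hq hpp).mp h)
        · exact hql ((Nat.prime_dvd_prime_iff_eq hq hlpr).mp h))
    rw [h2] at htower
    exact Nat.eq_one_of_mul_eq_one_left htower.symm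

theorem emult_map_of_not_mem (hlp : l ≠ p) (r : Ideal (𝓞 K)) [r.IsPrime] (hr : r ≠ ⊥)
    (P : Ideal (𝓞 L)) [P.IsPrime] [P.LiesOver r] (hl : (l : 𝓞 K) ∉ r) (x : 𝓞 K) (hx : x ≠ 0) :
    emultiplicity P (Ideal.span {algebraMap (𝓞 K) (𝓞 L) x}) =
      emultiplicity r (Ideal.span {x}) := by
  rw [emult_map_ramIdx r hr P x hx, ramIdx_eq_one_of_not_mem (p := p) (l := l) hlp r hr P hl]
  simp

omit [Field L] [NumberField L] [Algebra K L] [IsCyclotomicExtension {p * l} ℚ L] in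
theorem emult_l (hlp : l ≠ p) (r : Ideal (𝓞 K)) [r.IsPrime] (hl : (l : 𝓞 K) ∈ r) :
    emultiplicity r (Ideal.span {(l : 𝓞 K)}) = 1 := by
  have hpp : p.Prime := Fact.out
  have hlpr : l.Prime := Fact.out
  haveI : NeZero p := ⟨hpp.ne_zero⟩
  have hl0 : (l : 𝓞 K) ≠ 0 := by exact_mod_cast hlpr.ne_zero
  have hr : r ≠ ⊥ := by
    rintro rfl
    exact hl0 (by simpa using hl)
  have hsp : (Ideal.span {(l : ℤ)}).IsMaximal :=
    ((Ideal.span_singleton_prime (by exact_mod_cast hlpr.ne_zero)).mpr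
      (Nat.prime_iff_prime_int.mp hlpr)).isMaximal (by simpa using hlpr.ne_zero)
  haveI : r.LiesOver (Ideal.span {(l : ℤ)}) := by
    refine ⟨hsp.eq_of_le (Ideal.IsPrime.ne_top inferInstance) ?_⟩
    rw [Ideal.span_singleton_le_iff_mem, Ideal.under_def, Ideal.mem_comap]
    simpa using hl
  have h1 : r.ramificationIdx ℤ = 1 :=
    IsCyclotomicExtension.Rat.ramificationIdx_eq_of_not_dvd (m := p) l K r
      (fun h => hlp ((Nat.prime_dvd_prime_iff_eq hlpr hpp).mp h))
  have hbot : Ideal.span {(l : ℤ)} ≠ ⊥ := by simpa using hlpr.ne_zero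
  have hirr : Irreducible (Ideal.span {(l : ℤ)}) :=
    (Ideal.prime_of_isPrime hbot hsp.isPrime).irreducible
  have h := Ideal.IsDedekindDomain.emultiplicity_map_eq_ramificationIdx'_mul
    (R := ℤ) (S := 𝓞 K) (v := Ideal.span {(l : ℤ)}) (w := r) (I := Ideal.span {(l : ℤ)})
    hbot hirr (Ideal.prime_of_isPrime hr inferInstance).irreducible hr
  rw [Ideal.map_span, Set.image_singleton,
    Ideal.ramificationIdx'_eq_ramificationIdx _ r hbot, h1,
    (FiniteMultiplicity.of_prime_left hirr.prime hbot).emultiplicity_self] at h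
  simpa using h

end Fermat.Agent.S14
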