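/-
S14 [Thaine] (Th-B): the local statements (3) and (4) for `κ = N_{L/K}(β)`.
-/
import Fermat.Agent.S14.ThaineA
import Fermat.Agent.S14.ThaineLoc

set_option autoImplicit false
set_option linter.unusedSectionVars false
set_option linter.style.haveILetI false
open NumberField Polynomial

namespace Fermat.Agent.S14

/-- In a Dedekind domain two elements with the same `P`-adic valuation differ by a `P`-unit. -/
theorem ded_exists_mul_eq {R : Type*} [CommRing R] [IsDedekindDomain R] (P : Ideal R) [hP : P.IsPrime]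
    (hP0 : P ≠ ⊥) (x y : R) (hx : x ≠ 0) (hy : y ≠ 0)
    (h : emultiplicity P (Ideal.span {x}) = emultiplicity P (Ideal.span {y})) :
    ∃ c d : R, c ∉ P ∧ d ∉ P ∧ x * d = y * c := by
  have hPp : Prime P := Ideal.prime_of_isPrime hP0 hP
  have hx' : Ideal.span {x} ≠ 0 := by simpa using hx
  have hy' : Ideal.span {y} ≠ 0 := by simpa using hy
  have hfx : FiniteMultiplicity P (Ideal.span {x}) := FiniteMultiplicity.of_prime_left hPp hx'
  have hfy : FiniteMultiplicity P (Ideal.span {y}) := FiniteMultiplicity.of_prime_left hPp hy'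
  have hm : multiplicity P (Ideal.span {x}) = multiplicity P (Ideal.span {y}) := by
    rw [hfx.emultiplicity_eq_multiplicity, hfy.emultiplicity_eq_multiplicity] at h
    exact_mod_cast h
  obtain ⟨Jx, hJx, -⟩ := hfx.exists_eq_pow_mul_and_not_dvd
  obtain ⟨Jy, hJy, hJy'⟩ := hfy.exists_eq_pow_mul_and_not_dvd
  rw [Ideal.dvd_iff_le] at hJy'
  rw [hm] at hJx
  generalize multiplicity P (Ideal.span {y}) = m at hJx hJy
  obtain ⟨d, hdJ, hdP⟩ := SetLike.not_le_iff_exists.1 hJy'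
  have hxd : x * d ∈ Ideal.span {y} := by
    have h1 : x * d ∈ Ideal.span {x} * Jy :=
      Ideal.mul_mem_mul (Ideal.mem_span_singleton_self x) hdJ
    have h2 : Ideal.span {x} * Jy = Jx * Ideal.span {y} := by
      rw [hJx, hJy]
      ring
    rw [h2] at h1
    exact Ideal.mul_le_right h1
  obtain ⟨c, hc⟩ := Ideal.mem_span_singleton'.1 hxd
  refine ⟨c, d, ?_, hdP, by rw [← hc, mul_comm]⟩
  intro hcP
  have e1 : emultiplicity P (Ideal.span {x * d}) = emultiplicity P (Ideal.span {c * y}) := by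
    rw [hc]
  rw [← Ideal.span_singleton_mul_span_singleton, ← Ideal.span_singleton_mul_span_singleton,
    emultiplicity_mul hPp, emultiplicity_mul hPp, h] at e1
  have hd0 : emultiplicity P (Ideal.span {d}) = 0 := by
    rw [emultiplicity_eq_zero, Ideal.dvd_span_singleton]; exact hdP
  have hc1 : 1 ≤ emultiplicity P (Ideal.span {c}) := by
    have : ((1 : ℕ) : ℕ∞) ≤ emultiplicity P (Ideal.span {c}) := by
      rw [← pow_dvd_iff_le_emultiplicity]
      simpa [Ideal.dvd_span_singleton] using hcP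
    simpa using this
  rw [hd0, add_zero, hfy.emultiplicity_eq_multiplicity] at e1
  generalize emultiplicity P (Ideal.span {c}) = k at e1 hc1
  generalize multiplicity P (Ideal.span {y}) = m' at e1
  cases k with
  | top => simp at e1
  | coe k =>
    norm_cast at e1 hc1
    omega

theorem assoc_prime_pow_sub_one {R : Type*} [CommRing R] [IsDomain R] {l : ℕ} (hl : l.Prime)
    {μ : R} (hμ : IsPrimitiveRoot μ l) : Associated (l : R) ((μ - 1) ^ (l - 1)) := by
  obtain ⟨n, rfl⟩ : ∃ n, l = n + 1 := ⟨l - 1, by have := hl.one_lt; omega⟩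
  have h := hμ.prod_pow_sub_one_eq_order
  have h1 : Associated (∏ k ∈ Finset.range n, (μ ^ (k + 1) - 1)) (∏ _k ∈ Finset.range n, (μ - 1)) := by
    apply Associated.prod
    intro k hk
    rw [Finset.mem_range] at hk
    refine (hμ.associated_sub_one_pow_sub_one_of_coprime ?_).symm
    exact Nat.Coprime.symm ((Nat.Prime.coprime_iff_not_dvd hl).2
      (fun hd => by have := Nat.le_of_dvd (Nat.succ_pos k) hd; omega))
  rw [Finset.prod_const, Finset.card_range] at h1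
  rw [Nat.add_sub_cancel]
  push_cast
  rw [← h]
  have hu : IsUnit ((-1 : R) ^ n) := (isUnit_one.neg).pow n
  exact (associated_isUnit_mul_left_iff hu).2 h1

variable {p l : ℕ} [Fact p.Prime] [Fact l.Prime]
variable {K L : Type} [Field K] [NumberField K] [IsCyclotomicExtension {p} ℚ K]
  [Field L] [NumberField L] [Algebra K L] [IsCyclotomicExtension {l} K L]
  [IsCyclotomicExtension {p * l} ℚ L]

theorem thB_congr (hlp : l ≠ p) {ζ : K} (hζ : IsPrimitiveRoot ζ p)
    {μ : L} (hμ : IsPrimitiveRoot μ l) (T : 𝓞 L ≃ₐ[𝓞 K] 𝓞 L) (s : ℕ)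
    (hT : T hμ.toInteger = hμ.toInteger ^ s) (β : 𝓞 L) (hβ0 : β ≠ 0) (κ : 𝓞 K)
    (hβ : T β = (algebraMap (𝓞 K) (𝓞 L) hζ.toInteger - hμ.toInteger) * β)
    (hκ : Associated (algebraMap (𝓞 K) (𝓞 L) κ) (β ^ (l - 1)))
    (r : Ideal (𝓞 K)) [hrp : r.IsPrime] (hlr : (l : 𝓞 K) ∈ r) (n : ℕ)
    (hn : emultiplicity r (Ideal.span {κ}) = n) :
    hζ.toInteger - 1 - (s : 𝓞 K) ^ n ∈ r := by
  have hp : p.Prime := Fact.out
  have hl : l.Prime := Fact.out
  have hl1 : l - 1 ≠ 0 := by have := hl.one_lt; omega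
  have hl0 : (l : 𝓞 K) ≠ 0 := Nat.cast_ne_zero.2 hl.ne_zero
  have hr0 : r ≠ ⊥ := fun h => hl0 (by simpa [h] using hlr)
  haveI : r.IsMaximal := hrp.isMaximal hr0
  obtain ⟨P, hPmax, hPr⟩ := Ideal.exists_maximal_ideal_liesOver_of_isIntegral r (S := 𝓞 L)
  haveI : P.IsPrime := hPmax.isPrime
  have hP0 : P ≠ ⊥ := Ideal.ne_bot_of_liesOver_of_ne_bot hr0 P
  have hPp : Prime P := Ideal.prime_of_isPrime hP0 inferInstance
  obtain ⟨e, he0, he⟩ := emult_map_general r hr0 P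
  set ϖ : 𝓞 L := hμ.toInteger - 1 with hϖ
  have hμint : IsPrimitiveRoot hμ.toInteger l := hμ.toInteger_isPrimitiveRoot
  have hassoc : Associated ((l : ℕ) : 𝓞 L) (ϖ ^ (l - 1)) := assoc_prime_pow_sub_one hl hμint
  have hϖ0 : ϖ ≠ 0 := sub_ne_zero.2 (hμint.ne_one hl.one_lt)
  have hκ0 : κ ≠ 0 := by
    rintro rfl
    rw [map_zero] at hκ
    exact pow_ne_zero _ hβ0 (hκ.eq_zero_iff.1 rfl)
  -- valuations
  have e1 : emultiplicity P (Ideal.span {algebraMap (𝓞 K) (𝓞 L) κ}) = e * n := by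
    rw [he κ hκ0, hn]
  have e2 : emultiplicity P (Ideal.span {algebraMap (𝓞 K) (𝓞 L) (l : 𝓞 K)}) = e := by
    rw [he _ hl0, emult_l (p := p) hlp r hlr, mul_one]
  have e3 : emultiplicity P (Ideal.span {algebraMap (𝓞 K) (𝓞 L) κ}) =
      ((l - 1 : ℕ) : ℕ∞) * emultiplicity P (Ideal.span {β}) := by
    rw [Ideal.span_singleton_eq_span_singleton.2 hκ, ← Ideal.span_singleton_pow,
      emultiplicity_pow hPp]
  have e4 : emultiplicity P (Ideal.span {algebraMap (𝓞 K) (𝓞 L) (l : 𝓞 K)}) =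
      ((l - 1 : ℕ) : ℕ∞) * emultiplicity P (Ideal.span {ϖ}) := by
    rw [map_natCast, Ideal.span_singleton_eq_span_singleton.2 hassoc, ← Ideal.span_singleton_pow,
      emultiplicity_pow hPp]
  have hfβ : FiniteMultiplicity P (Ideal.span {β}) :=
    FiniteMultiplicity.of_prime_left hPp (by simpa using hβ0)
  have hfϖ : FiniteMultiplicity P (Ideal.span {ϖ}) :=
    FiniteMultiplicity.of_prime_left hPp (by simpa using hϖ0)
  have e5 : emultiplicity P (Ideal.span {β}) = emultiplicity P (Ideal.span {ϖ ^ n}) := by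
    rw [← Ideal.span_singleton_pow, emultiplicity_pow hPp]
    rw [e1, hfβ.emultiplicity_eq_multiplicity] at e3
    rw [e2, hfϖ.emultiplicity_eq_multiplicity] at e4
    rw [hfβ.emultiplicity_eq_multiplicity, hfϖ.emultiplicity_eq_multiplicity]
    norm_cast at e3 e4 ⊢
    rw [e4, mul_assoc] at e3
    have := Nat.eq_of_mul_eq_mul_left (Nat.pos_of_ne_zero hl1) e3
    rw [← this, mul_comm]
  obtain ⟨c, d, hc, hd, hcd⟩ := ded_exists_mul_eq P hP0 β (ϖ ^ n) hβ0 (pow_ne_zero _ hϖ0) e5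
  -- `ϖ ∈ P`
  have hϖP : ϖ ∈ P := by
    have h1 : ((l : ℕ) : 𝓞 L) ∈ P := by
      have := (Ideal.mem_of_liesOver P r (l : 𝓞 K)).1 hlr
      rwa [map_natCast] at this
    have h2 : ϖ ^ (l - 1) ∈ P := by
      obtain ⟨u, hu⟩ := hassoc
      rw [← hu]; exact P.mul_mem_right _ h1
    exact Ideal.IsPrime.mem_of_pow_mem inferInstance _ h2
  have hTq : ∀ x : 𝓞 L, Ideal.Quotient.mk P (T x) = Ideal.Quotient.mk P x := by
    intro x
    rw [Ideal.Quotient.eq]
    exact (Ideal.span_singleton_le_iff_mem P).2 hϖP (thA_congr hlp hζ hμ T s hT x)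
  set θ : 𝓞 L := algebraMap (𝓞 K) (𝓞 L) hζ.toInteger - hμ.toInteger with hθ
  set g : 𝓞 L := ∑ i ∈ Finset.range s, hμ.toInteger ^ i with hg
  have hTϖ : T ϖ = ϖ * g := by rw [hϖ, map_sub, map_one, hT, mul_geom_sum]
  have h1 : T β * T d = (ϖ * g) ^ n * T c := by rw [← map_mul, hcd, map_mul, map_pow, hTϖ]
  have h2 : θ * c * T d = g ^ n * T c * d := by
    apply mul_left_cancel₀ (pow_ne_zero n hϖ0)
    calc ϖ ^ n * (θ * c * T d) = θ * (ϖ ^ n * c) * T d := by ring
      _ = θ * (β * d) * T d := by rw [hcd]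
      _ = d * ((θ * β) * T d) := by ring
      _ = d * (T β * T d) := by rw [hβ]
      _ = d * ((ϖ * g) ^ n * T c) := by rw [h1]
      _ = ϖ ^ n * (g ^ n * T c * d) := by ring
  have h3 := congrArg (Ideal.Quotient.mk P) h2
  simp only [map_mul, map_pow, hTq] at h3
  have hqc : Ideal.Quotient.mk P c ≠ 0 := by rwa [Ne, Ideal.Quotient.eq_zero_iff_mem]
  have hqd : Ideal.Quotient.mk P d ≠ 0 := by rwa [Ne, Ideal.Quotient.eq_zero_iff_mem]
  have hqμ : Ideal.Quotient.mk P hμ.toInteger = 1 := by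
    rw [← map_one (Ideal.Quotient.mk P), Ideal.Quotient.eq]; exact hϖP
  have hqg : Ideal.Quotient.mk P g = (s : 𝓞 L ⧸ P) := by
    rw [hg, map_sum]; simp [hqμ]
  have h4 : Ideal.Quotient.mk P θ = (s : 𝓞 L ⧸ P) ^ n := by
    rw [hqg] at h3
    have h5 : Ideal.Quotient.mk P θ * (Ideal.Quotient.mk P c * Ideal.Quotient.mk P d) =
        (s : 𝓞 L ⧸ P) ^ n * (Ideal.Quotient.mk P c * Ideal.Quotient.mk P d) := by
      rw [← mul_assoc, h3]; ring
    exact mul_right_cancel₀ (mul_ne_zero hqc hqd) h5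
  rw [Ideal.mem_of_liesOver P r, ← Ideal.Quotient.eq_zero_iff_mem]
  rw [hθ, map_sub, hqμ] at h4
  simp only [map_sub, map_mul, map_pow, map_one, map_natCast]
  rw [h4, sub_self]


theorem thB_dvd (hlp : l ≠ p) (hl1 : p ∣ l - 1) (β : 𝓞 L) (hβ0 : β ≠ 0) (κ : 𝓞 K)
    (hκ : Associated (algebraMap (𝓞 K) (𝓞 L) κ) (β ^ (l - 1)))
    (r : Ideal (𝓞 K)) [hrp : r.IsPrime] (hr0 : r ≠ ⊥) (hlr : (l : 𝓞 K) ∉ r) (n : ℕ)
    (hn : emultiplicity r (Ideal.span {κ}) = n) : p ∣ n := by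
  haveI : r.IsMaximal := hrp.isMaximal hr0
  obtain ⟨P, hPmax, hPr⟩ := Ideal.exists_maximal_ideal_liesOver_of_isIntegral r (S := 𝓞 L)
  haveI : P.IsPrime := hPmax.isPrime
  have hP0 : P ≠ ⊥ := Ideal.ne_bot_of_liesOver_of_ne_bot hr0 P
  have hPp : Prime P := Ideal.prime_of_isPrime hP0 inferInstance
  have hκ0 : κ ≠ 0 := by
    rintro rfl
    rw [map_zero] at hκ
    exact pow_ne_zero _ hβ0 (hκ.eq_zero_iff.1 rfl)
  have e1 := emult_map_of_not_mem (p := p) (l := l) hlp r hr0 P hlr κ hκ0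
  have hfβ : FiniteMultiplicity P (Ideal.span {β}) :=
    FiniteMultiplicity.of_prime_left hPp (by simpa using hβ0)
  rw [hn, Ideal.span_singleton_eq_span_singleton.2 hκ, ← Ideal.span_singleton_pow,
    emultiplicity_pow hPp, hfβ.emultiplicity_eq_multiplicity] at e1
  norm_cast at e1
  rw [← e1]
  exact Dvd.dvd.mul_right hl1 _

end Fermat.Agent.S14
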