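/-
S14 [Thaine]: existence of `κ`, `s` with the local properties (3), (4).
-/
import Fermat.Agent.S14.ThaineB

set_option autoImplicit false
set_option linter.unusedSectionVars false
set_option linter.style.haveILetI false
open NumberField Polynomial

namespace Fermat.Agent.S14

variable {p l : ℕ} [Fact p.Prime] [Fact l.Prime]
variable {K : Type} [Field K] [NumberField K] [IsCyclotomicExtension {p} ℚ K]

theorem thC_isCyclotomicExtension (hlp : l ≠ p) {L : Type} [Field L] [NumberField L] [Algebra K L]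
    [IsCyclotomicExtension {l} K L] : IsCyclotomicExtension {p * l} ℚ L := by
  have hp : p.Prime := Fact.out
  have hl : l.Prime := Fact.out
  haveI : NeZero p := ⟨hp.ne_zero⟩
  haveI : NeZero l := ⟨hl.ne_zero⟩
  have hcop : p.Coprime l := (Nat.coprime_primes hp hl).2 (Ne.symm hlp)
  have hζ := IsCyclotomicExtension.zeta_spec p ℚ K
  have hμ := IsCyclotomicExtension.zeta_spec l K L
  have hζL := hζ.map_of_injective (algebraMap K L).injective
  have hν : IsPrimitiveRoot (algebraMap K L (IsCyclotomicExtension.zeta p ℚ K) *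
      IsCyclotomicExtension.zeta l K L) (p * l) := by
    rw [IsPrimitiveRoot.iff_orderOf, (Commute.all _ _).orderOf_mul_eq_mul_orderOf_of_coprime,
      ← hζL.eq_orderOf, ← hμ.eq_orderOf]
    rw [← hζL.eq_orderOf, ← hμ.eq_orderOf]; exact hcop
  haveI h1 : IsCyclotomicExtension ({p} ∪ {l}) ℚ L :=
    IsCyclotomicExtension.trans {p} {l} ℚ K L (algebraMap K L).injective
  have h2 : IsCyclotomicExtension (({p} ∪ {l}) ∪ {p * l}) ℚ L :=
    IsCyclotomicExtension.union_of_isPrimitiveRoot _ _ _ hν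
  have hpl : p * l ≠ 0 := Nat.mul_ne_zero hp.ne_zero hl.ne_zero
  rw [IsCyclotomicExtension.iff_union_of_dvd (S := {p * l}) (n := p) ℚ L
      ⟨p * l, Set.mem_singleton _, hpl, Dvd.intro _ rfl⟩,
    IsCyclotomicExtension.iff_union_of_dvd (S := {p * l} ∪ {p}) (n := l) ℚ L
      ⟨p * l, Or.inl (Set.mem_singleton _), hpl, Dvd.intro_left _ rfl⟩]
  convert h2 using 1
  ext x
  simp only [Set.mem_union, Set.mem_singleton_iff]
  tauto

theorem thC_dvd_sub_one {ζ : K} (hζ : IsPrimitiveRoot ζ p) (I : Ideal (𝓞 K)) [hI : I.IsPrime]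
    (hl : Ideal.absNorm I = l) (hlp : l ≠ p) : p ∣ l - 1 := by
  have hp : p.Prime := Fact.out
  have hlpr : l.Prime := Fact.out
  have hI0 : I ≠ ⊥ := by
    rintro rfl
    rw [Ideal.absNorm_bot] at hl
    exact hlpr.ne_zero hl.symm
  haveI hmax : I.IsMaximal := hI.isMaximal hI0
  letI : Field (𝓞 K ⧸ I) := Ideal.Quotient.field I
  have hcard : Nat.card (𝓞 K ⧸ I) = l := by
    rw [← hl, Ideal.absNorm_apply, Submodule.cardQuot_apply]
  haveI : Finite (𝓞 K ⧸ I) := Nat.finite_of_card_ne_zero (by rw [hcard]; exact hlpr.ne_zero)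
  have hzp : (Ideal.Quotient.mk I hζ.toInteger) ^ p = 1 := by
    rw [← map_pow, hζ.toInteger_isPrimitiveRoot.pow_eq_one, map_one]
  have hz0 : Ideal.Quotient.mk I hζ.toInteger ≠ 0 := by
    intro h
    rw [h, zero_pow hp.ne_zero] at hzp
    exact zero_ne_one hzp
  have hz1 : Ideal.Quotient.mk I hζ.toInteger ≠ 1 := by
    intro h
    rw [← map_one (Ideal.Quotient.mk I), Ideal.Quotient.eq] at h
    have h1 : (p : 𝓞 K) ∈ I := by
      obtain ⟨u, hu⟩ := (assoc_prime_pow_sub_one hp hζ.toInteger_isPrimitiveRoot).symm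
      rw [← hu]
      apply I.mul_mem_right
      exact I.pow_mem_of_mem h _ (by have := hp.one_lt; omega)
    have h2 : (l : 𝓞 K) ∈ I := by
      rw [← hl]; exact Ideal.absNorm_mem I
    have hcop : IsCoprime (p : ℤ) (l : ℤ) :=
      Nat.isCoprime_iff_coprime.2 ((Nat.coprime_primes hp hlpr).2 (Ne.symm hlp))
    obtain ⟨a, b, hab⟩ := hcop
    have h3 : (1 : 𝓞 K) ∈ I := by
      have : ((a * p + b * l : ℤ) : 𝓞 K) = 1 := by rw [hab]; simp
      rw [← this]
      push_cast
      exact I.add_mem (I.mul_mem_left _ h1) (I.mul_mem_left _ h2)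
    exact hI.ne_top ((Ideal.eq_top_iff_one I).2 h3)
  let z : (𝓞 K ⧸ I)ˣ := Units.mk0 _ hz0
  have hord : orderOf z = p := by
    apply orderOf_eq_prime
    · ext; simpa [z] using hzp
    · intro h
      apply hz1
      have := congrArg Units.val h
      simpa [z] using this
  have := orderOf_dvd_natCard z
  rwa [hord, Nat.card_units, hcard] at this

open IsDedekindDomain in
/-- Thaine's element: `κ ≠ 0` and `s` with (3) and (4). -/
theorem thaine_exists {ζ : K} (hζ : IsPrimitiveRoot ζ p) (v : HeightOneSpectrum (𝓞 K))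
    (hv : (Ideal.absNorm v.asIdeal).Prime) (hvp : Ideal.absNorm v.asIdeal ≠ p) :
    ∃ (κ : 𝓞 K) (s : ℤ), κ ≠ 0 ∧
      (∀ r : HeightOneSpectrum (𝓞 K), ((Ideal.absNorm v.asIdeal : ℕ) : 𝓞 K) ∉ r.asIdeal →
        p ∣ multiplicity r.asIdeal (Ideal.span {κ})) ∧
      (∀ r : HeightOneSpectrum (𝓞 K), ((Ideal.absNorm v.asIdeal : ℕ) : 𝓞 K) ∈ r.asIdeal →
        hζ.toInteger - 1 - (s : 𝓞 K) ^ multiplicity r.asIdeal (Ideal.span {κ}) ∈ r.asIdeal) := by
  generalize hl : Ideal.absNorm v.asIdeal = l at hv hvp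
  haveI : Fact l.Prime := ⟨hv⟩
  haveI : NeZero l := ⟨hv.ne_zero⟩
  have hl1 : p ∣ l - 1 := thC_dvd_sub_one hζ v.asIdeal hl hvp
  let L := CyclotomicField l K
  haveI : IsCyclotomicExtension {p * l} ℚ L := thC_isCyclotomicExtension (p := p) (K := K) hvp
  have hμ := IsCyclotomicExtension.zeta_spec l K L
  obtain ⟨T, s, β, κ, hβ0, hT, hβ, hκ⟩ := thA_main hvp hl1 hζ hμ
  have hκ0 : κ ≠ 0 := by
    rintro rfl
    rw [map_zero] at hκ
    exact pow_ne_zero _ hβ0 (hκ.eq_zero_iff.1 rfl)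
  have hfin : ∀ r : HeightOneSpectrum (𝓞 K), emultiplicity r.asIdeal (Ideal.span {κ}) =
      (multiplicity r.asIdeal (Ideal.span {κ}) : ℕ) := fun r =>
    (FiniteMultiplicity.of_prime_left r.prime (by simpa using hκ0)).emultiplicity_eq_multiplicity
  refine ⟨κ, (s : ℤ), hκ0, fun r hr => ?_, fun r hr => ?_⟩
  · exact thB_dvd hvp hl1 β hβ0 κ hκ r.asIdeal r.ne_bot hr _ (hfin r)
  · have := thB_congr hvp hζ hμ T s hT β hβ0 κ hβ hκ r.asIdeal hr _ (hfin r)
    simpa using this

end Fermat.Agent.S14
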