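import Fermat.Agent.S14.EtaDefs
import Fermat.Agent.S14.ClDefs
import Fermat.Agent.S14.DensDefs
import Fermat.Agent.S14.Unit
import Fermat.Agent.S14.IdealFinsupp

/-!
# S14 [Thaine], step (5): from the factorisation of `κ` to the dichotomy
-/

set_option autoImplicit false
set_option linter.unusedSectionVars false
set_option linter.style.haveILetI false

open NumberField IsDedekindDomain
open scoped nonZeroDivisors Pointwise

namespace Fermat.Agent.S14.ThC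

open Fermat.Agent.S14.UnitDim Fermat.Agent.S14.IdealFinsupp

/-- multiplicative functions on ideals are determined by the multiplicities. -/
lemma map_eq_prod {R : Type*} [CommRing R] [IsDedekindDomain R] {A : Type*} [CommMonoid A]
    (w : (Ideal R)⁰ →* A) (I : (Ideal R)⁰) :
    ∃ S : Finset (HeightOneSpectrum R), (∀ l ∉ S, multiplicity l.asIdeal (I : Ideal R) = 0) ∧
      w I = ∏ l ∈ S, w (primeI R l) ^ multiplicity l.asIdeal (I : Ideal R) := by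
  have hI : (I : Ideal R) ≠ ⊥ := nonZeroDivisors.coe_ne_zero I
  have hfin : (Function.support fun l : HeightOneSpectrum R =>
      multiplicity l.asIdeal (I : Ideal R)).Finite := by
    refine (Ideal.finite_factors hI).subset ?_
    intro l hl
    rw [Function.mem_support] at hl
    exact dvd_of_multiplicity_pos (Nat.pos_of_ne_zero hl)
  have hk : ofExp R (Finsupp.ofSupportFinite _ hfin) = I := by
    refine Subtype.ext ?_
    rw [coe_ofExp]
    conv_rhs => rw [← Ideal.finprod_heightOneSpectrum_pow_multiplicity hI]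
    rw [finprod_eq_finsetProd_of_mulSupport_subset (s := (Finsupp.ofSupportFinite _ hfin).support)]
    · rfl
    · intro l hl
      rw [Function.mem_mulSupport] at hl
      rw [Finset.mem_coe, Finsupp.mem_support_iff]
      intro h0
      apply hl
      have : multiplicity l.asIdeal (I : Ideal R) = 0 := h0
      rw [this, pow_zero]
  refine ⟨(Finsupp.ofSupportFinite _ hfin).support, fun l hl => ?_, ?_⟩
  · rw [Finsupp.notMem_support_iff] at hl
    exact hl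
  · conv_lhs => rw [← hk, map_ofExp]
    rfl

variable {K : Type*} [Field K] [NumberField K]

/-- the ring automorphism of `𝓞 K` induced by `σ`. -/
noncomputable abbrev eσ (σ : K ≃ₐ[ℚ] K) : 𝓞 K ≃+* 𝓞 K := RingOfIntegers.mapRingEquiv (σ : K ≃+* K)

lemma eσ_coe (σ : K ≃ₐ[ℚ] K) (x : 𝓞 K) : ((eσ σ x : 𝓞 K) : K) = σ (x : K) := rfl

lemma eσ_inv_apply (σ : K ≃ₐ[ℚ] K) (x : 𝓞 K) : eσ σ⁻¹ (eσ σ x) = x := by
  apply RingOfIntegers.ext
  rw [eσ_coe, eσ_coe]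
  exact σ.symm_apply_apply _

lemma eσ_apply_inv (σ : K ≃ₐ[ℚ] K) (x : 𝓞 K) : eσ σ (eσ σ⁻¹ x) = x := by
  apply RingOfIntegers.ext
  rw [eσ_coe, eσ_coe]
  exact σ.apply_symm_apply _

/-- the action of `σ` on primes. -/
noncomputable def sv (σ : K ≃ₐ[ℚ] K) (v : HeightOneSpectrum (𝓞 K)) : HeightOneSpectrum (𝓞 K) where
  asIdeal := v.asIdeal.map (eσ σ : 𝓞 K →+* 𝓞 K)
  isPrime := Ideal.map_isPrime_of_equiv (eσ σ)
  ne_bot := by
    intro h
    exact v.ne_bot ((Ideal.map_eq_bot_iff_of_injective (eσ σ).injective).1 h)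

lemma mem_sv (σ : K ≃ₐ[ℚ] K) (v : HeightOneSpectrum (𝓞 K)) (x : 𝓞 K) :
    x ∈ (sv σ v).asIdeal ↔ eσ σ⁻¹ x ∈ v.asIdeal := by
  show x ∈ v.asIdeal.map (eσ σ : 𝓞 K →+* 𝓞 K) ↔ _
  constructor
  · intro h
    obtain ⟨y, hy, rfl⟩ := (Ideal.mem_map_of_equiv (eσ σ) x).1 h
    rwa [eσ_inv_apply]
  · intro h
    exact (Ideal.mem_map_of_equiv (eσ σ) x).2 ⟨_, h, eσ_apply_inv σ x⟩

lemma primeNZ_sv (σ : K ≃ₐ[ℚ] K) (v : HeightOneSpectrum (𝓞 K)) :
    primeNZ (sv σ v) = sigI σ (primeNZ v) := rfl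

/-- transitivity of the Galois action on the primes above a rational prime -/
lemma exists_sv_eq [IsGalois ℚ K] (v r : HeightOneSpectrum (𝓞 K)) (ℓ : ℕ) (hℓ : ℓ.Prime)
    (hv : (ℓ : 𝓞 K) ∈ v.asIdeal) (hr : (ℓ : 𝓞 K) ∈ r.asIdeal) : ∃ σ : K ≃ₐ[ℚ] K, r = sv σ v := by
  have hmax : (Ideal.span {(ℓ : ℤ)}).IsMaximal :=
    ((Ideal.span_singleton_prime (by exact_mod_cast hℓ.ne_zero)).2
      (Nat.prime_iff_prime_int.1 hℓ)).isMaximal (by simpa using hℓ.ne_zero)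
  have hu : ∀ w : HeightOneSpectrum (𝓞 K), (ℓ : 𝓞 K) ∈ w.asIdeal →
      w.asIdeal.under ℤ = Ideal.span {(ℓ : ℤ)} := by
    intro w hw
    symm
    apply hmax.eq_of_le (Ideal.comap_ne_top _ w.isPrime.ne_top)
    rw [Ideal.span_singleton_le_iff_mem, Ideal.mem_comap]
    simpa using hw
  obtain ⟨g, hg⟩ := Algebra.IsInvariant.exists_smul_of_under_eq ℤ (𝓞 K) (K ≃ₐ[ℚ] K)
    v.asIdeal r.asIdeal ((hu v hv).trans (hu r hr).symm)
  refine ⟨g, HeightOneSpectrum.ext ?_⟩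
  rw [hg]
  ext x
  rw [mem_sv, Ideal.mem_pointwise_smul_iff_inv_smul_mem]
  rfl

lemma sv_mul (σ τ : K ≃ₐ[ℚ] K) (v : HeightOneSpectrum (𝓞 K)) :
    sv (σ * τ) v = sv σ (sv τ v) := by
  apply HeightOneSpectrum.ext
  ext x
  rw [mem_sv, mem_sv, mem_sv, mul_inv_rev]
  rfl

lemma sv_one (v : HeightOneSpectrum (𝓞 K)) : sv 1 v = v := by
  apply HeightOneSpectrum.ext
  ext x
  rw [mem_sv, inv_one]
  rfl

/-- in a prime of degree one every integer is congruent to a rational integer -/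
lemma exists_nat_sub_mem (v : HeightOneSpectrum (𝓞 K)) (hv : (Ideal.absNorm v.asIdeal).Prime)
    (x : 𝓞 K) : ∃ n : ℕ, x - (n : 𝓞 K) ∈ v.asIdeal := by
  classical
  set ℓ := Ideal.absNorm v.asIdeal with hℓ
  haveI : NeZero ℓ := ⟨hv.ne_zero⟩
  haveI : Finite (𝓞 K ⧸ v.asIdeal) := Ideal.finiteQuotientOfFreeOfNeBot _ v.ne_bot
  letI : Fintype (𝓞 K ⧸ v.asIdeal) := Fintype.ofFinite _
  have hcard : Fintype.card (𝓞 K ⧸ v.asIdeal) = ℓ := by
    rw [hℓ, Ideal.absNorm_apply, Submodule.cardQuot_apply, Nat.card_eq_fintype_card]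
  let e := ZMod.ringEquivOfPrime (𝓞 K ⧸ v.asIdeal) hv hcard
  refine ⟨(e.symm (Ideal.Quotient.mk _ x)).val, ?_⟩
  rw [← Ideal.Quotient.eq, map_natCast]
  have h1 : e ((e.symm (Ideal.Quotient.mk v.asIdeal x)).val : ZMod ℓ) =
      ((e.symm (Ideal.Quotient.mk v.asIdeal x)).val : 𝓞 K ⧸ v.asIdeal) := map_natCast e _
  rw [← h1, ZMod.natCast_zmod_val, RingEquiv.apply_symm_apply]

lemma natCast_notMem (v : HeightOneSpectrum (𝓞 K)) (hv : (Ideal.absNorm v.asIdeal).Prime)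
    {q : ℕ} (hq : q.Prime) (hne : Ideal.absNorm v.asIdeal ≠ q) : (q : 𝓞 K) ∉ v.asIdeal := by
  intro h
  have h1 : ((Ideal.absNorm v.asIdeal : ℕ) : 𝓞 K) ∈ v.asIdeal := Ideal.absNorm_mem _
  have hc : Nat.Coprime (Ideal.absNorm v.asIdeal) q := (Nat.coprime_primes hv hq).2 hne
  have h2 := Nat.isCoprime_iff_coprime.2 hc
  obtain ⟨a, b, hab⟩ := h2
  apply v.isPrime.ne_top
  rw [Ideal.eq_top_iff_one]
  have h3 : ((a : ℤ) : 𝓞 K) * ((Ideal.absNorm v.asIdeal : ℕ) : 𝓞 K) + ((b : ℤ) : 𝓞 K) * (q : 𝓞 K)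
      = 1 := by exact_mod_cast congrArg (Int.cast : ℤ → 𝓞 K) hab
  rw [← h3]
  exact Ideal.add_mem _ (Ideal.mul_mem_left _ _ h1) (Ideal.mul_mem_left _ _ h)

variable {p : ℕ} [Fact p.Prime] [IsCyclotomicExtension {p} ℚ K]
variable {ζ : K} (hζ : IsPrimitiveRoot ζ p)

lemma eσ_zeta (σ : K ≃ₐ[ℚ] K) :
    eσ σ hζ.toInteger = hζ.toInteger ^ ((chr hζ σ : (ZMod p)ˣ) : ZMod p).val := by
  apply RingOfIntegers.ext
  rw [eσ_coe]
  push_cast
  exact chr_spec hζ σ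

lemma pi_notMem (v : HeightOneSpectrum (𝓞 K)) (hp : (p : 𝓞 K) ∉ v.asIdeal) :
    hζ.toInteger - 1 ∉ v.asIdeal := by
  intro h
  obtain ⟨c, hc⟩ := hζ.toInteger_sub_one_dvd_prime'
  exact hp (hc ▸ Ideal.mul_mem_right _ _ h)

lemma zeta_pow_sub_one_notMem (v : HeightOneSpectrum (𝓞 K)) (hp : (p : 𝓞 K) ∉ v.asIdeal)
    (a : (ZMod p)ˣ) : hζ.toInteger ^ (a : ZMod p).val - 1 ∉ v.asIdeal := by
  rw [← sub_one_mul_cycU]
  intro h
  rcases v.isPrime.mem_or_mem h with h | h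
  · exact pi_notMem hζ v hp h
  · exact v.isPrime.ne_top (Ideal.eq_top_of_isUnit_mem _ h (cycU hζ a).isUnit)

lemma chr_eq_one_of_sv_eq (v : HeightOneSpectrum (𝓞 K)) (hv : (Ideal.absNorm v.asIdeal).Prime)
    (hvp : Ideal.absNorm v.asIdeal ≠ p) (ρ : K ≃ₐ[ℚ] K) (h : sv ρ v = v) : chr hζ ρ = 1 := by
  have hp : (p : 𝓞 K) ∉ v.asIdeal := natCast_notMem v hv Fact.out hvp
  by_contra hne
  -- `ρ x ≡ x mod v`
  have h1 : ∀ x : 𝓞 K, eσ ρ x - x ∈ v.asIdeal := by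
    intro x
    obtain ⟨n, hn⟩ := exists_nat_sub_mem v hv x
    have h2 : eσ ρ (x - n) ∈ v.asIdeal := by
      rw [← h, mem_sv, eσ_inv_apply]
      exact hn
    have h3 : eσ ρ x - x = eσ ρ (x - n) - (x - n) := by
      rw [map_sub, map_natCast]
      ring
    rw [h3]
    exact Ideal.sub_mem _ h2 hn
  have h2 := h1 hζ.toInteger
  rw [eσ_zeta] at h2
  set a := chr hζ ρ with ha
  -- `a - 1` is a unit
  have hc : ((a : ZMod p) - 1) ≠ 0 := by
    intro h0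
    apply hne
    ext
    rw [sub_eq_zero.1 h0]
    rfl
  let c : (ZMod p)ˣ := Units.mk0 _ hc
  have hval : (a : ZMod p).val = (c : ZMod p).val + 1 := by
    have h3 : (a : ZMod p) = (c : ZMod p) + 1 := by simp [c]
    have h4 : (c : ZMod p).val + 1 < p := by
      have h5 := ZMod.val_lt (c : ZMod p)
      rcases Nat.lt_or_ge ((c : ZMod p).val + 1) p with h6 | h6
      · exact h6
      · exfalso
        have h7 : (c : ZMod p).val + 1 = p := by omega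
        have h8 : (a : ZMod p) = 0 := by
          rw [h3, ← ZMod.natCast_zmod_val (c : ZMod p)]
          have : (((c : ZMod p).val + 1 : ℕ) : ZMod p) = 0 := by rw [h7]; simp
          exact_mod_cast this
        exact a.ne_zero h8
    rw [h3, ← ZMod.natCast_zmod_val (c : ZMod p)]
    have : (((c : ZMod p).val : ZMod p) + 1) = (((c : ZMod p).val + 1 : ℕ) : ZMod p) := by
      push_cast; rfl
    rw [this, ZMod.val_cast_of_lt h4, ZMod.natCast_zmod_val]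
  rw [hval, pow_succ] at h2
  have h3 : hζ.toInteger ^ (c : ZMod p).val * hζ.toInteger - hζ.toInteger =
      (hζ.toInteger ^ (c : ZMod p).val - 1) * hζ.toInteger := by ring
  rw [h3] at h2
  rcases v.isPrime.mem_or_mem h2 with h | h
  · exact zeta_pow_sub_one_notMem hζ v hp c h
  · exact v.isPrime.ne_top (Ideal.eq_top_of_isUnit_mem _ h
      (hζ.toInteger_isPrimitiveRoot.isUnit (NeZero.ne p)))

include hζ in
lemma sv_injective (v : HeightOneSpectrum (𝓞 K)) (hv : (Ideal.absNorm v.asIdeal).Prime)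
    (hvp : Ideal.absNorm v.asIdeal ≠ p) : Function.Injective fun σ : K ≃ₐ[ℚ] K => sv σ v := by
  intro σ τ h
  have h1 : sv (τ⁻¹ * σ) v = v := by
    rw [sv_mul]
    have h' : sv σ v = sv τ v := h
    rw [h', ← sv_mul, inv_mul_cancel, sv_one]
  have h2 := chr_eq_one_of_sv_eq hζ v hv hvp _ h1
  have h3 : τ⁻¹ * σ = 1 := chr_injective hζ (by rw [h2, map_one])
  exact (inv_mul_eq_one.1 h3).symm

lemma pow_p_eq_one (t : Multiplicative (ZMod p)) : t ^ p = 1 := by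
  apply Multiplicative.toAdd.injective
  rw [toAdd_pow, toAdd_one, nsmul_eq_mul, CharP.cast_eq_zero, zero_mul]

end Fermat.Agent.S14.ThC

namespace Fermat.Agent.S14

open ThC UnitDim IdealFinsupp

/-- **(Th-C)**: step (5) of Thaine's argument. -/
theorem thaine_C {p : ℕ} [Fact p.Prime] (hp5 : 5 ≤ p) {K : Type*} [Field K] [NumberField K]
    [IsCyclotomicExtension {p} ℚ K] {ζ : K} (hζ : IsPrimitiveRoot ζ p)
    (f : ClassGroup (𝓞 K) →* Multiplicative (ZMod p)) (hf : Equivariant hζ f)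
    (v : HeightOneSpectrum (𝓞 K)) (hv : (Ideal.absNorm v.asIdeal).Prime)
    (hvp : Ideal.absNorm v.asIdeal ≠ p) (κ : 𝓞 K) (hκ : κ ≠ 0) (s : ℤ)
    (h3 : ∀ r : HeightOneSpectrum (𝓞 K), ((Ideal.absNorm v.asIdeal : ℕ) : 𝓞 K) ∉ r.asIdeal →
      p ∣ multiplicity r.asIdeal (Ideal.span {κ}))
    (h4 : ∀ r : HeightOneSpectrum (𝓞 K), ((Ideal.absNorm v.asIdeal : ℕ) : 𝓞 K) ∈ r.asIdeal →
      hζ.toInteger - 1 - (s : 𝓞 K) ^ multiplicity r.asIdeal (Ideal.span {κ}) ∈ r.asIdeal) :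
    f (ClassGroup.mk0 (primeNZ v)) = 1 ∨ ∃ x : 𝓞 K, x ^ p - (eta hζ : 𝓞 K) ∈ v.asIdeal := by
  classical
  set ℓ := Ideal.absNorm v.asIdeal with hℓ
  have hpv : (p : 𝓞 K) ∉ v.asIdeal := natCast_notMem v hv Fact.out hvp
  have hℓv : (ℓ : 𝓞 K) ∈ v.asIdeal := Ideal.absNorm_mem _
  haveI : IsGalois ℚ K := IsCyclotomicExtension.isGalois {p} ℚ K
  by_cases hfv : f (ClassGroup.mk0 (primeNZ v)) = 1
  · exact Or.inl hfv
  right
  let k : HeightOneSpectrum (𝓞 K) → ℕ := fun r => multiplicity r.asIdeal (Ideal.span {κ})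
  let I : (Ideal (𝓞 K))⁰ := ⟨Ideal.span {κ}, mem_nonZeroDivisors_of_ne_zero (by simpa using hκ)⟩
  have hI1 : f (ClassGroup.mk0 I) = 1 := by
    rw [(ClassGroup.mk0_eq_one_iff I.2).2 ⟨⟨κ, rfl⟩⟩, map_one]
  obtain ⟨S, hS0, hS⟩ := map_eq_prod (f.comp ClassGroup.mk0) I
  let g : HeightOneSpectrum (𝓞 K) → Multiplicative (ZMod p) :=
    fun r => f (ClassGroup.mk0 (primeNZ r)) ^ k r
  have hS' : ∏ r ∈ S, g r = 1 := by
    rw [← hI1]
    exact hS.symm
  let T : Finset (HeightOneSpectrum (𝓞 K)) := Finset.univ.image (fun σ : K ≃ₐ[ℚ] K => sv σ v)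
  have hg1 : ∀ r ∉ T, g r = 1 := by
    intro r hr
    have h1 : (ℓ : 𝓞 K) ∉ r.asIdeal := fun h => by
      obtain ⟨σ, hσ⟩ := exists_sv_eq v r ℓ hv hℓv h
      exact hr (Finset.mem_image.2 ⟨σ, Finset.mem_univ _, hσ.symm⟩)
    obtain ⟨c, hc⟩ := h3 r h1
    show f _ ^ k r = 1
    rw [show k r = p * c from hc, pow_mul, pow_p_eq_one, one_pow]
  have hg0 : ∀ r ∉ S, g r = 1 := fun r hr => by
    show f _ ^ k r = 1
    rw [show k r = 0 from hS0 r hr, pow_zero]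
  have hT : ∏ r ∈ T, g r = 1 := by
    rw [← hS', Finset.prod_subset (Finset.subset_union_right : T ⊆ S ∪ T) (fun r _ hr => hg1 r hr),
      Finset.prod_subset (Finset.subset_union_left : S ⊆ S ∪ T) (fun r _ hr => hg0 r hr)]
  have hG : ∏ σ : K ≃ₐ[ℚ] K, g (sv σ v) = 1 := by
    rw [← hT, Finset.prod_image (fun σ _ τ _ h => sv_injective hζ v hv hvp h)]
  set t := f (ClassGroup.mk0 (primeNZ v)) with ht
  have hgσ : ∀ σ : K ≃ₐ[ℚ] K, g (sv σ v) =
      t ^ (((chr hζ σ : (ZMod p)ˣ) : ZMod p).val ^ 2 * k (sv σ v)) := by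
    intro σ
    show f (ClassGroup.mk0 (primeNZ (sv σ v))) ^ k (sv σ v) = _
    rw [primeNZ_sv, hf σ _ (chr_spec hζ σ), ← pow_mul]
  have hN : t ^ (∑ σ : K ≃ₐ[ℚ] K, ((chr hζ σ : (ZMod p)ˣ) : ZMod p).val ^ 2 * k (sv σ v)) = 1 := by
    rw [← Finset.prod_pow_eq_pow_sum]
    simp_rw [← hgσ]
    exact hG
  have hNp : ((∑ σ : K ≃ₐ[ℚ] K, ((chr hζ σ : (ZMod p)ˣ) : ZMod p).val ^ 2 * k (sv σ v) : ℕ) :
      ZMod p) = 0 := by
    have h1 := congrArg Multiplicative.toAdd hN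
    rw [toAdd_pow, toAdd_one, nsmul_eq_mul] at h1
    exact (mul_eq_zero.1 h1).resolve_right (fun h => hfv (Multiplicative.toAdd.injective h))
  -- reindexing
  let σa : (ZMod p)ˣ ≃ (K ≃ₐ[ℚ] K) := (Equiv.inv _).trans (chrEquiv hζ).symm
  have hσa : ∀ a, chr hζ (σa a) = a⁻¹ := fun a => (chrEquiv hζ).apply_symm_apply a⁻¹
  let Ka : (ZMod p)ˣ → ℕ := fun a => k (sv (σa a) v)
  have hE : ((∑ a : (ZMod p)ˣ, Ka a * cexp a : ℕ) : ZMod p) = 0 := by
    rw [← hNp, ← σa.sum_comp]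
    push_cast
    refine Finset.sum_congr rfl fun a _ => ?_
    rw [hσa, cexp_cast, ZMod.natCast_zmod_val, Units.val_pow_eq_pow_val, mul_comm]
  obtain ⟨E', hE'⟩ := (ZMod.natCast_eq_zero_iff _ _).1 hE
  obtain ⟨C, hC⟩ := dvd_sum_cexp (p := p) hp5
  have hcong : ∀ a : (ZMod p)ˣ,
      hζ.toInteger ^ (a : ZMod p).val - 1 - (s : 𝓞 K) ^ Ka a ∈ v.asIdeal := by
    intro a
    have h1 : (ℓ : 𝓞 K) ∈ (sv (σa a) v).asIdeal := by
      rw [mem_sv, map_natCast]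
      exact hℓv
    have h2 := h4 _ h1
    rw [mem_sv, map_sub, map_sub, map_one, map_pow, map_intCast, eσ_zeta hζ, map_inv, hσa,
      inv_inv] at h2
    exact h2
  haveI := v.isMaximal
  letI : Field (𝓞 K ⧸ v.asIdeal) := Ideal.Quotient.field v.asIdeal
  let mk := Ideal.Quotient.mk v.asIdeal
  have hmk : ∀ a : (ZMod p)ˣ, mk (hζ.toInteger ^ (a : ZMod p).val - 1) = mk (s : 𝓞 K) ^ Ka a := by
    intro a
    rw [← map_pow]
    exact (Ideal.Quotient.eq).2 (hcong a)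
  have hprod : mk (hζ.toInteger - 1) ^ (p * C) * mk (eta hζ : 𝓞 K) = mk (s : 𝓞 K) ^ (p * E') := by
    rw [← hC, ← hE', ← map_pow, ← map_mul, ← prod_pow_sub_one, map_prod,
      ← Finset.prod_pow_eq_pow_sum]
    refine Finset.prod_congr rfl fun a _ => ?_
    rw [map_pow, hmk, ← pow_mul]
  have hπ : mk (hζ.toInteger - 1) ≠ 0 := by
    intro h
    exact pi_notMem hζ v hpv ((Ideal.Quotient.eq_zero_iff_mem).1 h)
  obtain ⟨y, hy⟩ := Ideal.Quotient.mk_surjective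
    (mk (s : 𝓞 K) ^ E' * (mk (hζ.toInteger - 1) ^ C)⁻¹)
  refine ⟨y, ?_⟩
  rw [← Ideal.Quotient.eq_zero_iff_mem, map_sub, map_pow, hy, sub_eq_zero, mul_pow, ← pow_mul,
    mul_comm E' p, ← hprod, inv_pow, ← pow_mul, mul_comm C p]
  field_simp
  rfl

end Fermat.Agent.S14
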