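/-
S14 [Thaine]: the statement `ThaineStmt hζ`.
-/
import Fermat.Agent.S14.Thaine
import Fermat.Agent.S14.ThaineC
import Fermat.Agent.S14.Arith

set_option autoImplicit false

open NumberField

namespace Fermat.Agent.S14

theorem thaine {p : ℕ} [Fact p.Prime] (hp5 : 5 ≤ p) {K : Type} [Field K] [NumberField K]
    [IsCyclotomicExtension {p} ℚ K] {ζ : K} (hζ : IsPrimitiveRoot ζ p) : ThaineStmt hζ := by
  intro f hf v hv hvp
  obtain ⟨κ, s, hκ, h3, h4⟩ := thaine_exists hζ v hv hvp
  exact thaine_C hp5 hζ f hf v hv hvp κ hκ s h3 h4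

end Fermat.Agent.S14
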