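import Mathlib

/-!
# S14 [Unit], part 1: the Galois action on units modulo torsion, as integer matrices

For a number field `K` and `σ : K ≃ₐ[ℚ] K`, `A σ` is the matrix of `σ` on `(𝓞 K)ˣ / torsion`
in the basis given by `fundSystem K`.  Main result: `trace (A σ) + 1 = #{w | σ • w = w}`.
-/

set_option autoImplicit false
set_option linter.unusedSectionVars false

open NumberField NumberField.Units NumberField.InfinitePlace Module

namespace Fermat.Agent.S14.UnitDim

variable (K : Type*) [Field K] [NumberField K]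

noncomputable local instance instModQ : Module ℤ (Additive ((𝓞 K)ˣ ⧸ torsion K)) :=
  @AddCommGroup.toIntModule _ (Additive.addCommGroup)

/-- exponent vector of a unit with respect to the fundamental system. -/
noncomputable def vec (x : (𝓞 K)ˣ) : Fin (rank K) → ℤ :=
  (basisModTorsion K).repr (Additive.ofMul (QuotientGroup.mk x))

lemma vec_mul (x y : (𝓞 K)ˣ) : vec K (x * y) = vec K x + vec K y := by
  unfold vec
  rw [QuotientGroup.mk_mul, ofMul_mul, map_add]
  rfl

lemma vec_one : vec K 1 = 0 := by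
  have := vec_mul K 1 1
  rw [mul_one] at this
  simpa using this

lemma vec_pow (x : (𝓞 K)ˣ) (n : ℕ) : vec K (x ^ n) = n • vec K x := by
  induction n with
  | zero => simp [vec_one]
  | succ n ih => rw [pow_succ, vec_mul, ih, succ_nsmul]

lemma vec_inv (x : (𝓞 K)ˣ) : vec K x⁻¹ = - vec K x := by
  have := vec_mul K x x⁻¹
  rw [mul_inv_cancel, vec_one] at this
  exact eq_neg_of_add_eq_zero_right this.symm

lemma vec_zpow (x : (𝓞 K)ˣ) (n : ℤ) : vec K (x ^ n) = n • vec K x := by
  cases n with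
  | ofNat n => simp [vec_pow]
  | negSucc n => rw [zpow_negSucc, vec_inv, vec_pow, negSucc_zsmul]

lemma vec_prod {ι : Type*} (s : Finset ι) (f : ι → (𝓞 K)ˣ) :
    vec K (∏ i ∈ s, f i) = ∑ i ∈ s, vec K (f i) := by
  classical
  induction s using Finset.induction_on with
  | empty => simp [vec_one]
  | insert a s ha ih => rw [Finset.prod_insert ha, Finset.sum_insert ha, vec_mul, ih]

lemma vec_eq_zero_iff (x : (𝓞 K)ˣ) : vec K x = 0 ↔ x ∈ torsion K := by
  unfold vec
  rw [← QuotientGroup.eq_one_iff, ← ofMul_eq_zero]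
  constructor
  · intro h
    have : (basisModTorsion K).repr (Additive.ofMul (QuotientGroup.mk x)) = 0 := by
      ext i; exact congrFun h i
    simpa using this
  · intro h
    rw [h]; simp

lemma vec_fund (j : Fin (rank K)) : vec K (fundSystem K j) = Pi.single j 1 := by
  unfold vec
  rw [fundSystem_mk, Basis.repr_self]
  ext i
  simp [Finsupp.single_apply, Pi.single_apply, eq_comm]

lemma exists_eq (x : (𝓞 K)ˣ) :
    ∃ t ∈ torsion K, x = t * ∏ i, fundSystem K i ^ vec K x i := by
  obtain ⟨⟨t, f⟩, h, -⟩ := exist_unique_eq_mul_prod K x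
  have hf : f = vec K x := fun_eq_repr K t.2 h
  simp only at h
  rw [hf] at h
  exact ⟨t, t.2, h⟩

/-- the action of an automorphism on units. -/
noncomputable def act (σ : K ≃ₐ[ℚ] K) : (𝓞 K)ˣ →* (𝓞 K)ˣ :=
  Units.map (RingOfIntegers.mapRingHom σ).toMonoidHom

lemma act_coe (σ : K ≃ₐ[ℚ] K) (x : (𝓞 K)ˣ) : ((act K σ x : (𝓞 K)ˣ) : K) = σ (x : K) := by
  simp [act]

lemma act_mul (σ τ : K ≃ₐ[ℚ] K) (x : (𝓞 K)ˣ) : act K (σ * τ) x = act K σ (act K τ x) := by
  apply NumberField.Units.coe_injective K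
  beta_reduce
  rw [act_coe, act_coe, act_coe]
  rfl

lemma act_one (x : (𝓞 K)ˣ) : act K 1 x = x := by
  apply NumberField.Units.coe_injective K
  beta_reduce
  rw [act_coe]
  rfl

lemma act_torsion (σ : K ≃ₐ[ℚ] K) {x : (𝓞 K)ˣ} (hx : x ∈ torsion K) :
    act K σ x ∈ torsion K := by
  rw [torsion, CommGroup.mem_torsion] at hx ⊢
  exact (act K σ).isOfFinOrder hx

/-- the matrix of `σ` acting on units modulo torsion. -/
noncomputable def A (σ : K ≃ₐ[ℚ] K) : Matrix (Fin (rank K)) (Fin (rank K)) ℤ :=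
  Matrix.of fun k j => vec K (act K σ (fundSystem K j)) k

lemma vec_act (σ : K ≃ₐ[ℚ] K) (x : (𝓞 K)ˣ) :
    vec K (act K σ x) = (A K σ).mulVec (vec K x) := by
  obtain ⟨t, ht, hx⟩ := exists_eq K x
  conv_lhs => rw [hx]
  rw [map_mul, vec_mul, (vec_eq_zero_iff K _).2 (act_torsion K σ ht), zero_add, map_prod, vec_prod]
  ext k
  simp only [map_zpow, vec_zpow, Finset.sum_apply, Pi.smul_apply, smul_eq_mul, Matrix.mulVec,
    dotProduct, A, Matrix.of_apply]
  exact Finset.sum_congr rfl fun i _ => mul_comm _ _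

lemma A_mul (σ τ : K ≃ₐ[ℚ] K) : A K (σ * τ) = A K σ * A K τ := by
  ext k j
  have h1 : A K (σ * τ) k j = vec K (act K (σ * τ) (fundSystem K j)) k := rfl
  rw [h1, act_mul, vec_act, vec_act, vec_fund, Matrix.mulVec_mulVec]
  simp [Matrix.mulVec_single]

lemma A_one : A K 1 = 1 := by
  ext k j
  have h1 : A K 1 k j = vec K (act K 1 (fundSystem K j)) k := rfl
  rw [h1, act_one, vec_fund]
  simp [Matrix.one_apply, Pi.single_apply]

/-- the coercion `(𝓞 K)ˣ → K` as a monoid hom. -/
noncomputable def cK : (𝓞 K)ˣ →* K :=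
  (algebraMap (𝓞 K) K).toMonoidHom.comp (Units.coeHom _)

lemma cK_apply (x : (𝓞 K)ˣ) : cK K x = (x : K) := rfl

lemma log_place (w : InfinitePlace K) (x : (𝓞 K)ˣ) :
    Real.log (w (x : K)) = ∑ i, (vec K x i : ℝ) * Real.log (w (fundSystem K i : K)) := by
  obtain ⟨t, ht, hx⟩ := exists_eq K x
  conv_lhs => rw [hx]
  have h1 : w ((t : (𝓞 K)ˣ) : K) = 1 := (mem_torsion K).1 ht w
  simp only [← cK_apply] at h1 ⊢
  rw [map_mul, map_mul, h1, one_mul, map_prod, map_prod, Real.log_prod]
  · refine Finset.sum_congr rfl fun i _ => ?_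
    rw [map_zpow, map_zpow₀, Real.log_zpow]
  · intro i _
    rw [map_zpow, map_zpow₀]
    apply zpow_ne_zero
    simp [cK_apply]

lemma mult_smul' (σ : K ≃ₐ[ℚ] K) (w : InfinitePlace K) : (σ • w).mult = w.mult := by
  unfold mult
  by_cases h : w.IsReal
  · rw [if_pos h, if_pos (isReal_smul_iff.2 h)]
  · rw [if_neg h, if_neg (fun h' => h (isReal_smul_iff.1 h'))]

open scoped Classical in
/-- The trace of `σ` on units modulo torsion is the number of fixed places minus one. -/
theorem trace_A (σ : K ≃ₐ[ℚ] K) :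
    (((A K σ).trace : ℤ) : ℝ) + 1 = (Fintype.card {w : InfinitePlace K // σ • w = w} : ℝ) := by
  set w' : InfinitePlace K := dirichletUnitTheorem.w₀ with hw'
  let e : {w : InfinitePlace K // w ≠ w'} ≃ Fin (rank K) := (equivFinRank K).symm
  let D : Matrix (InfinitePlace K) (InfinitePlace K) ℝ :=
    Matrix.of (fun i w : InfinitePlace K ↦
        if h : i = w' then (w.mult : ℝ) else w.mult * (w (fundSystem K (e ⟨i, h⟩))).log)
  have hD : D.det ≠ 0 := by
    have h1 := finrank_mul_regulator_eq_det K w' e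
    intro h0
    rw [show (Matrix.of (fun i w : InfinitePlace K ↦
        if h : i = w' then (w.mult : ℝ) else w.mult * (w (fundSystem K (e ⟨i, h⟩))).log)) = D
        from rfl, h0, abs_zero] at h1
    have h2 : (0 : ℝ) < finrank ℚ K := by exact_mod_cast finrank_pos
    exact (mul_pos h2 (regulator_pos K)).ne' h1
  let Q : Matrix (InfinitePlace K) (InfinitePlace K) ℝ :=
    Matrix.of fun w₁ w => if w₁ = σ⁻¹ • w then 1 else 0
  let A' : Matrix (InfinitePlace K) (InfinitePlace K) ℝ :=
    Matrix.of fun i k => if hi : i = w' then (if k = w' then 1 else 0)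
      else (if hk : k = w' then 0 else ((A K σ (e ⟨k, hk⟩) (e ⟨i, hi⟩) : ℤ) : ℝ))
  have key : D * Q = A' * D := by
    ext i w
    have hL : (D * Q) i w = D i (σ⁻¹ • w) := by
      simp [Matrix.mul_apply, Q]
    rw [hL, Matrix.mul_apply]
    by_cases hi : i = w'
    · have h1 : ∀ k, A' i k = if k = w' then 1 else 0 := fun k => by simp [A', hi]
      simp only [h1, ite_mul, one_mul, zero_mul, Finset.sum_ite_eq', Finset.mem_univ, if_true]
      simp [D, hi, mult_smul']
    · rw [Fintype.sum_eq_add_sum_subtype_ne _ w']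
      have h0 : A' i w' = 0 := by simp [A', hi]
      rw [h0, zero_mul, zero_add]
      have h1 : D i (σ⁻¹ • w) = w.mult * Real.log (w ((act K σ (fundSystem K (e ⟨i, hi⟩)) :
          (𝓞 K)ˣ) : K)) := by
        simp only [D, Matrix.of_apply, dif_neg hi, mult_smul', act_coe, InfinitePlace.smul_apply]
        rfl
      rw [h1, log_place, Finset.mul_sum, ← e.sum_comp]
      refine Finset.sum_congr rfl fun k _ => ?_
      have h2 : A' i k = ((A K σ (e k) (e ⟨i, hi⟩) : ℤ) : ℝ) := by
        simp [A', hi, k.2]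
      have h3 : D k w = w.mult * Real.log (w (fundSystem K (e k))) := by
        simp [D, k.2]
      rw [h2, h3]
      simp only [A, Matrix.of_apply]
      ring
  have hdet : IsUnit D.det := isUnit_iff_ne_zero.2 hD
  have htr : Q.trace = A'.trace := by
    have h1 : Q = D⁻¹ * (A' * D) := by
      rw [← key, ← Matrix.mul_assoc, Matrix.nonsing_inv_mul _ hdet, Matrix.one_mul]
    rw [h1, Matrix.trace_mul_comm, Matrix.mul_assoc, Matrix.mul_nonsing_inv _ hdet, Matrix.mul_one]
  have hQ : Q.trace = (Fintype.card {w : InfinitePlace K // σ • w = w} : ℝ) := by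
    simp only [Matrix.trace, Matrix.diag, Q, Matrix.of_apply]
    rw [Finset.sum_boole, Fintype.card_subtype]
    congr 2
    ext w
    simp only [Finset.mem_filter, Finset.mem_univ, true_and]
    rw [eq_inv_smul_iff]
  have hA : A'.trace = (((A K σ).trace : ℤ) : ℝ) + 1 := by
    simp only [Matrix.trace, Matrix.diag]
    rw [Fintype.sum_eq_add_sum_subtype_ne _ w']
    have h0 : A' w' w' = 1 := by simp [A']
    rw [h0, add_comm, Int.cast_sum, ← e.sum_comp]
    congr 1
    refine Finset.sum_congr rfl fun k _ => ?_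
    simp [A', k.2]
  rw [← hA, ← htr, hQ]

end Fermat.Agent.S14.UnitDim
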